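import Mathlib
import Fermat.Agent.S30.Model.GlueChart
import Fermat.Agent.S30.Model.ChartProv

/-!
# Basic facts about a chart ring

Program FG (S19), Route C, brick `CH`: the chart-level inputs of the level-free instance theorems
`Lib/GaussChartOfPrime` (`hinj`, `hic`, `WfDvdMonoid`, `hfrac`) and `¬ π ∣ t` for the overlap.

`O` a discrete valuation ring with fraction field `E` of characteristic zero, `L / E` a field,
`t : L` transcendental over `E`; the chart is the integral closure of `O[t]` in `L`.

* `algebraMap_injective`    : the chart embeds into `L`;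
* `exists_eq_of_isIntegral` : the chart is integrally closed in `L`;
* `not_piElt_dvd`           : `π` does not divide `t` in the chart;
* `wfDvdMonoid_chart`       : the chart is Noetherian (`isNoetherianRing_chart`), hence a
  `WfDvdMonoid`;
* `exists_frac`             : `L` is the fraction field of the chart.
-/

set_option autoImplicit false

namespace Fermat.Agent.S19.Cech.ChartBasic

open Fermat.Agent.S30.Model

variable {O E L : Type*} [CommRing O] [IsDomain O] [IsDiscreteValuationRing O] [Field E]
  [CharZero E] [Algebra O E] [IsFractionRing O E] [Field L] [Algebra E L] [Algebra O L]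
  [IsScalarTower O E L]

omit [IsDomain O] [IsDiscreteValuationRing O] [CharZero E] [Algebra O E] [IsFractionRing O E]
  [Algebra E L] [IsScalarTower O E L] in
/-- The chart embeds into `L`. -/
theorem algebraMap_injective (S : Subalgebra O L) :
    Function.Injective (algebraMap (integralClosure S L) L) :=
  fun _ _ h => Subtype.ext h

omit [IsDomain O] [IsDiscreteValuationRing O] [CharZero E] [Algebra O E] [IsFractionRing O E]
  [Algebra E L] [IsScalarTower O E L] in
/-- The chart is integrally closed in `L`. -/
theorem exists_eq_of_isIntegral (S : Subalgebra O L) (x : L)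
    (hx : IsIntegral (integralClosure S L) x) :
    ∃ c : integralClosure S L, algebraMap (integralClosure S L) L c = x :=
  ⟨⟨x, isIntegral_trans x hx⟩, rfl⟩

omit [CharZero E] in
/-- `π` does not divide `t` in the chart. -/
theorem not_piElt_dvd (π : O) (hπ : Irreducible π) (t : L) (ht : Transcendental E t)
    (y : integralClosure (Algebra.adjoin O ({t} : Set L)) L) (hy : (y : L) = t) :
    ¬ GlueChart.piElt (Algebra.adjoin O ({t} : Set L)) π ∣ y := by
  intro hdvd
  obtain ⟨w, hw, e⟩ := (GlueChart.piElt_dvd_iff (Algebra.adjoin O ({t} : Set L)) π y).1 hdvd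
  have hπL : algebraMap O L π ≠ 0 := fun h0 =>
    hπ.ne_zero (ChartProv.algebraMap_injective_base O E L (h0.trans (map_zero _).symm))
  have h1 : IsIntegral (Algebra.adjoin O ({t} : Set L)) (t * 1 / algebraMap O L π) := by
    have e1 : t * 1 / algebraMap O L π = w := by
      rw [mul_one, ← hy, e, mul_div_cancel_left₀ _ hπL]
    rw [e1]
    exact hw
  have h2 := ChartProv.chart_nzd (E := E) π hπ t ht 1 isIntegral_one h1
  rw [one_div] at h2
  exact ChartProv.chart_not_unit (E := E) π hπ t ht h2

/-- The chart is a Noetherian ring. -/
theorem isNoetherianRing_chart (t : L) (ht : Transcendental E t)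
    [FiniteDimensional (IntermediateField.adjoin E {t}) L] :
    IsNoetherianRing (integralClosure (Algebra.adjoin O ({t} : Set L)) L) := by
  have := ChartProv.chart_finite (O := O) (E := E) t ht
  have := GlueChart.isNoetherianRing_adjoin_singleton (O := O) t
  exact IsNoetherianRing.of_finite (Algebra.adjoin O ({t} : Set L)) _

/-- The chart is a `WfDvdMonoid`. -/
theorem wfDvdMonoid_chart (t : L) (ht : Transcendental E t)
    [FiniteDimensional (IntermediateField.adjoin E {t}) L] :
    WfDvdMonoid (integralClosure (Algebra.adjoin O ({t} : Set L)) L) := by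
  have := isNoetherianRing_chart (O := O) (E := E) t ht
  infer_instance

omit [IsDiscreteValuationRing O] [CharZero E] in
/-- `L` is the fraction field of the chart. -/
theorem exists_frac (t : L) (ht : Transcendental E t)
    [FiniteDimensional (IntermediateField.adjoin E {t}) L] (x : L) :
    ∃ a b : integralClosure (Algebra.adjoin O ({t} : Set L)) L, b ≠ 0 ∧
      algebraMap (integralClosure (Algebra.adjoin O ({t} : Set L)) L) L b * x =
        algebraMap (integralClosure (Algebra.adjoin O ({t} : Set L)) L) L a := by
  have _ := ht
  have hwK : t ∈ IntermediateField.adjoin E {t} := IntermediateField.mem_adjoin_simple_self E t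
  let _ := (ChartInst.incl O t (IntermediateField.adjoin E {t}) hwK).toAlgebra
  have := ChartInst.isScalarTower_incl O t (IntermediateField.adjoin E {t}) hwK
  have := ChartInst.isFractionRing_incl O t (IntermediateField.adjoin E {t}) hwK le_rfl
  have hfrac : IsFractionRing (integralClosure (Algebra.adjoin O ({t} : Set L)) L) L :=
    integralClosure.isFractionRing_of_finite_extension (IntermediateField.adjoin E {t}) L
  obtain ⟨a, b, hb, hab⟩ := IsFractionRing.div_surjective
    (A := integralClosure (Algebra.adjoin O ({t} : Set L)) L) x
  have hb0 : b ≠ 0 := nonZeroDivisors.ne_zero hb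
  have hbL : algebraMap (integralClosure (Algebra.adjoin O ({t} : Set L)) L) L b ≠ 0 :=
    fun h0 => hb0 (algebraMap_injective (Algebra.adjoin O ({t} : Set L)) (h0.trans (map_zero _).symm))
  refine ⟨a, b, hb0, ?_⟩
  rw [← hab, mul_div_cancel₀ _ hbL]

end Fermat.Agent.S19.Cech.ChartBasic
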