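import Mathlib
import Fermat.Agent.S30.Model.GlueChart
import Fermat.Agent.S30.Model.ChartInst

/-!
# Closed points of the special fibre of a chart

Program FG (S19), Route C, brick `CH`, lemma (H-ex).  `O` a commutative ring, `π : O` a non-unit,
`L` a field over `O`, `t : L` transcendental over `O`; the chart is the integral closure of
`O[t]` in `L`.

* `exists_maximal_sub_mem` : for every `c : O` there is a maximal ideal `Q` of the chart with
  `π ∈ Q` and `t - c ∈ Q` (a closed point of the special fibre above the point `t = c` of the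
  line).
* `exists_maximal_not_mem` : (H-ex) there is a maximal ideal `Q` of the chart with `π ∈ Q` and
  `t ∉ Q` (a closed point of the special fibre off the divisor `t = 0`).
-/

set_option autoImplicit false

open Polynomial

namespace Fermat.Agent.S19.Cech.ChartPoint

open Fermat.Agent.S30.Model

variable {O L : Type*} [CommRing O] [Field L] [Algebra O L]

/-- For every `c : O` the special fibre of the chart has a closed point above `t = c`: a maximal
ideal `Q` of the integral closure of `O[t]` in `L` containing `π` and `t - c`. -/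
theorem exists_maximal_sub_mem (t : L) (ht : Transcendental O t) (π : O) (hπ : ¬ IsUnit π)
    (c : O) :
    ∃ Q : Ideal (integralClosure (Algebra.adjoin O ({t} : Set L)) L), Q.IsMaximal ∧
      GlueChart.piElt (Algebra.adjoin O ({t} : Set L)) π ∈ Q ∧
      ∀ y : integralClosure (Algebra.adjoin O ({t} : Set L)) L,
        (y : L) = t - algebraMap O L c → y ∈ Q := by
  classical
  obtain ⟨𝔪, h𝔪, hπ𝔪⟩ := Ideal.exists_le_maximal (Ideal.span {π})
    (fun htop => hπ (Ideal.span_singleton_eq_top.mp htop))
  have hπm : π ∈ 𝔪 := hπ𝔪 (Ideal.mem_span_singleton_self π)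
  let _ : Field (O ⧸ 𝔪) := Ideal.Quotient.field 𝔪
  -- evaluation at `t = c` into the residue field
  let φ : Algebra.adjoin O ({t} : Set L) →+* O ⧸ 𝔪 :=
    (Polynomial.eval₂RingHom (Ideal.Quotient.mk 𝔪) (Ideal.Quotient.mk 𝔪 c)).comp
      (ChartInst.polyEquiv O t ht).symm.toRingEquiv.toRingHom
  have hφ : ∀ P : O[X], φ (ChartInst.polyEquiv O t ht P) =
      Polynomial.eval₂ (Ideal.Quotient.mk 𝔪) (Ideal.Quotient.mk 𝔪 c) P := by
    intro P
    show Polynomial.eval₂ (Ideal.Quotient.mk 𝔪) (Ideal.Quotient.mk 𝔪 c)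
      ((ChartInst.polyEquiv O t ht).symm (ChartInst.polyEquiv O t ht P)) = _
    rw [AlgEquiv.symm_apply_apply]
  have hφsurj : Function.Surjective φ := by
    intro x
    obtain ⟨a, rfl⟩ := Ideal.Quotient.mk_surjective x
    exact ⟨ChartInst.polyEquiv O t ht (C a), by rw [hφ, Polynomial.eval₂_C]⟩
  have hmax : (RingHom.ker φ).IsMaximal := RingHom.ker_isMaximal_of_surjective φ hφsurj
  have hker : RingHom.ker (algebraMap (Algebra.adjoin O ({t} : Set L))
      (integralClosure (Algebra.adjoin O ({t} : Set L)) L)) ≤ RingHom.ker φ := by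
    intro x hx
    have h0 : x = 0 := by
      have h1 : ((algebraMap (Algebra.adjoin O ({t} : Set L))
          (integralClosure (Algebra.adjoin O ({t} : Set L)) L) x :
          integralClosure (Algebra.adjoin O ({t} : Set L)) L) : L) = 0 := by
        rw [RingHom.mem_ker.mp hx]; rfl
      exact Subtype.ext h1
    rw [h0]; exact Ideal.zero_mem _
  obtain ⟨Q, hQmax, hQ⟩ := Ideal.exists_ideal_over_maximal_of_isIntegral
    (S := integralClosure (Algebra.adjoin O ({t} : Set L)) L) (RingHom.ker φ) hker
  refine ⟨Q, hQmax, ?_, ?_⟩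
  · -- `π ∈ Q`
    have h1 : algebraMap O (Algebra.adjoin O ({t} : Set L)) π ∈ RingHom.ker φ := by
      rw [RingHom.mem_ker, ← ChartInst.polyEquiv_C O t ht, hφ, Polynomial.eval₂_C]
      exact Ideal.Quotient.eq_zero_iff_mem.mpr hπm
    rw [← hQ] at h1
    exact h1
  · -- `t - c ∈ Q`
    intro y hy
    have h1 : ChartInst.polyEquiv O t ht (X - C c) ∈ RingHom.ker φ := by
      rw [RingHom.mem_ker, hφ, Polynomial.eval₂_sub, Polynomial.eval₂_X, Polynomial.eval₂_C,
        sub_self]
    rw [← hQ] at h1
    have h2 : algebraMap (Algebra.adjoin O ({t} : Set L))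
        (integralClosure (Algebra.adjoin O ({t} : Set L)) L)
        (ChartInst.polyEquiv O t ht (X - C c)) = y := by
      apply Subtype.ext
      rw [hy]
      show ((ChartInst.polyEquiv O t ht (X - C c) : Algebra.adjoin O ({t} : Set L)) : L) = _
      rw [ChartInst.coe_polyEquiv, map_sub, aeval_X, aeval_C]
    rw [← h2]
    exact h1

/-- **(H-ex)** The special fibre of the chart has a closed point off the divisor `t = 0`: a
maximal ideal `Q` of the integral closure of `O[t]` in `L` with `π ∈ Q` and `t ∉ Q`. -/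
theorem exists_maximal_not_mem (t : L) (ht : Transcendental O t) (π : O) (hπ : ¬ IsUnit π) :
    ∃ Q : Ideal (integralClosure (Algebra.adjoin O ({t} : Set L)) L), Q.IsMaximal ∧
      GlueChart.piElt (Algebra.adjoin O ({t} : Set L)) π ∈ Q ∧
      ∀ y : integralClosure (Algebra.adjoin O ({t} : Set L)) L, (y : L) = t → y ∉ Q := by
  obtain ⟨Q, hQmax, hπQ, hQ⟩ := exists_maximal_sub_mem t ht π hπ (-1)
  refine ⟨Q, hQmax, hπQ, fun y hy hyQ => ?_⟩
  have h1 : y + 1 ∈ Q := hQ (y + 1) (by
    rw [Subalgebra.coe_add, Subalgebra.coe_one, hy, map_neg, map_one]; ring)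
  have h2 : (1 : integralClosure (Algebra.adjoin O ({t} : Set L)) L) ∈ Q := by
    have h3 := Q.sub_mem h1 hyQ
    rwa [add_sub_cancel_left] at h3
  exact hQmax.ne_top ((Ideal.eq_top_iff_one Q).mpr h2)

end Fermat.Agent.S19.Cech.ChartPoint
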