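import Mathlib
import Fermat.Agent.Lib.GaussChartOverlap
import Fermat.Agent.Lib.PrincipalParts
import Fermat.Agent.S19.Cech.ChartPoint
import Fermat.Agent.S19.Cech.ChartBasic
import Fermat.Agent.S30.Model.GlueChart
import Fermat.Agent.S30.Model.ChartProv

/-!
# The three chart rings of the model are charts of ONE Gauss ring (Program FG, brick `CH`)

`O` a discrete valuation ring with fraction field `E` and uniformiser `π`, `L / E` a field,
`u : L` transcendental over `E` with `L / E(u)` finite.  The chart rings are the integral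
closures of `O[u]`, `O[u⁻¹]`, `O[u, u⁻¹]` in `L` (`CRing O {u}`, `CRing O {u⁻¹}`,
`CRing O {u, u⁻¹}`; the element `π` of a chart ring is `piOf O s π = GlueChart.piElt _ π`).

Input (landed for the level-`M` modular function field and `u = j, h₂, h₃`:
`S34/HauptU/LevelMAux.ChartFacts`): `π` is prime in the two charts and the two special fibres
are Dedekind domains.

Output (`exists_gaussCharts`), in the vocabulary of `Lib/GaussChart` and `Lib/GaussChartOfPrime`:
with `𝒪 := gaussRing hp0` (the localisation of the `u`-chart at `(π)`) and the uniformiser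
`algebraMap O L π`,

* `GaussRing 𝒪 π`;
* `GaussChart 𝒪 π (chartRing C L) locRing` for each of the three chart rings `C`, the local rings
  being the localisations at ALL maximal ideals containing `π`;
* refinement maps `r0`, `r1` from the closed points of the special fibre of the overlap to those
  of the two charts (`(r0 k).1 = k.1.comap _`, contraction), injective, with THE SAME local ring
  (`locRing k = locRing (r0 k)`, an equality of subrings of `L`) and off the divisors `u = 0`,
  `u⁻¹ = 0`.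
-/

set_option autoImplicit false

open Fermat.Agent.Lib.PrimeLocGlobal Fermat.Agent.Lib.ChartRoots Fermat.Agent.Lib.PrimeLocOverlap
  Fermat.Agent.Lib.GaussChartOfPrime Fermat.Agent.Lib.GaussChartOverlap
open Fermat.Agent.S30.Model Fermat.Agent.S30.Model.GlueChart

namespace Fermat.Agent.S19.Cech.ChartGauss

/-! ### Level-free: the two-chart package with explicit refinement maps -/

section TwoCharts

variable {C₀ C₁ D K : Type*} [CommRing C₀] [CommRing C₁] [CommRing D] [Field K]
  [Algebra C₀ K] [Algebra C₁ K] [Algebra D K]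

/-- `Lib/GaussChartOverlap.exists_gaussCharts_of_isAway` with the refinement maps pinned down as
contractions. -/
theorem exists_charts_of_isAway {ι₀ : C₀ →+* D} {ι₁ : C₁ →+* D} {u₀ : C₀} {u₁ : C₁}
    (h₀ : IsAway K ι₀ u₀) (h₁ : IsAway K ι₁ u₁)
    (hC₀ : Function.Injective (algebraMap C₀ K)) (hC₁ : Function.Injective (algebraMap C₁ K))
    (hD : Function.Injective (algebraMap D K))
    {p₀ : C₀} {p₁ : C₁} (hp₀ : Prime p₀) (hp₁ : Prime p₁) (hpu₀ : ¬ p₀ ∣ u₀) (hpu₁ : ¬ p₁ ∣ u₁)
    {q : D} (e₀ : ι₀ p₀ = q) (e₁ : ι₁ p₁ = q)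
    [Ring.DimensionLEOne (C₀ ⧸ Ideal.span {p₀})] [Ring.DimensionLEOne (C₁ ⧸ Ideal.span {p₁})]
    (hex₀ : ∃ Q : Ideal C₀, Q.IsMaximal ∧ p₀ ∈ Q ∧ u₀ ∉ Q)
    (hex₁ : ∃ Q : Ideal C₁, Q.IsMaximal ∧ p₁ ∈ Q ∧ u₁ ∉ Q)
    (hicD : ∀ x : K, IsIntegral D x → ∃ d : D, algebraMap D K d = x)
    (hchart₀ : GaussChart (gaussRing (K := K) hp₀) (algebraMap C₀ K p₀) (chartRing C₀ K)
      (fun Q : Pt p₀ => locRing (K := K) Q))
    (hchart₁ : GaussChart (gaussRing (K := K) hp₁) (algebraMap C₁ K p₁) (chartRing C₁ K)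
      (fun Q : Pt p₁ => locRing (K := K) Q)) :
    ∃ (r₀ : Pt q → Pt p₀) (r₁ : Pt q → Pt p₁),
      (∀ k : Pt q, (r₀ k).1 = k.1.comap ι₀) ∧ (∀ k : Pt q, (r₁ k).1 = k.1.comap ι₁) ∧
      GaussChart (gaussRing (K := K) hp₀) (algebraMap C₀ K p₀) (chartRing C₁ K)
        (fun Q : Pt p₁ => locRing (K := K) Q) ∧
      GaussChart (gaussRing (K := K) hp₀) (algebraMap C₀ K p₀) (chartRing D K)
        (fun Q : Pt q => locRing (K := K) Q) ∧
      (∀ k : Pt q, locRing (K := K) k = locRing (K := K) (r₀ k)) ∧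
      (∀ k : Pt q, locRing (K := K) k = locRing (K := K) (r₁ k)) ∧
      Function.Injective r₀ ∧ Function.Injective r₁ ∧
      (∀ k : Pt q, u₀ ∉ (r₀ k).1) ∧ (∀ k : Pt q, u₁ ∉ (r₁ k).1) := by
  subst e₀
  have hO : gaussRing (K := K) hp₁ = gaussRing (K := K) hp₀ :=
    gaussRing_eq_of_isAway h₁ h₀ hC₁ hC₀ hp₁ hpu₁ hp₀ hpu₀ e₁
  have hπ : algebraMap C₁ K p₁ = algebraMap C₀ K p₀ := by
    rw [← h₁.map_eq, ← h₀.map_eq, e₁]
  rw [hO, hπ] at hchart₁
  let cast₁ : Pt (ι₀ p₀) → Pt (ι₁ p₁) := fun Q => ⟨Q.1, Q.2.1, by rw [e₁]; exact Q.2.2⟩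
  have hcast₁ : ∀ Q : Pt (ι₀ p₀), locRing (K := K) (cast₁ Q) = locRing (K := K) Q := fun _ => rfl
  refine ⟨ptComap h₀ hex₀, fun Q => ptComap h₁ hex₁ (cast₁ Q), fun _ => rfl, fun _ => rfl,
    hchart₁, gaussChart_of_isAway h₀ hC₀ hD hp₀ hpu₀ hex₀ hicD hchart₀,
    locRing_ptComap h₀ hex₀, fun k => ?_, ptComap_injective h₀ hex₀, ?_,
    not_mem_ptComap h₀ hex₀, fun k => not_mem_ptComap h₁ hex₁ (cast₁ k)⟩
  · rw [← hcast₁ k]
    exact locRing_ptComap h₁ hex₁ (cast₁ k)
  · intro Q Q' e
    have h1 : cast₁ Q = cast₁ Q' := ptComap_injective h₁ hex₁ e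
    have h2 : (cast₁ Q).1 = (cast₁ Q').1 := congrArg Subtype.val h1
    exact Subtype.ext h2

end TwoCharts

/-! ### The chart rings -/

section Rings

variable (O : Type*) {L : Type*} [CommRing O] [Field L] [Algebra O L]

/-- The chart ring on the generators `s`: the integral closure of `O[s]` in `L`. -/
abbrev CRing (s : Set L) : Type _ := integralClosure (Algebra.adjoin O s) L

/-- The element `π` of the chart ring. -/
noncomputable abbrev piOf (s : Set L) (π : O) : CRing O s := piElt (Algebra.adjoin O s) π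

/-- The chart function, as an element of its chart ring. -/
def gen (t : L) : CRing O ({t} : Set L) :=
  ⟨t, CechP1.isIntegral_adjoin_of_mem (Algebra.subset_adjoin (Set.mem_singleton t))⟩

@[simp] theorem coe_gen (t : L) : ((gen O t : CRing O ({t} : Set L)) : L) = t := rfl

theorem adjoin_le_pair (u : L) :
    Algebra.adjoin O ({u} : Set L) ≤ Algebra.adjoin O ({u, u⁻¹} : Set L) :=
  Algebra.adjoin_mono (by simp)

theorem adjoin_inv_le_pair (u : L) :
    Algebra.adjoin O ({u⁻¹} : Set L) ≤ Algebra.adjoin O ({u, u⁻¹} : Set L) :=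
  Algebra.adjoin_mono (by simp)

/-- The inclusion of the chart `u` into the overlap. -/
noncomputable abbrev toPair (u : L) : CRing O ({u} : Set L) →+* CRing O ({u, u⁻¹} : Set L) :=
  inclHom (adjoin_le_pair O u)

/-- The inclusion of the chart `u⁻¹` into the overlap. -/
noncomputable abbrev invToPair (u : L) : CRing O ({u⁻¹} : Set L) →+* CRing O ({u, u⁻¹} : Set L) :=
  inclHom (adjoin_inv_le_pair O u)

/-- The embedding of a chart ring into `L` is the coercion. -/
theorem algebraMap_cRing (s : Set L) (c : CRing O s) : algebraMap (CRing O s) L c = (c : L) :=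
  rfl

/-- The uniformiser of the chart, inside `L`. -/
theorem algebraMap_piOf (s : Set L) (π : O) :
    algebraMap (CRing O s) L (piOf O s π) = algebraMap O L π :=
  (algebraMap_cRing O s _).trans (coe_piElt _ π)

theorem toPair_piOf (u : L) (π : O) :
    toPair O u (piOf O ({u} : Set L) π) = piOf O ({u, u⁻¹} : Set L) π :=
  Subtype.ext (by rw [coe_inclHom, coe_piElt, coe_piElt])

theorem invToPair_piOf (u : L) (π : O) :
    invToPair O u (piOf O ({u⁻¹} : Set L) π) = piOf O ({u, u⁻¹} : Set L) π :=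
  Subtype.ext (by rw [coe_inclHom, coe_piElt, coe_piElt])

/-- The overlap is the chart `u` with `u` inverted. -/
theorem isAway_toPair (u : L) (hu : u ≠ 0) : IsAway L (toPair O u) (gen O u) where
  map_eq := fun c => by
    rw [algebraMap_cRing, algebraMap_cRing, coe_inclHom]
  isUnit := by
    refine IsUnit.of_mul_eq_one
      (⟨u⁻¹, CechP1.isIntegral_adjoin_of_mem (Algebra.subset_adjoin (by simp))⟩ :
        CRing O ({u, u⁻¹} : Set L)) (Subtype.ext ?_)
    rw [Subalgebra.coe_mul, Subalgebra.coe_one, coe_inclHom, coe_gen]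
    exact mul_inv_cancel₀ hu
  exists_pow_mul := fun w => by
    obtain ⟨n, hn⟩ := CechP1.exists_pow_mul_isIntegral u hu (w : L) w.2
    refine ⟨n, ⟨u ^ n * w, hn⟩, Subtype.ext ?_⟩
    rw [Subalgebra.coe_mul, Subalgebra.coe_pow, coe_inclHom, coe_inclHom, coe_gen]

/-- The overlap is the chart `u⁻¹` with `u⁻¹` inverted. -/
theorem isAway_invToPair (u : L) (hu : u ≠ 0) : IsAway L (invToPair O u) (gen O u⁻¹) where
  map_eq := fun c => by
    rw [algebraMap_cRing, algebraMap_cRing, coe_inclHom]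
  isUnit := by
    refine IsUnit.of_mul_eq_one
      (⟨u, CechP1.isIntegral_adjoin_of_mem (Algebra.subset_adjoin (by simp))⟩ :
        CRing O ({u, u⁻¹} : Set L)) (Subtype.ext ?_)
    rw [Subalgebra.coe_mul, Subalgebra.coe_one, coe_inclHom, coe_gen]
    exact inv_mul_cancel₀ hu
  exists_pow_mul := fun w =>
    exists_pow_mul_inclHom u hu (gen O u⁻¹) (coe_gen O u⁻¹) (adjoin_inv_le_pair O u) w

end Rings

/-! ### The instance -/

section Main

variable {O E L : Type*} [CommRing O] [IsDomain O] [IsDiscreteValuationRing O] [Field E]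
  [CharZero E] [Algebra O E] [IsFractionRing O E] [Field L] [Algebra E L] [Algebra O L]
  [IsScalarTower O E L]

omit [IsDomain O] [IsDiscreteValuationRing O] in
/-- **One chart.**  If `π` is prime in the chart ring of `t` and the special fibre is a Dedekind
domain, the chart ring is a `GaussChart` of its localisation at `(π)`. -/
theorem gaussChart_chart (π : O) (t : L)
    (hp : Prime (piOf O ({t} : Set L) π))
    (hd : IsDedekindDomain (CRing O ({t} : Set L) ⧸ Ideal.span {piOf O ({t} : Set L) π})) :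
    GaussChart (gaussRing (K := L) hp) (algebraMap O L π) (chartRing (CRing O ({t} : Set L)) L)
      (fun Q : Pt (piOf O ({t} : Set L) π) => locRing (K := L) Q) := by
  have hinj := ChartBasic.algebraMap_injective (Algebra.adjoin O ({t} : Set L))
  have : IsDomain (CRing O ({t} : Set L) ⧸ Ideal.span {piOf O ({t} : Set L) π}) := hd.toIsDomain
  have : IsIntegrallyClosed (CRing O ({t} : Set L) ⧸ Ideal.span {piOf O ({t} : Set L) π}) :=
    inferInstance
  have h := gaussChart_of_chart_of hinj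
    (ChartBasic.exists_eq_of_isIntegral (Algebra.adjoin O ({t} : Set L))) hp
    (fun S hS a ha => Fermat.Agent.Lib.PrincipalParts.exists_principal_part hinj hp S hS a ha)
    (fun _ hx => Fermat.Agent.Lib.PrincipalParts.finite_not_inLoc hinj hp hx)
  rw [algebraMap_piOf] at h
  exact h

/-- **The Gauss ring of the chart `t`**: the localisation of the chart ring at `(π)` is a
valuation ring of `L` with maximal ideal generated by `π`. -/
theorem gaussRing_chart (π : O) (t : L) (ht : Transcendental E t)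
    [FiniteDimensional (IntermediateField.adjoin E {t}) L]
    (hp : Prime (piOf O ({t} : Set L) π)) :
    GaussRing (gaussRing (K := L) hp) (algebraMap O L π) := by
  have := ChartBasic.wfDvdMonoid_chart (O := O) (E := E) t ht
  have h := gaussRing_of_chart (ChartBasic.algebraMap_injective (Algebra.adjoin O ({t} : Set L)))
    hp (ChartBasic.exists_frac (O := O) (E := E) t ht)
  rw [algebraMap_piOf] at h
  exact h

/-- **The three chart rings are charts of ONE Gauss ring**, with refinement maps from the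
closed points of the overlap to those of the two charts. -/
theorem exists_gaussCharts (π : O) (hπ : Irreducible π) (u : L) (htr : Transcendental E u)
    [FiniteDimensional (IntermediateField.adjoin E {u}) L]
    (hp0 : Prime (piOf O ({u} : Set L) π)) (hp1 : Prime (piOf O ({u⁻¹} : Set L) π))
    (hd0 : IsDedekindDomain (CRing O ({u} : Set L) ⧸ Ideal.span {piOf O ({u} : Set L) π}))
    (hd1 : IsDedekindDomain (CRing O ({u⁻¹} : Set L) ⧸ Ideal.span {piOf O ({u⁻¹} : Set L) π})) :
    ∃ (r0 : Pt (piOf O ({u, u⁻¹} : Set L) π) → Pt (piOf O ({u} : Set L) π))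
      (r1 : Pt (piOf O ({u, u⁻¹} : Set L) π) → Pt (piOf O ({u⁻¹} : Set L) π)),
      (∀ k, (r0 k).1 = k.1.comap (toPair O u)) ∧ (∀ k, (r1 k).1 = k.1.comap (invToPair O u)) ∧
      GaussRing (gaussRing (K := L) hp0) (algebraMap O L π) ∧
      GaussChart (gaussRing (K := L) hp0) (algebraMap O L π)
        (chartRing (CRing O ({u} : Set L)) L)
        (fun Q : Pt (piOf O ({u} : Set L) π) => locRing (K := L) Q) ∧
      GaussChart (gaussRing (K := L) hp0) (algebraMap O L π)
        (chartRing (CRing O ({u⁻¹} : Set L)) L)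
        (fun Q : Pt (piOf O ({u⁻¹} : Set L) π) => locRing (K := L) Q) ∧
      GaussChart (gaussRing (K := L) hp0) (algebraMap O L π)
        (chartRing (CRing O ({u, u⁻¹} : Set L)) L)
        (fun Q : Pt (piOf O ({u, u⁻¹} : Set L) π) => locRing (K := L) Q) ∧
      (∀ k, locRing (K := L) k = locRing (K := L) (r0 k)) ∧
      (∀ k, locRing (K := L) k = locRing (K := L) (r1 k)) ∧
      Function.Injective r0 ∧ Function.Injective r1 ∧
      (∀ k, gen O u ∉ (r0 k).1) ∧ (∀ k, gen O u⁻¹ ∉ (r1 k).1) := by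
  have hu : u ≠ 0 := by
    rintro rfl
    exact htr isAlgebraic_zero
  have htr' : Transcendental E u⁻¹ := fun h => htr (by simpa using h.inv)
  have htO : Transcendental O u := ChartProv.transcendental_base (E := E) u htr
  have htO' : Transcendental O u⁻¹ := ChartProv.transcendental_base (E := E) u⁻¹ htr'
  have hC0 := ChartBasic.algebraMap_injective (Algebra.adjoin O ({u} : Set L))
  have hC1 := ChartBasic.algebraMap_injective (Algebra.adjoin O ({u⁻¹} : Set L))
  have hD := ChartBasic.algebraMap_injective (Algebra.adjoin O ({u, u⁻¹} : Set L))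
  have hpu0 : ¬ piOf O ({u} : Set L) π ∣ gen O u :=
    ChartBasic.not_piElt_dvd (E := E) π hπ u htr (gen O u) (coe_gen O u)
  have hpu1 : ¬ piOf O ({u⁻¹} : Set L) π ∣ gen O u⁻¹ :=
    ChartBasic.not_piElt_dvd (E := E) π hπ u⁻¹ htr' (gen O u⁻¹) (coe_gen O u⁻¹)
  have hex0 : ∃ Q : Ideal (CRing O ({u} : Set L)), Q.IsMaximal ∧ piOf O ({u} : Set L) π ∈ Q ∧
      gen O u ∉ Q := by
    obtain ⟨Q, hQ, hπQ, hQu⟩ := ChartPoint.exists_maximal_not_mem u htO π hπ.not_isUnit
    exact ⟨Q, hQ, hπQ, hQu (gen O u) (coe_gen O u)⟩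
  have hex1 : ∃ Q : Ideal (CRing O ({u⁻¹} : Set L)), Q.IsMaximal ∧
      piOf O ({u⁻¹} : Set L) π ∈ Q ∧ gen O u⁻¹ ∉ Q := by
    obtain ⟨Q, hQ, hπQ, hQu⟩ := ChartPoint.exists_maximal_not_mem u⁻¹ htO' π hπ.not_isUnit
    exact ⟨Q, hQ, hπQ, hQu (gen O u⁻¹) (coe_gen O u⁻¹)⟩
  have hchart0 := gaussChart_chart π u hp0 hd0
  have hchart1 := gaussChart_chart π u⁻¹ hp1 hd1
  have hchart0' := hchart0
  have hchart1' := hchart1
  rw [← algebraMap_piOf O ({u} : Set L) π] at hchart0'
  rw [← algebraMap_piOf O ({u⁻¹} : Set L) π] at hchart1'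
  have i0 : Ring.DimensionLEOne
      (CRing O ({u} : Set L) ⧸ Ideal.span {piOf O ({u} : Set L) π}) :=
    hd0.toIsDedekindRing.toDimensionLEOne
  have i1 : Ring.DimensionLEOne
      (CRing O ({u⁻¹} : Set L) ⧸ Ideal.span {piOf O ({u⁻¹} : Set L) π}) :=
    hd1.toIsDedekindRing.toDimensionLEOne
  obtain ⟨r0, r1, hr0, hr1, hc1, hcD, hl0, hl1, hi0, hi1, hu0, hu1⟩ :=
    exists_charts_of_isAway (isAway_toPair O u hu) (isAway_invToPair O u hu) hC0 hC1 hD hp0 hp1
      hpu0 hpu1 (toPair_piOf O u π) (invToPair_piOf O u π) hex0 hex1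
      (ChartBasic.exists_eq_of_isIntegral (Algebra.adjoin O ({u, u⁻¹} : Set L)))
      hchart0' hchart1'
  rw [algebraMap_piOf] at hc1 hcD
  exact ⟨r0, r1, hr0, hr1, gaussRing_chart (E := E) π u htr hp0, hchart0, hc1, hcD, hl0, hl1,
    hi0, hi1, hu0, hu1⟩

end Main

end Fermat.Agent.S19.Cech.ChartGauss
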