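import Mathlib
import Fermat.Agent.S19.Cech.ChartGauss
import Fermat.Agent.Lib.GaussChartCoc

/-!
# The two charts and their overlap as a `TwoChartEmb` (Program FG, brick `CH`, exit `(Z*)`)

The exit of the `CH` row in the vocabulary of the Čech machine (`Lib/GaussChartCoc.TwoChartEmb`):
the overlap ring `𝒞 = ↥(CechP1.chart O {u, u⁻¹})`, the two charts as subalgebras of it
(`(CechP1.chart O {u}).comap _`, `= H1Basis.sub (CechAdapter.C0 u) (CechAdapter.C01 u)`),
`t = π`, `j = algebraMap 𝒞 L`, the Gauss ring `𝒪 = gaussRing hp0` of the `u`-chart and the local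
rings `locRing Q` at ALL closed points `Q : Pt ϖ` of the special fibres of the three chart rings
(`Lib/GaussChartOfPrime`).

* `twoChartEmb_of_subalgebras` : level-free assembly for three subalgebras `C0, C1 ≤ C01` of a
  field;
* `chartRing_eq` : the image of the chart ring `integralClosure (Algebra.adjoin O s) L` in `L` is
  the subring underlying `CechP1.chart O s`;
* `twoChartEmb` : the instance, from `π` prime in the two charts and Dedekind special fibres
  (the fields `prime_zero`, `prime_inf`, `dedekind_zero`, `dedekind_inf`, `transcendental`,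
  `finite` of `S34/HauptU/LevelMAux.ChartFacts`), with `Rc` explicit;
* `exists_twoChartEmb` : the same with `ιc`, `Rc` existential.
-/

set_option autoImplicit false

open Fermat.Agent.Lib.PrimeLocGlobal Fermat.Agent.Lib.ChartRoots
  Fermat.Agent.Lib.GaussChartOfPrime
open Fermat.Agent.S30.Model Fermat.Agent.S30.Model.GlueChart
open Fermat.Agent.S19.Cech.ChartGauss

namespace Fermat.Agent.S19.Cech.ChartEmb

/-! ### Level-free assembly -/

section Assemble

variable {K : Type*} [Field K]

/-- Transport of a `GaussChart` along an equality of chart rings. -/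
theorem gaussChart_congr {𝒪 : Subring K} {π : K} {B B' : Subring K} {ι : Type*}
    {R : ι → Subring K} (h : GaussChart 𝒪 π B R) (eB : B' = B) : GaussChart 𝒪 π B' R := by
  subst eB
  exact h

variable {O : Type*} [CommRing O] [Algebra O K]

/-- The image in `K` of a chart `C ≤ C01`, viewed inside the overlap ring `↥C01`. -/
theorem map_comap_toSubring (C C01 : Subalgebra O K) (h : C ≤ C01) :
    (C.comap C01.val).toSubring.map (algebraMap ↥C01 K) = C.toSubring := by
  ext x
  constructor
  · rintro ⟨c, hc, rfl⟩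
    exact hc
  · intro hx
    exact ⟨⟨x, h hx⟩, hx, rfl⟩

/-- The image in `K` of the overlap ring. -/
theorem range_algebraMap_toSubring (C01 : Subalgebra O K) :
    (algebraMap ↥C01 K).range = C01.toSubring := by
  ext x
  constructor
  · rintro ⟨c, rfl⟩
    exact c.2
  · intro hx
    exact ⟨⟨x, hx⟩, rfl⟩

/-- **Assembly of `TwoChartEmb`** for three subalgebras `C0, C1 ≤ C01` of a field `K` over `O`:
the overlap ring is `↥C01`, the charts are `C0.comap C01.val`, `C1.comap C01.val`, and
`j = algebraMap ↥C01 K`. -/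
theorem twoChartEmb_of_subalgebras (C0 C1 C01 : Subalgebra O K) (h0 : C0 ≤ C01) (h1 : C1 ≤ C01)
    (π : O) (𝒪 : Subring K) {ι0 ι1 ιc : Type*} (R0 : ι0 → Subring K) (R1 : ι1 → Subring K)
    (Rc : ιc → Subring K) (hG : GaussRing 𝒪 (algebraMap O K π))
    (hc0 : GaussChart 𝒪 (algebraMap O K π) C0.toSubring R0)
    (hc1 : GaussChart 𝒪 (algebraMap O K π) C1.toSubring R1)
    (hcc : GaussChart 𝒪 (algebraMap O K π) C01.toSubring Rc)
    (href0 : ∀ k, ∃ i, Rc k = R0 i) (href1 : ∀ k, ∃ i, Rc k = R1 i) :
    TwoChartEmb (C0.comap C01.val) (C1.comap C01.val) π (algebraMap ↥C01 K) 𝒪 R0 R1 Rc where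
  inj := Subtype.val_injective
  gauss := hG
  chart0 := gaussChart_congr hc0 (map_comap_toSubring C0 C01 h0)
  chart1 := gaussChart_congr hc1 (map_comap_toSubring C1 C01 h1)
  chartc := gaussChart_congr hcc (range_algebraMap_toSubring C01)
  ref0 := href0
  ref1 := href1

end Assemble

/-! ### The chart rings -/

section Rings

variable (O : Type*) {L : Type*} [CommRing O] [Field L] [Algebra O L]

/-- The image of the chart ring in `L` is the subring underlying `CechP1.chart O s`. -/
theorem chartRing_eq (s : Set L) :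
    chartRing (CRing O s) L = (CechP1.chart O s).toSubring := by
  ext x
  constructor
  · rintro ⟨c, rfl⟩
    exact c.2
  · intro hx
    exact ⟨⟨x, hx⟩, rfl⟩

end Rings

/-! ### The instance -/

section Main

universe uO uE uL

variable {O : Type uO} {E : Type uE} {L : Type uL} [CommRing O] [IsDomain O]
  [IsDiscreteValuationRing O] [Field E] [CharZero E] [Algebra O E] [IsFractionRing O E] [Field L]
  [Algebra E L] [Algebra O L] [IsScalarTower O E L]

/-- **`(Z*)`, with `Rc` explicit.**  The two charts and their overlap form a `TwoChartEmb` of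
the Gauss ring of the `u`-chart; the local rings are those of ALL closed points of the special
fibres of the three chart rings. -/
theorem twoChartEmb (π : O) (hπ : Irreducible π) (u : L) (htr : Transcendental E u)
    [FiniteDimensional (IntermediateField.adjoin E {u}) L]
    (hp0 : Prime (piOf O ({u} : Set L) π)) (hp1 : Prime (piOf O ({u⁻¹} : Set L) π))
    (hd0 : IsDedekindDomain (CRing O ({u} : Set L) ⧸ Ideal.span {piOf O ({u} : Set L) π}))
    (hd1 : IsDedekindDomain (CRing O ({u⁻¹} : Set L) ⧸ Ideal.span {piOf O ({u⁻¹} : Set L) π})) :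
    TwoChartEmb ((CechP1.chart O ({u} : Set L)).comap (CechP1.chart O ({u, u⁻¹} : Set L)).val)
      ((CechP1.chart O ({u⁻¹} : Set L)).comap (CechP1.chart O ({u, u⁻¹} : Set L)).val) π
      (algebraMap ↥(CechP1.chart O ({u, u⁻¹} : Set L)) L) (gaussRing (K := L) hp0)
      (fun Q : Pt (piOf O ({u} : Set L) π) => locRing (K := L) Q)
      (fun Q : Pt (piOf O ({u⁻¹} : Set L) π) => locRing (K := L) Q)
      (fun Q : Pt (piOf O ({u, u⁻¹} : Set L) π) => locRing (K := L) Q) := by
  obtain ⟨r0, r1, -, -, hG, hc0, hc1, hcc, hl0, hl1, -, -, -, -⟩ :=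
    exists_gaussCharts (E := E) π hπ u htr hp0 hp1 hd0 hd1
  exact twoChartEmb_of_subalgebras (CechP1.chart O ({u} : Set L))
    (CechP1.chart O ({u⁻¹} : Set L)) (CechP1.chart O ({u, u⁻¹} : Set L))
    (CechP1.chart_mono (by simp)) (CechP1.chart_mono (by simp)) π _ _ _ _ hG
    (gaussChart_congr hc0 (chartRing_eq O ({u} : Set L)).symm)
    (gaussChart_congr hc1 (chartRing_eq O ({u⁻¹} : Set L)).symm)
    (gaussChart_congr hcc (chartRing_eq O ({u, u⁻¹} : Set L)).symm)
    (fun k => ⟨r0 k, hl0 k⟩) (fun k => ⟨r1 k, hl1 k⟩)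

/-- **`(Z*)`**, the index family of the overlap existential. -/
theorem exists_twoChartEmb (π : O) (hπ : Irreducible π) (u : L) (htr : Transcendental E u)
    [FiniteDimensional (IntermediateField.adjoin E {u}) L]
    (hp0 : Prime (piOf O ({u} : Set L) π)) (hp1 : Prime (piOf O ({u⁻¹} : Set L) π))
    (hd0 : IsDedekindDomain (CRing O ({u} : Set L) ⧸ Ideal.span {piOf O ({u} : Set L) π}))
    (hd1 : IsDedekindDomain (CRing O ({u⁻¹} : Set L) ⧸ Ideal.span {piOf O ({u⁻¹} : Set L) π})) :
    ∃ (ιc : Type uL) (Rc : ιc → Subring L),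
      TwoChartEmb ((CechP1.chart O ({u} : Set L)).comap (CechP1.chart O ({u, u⁻¹} : Set L)).val)
        ((CechP1.chart O ({u⁻¹} : Set L)).comap (CechP1.chart O ({u, u⁻¹} : Set L)).val) π
        (algebraMap ↥(CechP1.chart O ({u, u⁻¹} : Set L)) L) (gaussRing (K := L) hp0)
        (fun Q : Pt (piOf O ({u} : Set L) π) => locRing (K := L) Q)
        (fun Q : Pt (piOf O ({u⁻¹} : Set L) π) => locRing (K := L) Q) Rc :=
  ⟨_, _, twoChartEmb (E := E) π hπ u htr hp0 hp1 hd0 hd1⟩

end Main

end Fermat.Agent.S19.Cech.ChartEmb
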