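import Mathlib
import Fermat.Agent.Lib.TwoChartNormalForm
import Fermat.Agent.S44.D.CechFree

/-!
# (DEC) and (UNIQ) from a finite free Čech `H¹` (level-free)

Program FG (S19), Route C, brick `H1`.  `O` a commutative ring, `L` a field over `O`, three
`O`-subalgebras `C0, C1 ≤ C01` of `L` (the two charts and their overlap).  If the Čech module
`CechFree.CechH C0 C1 C01 = C01 / (C0 + C1)` is finite free over `O`, a lift `e : Fin d → C01` of
a basis satisfies the two hypotheses of the normal form `Lib/TwoChartNormalForm`, stated on the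
overlap ring `↥C01` with the two charts as subalgebras of it:

* `Dec`  : `C01 = C0 + C1 + ∑ O • e i`;
* `Uniq` : `c0 + c1 + ∑ a i • e i = 0 → a = 0 ∧ c0 ∈ O`   (the second half is `C0 ∩ C1 = O`).
-/

set_option autoImplicit false

namespace Fermat.Agent.S19.Cech.H1Basis

open Fermat.Agent.Lib.TwoChartNormalForm Fermat.Agent.S44.D.CechFree

variable {O L : Type*} [CommRing O] [Field L] [Algebra O L]

/-- A chart `C ≤ C01`, as a subalgebra of the overlap ring `↥C01`. -/
abbrev sub (C C01 : Subalgebra O L) : Subalgebra O ↥C01 := C.comap C01.val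

theorem mem_sub {C C01 : Subalgebra O L} {x : ↥C01} : x ∈ sub C C01 ↔ (x : L) ∈ C := Iff.rfl

/-- The class of an element of the overlap ring in the Čech `H¹`. -/
def cls (C0 C1 C01 : Subalgebra O L) : ↥C01 →ₗ[O] CechH C0 C1 C01 :=
  cechClass C0 C1 C01

theorem cls_eq_zero_iff (C0 C1 C01 : Subalgebra O L) (x : ↥C01) :
    cls C0 C1 C01 x = 0 ↔ ∃ a ∈ C0, ∃ b ∈ C1, a + b = (x : L) :=
  (cechClass_eq_zero_iff C0 C1 C01 x).trans mem_chartSum_iff

theorem cls_surjective (C0 C1 C01 : Subalgebra O L) : Function.Surjective (cls C0 C1 C01) :=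
  cechClass_surjective C0 C1 C01

/-- **(DEC) for a lift of a spanning family of `H¹`.** -/
theorem dec_of_span (C0 C1 C01 : Subalgebra O L) (h0le : C0 ≤ C01) (h1le : C1 ≤ C01) {d : ℕ}
    (e : Fin d → ↥C01)
    (hspan : ∀ h : CechH C0 C1 C01, ∃ a : Fin d → O, h = ∑ i, a i • cls C0 C1 C01 (e i)) :
    Dec (sub C0 C01) (sub C1 C01) e := by
  intro c
  obtain ⟨a, ha⟩ := hspan (cls C0 C1 C01 c)
  have h0 : cls C0 C1 C01 (c - ∑ i, a i • e i) = 0 := by
    rw [map_sub, map_sum, ha, sub_eq_zero]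
    exact Finset.sum_congr rfl fun i _ => (map_smul _ _ _).symm
  obtain ⟨x, hx, y, hy, hxy⟩ := (cls_eq_zero_iff C0 C1 C01 _).mp h0
  refine ⟨⟨x, h0le hx⟩, hx, ⟨y, h1le hy⟩, hy, a, ?_⟩
  have : (⟨x, h0le hx⟩ : ↥C01) + ⟨y, h1le hy⟩ = c - ∑ i, a i • e i := Subtype.ext hxy
  rw [this]
  ring

/-- **(UNIQ) for a lift of a linearly independent family of `H¹`**, given `C0 ∩ C1 = O`. -/
theorem uniq_of_linearIndependent (C0 C1 C01 : Subalgebra O L) {d : ℕ} (e : Fin d → ↥C01)
    (hli : LinearIndependent O fun i => cls C0 C1 C01 (e i))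
    (hconst : ∀ x ∈ C0, x ∈ C1 → ∃ r : O, algebraMap O L r = x) :
    Uniq (sub C0 C01) (sub C1 C01) e := by
  intro c0 hc0 c1 hc1 a h
  have h1 : cls C0 C1 C01 (c0 + c1) = 0 :=
    (cls_eq_zero_iff C0 C1 C01 _).mpr ⟨c0, hc0, c1, hc1, rfl⟩
  have h2 : ∑ i, a i • cls C0 C1 C01 (e i) = 0 := by
    have := congrArg (cls C0 C1 C01) h
    rw [map_add, h1, zero_add, map_sum, map_zero] at this
    rw [← this]
    exact Finset.sum_congr rfl fun i _ => (map_smul _ _ _).symm
  have ha : ∀ i, a i = 0 := Fintype.linearIndependent_iff.mp hli a h2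
  refine ⟨ha, ?_⟩
  have h3 : c0 + c1 = 0 := by
    have : ∑ i, a i • e i = 0 := Finset.sum_eq_zero fun i _ => by rw [ha i, zero_smul]
    rwa [this, add_zero] at h
  have h4 : (c0 : L) ∈ C1 := by
    have : (c0 : L) = -(c1 : L) := by
      have := congrArg (Subtype.val : ↥C01 → L) h3
      exact eq_neg_of_add_eq_zero_left this
    rw [this]
    exact C1.neg_mem hc1
  obtain ⟨r, hr⟩ := hconst c0 hc0 h4
  exact ⟨r, Subtype.ext hr.symm⟩

/-- **(DEC) + (UNIQ) from a finite free `H¹`**: a lift of a basis of `C01 / (C0 + C1)`. -/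
theorem exists_dec_uniq [Nontrivial O] (C0 C1 C01 : Subalgebra O L) (h0le : C0 ≤ C01)
    (h1le : C1 ≤ C01) (hfin : Module.Finite O (CechH C0 C1 C01))
    (hfree : Module.Free O (CechH C0 C1 C01))
    (hconst : ∀ x ∈ C0, x ∈ C1 → ∃ r : O, algebraMap O L r = x) :
    ∃ (d : ℕ) (e : Fin d → ↥C01), Dec (sub C0 C01) (sub C1 C01) e ∧
      Uniq (sub C0 C01) (sub C1 C01) e ∧ d = Module.finrank O (CechH C0 C1 C01) := by
  classical
  let b := Module.finBasis O (CechH C0 C1 C01)
  choose e he using fun i => cls_surjective C0 C1 C01 (b i)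
  refine ⟨_, e, dec_of_span C0 C1 C01 h0le h1le e fun h => ⟨fun i => b.repr h i, ?_⟩,
    uniq_of_linearIndependent C0 C1 C01 e ?_ hconst, rfl⟩
  · conv_lhs => rw [← b.sum_repr h]
    exact Finset.sum_congr rfl fun i _ => by rw [he i]
  · have : (fun i => cls C0 C1 C01 (e i)) = b := funext he
    rw [this]
    exact b.linearIndependent

end Fermat.Agent.S19.Cech.H1Basis
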