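import Fermat.Agent.S19.Cech.AlgRoot
import Fermat.Agent.S19.Cech.ChartEmb
import Fermat.Agent.S19.Cech.H1Basis
import Fermat.Agent.S44.D.CechAdapter

/-!
# S19 (Program FG, Route C), brick (ALG): the seam with the chart machine

`AlgRoot.halg_of_charts` restated in the literal of the `halg` binder of
`ChartMachineEq.hasCechCoords_of_chart` (chart rings spelled `H1Basis.sub (CechAdapter.C0 u)
(CechAdapter.C01 u)`, uniformiser spelled `algebraMap O L π`, the local rings of the two charts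
being the localisations at the closed points of the special fibres), generic in `(O, E, L)`:

* `halg_of_twoChartEmb` : the level `n0` and the `halg` clause from a two-chart embedding, the
  normalisation `F x = 1 + π h` on `G0` and `F x = a * h ^ m → x = 0` (`a : O`);
* `halg_of_twoChartEmb_field` : the same with the triviality hypothesis in the form of the Kummer
  dictionary: `F x = c * h ^ m → x = 0` for constants `c ≠ 0` of `E` and `h ≠ 0`;
* `twoChartEmb_sub` : `ChartEmb.twoChartEmb` in the spelling of the chart machine;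
* `halg_of_chartFacts` : the level `n0` and the `halg` clause at `𝒪 = gaussRing hp0` from the
  chart facts alone (`π` prime in both charts, Dedekind special fibres), the two-chart embedding
  being `ChartEmb.twoChartEmb`.
-/

set_option autoImplicit false

open Polynomial Fermat.Agent.Lib.ChartRoots Fermat.Agent.Lib.GaussChartOfPrime
  Fermat.Agent.S30 Fermat.Agent.S30.Model Fermat.Agent.S44.D Fermat.Agent.S19.Cech

namespace Fermat.Agent.S19.Cech.AlgSeam

variable {O E L : Type*} [CommRing O] [IsDomain O] [IsDiscreteValuationRing O]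
  [Field E] [Algebra O E] [IsFractionRing O E]
  [Field L] [Algebra E L] [Algebra O L] [IsScalarTower O E L]

/-- **(ALG) in the literal of the chart machine.** -/
theorem halg_of_twoChartEmb [CharZero E] (u : L) (hu : Transcendental E u)
    [FiniteDimensional (IntermediateField.adjoin E {u}) L]
    (hOL : ∀ x : L, IsIntegral O x → ∃ a : O, algebraMap O L a = x) (π : O)
    (𝒪 : Subring L) {ιc : Type*} (Rc : ιc → Subring L)
    (H : TwoChartEmb (H1Basis.sub (CechAdapter.C0 (O := O) u) (CechAdapter.C01 u))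
      (H1Basis.sub (CechAdapter.C1 (O := O) u) (CechAdapter.C01 u)) π
      (algebraMap ↥(CechAdapter.C01 (O := O) u) L) 𝒪
      (fun Q : Pt (GlueChart.piElt (Algebra.adjoin O {u}) π) => locRing (K := L) Q)
      (fun Q : Pt (GlueChart.piElt (Algebra.adjoin O {u⁻¹}) π) => locRing (K := L) Q) Rc)
    {G : Type*} [AddCommGroup G] [Finite G] (G0 : AddSubgroup G) (F : G → L) {m : ℕ}
    (hm : 0 < m)
    (hF1 : ∀ x ∈ G0, ∃ h ∈ 𝒪, F x = 1 + algebraMap O L π * h)
    (htriv : ∀ x ∈ G0, ∀ (a : O) (h : L), h ≠ 0 → F x = algebraMap O L a * h ^ m → x = 0) :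
    ∃ n0 : ℕ, 0 < n0 ∧ ∀ x ∈ G0, ∀ N, n0 ≤ N → ∀ ψ0 ψ1 : L,
      IsRootRel 𝒪 (algebraMap O L π)
        (fun Q : Pt (GlueChart.piElt (Algebra.adjoin O {u}) π) => locRing (K := L) Q) m N
        (fun _ => 1) (F x) ψ0 →
      IsRootRel 𝒪 (algebraMap O L π)
        (fun Q : Pt (GlueChart.piElt (Algebra.adjoin O {u⁻¹}) π) => locRing (K := L) Q) m N
        (fun _ => 1) (F x) ψ1 →
      (∃ h ∈ 𝒪, ψ0 = ψ1 * (1 + algebraMap O L π ^ n0 * h)) → x = 0 :=
  AlgRoot.halg_of_charts (E := E) u hu hOL (algebraMap ↥(CechAdapter.C01 (O := O) u) L)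
    (fun _ => rfl) π _ rfl _ rfl 𝒪 Rc H G0 F m hm hF1 htriv

/-- **(ALG) in the literal of the chart machine**, triviality in the form of the Kummer
dictionary (constants of `E`). -/
theorem halg_of_twoChartEmb_field [CharZero E] (u : L) (hu : Transcendental E u)
    [FiniteDimensional (IntermediateField.adjoin E {u}) L]
    (hOL : ∀ x : L, IsIntegral O x → ∃ a : O, algebraMap O L a = x) (π : O)
    (𝒪 : Subring L) {ιc : Type*} (Rc : ιc → Subring L)
    (H : TwoChartEmb (H1Basis.sub (CechAdapter.C0 (O := O) u) (CechAdapter.C01 u))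
      (H1Basis.sub (CechAdapter.C1 (O := O) u) (CechAdapter.C01 u)) π
      (algebraMap ↥(CechAdapter.C01 (O := O) u) L) 𝒪
      (fun Q : Pt (GlueChart.piElt (Algebra.adjoin O {u}) π) => locRing (K := L) Q)
      (fun Q : Pt (GlueChart.piElt (Algebra.adjoin O {u⁻¹}) π) => locRing (K := L) Q) Rc)
    {G : Type*} [AddCommGroup G] [Finite G] (G0 : AddSubgroup G) (F : G → L) {m : ℕ}
    (hm : 0 < m)
    (hF1 : ∀ x ∈ G0, ∃ h ∈ 𝒪, F x = 1 + algebraMap O L π * h)
    (htriv : ∀ x ∈ G0, ∀ (c : E) (h : L), c ≠ 0 → h ≠ 0 →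
      F x = algebraMap E L c * h ^ m → x = 0) :
    ∃ n0 : ℕ, 0 < n0 ∧ ∀ x ∈ G0, ∀ N, n0 ≤ N → ∀ ψ0 ψ1 : L,
      IsRootRel 𝒪 (algebraMap O L π)
        (fun Q : Pt (GlueChart.piElt (Algebra.adjoin O {u}) π) => locRing (K := L) Q) m N
        (fun _ => 1) (F x) ψ0 →
      IsRootRel 𝒪 (algebraMap O L π)
        (fun Q : Pt (GlueChart.piElt (Algebra.adjoin O {u⁻¹}) π) => locRing (K := L) Q) m N
        (fun _ => 1) (F x) ψ1 →
      (∃ h ∈ 𝒪, ψ0 = ψ1 * (1 + algebraMap O L π ^ n0 * h)) → x = 0 := by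
  refine halg_of_twoChartEmb (E := E) u hu hOL π 𝒪 Rc H G0 F hm hF1 ?_
  intro x hx a h hh e
  have hG : GaussRing 𝒪 (algebraMap O L π) := H.gauss
  have hF0 : F x ≠ 0 := by
    obtain ⟨k, hk, ek⟩ := hF1 x hx
    rw [ek]
    exact hG.one_add_ne_zero hk
  have ha : algebraMap O E a ≠ 0 := by
    intro h0
    apply hF0
    rw [e, IsScalarTower.algebraMap_apply O E L, h0, map_zero, zero_mul]
  exact htriv x hx (algebraMap O E a) h ha hh (by rw [e, IsScalarTower.algebraMap_apply O E L])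

/-- **(Z\*)**: `ChartEmb.twoChartEmb` in the spelling of the chart machine. -/
theorem twoChartEmb_sub [CharZero E] (π : O) (hπ : Irreducible π) (u : L)
    (htr : Transcendental E u) [FiniteDimensional (IntermediateField.adjoin E {u}) L]
    (hp0 : Prime (GlueChart.piElt (Algebra.adjoin O ({u} : Set L)) π))
    (hp1 : Prime (GlueChart.piElt (Algebra.adjoin O ({u⁻¹} : Set L)) π))
    (hd0 : IsDedekindDomain (↥(integralClosure (Algebra.adjoin O ({u} : Set L)) L) ⧸
      Ideal.span {GlueChart.piElt (Algebra.adjoin O ({u} : Set L)) π}))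
    (hd1 : IsDedekindDomain (↥(integralClosure (Algebra.adjoin O ({u⁻¹} : Set L)) L) ⧸
      Ideal.span {GlueChart.piElt (Algebra.adjoin O ({u⁻¹} : Set L)) π})) :
    TwoChartEmb (H1Basis.sub (CechAdapter.C0 (O := O) u) (CechAdapter.C01 u))
      (H1Basis.sub (CechAdapter.C1 (O := O) u) (CechAdapter.C01 u)) π
      (algebraMap ↥(CechAdapter.C01 (O := O) u) L) (gaussRing (K := L) hp0)
      (fun Q : Pt (GlueChart.piElt (Algebra.adjoin O {u}) π) => locRing (K := L) Q)
      (fun Q : Pt (GlueChart.piElt (Algebra.adjoin O {u⁻¹}) π) => locRing (K := L) Q)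
      (fun Q : Pt (GlueChart.piElt (Algebra.adjoin O {u, u⁻¹}) π) => locRing (K := L) Q) :=
  ChartEmb.twoChartEmb (E := E) π hπ u htr hp0 hp1 hd0 hd1

/-- **(Z\*) + (ALG) from the chart facts**: the level `n0` and the `halg` clause of the chart
machine at `𝒪 = gaussRing hp0`. -/
theorem halg_of_chartFacts [CharZero E] (π : O) (hπ : Irreducible π) (u : L)
    (htr : Transcendental E u) [FiniteDimensional (IntermediateField.adjoin E {u}) L]
    (hOL : ∀ x : L, IsIntegral O x → ∃ a : O, algebraMap O L a = x)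
    (hp0 : Prime (GlueChart.piElt (Algebra.adjoin O ({u} : Set L)) π))
    (hp1 : Prime (GlueChart.piElt (Algebra.adjoin O ({u⁻¹} : Set L)) π))
    (hd0 : IsDedekindDomain (↥(integralClosure (Algebra.adjoin O ({u} : Set L)) L) ⧸
      Ideal.span {GlueChart.piElt (Algebra.adjoin O ({u} : Set L)) π}))
    (hd1 : IsDedekindDomain (↥(integralClosure (Algebra.adjoin O ({u⁻¹} : Set L)) L) ⧸
      Ideal.span {GlueChart.piElt (Algebra.adjoin O ({u⁻¹} : Set L)) π}))
    {G : Type*} [AddCommGroup G] [Finite G] (G0 : AddSubgroup G) (F : G → L) {m : ℕ}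
    (hm : 0 < m)
    (hF1 : ∀ x ∈ G0, ∃ h ∈ gaussRing (K := L) hp0, F x = 1 + algebraMap O L π * h)
    (htriv : ∀ x ∈ G0, ∀ (c : E) (h : L), c ≠ 0 → h ≠ 0 →
      F x = algebraMap E L c * h ^ m → x = 0) :
    ∃ n0 : ℕ, 0 < n0 ∧ ∀ x ∈ G0, ∀ N, n0 ≤ N → ∀ ψ0 ψ1 : L,
      IsRootRel (gaussRing (K := L) hp0) (algebraMap O L π)
        (fun Q : Pt (GlueChart.piElt (Algebra.adjoin O {u}) π) => locRing (K := L) Q) m N
        (fun _ => 1) (F x) ψ0 →
      IsRootRel (gaussRing (K := L) hp0) (algebraMap O L π)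
        (fun Q : Pt (GlueChart.piElt (Algebra.adjoin O {u⁻¹}) π) => locRing (K := L) Q) m N
        (fun _ => 1) (F x) ψ1 →
      (∃ h ∈ gaussRing (K := L) hp0, ψ0 = ψ1 * (1 + algebraMap O L π ^ n0 * h)) → x = 0 :=
  halg_of_twoChartEmb_field (E := E) u htr hOL π (gaussRing (K := L) hp0) _
    (twoChartEmb_sub (E := E) π hπ u htr hp0 hp1 hd0 hd1) G0 F hm hF1 htriv

end Fermat.Agent.S19.Cech.AlgSeam
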