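/-
S19 (program FG), abstract exit of the geometric producer (helper167).

`HasCechCoords ℓ act` is what the two-chart Čech machine (Route C) hands over, with no chart
vocabulary: a valuation ring `A` over `ℓ`, a number field `E` through which the action factors, a
subgroup `G0` with `σ x - x ∈ G0` for inertia, and for every precision `N ≥ n0` coordinates
`X : G → Fin d → ℚ̄` (values in `A ∩ E`) which are inertia-equivariant modulo `ℓ ^ N`, separate the
points of each coset of `G0` modulo `ℓ ^ n0`, and satisfy the twisted group law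
`X (x + y) ≡ F (F (X x, X y), γ x y)  mod ℓ ^ N` with `F` a polynomial family over `A` and `γ`
constant on pairs of cosets.

`hasCongCoords_of_cech` : `HasCechCoords ℓ act → HasCongCoords ℓ act` (averaging over the finite
image of inertia in `Gal(E/ℚ)`, indicator functions of the cosets, polynomial law).
-/
import Mathlib
import Fermat.Agent.S19.Contract

set_option autoImplicit false

noncomputable section

namespace Fermat.Agent.S19.Cech.Exit

open GaloisRep ModularCurve
open Fermat.Agent.S19.HopfOrder Fermat.Agent.S19.Contract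

/-- natural numbers prime to `ℓ` are units of a valuation subring over `ℓ`. -/
theorem inv_natCast_mem {ℓ : ℕ} (hℓ : ℓ.Prime) {A : ValuationSubring Qb} (hA : A.LiesOverPrime ℓ)
    (b : ℕ) (hb : ¬ ℓ ∣ b) : ((b : Qb))⁻¹ ∈ A := by
  have hcop : IsCoprime (b : ℤ) (ℓ : ℤ) := by
    rw [Int.isCoprime_iff_gcd_eq_one]
    have h1 : Nat.Coprime b ℓ := ((Nat.Prime.coprime_iff_not_dvd hℓ).mpr hb).symm
    simpa using h1
  obtain ⟨s, t, hst⟩ := hcop
  let bA : A := ⟨(b : Qb), natCast_mem A b⟩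
  let lA : A := ⟨(ℓ : Qb), natCast_mem A ℓ⟩
  have hl : lA ∈ IsLocalRing.maximalIdeal A := by
    obtain ⟨h1, h2⟩ := (ValuationSubring.mem_nonunits_iff_exists_mem_maximalIdeal).mp hA
    exact h2
  have hu : IsUnit bA := by
    by_contra hnu
    have hb' : bA ∈ IsLocalRing.maximalIdeal A := (IsLocalRing.mem_maximalIdeal _).mpr hnu
    have h1 : (1 : A) ∈ IsLocalRing.maximalIdeal A := by
      have e : (1 : A) = (s : A) * bA + (t : A) * lA := by
        apply Subtype.ext
        have := congrArg (Int.cast : ℤ → Qb) hst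
        push_cast at this
        push_cast
        exact this.symm
      rw [e]
      exact Ideal.add_mem _ (Ideal.mul_mem_left _ _ hb') (Ideal.mul_mem_left _ _ hl)
    exact (Ideal.ne_top_iff_one _).mp (IsLocalRing.maximalIdeal.isMaximal A).ne_top h1
  obtain ⟨u, hu⟩ := hu
  have h2 : (b : Qb) * (((u⁻¹ : Aˣ) : A) : Qb) = 1 := by
    have h3 := congrArg (Subtype.val : A → Qb) u.mul_inv
    rw [hu] at h3
    exact h3
  rw [inv_eq_of_mul_eq_one_right h2]
  exact Subtype.prop _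

/-- `ℓ ^ n ∈ n • A` for `n ≥ 1`. -/
theorem exists_pow_eq_natCast_mul {ℓ : ℕ} (hℓ : ℓ.Prime) {A : ValuationSubring Qb}
    (hA : A.LiesOverPrime ℓ) (n : ℕ) (hn : n ≠ 0) :
    ∃ r ∈ A, (ℓ : Qb) ^ n = (n : Qb) * r := by
  obtain ⟨a, b, hb, rfl⟩ := Nat.exists_eq_pow_mul_and_not_dvd hn ℓ hℓ.ne_one
  have hb0 : b ≠ 0 := fun h => hb (h ▸ dvd_zero ℓ)
  have ha : a ≤ ℓ ^ a * b := by
    have h1 : a < ℓ ^ a := Nat.lt_pow_self hℓ.one_lt
    have h2 : ℓ ^ a ≤ ℓ ^ a * b := Nat.le_mul_of_pos_right _ (Nat.pos_of_ne_zero hb0)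
    omega
  refine ⟨(ℓ : Qb) ^ (ℓ ^ a * b - a) * ((b : Qb))⁻¹,
    A.mul_mem _ _ (pow_mem (natCast_mem A ℓ) _) (inv_natCast_mem hℓ hA b hb), ?_⟩
  have hbq : (b : Qb) ≠ 0 := Nat.cast_ne_zero.mpr hb0
  have e : (ℓ : Qb) ^ (ℓ ^ a * b) = (ℓ : Qb) ^ a * (ℓ : Qb) ^ (ℓ ^ a * b - a) := by
    rw [← pow_add]
    congr 1
    omega
  rw [e]
  push_cast
  field_simp

/-- Polynomials preserve congruences modulo an ideal. -/
theorem eval_sub_mem {R ι : Type*} [CommRing R] (J : Ideal R) (a b : ι → R)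
    (hab : ∀ i, a i - b i ∈ J) (p : MvPolynomial ι R) :
    MvPolynomial.eval a p - MvPolynomial.eval b p ∈ J := by
  induction p using MvPolynomial.induction_on with
  | C r => simp
  | add p q hp hq =>
    have e : MvPolynomial.eval a (p + q) - MvPolynomial.eval b (p + q) =
        (MvPolynomial.eval a p - MvPolynomial.eval b p) +
          (MvPolynomial.eval a q - MvPolynomial.eval b q) := by
      simp only [map_add]; ring
    rw [e]
    exact J.add_mem hp hq
  | mul_X p i hp =>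
    have e : MvPolynomial.eval a (p * MvPolynomial.X i) - MvPolynomial.eval b (p * MvPolynomial.X i)
        = (MvPolynomial.eval a p - MvPolynomial.eval b p) * a i +
          MvPolynomial.eval b p * (a i - b i) := by
      simp only [map_mul, MvPolynomial.eval_X]; ring
    rw [e]
    exact J.add_mem (J.mul_mem_right _ hp) (J.mul_mem_left _ (hab i))

/-- Evaluation of a polynomial with coefficients in a valuation subring at a point of it. -/
theorem eval_map_subtype (A : ValuationSubring Qb) {ι : Type*} (a : ι → A)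
    (p : MvPolynomial ι A) :
    MvPolynomial.eval (fun i => ((a i : A) : Qb)) (MvPolynomial.map A.subtype p) =
      ((MvPolynomial.eval a p : A) : Qb) := by
  rw [MvPolynomial.eval_map]
  have h := MvPolynomial.eval₂_comp_left A.subtype (RingHom.id A) a p
  rw [MvPolynomial.eval₂_id] at h
  exact h.symm

theorem eval_bind₁' {R σ τ : Type*} [CommRing R] (pt : τ → R) (g : σ → MvPolynomial τ R)
    (φ : MvPolynomial σ R) :
    MvPolynomial.eval pt (MvPolynomial.bind₁ g φ) =
      MvPolynomial.eval (fun k => MvPolynomial.eval pt (g k)) φ :=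
  MvPolynomial.eval₂Hom_bind₁ (RingHom.id R) pt g φ

/-- **Averaging over the finite image of inertia.** -/
theorem exists_average {ℓ : ℕ} (hℓ : ℓ.Prime) {A : ValuationSubring Qb} (hA : A.LiesOverPrime ℓ)
    (E : IntermediateField ℚ Qb) [FiniteDimensional ℚ E] {G : Type} (act : Gal → G → G)
    (hone : ∀ x, act 1 x = x) (hmul : ∀ σ τ x, act (σ * τ) x = act σ (act τ x))
    (hlev : ∀ σ : Gal, σ ∈ E.fixingSubgroup → ∀ x, act σ x = x) :
    ∃ c0 : ℕ, ∀ (N : ℕ) (X : G → Qb), (∀ x, X x ∈ A) → (∀ x, X x ∈ E) →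
      (∀ σ ∈ A.inertiaSubgroupIn ℚ, ∀ x, ∃ r ∈ A, X (act σ x) = σ (X x) + (ℓ : Qb) ^ N * r) →
      c0 ≤ N →
      ∃ Y : G → Qb, (∀ σ ∈ A.inertiaSubgroupIn ℚ, ∀ x, Y (act σ x) = σ (Y x)) ∧
        ∀ x, ∃ r ∈ A, Y x = X x + (ℓ : Qb) ^ (N - c0) * r := by
  classical
  set I : Subgroup Gal := A.inertiaSubgroupIn ℚ with hI
  let K : Subgroup ↥I := E.fixingSubgroup.subgroupOf I
  have hrel : ∀ g g' : ↥I, (QuotientGroup.leftRel K) g g' →
      ((g : Gal)⁻¹ * (g' : Gal)) ∈ E.fixingSubgroup := by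
    intro g g' h
    rw [QuotientGroup.leftRel_apply, Subgroup.mem_subgroupOf] at h
    simpa using h
  have hinv : ∀ (σ : Gal) (z : Qb), σ (σ⁻¹ z) = z := fun σ z => by
    have : (σ * σ⁻¹) z = z := by rw [mul_inv_cancel]; rfl
    exact this
  have hinv' : ∀ (σ : Gal) (z : Qb), σ⁻¹ (σ z) = z := fun σ z => by
    have : (σ⁻¹ * σ) z = z := by rw [inv_mul_cancel]; rfl
    exact this
  -- finiteness of `I ⧸ K`
  have hfin : Finite (↥I ⧸ K) := by
    let f : (↥I ⧸ K) → (E →ₐ[ℚ] Qb) := fun q =>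
      Quotient.liftOn' q
        (fun g : ↥I => (((g : Gal) : Qb →+* Qb).comp (algebraMap E Qb)).toRatAlgHom) (by
        intro g g' hgg'
        have h1 := hrel g g' hgg'
        ext z
        have h2 := (IntermediateField.mem_fixingSubgroup_iff E _).mp h1 z z.2
        have h3 : ((g : Gal)⁻¹ * (g' : Gal)) (z : Qb) = (g : Gal)⁻¹ ((g' : Gal) (z : Qb)) := rfl
        rw [h3] at h2
        have h4 : (g : Gal) ((g : Gal)⁻¹ ((g' : Gal) (z : Qb))) = (g : Gal) (z : Qb) := by rw [h2]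
        rw [hinv] at h4
        exact h4.symm)
    apply Finite.of_injective f
    intro q q' hqq'
    induction q using Quotient.inductionOn' with
    | _ g =>
      induction q' using Quotient.inductionOn' with
      | _ g' =>
        apply Quotient.sound'
        rw [QuotientGroup.leftRel_apply, Subgroup.mem_subgroupOf,
          IntermediateField.mem_fixingSubgroup_iff]
        intro z hz
        have h1 := congrArg (fun φ : E →ₐ[ℚ] Qb => φ ⟨z, hz⟩) hqq'
        have h2 : (g : Gal) z = (g' : Gal) z := h1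
        change ((g : Gal)⁻¹ * (g' : Gal)) z = z
        change (g : Gal)⁻¹ ((g' : Gal) z) = z
        rw [← h2, hinv']
  haveI : Fintype (↥I ⧸ K) := Fintype.ofFinite _
  haveI : Nonempty (↥I ⧸ K) := ⟨QuotientGroup.mk (1 : ↥I)⟩
  have hcard : Fintype.card (↥I ⧸ K) ≠ 0 := Fintype.card_ne_zero
  refine ⟨Fintype.card (↥I ⧸ K), ?_⟩
  intro N X hXA hXE hXeq hN
  set c0 := Fintype.card (↥I ⧸ K) with hc0
  -- the summand
  have hwd : ∀ (x : G) (g g' : ↥I), (QuotientGroup.leftRel K) g g' →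
      (g : Gal) (X (act (g : Gal)⁻¹ x)) = (g' : Gal) (X (act (g' : Gal)⁻¹ x)) := by
    intro x g g' hgg'
    have h1 := hrel g g' hgg'
    have h1' : ((g : Gal)⁻¹ * (g' : Gal))⁻¹ ∈ E.fixingSubgroup := inv_mem h1
    have e1 : (g' : Gal)⁻¹ = ((g : Gal)⁻¹ * (g' : Gal))⁻¹ * (g : Gal)⁻¹ := by group
    have e2 : act (g' : Gal)⁻¹ x = act (g : Gal)⁻¹ x := by
      rw [e1, hmul, hlev _ h1']
    rw [e2]
    have h2 := (IntermediateField.mem_fixingSubgroup_iff E _).mp h1 _ (hXE (act (g : Gal)⁻¹ x))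
    have h3 : ((g : Gal)⁻¹ * (g' : Gal)) (X (act (g : Gal)⁻¹ x)) =
        (g : Gal)⁻¹ ((g' : Gal) (X (act (g : Gal)⁻¹ x))) := rfl
    rw [h3] at h2
    have h4 := congrArg (fun z => (g : Gal) z) h2
    simp only [hinv] at h4
    exact h4.symm
  let Φ : G → (↥I ⧸ K) → Qb := fun x q =>
    Quotient.liftOn' q (fun g : ↥I => (g : Gal) (X (act (g : Gal)⁻¹ x))) (hwd x)
  have hΦmk : ∀ (x : G) (g : ↥I), Φ x (QuotientGroup.mk g) = (g : Gal) (X (act (g : Gal)⁻¹ x)) :=
    fun x g => rfl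
  refine ⟨fun x => ((c0 : Qb))⁻¹ * ∑ q : ↥I ⧸ K, Φ x q, ?_, ?_⟩
  · -- exact equivariance
    intro σ hσ x
    let s : ↥I := ⟨σ, hσ⟩
    have hterm : ∀ q : ↥I ⧸ K, Φ (act σ x) q = σ (Φ x (s⁻¹ • q)) := by
      intro q
      induction q using Quotient.inductionOn' with
      | _ g =>
        change Φ (act σ x) (QuotientGroup.mk g) = σ (Φ x (s⁻¹ • (QuotientGroup.mk g)))
        rw [MulAction.Quotient.smul_mk, hΦmk, hΦmk]
        have e1 : act (g : Gal)⁻¹ (act σ x) = act ((g : Gal)⁻¹ * σ) x := (hmul _ _ _).symm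
        have e2 : ((s⁻¹ • g : ↥I) : Gal) = σ⁻¹ * (g : Gal) := rfl
        rw [e1, e2]
        have e3 : (σ⁻¹ * (g : Gal))⁻¹ = (g : Gal)⁻¹ * σ := by group
        rw [e3]
        change _ = σ (σ⁻¹ ((g : Gal) (X (act ((g : Gal)⁻¹ * σ) x))))
        rw [hinv]
    have hsum : ∑ q : ↥I ⧸ K, Φ (act σ x) q = σ (∑ q : ↥I ⧸ K, Φ x q) := by
      rw [map_sum]
      rw [Finset.sum_congr rfl (fun q _ => hterm q)]
      exact Fintype.sum_equiv (MulAction.toPerm s⁻¹) _ _ (fun q => rfl)
    change ((c0 : Qb))⁻¹ * ∑ q : ↥I ⧸ K, Φ (act σ x) q = σ (((c0 : Qb))⁻¹ * ∑ q : ↥I ⧸ K, Φ x q)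
    rw [hsum, map_mul, map_inv₀, map_natCast]
  · -- approximation
    intro x
    have hterm : ∀ q : ↥I ⧸ K, ∃ r ∈ A, Φ x q = X x + (ℓ : Qb) ^ N * r := by
      intro q
      induction q using Quotient.inductionOn' with
      | _ g =>
        change ∃ r ∈ A, Φ x (QuotientGroup.mk g) = X x + (ℓ : Qb) ^ N * r
        rw [hΦmk]
        obtain ⟨r, hr, he⟩ := hXeq (g : Gal) g.2 (act (g : Gal)⁻¹ x)
        have e1 : act (g : Gal) (act (g : Gal)⁻¹ x) = x := by
          rw [← hmul, mul_inv_cancel, hone]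
        rw [e1] at he
        refine ⟨-r, neg_mem hr, ?_⟩
        rw [he]; ring
    choose r hr hΦ using hterm
    obtain ⟨r0, hr0, he0⟩ := exists_pow_eq_natCast_mul hℓ hA c0 hcard
    refine ⟨r0 * ∑ q : ↥I ⧸ K, r q, A.mul_mem _ _ hr0 (sum_mem (fun q _ => hr q)), ?_⟩
    have hc0q : (c0 : Qb) ≠ 0 := Nat.cast_ne_zero.mpr hcard
    have e1 : ∑ q : ↥I ⧸ K, Φ x q = (c0 : Qb) * X x + (ℓ : Qb) ^ N * ∑ q : ↥I ⧸ K, r q := by
      rw [Finset.sum_congr rfl (fun q _ => hΦ q), Finset.sum_add_distrib, Finset.sum_const,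
        Finset.card_univ, ← Finset.mul_sum, nsmul_eq_mul]
    have e2 : (ℓ : Qb) ^ N = (ℓ : Qb) ^ (N - c0) * (ℓ : Qb) ^ c0 := by
      rw [← pow_add]; congr 1; omega
    change ((c0 : Qb))⁻¹ * ∑ q : ↥I ⧸ K, Φ x q = _
    rw [e1, e2, he0]
    field_simp

/-- The system of coordinates of `HasCongCoords` at one precision, for an arbitrary finite index
type and with polynomials over the valuation ring. -/
theorem exists_fin_system {ℓ : ℕ} {A : ValuationSubring Qb} {G : Type} [AddCommGroup G]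
    (act : Gal → G → G) (c N : ℕ) {ι : Type} [Fintype ι]
    (τ : ι → G → A) (P : ι → MvPolynomial (ι ⊕ ι) A)
    (heq : ∀ j, ∀ σ ∈ A.inertiaSubgroupIn ℚ, ∀ x, ((τ j (act σ x) : A) : Qb) = σ (τ j x : Qb))
    (hsep : ∀ x y, x ≠ y → ∃ j, ¬ ∃ r ∈ A, ((τ j x : A) : Qb) - (τ j y : Qb) = (ℓ : Qb) ^ c * r)
    (hlaw : ∀ j x y, ∃ r ∈ A, ((τ j (x + y) : A) : Qb) =
      ((MvPolynomial.eval (Sum.elim (fun i => τ i x) (fun i => τ i y)) (P j) : A) : Qb)
        + (ℓ : Qb) ^ N * r) :
    ∃ (n : ℕ) (τ : Fin n → G → Qb) (P : Fin n → MvPolynomial (Fin n ⊕ Fin n) Qb),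
      (∀ j x, τ j x ∈ A) ∧
      (∀ j, ∀ σ ∈ A.inertiaSubgroupIn ℚ, ∀ x, τ j (act σ x) = σ (τ j x)) ∧
      (∀ x y, x ≠ y → ∃ j, ¬ ∃ r ∈ A, τ j x - τ j y = (ℓ : Qb) ^ c * r) ∧
      (∀ j m, (P j).coeff m ∈ A) ∧
      (∀ j x y, ∃ r ∈ A, τ j (x + y) =
        MvPolynomial.eval (Sum.elim (fun i => τ i x) (fun i => τ i y)) (P j) + (ℓ : Qb) ^ N * r) := by
  classical
  let e : ι ≃ Fin (Fintype.card ι) := Fintype.equivFin ι
  refine ⟨Fintype.card ι, fun j x => ((τ (e.symm j) x : A) : Qb),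
    fun j => MvPolynomial.map A.subtype (MvPolynomial.rename (Sum.map e e) (P (e.symm j))),
    fun j x => Subtype.prop _, fun j σ hσ x => heq (e.symm j) σ hσ x, ?_, ?_, ?_⟩
  · intro x y hxy
    obtain ⟨j, hj⟩ := hsep x y hxy
    refine ⟨e j, ?_⟩
    simpa using hj
  · intro j m
    rw [MvPolynomial.coeff_map]
    exact Subtype.prop _
  · intro j x y
    obtain ⟨r, hr, he⟩ := hlaw (e.symm j) x y
    refine ⟨r, hr, ?_⟩
    have h1 : (Sum.elim (fun i => ((τ (e.symm i) x : A) : Qb)) (fun i => ((τ (e.symm i) y : A) : Qb)))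
        = fun k => (((Sum.elim (fun i => τ (e.symm i) x) (fun i => τ (e.symm i) y) k : A)) : Qb) := by
      funext k
      cases k <;> rfl
    rw [h1, eval_map_subtype, MvPolynomial.eval_rename]
    have h2 : (Sum.elim (fun i => τ (e.symm i) x) (fun i => τ (e.symm i) y)) ∘ Sum.map e e
        = Sum.elim (fun i => τ i x) (fun i => τ i y) := by
      funext k
      cases k <;> simp
    rw [h2]
    exact he

/-- **Čech coordinates** (the exit of the geometric producer). -/
def HasCechCoords (ℓ : ℕ) {G : Type} [AddCommGroup G] (act : Gal → G → G) : Prop :=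
  ∃ A : ValuationSubring Qb, A.LiesOverPrime ℓ ∧
  ∃ E : IntermediateField ℚ Qb, FiniteDimensional ℚ E ∧
    (∀ σ : Gal, σ ∈ E.fixingSubgroup → ∀ x, act σ x = x) ∧
  ∃ G0 : AddSubgroup G, (∀ σ ∈ A.inertiaSubgroupIn ℚ, ∀ x, act σ x - x ∈ G0) ∧
  ∃ d n0 : ℕ, ∀ N : ℕ, n0 ≤ N →
    ∃ (X : G → Fin d → Qb) (F : Fin d → MvPolynomial (Fin d ⊕ Fin d) Qb)
      (γ : G → G → Fin d → Qb),
      (∀ x i, X x i ∈ A) ∧ (∀ x i, X x i ∈ E) ∧
      (∀ i m, (F i).coeff m ∈ A) ∧
      (∀ x y i, γ x y i ∈ A) ∧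
      (∀ x x' y y', x - x' ∈ G0 → y - y' ∈ G0 → γ x y = γ x' y') ∧
      (∀ σ ∈ A.inertiaSubgroupIn ℚ, ∀ x i, ∃ r ∈ A,
        X (act σ x) i = σ (X x i) + (ℓ : Qb) ^ N * r) ∧
      (∀ x y, x ≠ y → x - y ∈ G0 → ∃ i, ¬ ∃ r ∈ A, X x i - X y i = (ℓ : Qb) ^ n0 * r) ∧
      (∀ x y i, ∃ r ∈ A, X (x + y) i =
        MvPolynomial.eval
          (Sum.elim (fun j => MvPolynomial.eval (Sum.elim (X x) (X y)) (F j)) (γ x y)) (F i)
          + (ℓ : Qb) ^ N * r)

/-- **From the Čech exit to congruence coordinates.** -/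
theorem hasCongCoords_of_cech {ℓ : ℕ} (hℓ : ℓ.Prime) {G : Type} [AddCommGroup G] [Finite G]
    (act : Gal → G → G)
    (hone : ∀ x, act 1 x = x)
    (hmul : ∀ σ τ x, act (σ * τ) x = act σ (act τ x))
    (h : HasCechCoords ℓ act) : HasCongCoords ℓ act := by
  classical
  obtain ⟨A, hA, E, hE, hlev, G0, hG0, d, n0, hfam⟩ := h
  haveI := hE
  obtain ⟨c0, hc0⟩ := exists_average hℓ hA E act hone hmul hlev
  refine ⟨A, hA, max n0 1, fun N' => ?_⟩
  obtain ⟨N1, hN1⟩ : ∃ N1, N1 = max N' n0 := ⟨_, rfl⟩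
  have hN1a : N' ≤ N1 := by omega
  have hN1b : n0 ≤ N1 := by omega
  obtain ⟨X, F, γ, hXA, hXE, hFA, hγA, hγc, hXeq, hXsep, hXlaw⟩ := hfam (N1 + c0) (by omega)
  have hav := fun i : Fin d => hc0 (N1 + c0) (fun x => X x i) (fun x => hXA x i)
    (fun x => hXE x i) (fun σ hσ x => hXeq σ hσ x i) (by omega)
  choose Y hYeq hYapp using hav
  simp only [Nat.add_sub_cancel] at hYapp
  have hlA : (ℓ : Qb) ∈ A := natCast_mem A ℓ
  have hYA : ∀ i x, Y i x ∈ A := by
    intro i x
    obtain ⟨r, hr, he⟩ := hYapp i x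
    rw [he]
    exact A.add_mem _ _ (hXA x i) (A.mul_mem _ _ (pow_mem hlA _) hr)
  -- the valuation-ring level
  let lA : A := ⟨(ℓ : Qb), hlA⟩
  let J : Ideal A := Ideal.span {lA ^ N1}
  have hJ : ∀ a : A, a ∈ J ↔ ∃ r ∈ A, (a : Qb) = (ℓ : Qb) ^ N1 * r := by
    intro a
    rw [Ideal.mem_span_singleton']
    constructor
    · rintro ⟨b, rfl⟩
      refine ⟨b, b.2, ?_⟩
      change (b : Qb) * (ℓ : Qb) ^ N1 = _
      ring
    · rintro ⟨r, hr, he⟩
      refine ⟨⟨r, hr⟩, Subtype.ext ?_⟩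
      change r * (ℓ : Qb) ^ N1 = _
      rw [he]; ring
  let X' : G → Fin d → A := fun x i => ⟨X x i, hXA x i⟩
  let Y' : G → Fin d → A := fun x i => ⟨Y i x, hYA i x⟩
  let γ' : G → G → Fin d → A := fun x y i => ⟨γ x y i, hγA x y i⟩
  have hF' : ∀ i, ∃ F' : MvPolynomial (Fin d ⊕ Fin d) A,
      MvPolynomial.map A.subtype F' = F i := by
    intro i
    have h1 : F i ∈ Set.range (MvPolynomial.map (A.subtype : A →+* Qb)) := by
      rw [MvPolynomial.mem_range_map_iff_coeffs_subset]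
      intro c hc
      obtain ⟨m, -, rfl⟩ := MvPolynomial.mem_coeffs_iff.mp hc
      exact ⟨⟨_, hFA i m⟩, rfl⟩
    exact h1
  choose F' hF' using hF'
  -- (a) `Y' ≡ X'` modulo `J`
  have hYX : ∀ x i, Y' x i - X' x i ∈ J := by
    intro x i
    rw [hJ]
    obtain ⟨r, hr, he⟩ := hYapp i x
    refine ⟨r, hr, ?_⟩
    change Y i x - X x i = _
    rw [he]; ring
  -- coercions of evaluations
  have e1 : ∀ x y j, ((MvPolynomial.eval (Sum.elim (X' x) (X' y)) (F' j) : A) : Qb) =
      MvPolynomial.eval (Sum.elim (X x) (X y)) (F j) := by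
    intro x y j
    have hfun : (fun k => ((Sum.elim (X' x) (X' y) k : A) : Qb)) = Sum.elim (X x) (X y) := by
      funext k
      cases k <;> rfl
    rw [← hF' j, ← eval_map_subtype, hfun]
  have e2 : ∀ x y i, ((MvPolynomial.eval (Sum.elim
      (fun j => MvPolynomial.eval (Sum.elim (X' x) (X' y)) (F' j)) (γ' x y)) (F' i) : A) : Qb) =
      MvPolynomial.eval (Sum.elim
        (fun j => MvPolynomial.eval (Sum.elim (X x) (X y)) (F j)) (γ x y)) (F i) := by
    intro x y i
    have hfun : (fun k => ((Sum.elim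
        (fun j => MvPolynomial.eval (Sum.elim (X' x) (X' y)) (F' j)) (γ' x y) k : A) : Qb)) =
        Sum.elim (fun j => MvPolynomial.eval (Sum.elim (X x) (X y)) (F j)) (γ x y) := by
      funext k
      cases k with
      | inl j => exact e1 x y j
      | inr j => rfl
    rw [← eval_map_subtype, hfun, hF' i]
  -- (b) the law for `X'` modulo `J`
  have hX'law : ∀ x y i, X' (x + y) i - MvPolynomial.eval (Sum.elim
      (fun j => MvPolynomial.eval (Sum.elim (X' x) (X' y)) (F' j)) (γ' x y)) (F' i) ∈ J := by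
    intro x y i
    rw [hJ]
    obtain ⟨r, hr, he⟩ := hXlaw x y i
    refine ⟨(ℓ : Qb) ^ c0 * r, A.mul_mem _ _ (pow_mem hlA _) hr, ?_⟩
    change X (x + y) i - ((MvPolynomial.eval (Sum.elim
      (fun j => MvPolynomial.eval (Sum.elim (X' x) (X' y)) (F' j)) (γ' x y)) (F' i) : A) : Qb) = _
    rw [e2, he, pow_add]; ring
  -- (c) the law for `Y'` modulo `J`
  have hY'law : ∀ x y i, Y' (x + y) i - MvPolynomial.eval (Sum.elim
      (fun j => MvPolynomial.eval (Sum.elim (Y' x) (Y' y)) (F' j)) (γ' x y)) (F' i) ∈ J := by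
    intro x y i
    have h1 : ∀ j, MvPolynomial.eval (Sum.elim (Y' x) (Y' y)) (F' j) -
        MvPolynomial.eval (Sum.elim (X' x) (X' y)) (F' j) ∈ J := by
      intro j
      apply eval_sub_mem
      intro k
      cases k with
      | inl k => exact hYX x k
      | inr k => exact hYX y k
    have h2 : MvPolynomial.eval (Sum.elim
          (fun j => MvPolynomial.eval (Sum.elim (Y' x) (Y' y)) (F' j)) (γ' x y)) (F' i) -
        MvPolynomial.eval (Sum.elim
          (fun j => MvPolynomial.eval (Sum.elim (X' x) (X' y)) (F' j)) (γ' x y)) (F' i) ∈ J := by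
      apply eval_sub_mem
      intro k
      cases k with
      | inl k => exact h1 k
      | inr k => simp
    have h3 := hX'law x y i
    have h4 := hYX (x + y) i
    have e : Y' (x + y) i - MvPolynomial.eval (Sum.elim
        (fun j => MvPolynomial.eval (Sum.elim (Y' x) (Y' y)) (F' j)) (γ' x y)) (F' i) =
        (Y' (x + y) i - X' (x + y) i) + (X' (x + y) i - MvPolynomial.eval (Sum.elim
          (fun j => MvPolynomial.eval (Sum.elim (X' x) (X' y)) (F' j)) (γ' x y)) (F' i)) -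
        (MvPolynomial.eval (Sum.elim
          (fun j => MvPolynomial.eval (Sum.elim (Y' x) (Y' y)) (F' j)) (γ' x y)) (F' i) -
        MvPolynomial.eval (Sum.elim
          (fun j => MvPolynomial.eval (Sum.elim (X' x) (X' y)) (F' j)) (γ' x y)) (F' i)) := by
      ring
    rw [e]
    exact J.sub_mem (J.add_mem h4 h3) h2
  -- cosets of `G0`
  haveI : Fintype (G ⧸ G0) := Fintype.ofFinite _
  let γq : (G ⧸ G0) → (G ⧸ G0) → Fin d → A := fun q1 q2 =>
    γ' (Quotient.out q1) (Quotient.out q2)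
  have hmk : ∀ x y : G, ((x : G ⧸ G0) = (y : G ⧸ G0)) ↔ x - y ∈ G0 := by
    intro x y
    rw [QuotientAddGroup.eq]
    have e : x - y = -(-x + y) := by abel
    rw [e, neg_mem_iff]
  have hout : ∀ x : G, x - Quotient.out (x : G ⧸ G0) ∈ G0 := by
    intro x
    rw [← hmk]
    exact (QuotientAddGroup.out_eq' _).symm
  have hγq : ∀ x y, γ' x y = γq x y := by
    intro x y
    funext i
    apply Subtype.ext
    exact congrFun (hγc x (Quotient.out (x : G ⧸ G0)) y (Quotient.out (y : G ⧸ G0))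
      (hout x) (hout y)) i
  -- coordinates and polynomials
  let τ : ((G ⧸ G0) ⊕ Fin d) → G → A :=
    Sum.elim (fun q x => if (x : G ⧸ G0) = q then 1 else 0) (fun i x => Y' x i)
  let Zp : Fin d ⊕ Fin d → MvPolynomial (((G ⧸ G0) ⊕ Fin d) ⊕ ((G ⧸ G0) ⊕ Fin d)) A :=
    Sum.elim (fun j => MvPolynomial.X (Sum.inl (Sum.inr j)))
      (fun j => MvPolynomial.X (Sum.inr (Sum.inr j)))
  let P : ((G ⧸ G0) ⊕ Fin d) →
      MvPolynomial (((G ⧸ G0) ⊕ Fin d) ⊕ ((G ⧸ G0) ⊕ Fin d)) A :=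
    Sum.elim
      (fun q => ∑ q1 : G ⧸ G0, MvPolynomial.X (Sum.inl (Sum.inl q1)) *
        MvPolynomial.X (Sum.inr (Sum.inl (q - q1))))
      (fun i => ∑ q1 : G ⧸ G0, ∑ q2 : G ⧸ G0,
        MvPolynomial.X (Sum.inl (Sum.inl q1)) * MvPolynomial.X (Sum.inr (Sum.inl q2)) *
          MvPolynomial.bind₁ (Sum.elim (fun j => MvPolynomial.bind₁ Zp (F' j))
            (fun j => MvPolynomial.C (γq q1 q2 j))) (F' i))
  have hunit : ¬ ∃ s ∈ A, (ℓ : Qb) * s = 1 := by
    rintro ⟨s, hs, he⟩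
    obtain ⟨h1, h2⟩ := (ValuationSubring.mem_nonunits_iff_exists_mem_maximalIdeal).mp hA
    have h3 : (1 : A) ∈ IsLocalRing.maximalIdeal A := by
      have e : (1 : A) = (⟨(ℓ : Qb), h1⟩ : A) * ⟨s, hs⟩ := Subtype.ext he.symm
      rw [e]
      exact Ideal.mul_mem_right _ _ h2
    exact (Ideal.ne_top_iff_one _).mp (IsLocalRing.maximalIdeal.isMaximal A).ne_top h3
  refine exists_fin_system act (max n0 1) N' τ P ?_ ?_ ?_
  · -- equivariance
    intro k σ hσ x
    cases k with
    | inl q =>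
      have h1 : ((act σ x : G) : G ⧸ G0) = (x : G ⧸ G0) := (hmk _ _).mpr (hG0 σ hσ x)
      change (((if ((act σ x : G) : G ⧸ G0) = q then 1 else 0 : A)) : Qb) =
        σ (((if (x : G ⧸ G0) = q then 1 else 0 : A)) : Qb)
      rw [h1]
      split_ifs <;> simp
    | inr i => exact hYeq i σ hσ x
  · -- separation
    intro x y hxy
    by_cases hq : (x : G ⧸ G0) = (y : G ⧸ G0)
    · have hxy0 : x - y ∈ G0 := (hmk x y).mp hq
      obtain ⟨i, hi⟩ := hXsep x y hxy hxy0
      refine ⟨Sum.inr i, ?_⟩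
      rintro ⟨r, hr, he⟩
      apply hi
      obtain ⟨r1, hr1, e1⟩ := hYapp i x
      obtain ⟨r2, hr2, e2⟩ := hYapp i y
      change Y i x - Y i y = _ at he
      have p1 : (ℓ : Qb) ^ (max n0 1) = (ℓ : Qb) ^ n0 * (ℓ : Qb) ^ (max n0 1 - n0) := by
        rw [← pow_add]; congr 1; omega
      have p2 : (ℓ : Qb) ^ N1 = (ℓ : Qb) ^ n0 * (ℓ : Qb) ^ (N1 - n0) := by
        rw [← pow_add]; congr 1; omega
      refine ⟨(ℓ : Qb) ^ (max n0 1 - n0) * r - (ℓ : Qb) ^ (N1 - n0) * (r1 - r2),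
        sub_mem (A.mul_mem _ _ (pow_mem hlA _) hr)
          (A.mul_mem _ _ (pow_mem hlA _) (sub_mem hr1 hr2)), ?_⟩
      rw [e1, e2, p2] at he
      rw [p1] at he
      linear_combination he
    · refine ⟨Sum.inl (x : G ⧸ G0), ?_⟩
      rintro ⟨r, hr, he⟩
      have hq' : ¬ (y : G ⧸ G0) = (x : G ⧸ G0) := fun h => hq h.symm
      change (((if (x : G ⧸ G0) = (x : G ⧸ G0) then 1 else 0 : A)) : Qb) -
        (((if (y : G ⧸ G0) = (x : G ⧸ G0) then 1 else 0 : A)) : Qb) = _ at he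
      rw [if_pos rfl, if_neg hq'] at he
      apply hunit
      refine ⟨(ℓ : Qb) ^ (max n0 1 - 1) * r, A.mul_mem _ _ (pow_mem hlA _) hr, ?_⟩
      have p1 : (ℓ : Qb) ^ (max n0 1) = (ℓ : Qb) * (ℓ : Qb) ^ (max n0 1 - 1) := by
        rw [← pow_succ']; congr 1; omega
      rw [p1] at he
      simp only [OneMemClass.coe_one, ZeroMemClass.coe_zero, sub_zero] at he
      rw [he]; ring
  · -- the law
    intro k x y
    have hpt : (fun k => MvPolynomial.eval (Sum.elim (fun i => τ i x) (fun i => τ i y)) (Zp k)) =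
        Sum.elim (Y' x) (Y' y) := by
      funext k
      cases k <;> simp [Zp, τ]
    cases k with
    | inl q =>
      refine ⟨0, zero_mem _, ?_⟩
      rw [mul_zero, add_zero]
      congr 1
      change (if ((x + y : G) : G ⧸ G0) = q then (1 : A) else 0) =
        MvPolynomial.eval (Sum.elim (fun i => τ i x) (fun i => τ i y))
          (∑ q1 : G ⧸ G0, MvPolynomial.X (Sum.inl (Sum.inl q1)) *
            MvPolynomial.X (Sum.inr (Sum.inl (q - q1))))
      rw [map_sum]
      have hs : ∀ q1 : G ⧸ G0, MvPolynomial.eval (Sum.elim (fun i => τ i x) (fun i => τ i y))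
          (MvPolynomial.X (Sum.inl (Sum.inl q1)) * MvPolynomial.X (Sum.inr (Sum.inl (q - q1)))) =
          if (x : G ⧸ G0) = q1 then (if (y : G ⧸ G0) = q - q1 then (1 : A) else 0) else 0 := by
        intro q1
        simp only [map_mul, MvPolynomial.eval_X, Sum.elim_inl, Sum.elim_inr, τ]
        split_ifs <;> simp
      rw [Finset.sum_congr rfl (fun q1 _ => hs q1), Finset.sum_ite_eq]
      simp only [Finset.mem_univ, if_true]
      have hiff : (((x + y : G) : G ⧸ G0) = q) ↔ ((y : G ⧸ G0) = q - (x : G ⧸ G0)) := by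
        rw [QuotientAddGroup.mk_add, eq_sub_iff_add_eq']
      simp only [hiff]
    | inr i =>
      obtain ⟨r, hr, he⟩ := (hJ _).mp (hY'law x y i)
      refine ⟨(ℓ : Qb) ^ (N1 - N') * r, A.mul_mem _ _ (pow_mem hlA _) hr, ?_⟩
      have hev : MvPolynomial.eval (Sum.elim (fun i => τ i x) (fun i => τ i y)) (P (Sum.inr i)) =
          MvPolynomial.eval (Sum.elim
            (fun j => MvPolynomial.eval (Sum.elim (Y' x) (Y' y)) (F' j)) (γ' x y)) (F' i) := by
        change MvPolynomial.eval (Sum.elim (fun i => τ i x) (fun i => τ i y))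
          (∑ q1 : G ⧸ G0, ∑ q2 : G ⧸ G0,
            MvPolynomial.X (Sum.inl (Sum.inl q1)) * MvPolynomial.X (Sum.inr (Sum.inl q2)) *
              MvPolynomial.bind₁ (Sum.elim (fun j => MvPolynomial.bind₁ Zp (F' j))
                (fun j => MvPolynomial.C (γq q1 q2 j))) (F' i)) = _
        rw [map_sum]
        have hs : ∀ q1 : G ⧸ G0, MvPolynomial.eval (Sum.elim (fun i => τ i x) (fun i => τ i y))
            (∑ q2 : G ⧸ G0,
              MvPolynomial.X (Sum.inl (Sum.inl q1)) * MvPolynomial.X (Sum.inr (Sum.inl q2)) *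
                MvPolynomial.bind₁ (Sum.elim (fun j => MvPolynomial.bind₁ Zp (F' j))
                  (fun j => MvPolynomial.C (γq q1 q2 j))) (F' i)) =
            if (x : G ⧸ G0) = q1 then
              MvPolynomial.eval (Sum.elim (fun i => τ i x) (fun i => τ i y))
                (MvPolynomial.bind₁ (Sum.elim (fun j => MvPolynomial.bind₁ Zp (F' j))
                  (fun j => MvPolynomial.C (γq q1 (y : G ⧸ G0) j))) (F' i))
            else 0 := by
          intro q1
          rw [map_sum]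
          have hs2 : ∀ q2 : G ⧸ G0,
              MvPolynomial.eval (Sum.elim (fun i => τ i x) (fun i => τ i y))
                (MvPolynomial.X (Sum.inl (Sum.inl q1)) * MvPolynomial.X (Sum.inr (Sum.inl q2)) *
                  MvPolynomial.bind₁ (Sum.elim (fun j => MvPolynomial.bind₁ Zp (F' j))
                    (fun j => MvPolynomial.C (γq q1 q2 j))) (F' i)) =
              if (y : G ⧸ G0) = q2 then
                (if (x : G ⧸ G0) = q1 then
                  MvPolynomial.eval (Sum.elim (fun i => τ i x) (fun i => τ i y))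
                    (MvPolynomial.bind₁ (Sum.elim (fun j => MvPolynomial.bind₁ Zp (F' j))
                      (fun j => MvPolynomial.C (γq q1 q2 j))) (F' i))
                else 0)
              else 0 := by
            intro q2
            simp only [map_mul, MvPolynomial.eval_X, Sum.elim_inl, Sum.elim_inr, τ]
            split_ifs <;> simp
          rw [Finset.sum_congr rfl (fun q2 _ => hs2 q2), Finset.sum_ite_eq]
          simp only [Finset.mem_univ, if_true]
        rw [Finset.sum_congr rfl (fun q1 _ => hs q1), Finset.sum_ite_eq]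
        simp only [Finset.mem_univ, if_true]
        have hfun2 : (fun k => MvPolynomial.eval (Sum.elim (fun i => τ i x) (fun i => τ i y))
            (Sum.elim (fun j => MvPolynomial.bind₁ Zp (F' j))
              (fun j => MvPolynomial.C (γq (x : G ⧸ G0) (y : G ⧸ G0) j)) k)) =
            Sum.elim (fun j => MvPolynomial.eval (Sum.elim (Y' x) (Y' y)) (F' j)) (γ' x y) := by
          funext k
          cases k with
          | inl j =>
            change MvPolynomial.eval (Sum.elim (fun i => τ i x) (fun i => τ i y))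
              (MvPolynomial.bind₁ Zp (F' j)) = MvPolynomial.eval (Sum.elim (Y' x) (Y' y)) (F' j)
            rw [eval_bind₁', hpt]
          | inr j =>
            change MvPolynomial.eval (Sum.elim (fun i => τ i x) (fun i => τ i y))
              (MvPolynomial.C (γq (x : G ⧸ G0) (y : G ⧸ G0) j)) = γ' x y j
            rw [MvPolynomial.eval_C, hγq]
        rw [eval_bind₁', hfun2]
      rw [hev]
      have p1 : (ℓ : Qb) ^ N1 = (ℓ : Qb) ^ N' * (ℓ : Qb) ^ (N1 - N') := by
        rw [← pow_add]; congr 1; omega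
      have he' : ((Y' (x + y) i : A) : Qb) - ((MvPolynomial.eval (Sum.elim
          (fun j => MvPolynomial.eval (Sum.elim (Y' x) (Y' y)) (F' j)) (γ' x y)) (F' i) : A) : Qb)
          = (ℓ : Qb) ^ N1 * r := he
      change ((Y' (x + y) i : A) : Qb) = _
      rw [p1] at he'
      linear_combination he'


/-- **The statement the geometric producer (Route C) proves.** -/
def CechStatement : Prop :=
  ∀ (M : ℕ) [NeZero M] (ℓ : ℕ) [Fact ℓ.Prime] (k : ℕ), ¬ ℓ ∣ M → (3 < ℓ ∨ 2 ∣ M ∨ 3 ∣ M) →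
    HasCechCoords ℓ (torsAct (Γ := Gal) (M := JZero M) ((ℓ : ℤ) ^ k))

/-- The (GEOM) statement of the top contract from the Čech exit and finiteness. -/
theorem geomStatement_of_cech (hFin : FinStatement) (h : CechStatement) : GeomStatement := by
  intro M _ ℓ _ k hℓM h23
  haveI : Finite ↥(Submodule.torsionBy ℤ (JZero M) ((ℓ : ℤ) ^ k)) := hFin M ℓ k
  exact hasCongCoords_of_cech (Fact.out : ℓ.Prime) _
    (fun x => Subtype.ext (by simp))
    (fun σ τ x => Subtype.ext (by simp [mul_smul]))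
    (h M ℓ k hℓM h23)

end Fermat.Agent.S19.Cech.Exit
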