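/-
S19 (program FG, Route C), the level-free ČECH MACHINE (helper167).

`hasCechCoords_of_machine` : from cocycle REPRESENTATIVES in the overlap ring `𝒞` of a two-chart
datum `(R, 𝒞, C0, Cinf, e, t)` with `Dec` / `Uniq` (`Lib/TwoChartNormalForm`) to the abstract exit
`Cech.Exit.HasCechCoords` of the geometric producer.  No chart vocabulary.

Input, for every precision `N ≥ n0` (powers of `t`):
* `g : G → 𝒞` on the subgroup `G0` (the cocycles of `Φ_N`): multiplicative up to `CocEq`,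
  inertia-equivariant up to `CocEq`, and `g x ~ 1` at level `n0` only for `x = 0`;
* `p : G ⧸ G0 → 𝒞`, `rep : G ⧸ G0 → G` (coset data): `σ (p c) ~ p c * g (σ (rep c) - rep c)`.
Here `CocEq N a b` means `a ≡ b * w0 * w1 mod t ^ N 𝒞` with `w0 ∈ 1 + t C0`, `w1 ∈ 1 + t Cinf`.
-/
import Mathlib
import Fermat.Agent.Lib.TwoChartNormalForm
import Fermat.Agent.Lib.TwoChartGroupLaw
import Fermat.Agent.S19.Cech.Exit

set_option autoImplicit false

noncomputable section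

namespace Fermat.Agent.S19.Cech.Machine

open Fermat.Agent.Lib.TwoChartNormalForm
open Fermat.Agent.S19.HopfOrder Fermat.Agent.S19.Contract Fermat.Agent.S19.Cech.Exit

/-- `a ≡ b * w0 * w1  mod t ^ N 𝒞` with `w0 ∈ 1 + t C0`, `w1 ∈ 1 + t Cinf`. -/
def CocEq {R 𝒞 : Type*} [CommRing R] [CommRing 𝒞] [Algebra R 𝒞] (C0 Cinf : Subalgebra R 𝒞)
    (t : R) (N : ℕ) (a b : 𝒞) : Prop :=
  ∃ w0 w1 : 𝒞, w0 - 1 ∈ Ideal.span {t} • Subalgebra.toSubmodule C0 ∧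
    w1 - 1 ∈ Ideal.span {t} • Subalgebra.toSubmodule Cinf ∧
    a - b * w0 * w1 ∈ Ideal.span {t} ^ N • (⊤ : Submodule R 𝒞)


section Calculus

variable {R 𝒞 : Type*} [CommRing R] [CommRing 𝒞] [Algebra R 𝒞] {C0 Cinf : Subalgebra R 𝒞}
  {t : R} {N : ℕ}

theorem CocEq.refl (a : 𝒞) : CocEq C0 Cinf t N a a :=
  ⟨1, 1, by simp, by simp, by simp⟩

theorem CocEq.of_sub_mem {a b : 𝒞}
    (h : a - b ∈ Ideal.span {t} ^ N • (⊤ : Submodule R 𝒞)) : CocEq C0 Cinf t N a b :=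
  ⟨1, 1, by simp, by simp, by simpa using h⟩

theorem CocEq.trans {a b c : 𝒞} (h1 : CocEq C0 Cinf t N a b) (h2 : CocEq C0 Cinf t N b c) :
    CocEq C0 Cinf t N a c := by
  obtain ⟨w0, w1, hw0, hw1, h⟩ := h1
  obtain ⟨v0, v1, hv0, hv1, h'⟩ := h2
  refine ⟨v0 * w0, v1 * w1, mul_sub_one_mem _ C0 hv0 hw0, mul_sub_one_mem _ Cinf hv1 hw1, ?_⟩
  rw [mem_smul_top_iff] at h h' ⊢
  have e : a - c * (v0 * w0) * (v1 * w1) =
      (a - b * w0 * w1) + (b - c * v0 * v1) * (w0 * w1) := by ring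
  rw [e]
  exact Ideal.add_mem _ h (Ideal.mul_mem_right _ _ h')

theorem CocEq.mul {a b c d : 𝒞} (h1 : CocEq C0 Cinf t N a b) (h2 : CocEq C0 Cinf t N c d) :
    CocEq C0 Cinf t N (a * c) (b * d) := by
  obtain ⟨w0, w1, hw0, hw1, h⟩ := h1
  obtain ⟨v0, v1, hv0, hv1, h'⟩ := h2
  refine ⟨w0 * v0, w1 * v1, mul_sub_one_mem _ C0 hw0 hv0, mul_sub_one_mem _ Cinf hw1 hv1, ?_⟩
  rw [mem_smul_top_iff] at h h' ⊢
  have e : a * c - b * d * (w0 * v0) * (w1 * v1) =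
      (a - b * w0 * w1) * c + (b * w0 * w1) * (c - d * v0 * v1) := by ring
  rw [e]
  exact Ideal.add_mem _ (Ideal.mul_mem_right _ _ h) (Ideal.mul_mem_left _ _ h')

theorem CocEq.mono {n : ℕ} (hn : n ≤ N) {a b : 𝒞} (h : CocEq C0 Cinf t N a b) :
    CocEq C0 Cinf t n a b := by
  obtain ⟨w0, w1, hw0, hw1, h⟩ := h
  exact ⟨w0, w1, hw0, hw1, Submodule.smul_mono_left (Ideal.pow_le_pow_right hn) h⟩

/-- Inverse of a principal unit modulo `t ^ N`, inside a subalgebra. -/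
theorem exists_inv' (S : Subalgebra R 𝒞) (N : ℕ) {w : 𝒞}
    (hw : w - 1 ∈ Ideal.span {t} • Subalgebra.toSubmodule S) :
    ∃ w' : 𝒞, w' - 1 ∈ Ideal.span {t} • Subalgebra.toSubmodule S ∧
      w * w' - 1 ∈ Ideal.span {t} ^ N • (⊤ : Submodule R 𝒞) := by
  obtain ⟨c, hc, h⟩ := (mem_span_singleton_smul_iff t _ _).1 hw
  obtain ⟨w', ⟨c', hc', hw'⟩, c'', -, he⟩ :=
    exists_inv_mod S t N w ⟨c, hc, by rw [← h]; ring⟩
  refine ⟨w', (mem_span_singleton_smul_iff t _ _).2 ⟨c', hc', by rw [hw']; ring⟩, ?_⟩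
  rw [Ideal.span_singleton_pow, mem_span_singleton_smul_iff]
  exact ⟨c'', Submodule.mem_top, by rw [he, map_pow]; ring⟩

theorem CocEq.symm {a b : 𝒞} (h : CocEq C0 Cinf t N a b) : CocEq C0 Cinf t N b a := by
  obtain ⟨w0, w1, hw0, hw1, h⟩ := h
  obtain ⟨u0, hu0, hi0⟩ := exists_inv' C0 N hw0
  obtain ⟨u1, hu1, hi1⟩ := exists_inv' Cinf N hw1
  refine ⟨u0, u1, hu0, hu1, ?_⟩
  rw [mem_smul_top_iff] at h hi0 hi1 ⊢
  have e : b - a * u0 * u1 = -((a - b * w0 * w1) * (u0 * u1)) -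
      b * ((w0 * u0 - 1) * (w1 * u1) + (w1 * u1 - 1)) := by ring
  rw [e]
  exact Ideal.sub_mem _ (neg_mem (Ideal.mul_mem_right _ _ h))
    (Ideal.mul_mem_left _ _ (Ideal.add_mem _ (Ideal.mul_mem_right _ _ hi0) hi1))

/-- Cancellation of a principal unit. -/
theorem CocEq.cancel {u a b : 𝒞} (hu : u - 1 ∈ Ideal.span {t} • (⊤ : Submodule R 𝒞))
    (h : CocEq C0 Cinf t N (u * a) (u * b)) : CocEq C0 Cinf t N a b := by
  obtain ⟨w0, w1, hw0, hw1, h⟩ := h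
  obtain ⟨v, -, hv⟩ := exists_inv' (⊤ : Subalgebra R 𝒞) N (w := u) (by simpa using hu)
  refine ⟨w0, w1, hw0, hw1, ?_⟩
  rw [mem_smul_top_iff] at h hv ⊢
  have e : a - b * w0 * w1 = v * (u * a - u * b * w0 * w1) -
      (u * v - 1) * (a - b * w0 * w1) := by ring
  rw [e]
  exact Ideal.sub_mem _ (Ideal.mul_mem_left _ _ h) (Ideal.mul_mem_right _ _ hv)

theorem normalForm_iff {d : ℕ} {e : Fin d → 𝒞} {g : 𝒞} {z : Fin d → R} :
    NormalForm C0 Cinf e (Ideal.span {t}) N g z ↔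
      CocEq C0 Cinf t N g (∏ i, (1 - z i • e i)) := by
  constructor
  · rintro ⟨w0, w1, h0, h1, h⟩
    refine ⟨w0, w1, h0, h1, ?_⟩
    have e' : g - (∏ i, (1 - z i • e i)) * w0 * w1 = g - w0 * w1 * ∏ i, (1 - z i • e i) := by
      ring
    rw [e']; exact h
  · rintro ⟨w0, w1, h0, h1, h⟩
    refine ⟨w0, w1, h0, h1, ?_⟩
    have e' : g - w0 * w1 * ∏ i, (1 - z i • e i) = g - (∏ i, (1 - z i • e i)) * w0 * w1 := by
      ring
    rw [e']; exact h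

/-- The product of two principal units is a principal unit. -/
theorem mul_sub_one_mem_top {a b : 𝒞} (ha : a - 1 ∈ Ideal.span {t} • (⊤ : Submodule R 𝒞))
    (hb : b - 1 ∈ Ideal.span {t} • (⊤ : Submodule R 𝒞)) :
    a * b - 1 ∈ Ideal.span {t} • (⊤ : Submodule R 𝒞) := by
  rw [mem_smul_top_iff] at ha hb ⊢
  have e : a * b - 1 = (a - 1) * b + (b - 1) := by ring
  rw [e]
  exact Ideal.add_mem _ (Ideal.mul_mem_right _ _ ha) hb

theorem prod_sub_prod_mem {ι' : Type*} [Fintype ι'] (J : Ideal 𝒞) (f f' : ι' → 𝒞)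
    (h : ∀ i, f i - f' i ∈ J) : ∏ i, f i - ∏ i, f' i ∈ J := by
  have h1 : Ideal.Quotient.mk J (∏ i, f i) = Ideal.Quotient.mk J (∏ i, f' i) := by
    rw [map_prod, map_prod]
    exact Finset.prod_congr rfl (fun i _ => Ideal.Quotient.eq.mpr (h i))
  exact Ideal.Quotient.eq.mp h1

theorem eval_map_hom {S ι' : Type*} [CommRing S] (f : R →+* S) (a : ι' → R)
    (p : MvPolynomial ι' R) :
    MvPolynomial.eval (fun i => f (a i)) (MvPolynomial.map f p) = f (MvPolynomial.eval a p) := by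
  rw [MvPolynomial.eval_map]
  have h := MvPolynomial.eval₂_comp_left f (RingHom.id R) a p
  rw [MvPolynomial.eval₂_id] at h
  exact h.symm

end Calculus

/-- **The Čech machine.** -/
theorem hasCechCoords_of_machine {ℓ : ℕ} {G : Type} [AddCommGroup G]
    (act : Gal → G → G) (hadd : ∀ σ x y, act σ (x + y) = act σ x + act σ y)
    (A : ValuationSubring Qb) (hA : A.LiesOverPrime ℓ)
    (E : IntermediateField ℚ Qb) [FiniteDimensional ℚ E]
    (hlev : ∀ σ : Gal, σ ∈ E.fixingSubgroup → ∀ x, act σ x = x)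
    (G0 : AddSubgroup G) (hG0 : ∀ σ ∈ A.inertiaSubgroupIn ℚ, ∀ x, act σ x - x ∈ G0)
    {R 𝒞 : Type*} [CommRing R] [CommRing 𝒞] [Algebra R 𝒞]
    (C0 Cinf : Subalgebra R 𝒞) {d : ℕ} (e : Fin d → 𝒞)
    (hdec : Dec C0 Cinf e) (huniq : Uniq C0 Cinf e)
    (t : R) (ht : ∀ c : 𝒞, algebraMap R 𝒞 t * c = 0 → c = 0)
    (ι : R →+* Qb) (hιA : ∀ r, ι r ∈ A) (hιE : ∀ r, ι r ∈ E)
    (hsat : ∀ (r : R) (k : ℕ), (∃ a ∈ A, ι r = ι t ^ k * a) → r ∈ Ideal.span {t ^ k})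
    (hℓt : (ℓ : R) ∈ Ideal.span {t})
    (htℓ : ∃ e0 : ℕ, ∃ a ∈ A, ι t ^ e0 = (ℓ : Qb) * a)
    (φ : Gal → 𝒞 →+* 𝒞) (ψ : Gal → R →+* R)
    (hψ : ∀ σ ∈ A.inertiaSubgroupIn ℚ, ∀ r, ι (ψ σ r) = σ (ι r))
    (hφψ : ∀ σ ∈ A.inertiaSubgroupIn ℚ, ∀ (r : R) (c : 𝒞), φ σ (r • c) = ψ σ r • φ σ c)
    (hφ0 : ∀ σ ∈ A.inertiaSubgroupIn ℚ, ∀ c ∈ C0, φ σ c ∈ C0)
    (hφ1 : ∀ σ ∈ A.inertiaSubgroupIn ℚ, ∀ c ∈ Cinf, φ σ c ∈ Cinf)
    (hφe : ∀ σ ∈ A.inertiaSubgroupIn ℚ, ∀ i, φ σ (e i) = e i)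
    (hψt : ∀ σ ∈ A.inertiaSubgroupIn ℚ, ψ σ t ∈ Ideal.span {t})
    (n0 : ℕ)
    (hcoc : ∀ N : ℕ, n0 ≤ N → ∃ (g : G → 𝒞) (p : G ⧸ G0 → 𝒞) (rep : G ⧸ G0 → G),
      (∀ c, ((rep c : G) : G ⧸ G0) = c) ∧
      (∀ x ∈ G0, g x - 1 ∈ Ideal.span {t} • (⊤ : Submodule R 𝒞)) ∧
      (∀ c, p c - 1 ∈ Ideal.span {t} • (⊤ : Submodule R 𝒞)) ∧
      (∀ x ∈ G0, ∀ y ∈ G0, CocEq C0 Cinf t N (g (x + y)) (g x * g y)) ∧
      (∀ σ ∈ A.inertiaSubgroupIn ℚ, ∀ x ∈ G0, CocEq C0 Cinf t N (φ σ (g x)) (g (act σ x))) ∧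
      (∀ σ ∈ A.inertiaSubgroupIn ℚ, ∀ c,
        CocEq C0 Cinf t N (φ σ (p c)) (p c * g (act σ (rep c) - rep c))) ∧
      (∀ x ∈ G0, CocEq C0 Cinf t n0 (g x) 1 → x = 0)) :
    HasCechCoords ℓ act := by
  classical
  obtain ⟨e0, a0, ha0, he0⟩ := htℓ
  obtain ⟨b0, hb0⟩ := Ideal.mem_span_singleton'.mp hℓt
  have hlA : (ℓ : Qb) ∈ A := natCast_mem A ℓ
  have hlQ : (ℓ : Qb) = ι b0 * ι t := by
    rw [← map_mul, hb0, map_natCast]
  have hψspan : ∀ σ ∈ A.inertiaSubgroupIn ℚ, ∀ r ∈ Ideal.span {t}, ψ σ r ∈ Ideal.span {t} := by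
    intro σ hσ r hr
    obtain ⟨s, rfl⟩ := Ideal.mem_span_singleton'.mp hr
    rw [map_mul]
    exact Ideal.mul_mem_left _ _ (hψt σ hσ)
  have hmk : ∀ x y : G, ((x : G ⧸ G0) = (y : G ⧸ G0)) ↔ x - y ∈ G0 := by
    intro x y
    rw [QuotientAddGroup.eq]
    have e' : x - y = -(-x + y) := by abel
    rw [e', neg_mem_iff]
  refine ⟨A, hA, E, inferInstance, hlev, G0, hG0, d, n0, fun Nl _ => ?_⟩
  obtain ⟨N, hN⟩ : ∃ N, N = e0 * Nl + n0 := ⟨_, rfl⟩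
  have hN0 : n0 ≤ N := by omega
  obtain ⟨g, p, rep, hrep, hg1, hp1, hhom, heqv, hpeq, hinj⟩ := hcoc N hN0
  -- precision transfer
  have hprec : ∀ r r' : R, r - r' ∈ Ideal.span {t ^ N} →
      ∃ a ∈ A, ι r = ι r' + (ℓ : Qb) ^ Nl * a := by
    intro r r' h
    obtain ⟨s, hs⟩ := Ideal.mem_span_singleton'.mp h
    refine ⟨a0 ^ Nl * ι s * ι t ^ n0,
      A.mul_mem _ _ (A.mul_mem _ _ (pow_mem ha0 _) (hιA s)) (pow_mem (hιA t) _), ?_⟩
    have h1 : ι r - ι r' = ι s * ι t ^ N := by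
      rw [← map_sub, ← hs, map_mul, map_pow]
    have e2 : ι t ^ N = (ι t ^ e0) ^ Nl * ι t ^ n0 := by
      rw [hN, pow_add, pow_mul]
    rw [e2, he0, mul_pow] at h1
    linear_combination h1
  -- the cocycle of `Ξ`
  have hsub : ∀ x : G, x - rep (x : G ⧸ G0) ∈ G0 := fun x => (hmk _ _).mp (hrep _).symm
  obtain ⟨Gh, hGh⟩ : ∃ Gh : G → 𝒞, ∀ x, Gh x = p (x : G ⧸ G0) * g (x - rep (x : G ⧸ G0)) :=
    ⟨_, fun _ => rfl⟩
  have hGh1 : ∀ x, Gh x - 1 ∈ Ideal.span {t} • (⊤ : Submodule R 𝒞) := by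
    intro x
    rw [hGh]
    exact mul_sub_one_mem_top (hp1 _) (hg1 _ (hsub x))
  -- coordinates
  have hz := fun x => exists_normalForm hdec (Ideal.span {t}) N (Gh x) (hGh1 x)
  choose z hzt hzNF using hz
  -- the group law
  obtain ⟨FR, hFR𝔪, hFR⟩ :=
    exists_groupLaw hdec (Ideal.span {t}) N
  have hFRmem : ∀ (v v' : Fin d → R), (∀ i, v i ∈ Ideal.span {t}) →
      (∀ i, v' i ∈ Ideal.span {t}) →
      ∀ i, MvPolynomial.eval (Sum.elim v v') (FR i) ∈ Ideal.span {t} := by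
    intro v v' hv hv' i
    have hle : Ideal.span (Set.range
        (MvPolynomial.X : Fin d ⊕ Fin d → MvPolynomial (Fin d ⊕ Fin d) R)) ≤
        Ideal.comap (MvPolynomial.eval (Sum.elim v v')) (Ideal.span {t}) := by
      rw [Ideal.span_le]
      rintro _ ⟨s, rfl⟩
      rcases s with i | i
      · simpa using hv i
      · simpa using hv' i
    exact hle (hFR𝔪 i)
  have hev : ∀ (v v' : Fin d → R) (i : Fin d),
      MvPolynomial.eval (Sum.elim (fun j => ι (v j)) (fun j => ι (v' j)))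
        (MvPolynomial.map ι (FR i)) = ι (MvPolynomial.eval (Sum.elim v v') (FR i)) := by
    intro v v' i
    rw [← eval_map_hom]
    congr 2
    funext k
    cases k <;> rfl
  -- the constants `γ`
  have hpu : ∀ c c' : G ⧸ G0, ∃ u : 𝒞, u - 1 ∈ Ideal.span {t} • (⊤ : Submodule R 𝒞) ∧
      (p c * p c') * u - 1 ∈ Ideal.span {t} ^ N • (⊤ : Submodule R 𝒞) := by
    intro c c'
    have h1 : p c * p c' - 1 ∈ Ideal.span {t} • Subalgebra.toSubmodule (⊤ : Subalgebra R 𝒞) := by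
      simpa using mul_sub_one_mem_top (hp1 c) (hp1 c')
    obtain ⟨u, hu, hi⟩ := exists_inv' (⊤ : Subalgebra R 𝒞) N h1
    exact ⟨u, by simpa using hu, hi⟩
  choose u hu1 hui using hpu
  obtain ⟨δ, hδdef⟩ : ∃ δ : G ⧸ G0 → G ⧸ G0 → G, ∀ c c', δ c c' = rep c + rep c' - rep (c + c') :=
    ⟨_, fun _ _ => rfl⟩
  have hδ : ∀ c c', δ c c' ∈ G0 := by
    intro c c'
    rw [hδdef]
    apply (hmk _ _).mp
    rw [QuotientAddGroup.mk_add, hrep, hrep, hrep]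
  obtain ⟨γh, hγh⟩ : ∃ γh : G ⧸ G0 → G ⧸ G0 → 𝒞,
      ∀ c c', γh c c' = p (c + c') * g (δ c c') * u c c' := ⟨_, fun _ _ => rfl⟩
  have hγh1 : ∀ c c', γh c c' - 1 ∈ Ideal.span {t} • (⊤ : Submodule R 𝒞) := by
    intro c c'
    rw [hγh]
    exact mul_sub_one_mem_top (mul_sub_one_mem_top (hp1 _) (hg1 _ (hδ c c'))) (hu1 c c')
  have hzγ := fun c c' => exists_normalForm hdec (Ideal.span {t}) N (γh c c') (hγh1 c c')
  choose zγ hzγt hzγNF using hzγ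
  refine ⟨fun x i => ι (z x i), fun i => MvPolynomial.map ι (FR i),
    fun x y i => ι (zγ (x : G ⧸ G0) (y : G ⧸ G0) i), fun x i => hιA _, fun x i => hιE _, ?_,
    fun x y i => hιA _, ?_, ?_, ?_, ?_⟩
  · -- coefficients
    intro i m
    rw [MvPolynomial.coeff_map]
    exact hιA _
  · -- `γ` is constant on pairs of cosets
    intro x x' y y' hx hy
    have h1 := (hmk x x').mpr hx
    have h2 := (hmk y y').mpr hy
    funext i
    simp only [h1, h2]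
  · -- equivariance modulo `ℓ ^ Nl`
    intro σ hσ x i
    have hcσ : ((act σ x : G) : G ⧸ G0) = (x : G ⧸ G0) := (hmk _ _).mpr (hG0 σ hσ x)
    have ha : x - rep (x : G ⧸ G0) ∈ G0 := hsub x
    have hs1 : act σ (rep (x : G ⧸ G0)) - rep (x : G ⧸ G0) ∈ G0 := hG0 σ hσ _
    have hs2 : act σ (x - rep (x : G ⧸ G0)) ∈ G0 := by
      have h1 := hG0 σ hσ (x - rep (x : G ⧸ G0))
      have e' : act σ (x - rep (x : G ⧸ G0)) =
          (act σ (x - rep (x : G ⧸ G0)) - (x - rep (x : G ⧸ G0))) + (x - rep (x : G ⧸ G0)) := by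
        abel
      rw [e']
      exact G0.add_mem h1 ha
    have hact : act σ (x - rep (x : G ⧸ G0)) = act σ x - act σ (rep (x : G ⧸ G0)) := by
      have h1 := hadd σ (x - rep (x : G ⧸ G0)) (rep (x : G ⧸ G0))
      rw [sub_add_cancel] at h1
      rw [h1]; abel
    have hsum : (act σ (rep (x : G ⧸ G0)) - rep (x : G ⧸ G0)) + act σ (x - rep (x : G ⧸ G0)) =
        act σ x - rep (x : G ⧸ G0) := by
      rw [hact]; abel
    have e1 := hpeq σ hσ (x : G ⧸ G0)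
    have e2 := heqv σ hσ _ ha
    have e3 := (hhom _ hs1 _ hs2).symm
    rw [hsum] at e3
    have hE : CocEq C0 Cinf t N (φ σ (Gh x)) (Gh (act σ x)) := by
      rw [hGh, hGh, hcσ, map_mul]
      have h4 := e1.mul e2
      rw [mul_assoc] at h4
      exact h4.trans ((CocEq.refl _).mul e3)
    have nfσ : NormalForm C0 Cinf e (Ideal.span {t}) N (φ σ (Gh x)) (fun i => ψ σ (z x i)) :=
      NormalForm.map (φ σ) (ψ σ) (hφψ σ hσ) (hφ0 σ hσ) (hφ1 σ hσ) (hφe σ hσ) (hψspan σ hσ)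
        (hzNF x)
    have nf' : NormalForm C0 Cinf e (Ideal.span {t}) N (Gh (act σ x)) (fun i => ψ σ (z x i)) :=
      normalForm_iff.mpr (hE.symm.trans (normalForm_iff.mp nfσ))
    have hu := normalForm_unique hdec huniq t ht N (Gh (act σ x)) (fun i => ψ σ (z x i))
      (z (act σ x)) (fun i => hψspan σ hσ _ (hzt x i)) (hzt (act σ x)) nf' (hzNF (act σ x)) i
    obtain ⟨a, haA, hae⟩ := hprec _ _ hu
    refine ⟨a, haA, ?_⟩
    change ι (z (act σ x) i) = σ (ι (z x i)) + _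
    rw [hae, hψ σ hσ]
  · -- separation modulo `ℓ ^ n0`
    intro x y hxy hxy0
    by_contra hcon0
    have hcon : ∀ i, ∃ r ∈ A, ι (z x i) - ι (z y i) = (ℓ : Qb) ^ n0 * r :=
      fun i => by_contra (fun h => hcon0 ⟨i, h⟩)
    have hzz : ∀ i, z x i - z y i ∈ Ideal.span {t ^ n0} := by
      intro i
      obtain ⟨r, hr, he⟩ := hcon i
      apply hsat
      refine ⟨ι b0 ^ n0 * r, A.mul_mem _ _ (pow_mem (hιA b0) _) hr, ?_⟩
      rw [map_sub, he, hlQ, mul_pow]; ring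
    have s0 : CocEq C0 Cinf t n0 (∏ i, (1 - z x i • e i)) (∏ i, (1 - z y i • e i)) := by
      apply CocEq.of_sub_mem
      rw [mem_smul_top_iff]
      apply prod_sub_prod_mem
      intro i
      have e' : (1 - z x i • e i) - (1 - z y i • e i) = -((z x i - z y i) • e i) := by
        rw [sub_smul]; ring
      rw [e', ← mem_smul_top_iff]
      apply neg_mem
      apply Submodule.smul_mem_smul _ Submodule.mem_top
      rw [Ideal.span_singleton_pow]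
      exact hzz i
    have cx : CocEq C0 Cinf t n0 (Gh x) (∏ i, (1 - z x i • e i)) :=
      (normalForm_iff.mp (hzNF x)).mono hN0
    have cy : CocEq C0 Cinf t n0 (Gh y) (∏ i, (1 - z y i • e i)) :=
      (normalForm_iff.mp (hzNF y)).mono hN0
    have hxy' : CocEq C0 Cinf t n0 (Gh x) (Gh y) := cx.trans (s0.trans cy.symm)
    have hc : (y : G ⧸ G0) = (x : G ⧸ G0) := ((hmk x y).mpr hxy0).symm
    rw [hGh, hGh, hc] at hxy'
    have hg : CocEq C0 Cinf t n0 (g (x - rep (x : G ⧸ G0))) (g (y - rep (x : G ⧸ G0))) :=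
      CocEq.cancel (hp1 _) hxy'
    have ha : x - rep (x : G ⧸ G0) ∈ G0 := hsub x
    have hb : y - rep (x : G ⧸ G0) ∈ G0 := by
      have := hsub y
      rwa [hc] at this
    have hab := (hhom (x - y) hxy0 (y - rep (x : G ⧸ G0)) hb).mono hN0
    have e' : x - y + (y - rep (x : G ⧸ G0)) = x - rep (x : G ⧸ G0) := by abel
    rw [e'] at hab
    have h5 : CocEq C0 Cinf t n0 (g (y - rep (x : G ⧸ G0)) * g (x - y))
        (g (y - rep (x : G ⧸ G0)) * 1) := by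
      rw [mul_one, mul_comm]
      exact hab.symm.trans hg
    have h6 : CocEq C0 Cinf t n0 (g (x - y)) 1 := CocEq.cancel (hg1 _ hb) h5
    exact hxy (sub_eq_zero.mp (hinj _ hxy0 h6))
  · -- the law modulo `ℓ ^ Nl`
    intro x y i
    have hcc : ((x + y : G) : G ⧸ G0) = (x : G ⧸ G0) + (y : G ⧸ G0) := QuotientAddGroup.mk_add _ _ _
    have ha : x - rep (x : G ⧸ G0) ∈ G0 := hsub x
    have hb : y - rep (y : G ⧸ G0) ∈ G0 := hsub y
    have hd := hδ (x : G ⧸ G0) (y : G ⧸ G0)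
    have key : (x + y) - rep ((x : G ⧸ G0) + (y : G ⧸ G0)) =
        (x - rep (x : G ⧸ G0)) + (y - rep (y : G ⧸ G0)) + δ (x : G ⧸ G0) (y : G ⧸ G0) := by
      rw [hδdef]; abel
    have h1 := hhom _ (G0.add_mem ha hb) _ hd
    have h2 := hhom _ ha _ hb
    have h3 := h1.trans (h2.mul (CocEq.refl _))
    have h4 : CocEq C0 Cinf t N (Gh (x + y))
        (p ((x : G ⧸ G0) + (y : G ⧸ G0)) * (g (x - rep (x : G ⧸ G0)) *
          g (y - rep (y : G ⧸ G0)) * g (δ (x : G ⧸ G0) (y : G ⧸ G0)))) := by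
      rw [hGh, hcc, key]
      exact (CocEq.refl _).mul h3
    have h5 : CocEq C0 Cinf t N
        (p ((x : G ⧸ G0) + (y : G ⧸ G0)) * (g (x - rep (x : G ⧸ G0)) *
          g (y - rep (y : G ⧸ G0)) * g (δ (x : G ⧸ G0) (y : G ⧸ G0))))
        (Gh x * Gh y * γh (x : G ⧸ G0) (y : G ⧸ G0)) := by
      apply CocEq.of_sub_mem
      have hi := hui (x : G ⧸ G0) (y : G ⧸ G0)
      rw [mem_smul_top_iff] at hi ⊢
      have e' : p ((x : G ⧸ G0) + (y : G ⧸ G0)) * (g (x - rep (x : G ⧸ G0)) *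
          g (y - rep (y : G ⧸ G0)) * g (δ (x : G ⧸ G0) (y : G ⧸ G0))) -
          Gh x * Gh y * γh (x : G ⧸ G0) (y : G ⧸ G0) =
          -(p ((x : G ⧸ G0) + (y : G ⧸ G0)) * g (x - rep (x : G ⧸ G0)) *
            g (y - rep (y : G ⧸ G0)) * g (δ (x : G ⧸ G0) (y : G ⧸ G0))) *
          ((p (x : G ⧸ G0) * p (y : G ⧸ G0)) * u (x : G ⧸ G0) (y : G ⧸ G0) - 1) := by
        rw [hGh, hGh, hγh]; ring
      rw [e']
      exact Ideal.mul_mem_left _ _ hi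
    have hL := h4.trans h5
    have nf1 := NormalForm.mul_of (hzNF x) (hzNF y) (hFR (z x) (z y) (hzt x) (hzt y))
    have nf2 := NormalForm.mul_of nf1 (hzγNF (x : G ⧸ G0) (y : G ⧸ G0))
      (hFR _ (zγ (x : G ⧸ G0) (y : G ⧸ G0)) (hFRmem _ _ (hzt x) (hzt y))
        (hzγt (x : G ⧸ G0) (y : G ⧸ G0)))
    have nf3 := normalForm_iff.mpr (hL.trans (normalForm_iff.mp nf2))
    have hu := normalForm_unique hdec huniq t ht N (Gh (x + y)) _ (z (x + y))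
      (hFRmem _ _ (hFRmem _ _ (hzt x) (hzt y)) (hzγt (x : G ⧸ G0) (y : G ⧸ G0)))
      (hzt (x + y)) nf3 (hzNF (x + y)) i
    obtain ⟨a, haA, hae⟩ := hprec _ _ hu
    refine ⟨a, haA, ?_⟩
    change ι (z (x + y) i) =
      MvPolynomial.eval (Sum.elim
        (fun j => MvPolynomial.eval (Sum.elim (fun k => ι (z x k)) (fun k => ι (z y k)))
          (MvPolynomial.map ι (FR j)))
        (fun k => ι (zγ (x : G ⧸ G0) (y : G ⧸ G0) k))) (MvPolynomial.map ι (FR i)) + _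
    have hinner : (fun j => MvPolynomial.eval (Sum.elim (fun k => ι (z x k)) (fun k => ι (z y k)))
        (MvPolynomial.map ι (FR j))) =
        fun j => ι (MvPolynomial.eval (Sum.elim (z x) (z y)) (FR j)) := by
      funext j
      exact hev (z x) (z y) j
    rw [hinner, hev, hae]

end Fermat.Agent.S19.Cech.Machine
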