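/-
S19 (program FG, Route C), the COCYCLE ASSEMBLY (helper167, integrator).

`hcoc_of_rep` : the clause `hcoc` of `Cech.Machine.hasCechCoords_of_machine` from an abstract
"representation" calculus:

* `Rep N f g`     : `g : 𝒞` represents the level-`N` cocycle of the function `f : K`
                    (at the instance: `IsCocRep m N f g` of `Lib/GaussChartCoc`);
* `RepRel N r f g`: the same relative to a system of references `r : P` (coset constants);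
* `Nrm a b`       : `a = a₀ * v ^ m * b` with `a₀` a unit of the base ring and `v ≡ 1`
                    (the normalised Kummer relation).

No chart vocabulary; every hypothesis is one brick of the route:
`h_one h_unit h_ex h_mul h_map` (PHI), `h_oneR h_exR h_mulR h_mapR` (COS), `h_inj` (ALG),
`hF_hom hF_eqv hF_peq` (KD).
-/
import Mathlib
import Fermat.Agent.S19.Cech.Machine

set_option autoImplicit false

noncomputable section

namespace Fermat.Agent.S19.Cech.CocAssembly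

open Fermat.Agent.S19.Cech.Machine

/-- **The cocycle clause of the Čech machine from a representation calculus.** -/
theorem hcoc_of_rep {Γ : Type*} (I : Γ → Prop) {G : Type*} [AddCommGroup G] (act : Γ → G → G)
    (G0 : AddSubgroup G) (hG0 : ∀ σ, I σ → ∀ x, act σ x - x ∈ G0)
    {R 𝒞 : Type*} [CommRing R] [CommRing 𝒞] [Algebra R 𝒞] (C0 Cinf : Subalgebra R 𝒞) (t : R)
    (φ : Γ → 𝒞 →+* 𝒞)
    {K : Type*} [Mul K] [One K] (s : Γ → K → K) (Nrm : K → K → Prop)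
    {P : Type*} (Rep : ℕ → K → 𝒞 → Prop) (RepRel : ℕ → P → K → 𝒞 → Prop)
    (F : G → K) (rep : G ⧸ G0 → G) (hrep : ∀ c, ((rep c : G) : G ⧸ G0) = c) (ρ : G ⧸ G0 → P)
    (n0 : ℕ)
    (h_one : ∀ N, n0 ≤ N → ∀ f g, Rep N f g → g - 1 ∈ Ideal.span {t} • (⊤ : Submodule R 𝒞))
    (h_oneR : ∀ N, n0 ≤ N → ∀ r f g, RepRel N r f g →
      g - 1 ∈ Ideal.span {t} • (⊤ : Submodule R 𝒞))
    (h_unit : ∀ N, n0 ≤ N → Rep N 1 1)
    (h_ex : ∀ N, n0 ≤ N → ∀ x ∈ G0, ∃ g, Rep N (F x) g)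
    (h_exR : ∀ N, n0 ≤ N → ∀ c, ∃ g, RepRel N (ρ c) (F (rep c)) g)
    (h_mul : ∀ N, n0 ≤ N → ∀ f f' f'' g g' g'', Rep N f g → Rep N f' g' → Rep N f'' g'' →
      Nrm f'' (f * f') → CocEq C0 Cinf t N g'' (g * g'))
    (h_mulR : ∀ N, n0 ≤ N → ∀ r f f' f'' g g' g'', RepRel N r f g → Rep N f' g' →
      RepRel N r f'' g'' → Nrm f'' (f * f') → CocEq C0 Cinf t N g'' (g * g'))
    (h_map : ∀ N, n0 ≤ N → ∀ σ, I σ → ∀ f g, Rep N f g → Rep N (s σ f) (φ σ g))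
    (h_mapR : ∀ N, n0 ≤ N → ∀ σ, I σ → ∀ c f g, RepRel N (ρ c) f g →
      RepRel N (ρ c) (s σ f) (φ σ g))
    (hF_hom : ∀ x ∈ G0, ∀ y ∈ G0, Nrm (F (x + y)) (F x * F y))
    (hF_eqv : ∀ σ, I σ → ∀ x ∈ G0, Nrm (s σ (F x)) (F (act σ x) * 1))
    (hF_peq : ∀ σ, I σ → ∀ c, Nrm (s σ (F (rep c))) (F (rep c) * F (act σ (rep c) - rep c)))
    (h_inj : ∀ N, n0 ≤ N → ∀ x ∈ G0, ∀ g, Rep N (F x) g → CocEq C0 Cinf t n0 g 1 → x = 0) :
    ∀ N : ℕ, n0 ≤ N → ∃ (g : G → 𝒞) (p : G ⧸ G0 → 𝒞) (rep : G ⧸ G0 → G),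
      (∀ c, ((rep c : G) : G ⧸ G0) = c) ∧
      (∀ x ∈ G0, g x - 1 ∈ Ideal.span {t} • (⊤ : Submodule R 𝒞)) ∧
      (∀ c, p c - 1 ∈ Ideal.span {t} • (⊤ : Submodule R 𝒞)) ∧
      (∀ x ∈ G0, ∀ y ∈ G0, CocEq C0 Cinf t N (g (x + y)) (g x * g y)) ∧
      (∀ σ, I σ → ∀ x ∈ G0, CocEq C0 Cinf t N (φ σ (g x)) (g (act σ x))) ∧
      (∀ σ, I σ → ∀ c, CocEq C0 Cinf t N (φ σ (p c)) (p c * g (act σ (rep c) - rep c))) ∧
      (∀ x ∈ G0, CocEq C0 Cinf t n0 (g x) 1 → x = 0) := by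
  classical
  intro N hN
  have hex : ∀ x : G, ∃ g : 𝒞, x ∈ G0 → Rep N (F x) g := by
    intro x
    by_cases hx : x ∈ G0
    · obtain ⟨g, hg⟩ := h_ex N hN x hx
      exact ⟨g, fun _ => hg⟩
    · exact ⟨1, fun h => absurd h hx⟩
  choose g hg using hex
  choose p hp using h_exR N hN
  have hact : ∀ σ, I σ → ∀ x ∈ G0, act σ x ∈ G0 := by
    intro σ hσ x hx
    have h1 := G0.add_mem (hG0 σ hσ x) hx
    rwa [sub_add_cancel] at h1
  refine ⟨g, p, rep, hrep, fun x hx => h_one N hN _ _ (hg x hx),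
    fun c => h_oneR N hN _ _ _ (hp c), fun x hx y hy => ?_, fun σ hσ x hx => ?_,
    fun σ hσ c => ?_, fun x hx h => h_inj N hN x hx _ (hg x hx) h⟩
  · exact h_mul N hN _ _ _ _ _ _ (hg x hx) (hg y hy) (hg _ (G0.add_mem hx hy)) (hF_hom x hx y hy)
  · have h1 := h_mul N hN _ _ _ _ _ _ (hg _ (hact σ hσ x hx)) (h_unit N hN)
      (h_map N hN σ hσ _ _ (hg x hx)) (hF_eqv σ hσ x hx)
    rwa [mul_one] at h1
  · exact h_mulR N hN _ _ _ _ _ _ _ (hp c) (hg _ (hG0 σ hσ (rep c)))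
      (h_mapR N hN σ hσ c _ _ (hp c)) (hF_peq σ hσ c)

end Fermat.Agent.S19.Cech.CocAssembly
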