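/-
S19 (program FG, Route C), the COCYCLE CLAUSE ON A TWO-CHART EMBEDDING (helper167, integrator).

Level-free.  On top of `Lib/GaussChartCoc` (`IsCocRep`, `TwoChartEmb`) and the abstract assembly
`Cech/CocAssembly.hcoc_of_rep`:

* `IsCocRepRel` : representatives of the cocycle of a function RELATIVE to references
  `ρ0`, `ρ1` (the coset constants `p c`), with existence (`exists_isCocRepRel`), the product rule
  against an absolute representative (`IsCocRepRel.cocEq_mul`) and transport along a ring map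
  fixing the references (`IsCocRepRel.map`);
* `Nrm` : the normalised Kummer relation `a = a₀ * v ^ m * b`, `a₀` a unit of every local
  ring of both charts, `v ∈ 1 + π𝒪`;
* `hcoc_of_twoChartEmb` : the clause `hcoc` of `Cech.Machine.hasCechCoords_of_machine` from
  a `TwoChartEmb`, a family `F : G → K` of normalised Kummer functions, the invariance facts
  (F4) of the acting maps, (STAR) on `G0`, invariant local references for the coset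
  representatives, and the algebraisation statement (ALG) at the level `n0`.
-/
import Mathlib
import Fermat.Agent.Lib.GaussChartCoc
import Fermat.Agent.S19.Cech.CocAssembly

set_option autoImplicit false

noncomputable section

namespace Fermat.Agent.S19.Cech.CocRep

open Fermat.Agent.Lib.ChartRoots Fermat.Agent.S19.Cech.Machine
open Fermat.Agent.Lib.TwoChartNormalForm (mem_span_singleton_smul_iff)

variable {R 𝒞 : Type*} [CommRing R] [CommRing 𝒞] [Algebra R 𝒞] {K : Type*} [Field K]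
  {C0 Cinf : Subalgebra R 𝒞} {t : R} {j : 𝒞 →+* K} {𝒪 : Subring K}
  {ι0 ι1 ιc : Type*} {R0 : ι0 → Subring K} {R1 : ι1 → Subring K} {Rc : ιc → Subring K}

/-- `g ∈ 1 + t𝒞` represents the level-`N` cocycle class of `f` relative to the references
`ρ0`, `ρ1`. -/
def IsCocRepRel (t : R) (j : 𝒞 →+* K) (𝒪 : Subring K) (R0 : ι0 → Subring K)
    (R1 : ι1 → Subring K) (m N : ℕ) (ρ0 : ι0 → K) (ρ1 : ι1 → K) (f : K) (g : 𝒞) : Prop :=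
  g - 1 ∈ Ideal.span {t} • (⊤ : Submodule R 𝒞) ∧
    ∃ h ∈ 𝒪, IsCocycle 𝒪 (j (algebraMap R 𝒞 t)) R0 R1 m N ρ0 ρ1 f
      (j g * (1 + j (algebraMap R 𝒞 t) ^ N * h))

/-- The normalised Kummer relation. -/
def Nrm (t : R) (j : 𝒞 →+* K) (𝒪 : Subring K) (R0 : ι0 → Subring K) (R1 : ι1 → Subring K)
    (m : ℕ) (a b : K) : Prop :=
  ∃ a₀ v : K, (∀ i, IsUnitIn (R0 i) a₀) ∧ (∀ i, IsUnitIn (R1 i) a₀) ∧
    (∃ h ∈ 𝒪, v = 1 + j (algebraMap R 𝒞 t) * h) ∧ a = a₀ * v ^ m * b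

/-- `1` is a root of the constant function `1`. -/
theorem isRootRel_one (𝒪 : Subring K) (π : K) {ι : Type*} (S : ι → Subring K) (m N : ℕ) :
    IsRootRel 𝒪 π S m N (fun _ => 1) 1 1 := by
  refine ⟨⟨0, 𝒪.zero_mem, by ring⟩, fun i => ⟨0, 𝒪.zero_mem, ?_⟩⟩
  have e : (1 : K) * (((1 : K) * 1)⁻¹ * (1 + π ^ N * 0)) ^ m = 1 := by simp
  rw [e]
  exact isUnitIn_one _

/-- The constant function `1` is represented by `1`. -/
theorem isCocRep_one (t : R) (j : 𝒞 →+* K) (𝒪 : Subring K) (R0 : ι0 → Subring K)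
    (R1 : ι1 → Subring K) (m N : ℕ) : IsCocRep t j 𝒪 R0 R1 m N 1 1 := by
  refine ⟨by simp, 0, 𝒪.zero_mem, 1, 1, isRootRel_one 𝒪 _ R0 m N, isRootRel_one 𝒪 _ R1 m N, ?_⟩
  simp

/-- A unit of the Gauss ring is a unit of almost all local rings of a chart. -/
theorem finite_not_isUnitIn {π : K} {B : Subring K} {ι : Type*} {S : ι → Subring K}
    (hB : GaussChart 𝒪 π B S) {f : K} (hu : IsUnitIn 𝒪 f) (ρ : ι → K)
    (hρ : ∀ i, IsUnitIn (S i) f → ρ i = 1) (m : ℕ) :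
    {i | ¬ IsUnitIn (S i) (f * ((ρ i)⁻¹) ^ m)}.Finite := by
  refine ((hB.finite_notMem _ hu.2.1).union (hB.finite_notMem _ hu.2.2)).subset ?_
  intro i hi
  by_contra hcon
  have hcon' : ¬ (f ∉ S i ∨ f⁻¹ ∉ S i) := hcon
  rw [not_or, not_not, not_not] at hcon'
  have h1 : IsUnitIn (S i) f := ⟨hu.1, hcon'.1, hcon'.2⟩
  apply hi
  rw [hρ i h1, inv_one, one_pow, mul_one]
  exact h1

/-- Two relative representatives of the same class are related by `CocEq`. -/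
theorem cocEq_of_isCocycle_rel (H : TwoChartEmb C0 Cinf t j 𝒪 R0 R1 Rc) {m N : ℕ} (hm : 0 < m)
    (hN : 0 < N) {ρ0 : ι0 → K} {ρ1 : ι1 → K} {F : K} {γ γ' : 𝒞} {h h' : K} (hh : h ∈ 𝒪)
    (hh' : h' ∈ 𝒪)
    (a1 : IsCocycle 𝒪 (j (algebraMap R 𝒞 t)) R0 R1 m N ρ0 ρ1 F
      (j γ * (1 + j (algebraMap R 𝒞 t) ^ N * h)))
    (a2 : IsCocycle 𝒪 (j (algebraMap R 𝒞 t)) R0 R1 m N ρ0 ρ1 F
      (j γ' * (1 + j (algebraMap R 𝒞 t) ^ N * h'))) :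
    CocEq C0 Cinf t N γ' γ := by
  have hG := H.gauss
  obtain ⟨c0, hc0, c1, hc1, k, hk, e⟩ := a1.unique hG H.chart0 H.chart1 hm hN a2
  obtain ⟨c0', hc0', rfl⟩ := hc0
  obtain ⟨c1', hc1', rfl⟩ := hc1
  obtain ⟨k', hk', ek'⟩ := hG.inv_one_add_pow hN hh'
  obtain ⟨h3, hh3, e3⟩ := hG.mul_one_add_pow N hh hk
  obtain ⟨h4, hh4, e4⟩ := hG.mul_one_add_pow N hh3 hk'
  have hu' := (hG.isUnitIn_one_add_pow hN hh').1
  have hγO : j γ ∈ 𝒪 := H.chartc.chart_le ⟨γ, rfl⟩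
  have hc0O : j c0' ∈ 𝒪 := H.chart0.chart_le ⟨c0', hc0', rfl⟩
  have hD : j (algebraMap R 𝒞 t) ^ N * (j γ * (1 + j (algebraMap R 𝒞 t) * j c0') * h4) =
      j (γ' * (1 + algebraMap R 𝒞 t * c1') - γ * (1 + algebraMap R 𝒞 t * c0')) := by
    have e5 : j γ' * (1 + j (algebraMap R 𝒞 t) * j c1') =
        j γ * (1 + j (algebraMap R 𝒞 t) * j c0') * (1 + j (algebraMap R 𝒞 t) ^ N * h4) := by
      rw [← e4, ← e3, ← ek']
      field_simp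
      linear_combination e
    simp only [map_sub, map_mul, map_add, map_one]
    linear_combination -e5
  have hyO : j γ * (1 + j (algebraMap R 𝒞 t) * j c0') * h4 ∈ 𝒪 :=
    𝒪.mul_mem (𝒪.mul_mem hγO (𝒪.add_mem 𝒪.one_mem (𝒪.mul_mem hG.pi_mem hc0O))) hh4
  obtain ⟨z, hz⟩ := H.chartc.chart_inter_pow hG N hyO (by rw [hD]; exact ⟨_, rfl⟩)
  refine cocEq_of_mul_eq C0 Cinf t N hc0' hc1' (z := z) ?_
  apply H.inj
  have hD' := hD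
  rw [← hz] at hD'
  simp only [map_sub, map_mul, map_add, map_one, map_pow] at hD' ⊢
  linear_combination -hD'

/-- **Existence of a relative representative** from local roots relative to the references. -/
theorem exists_isCocRepRel (H : TwoChartEmb C0 Cinf t j 𝒪 R0 R1 Rc) {m N : ℕ} (hm : 0 < m)
    (hN : 0 < N) (ρ0 : ι0 → K) (ρ1 : ι1 → K) (ρc : ιc → K)
    (href0 : ∀ k, ∃ i, Rc k = R0 i ∧ ρc k = ρ0 i) (href1 : ∀ k, ∃ i, Rc k = R1 i ∧ ρc k = ρ1 i)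
    (f : K)
    (hloc0 : ∀ i, ∃ u, (∃ h ∈ 𝒪, u = 1 + j (algebraMap R 𝒞 t) * h) ∧
      IsUnitIn (R0 i) (f * ((ρ0 i * u)⁻¹) ^ m))
    (hfin0 : {i | ¬ IsUnitIn (R0 i) (f * ((ρ0 i)⁻¹) ^ m)}.Finite)
    (hloc1 : ∀ i, ∃ u, (∃ h ∈ 𝒪, u = 1 + j (algebraMap R 𝒞 t) * h) ∧
      IsUnitIn (R1 i) (f * ((ρ1 i * u)⁻¹) ^ m))
    (hfin1 : {i | ¬ IsUnitIn (R1 i) (f * ((ρ1 i)⁻¹) ^ m)}.Finite) :
    ∃ g, IsCocRepRel t j 𝒪 R0 R1 m N ρ0 ρ1 f g := by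
  obtain ⟨ψ0, a0⟩ := exists_isRootRel H.gauss H.chart0 m N ρ0 f hloc0 hfin0
  obtain ⟨ψ1, a1⟩ := exists_isRootRel H.gauss H.chart1 m N ρ1 f hloc1 hfin1
  have hγ : IsCocycle 𝒪 (j (algebraMap R 𝒞 t)) R0 R1 m N ρ0 ρ1 f (ψ0 / ψ1) :=
    ⟨ψ0, ψ1, a0, a1, rfl⟩
  obtain ⟨c, hc, h, hh, e⟩ := hγ.mem H.gauss H.chartc hm hN (ρc := ρc) href0 href1
  obtain ⟨c', rfl⟩ := hc
  refine ⟨1 + algebraMap R 𝒞 t * c', ?_, h, hh, ?_⟩
  · exact (mem_span_singleton_smul_iff t _ _).2 ⟨c', Submodule.mem_top, by ring⟩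
  · have e' : j (1 + algebraMap R 𝒞 t * c') * (1 + j (algebraMap R 𝒞 t) ^ N * h) = ψ0 / ψ1 := by
      rw [e, map_add, map_one, map_mul]
    rw [e']
    exact hγ

/-- **Product rule**: a relative representative times an absolute one. -/
theorem IsCocRepRel.cocEq_mul (H : TwoChartEmb C0 Cinf t j 𝒪 R0 R1 Rc) {m N : ℕ} (hm : 0 < m)
    (hN : 0 < N) {ρ0 : ι0 → K} {ρ1 : ι1 → K} {f f' f'' : K} {g g' g'' : 𝒞}
    (hg : IsCocRepRel t j 𝒪 R0 R1 m N ρ0 ρ1 f g) (hg' : IsCocRep t j 𝒪 R0 R1 m N f' g')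
    (hg'' : IsCocRepRel t j 𝒪 R0 R1 m N ρ0 ρ1 f'' g'')
    (hn : Nrm t j 𝒪 R0 R1 m f'' (f * f')) : CocEq C0 Cinf t N g'' (g * g') := by
  obtain ⟨a, v, ha0, ha1, hv, rfl⟩ := hn
  obtain ⟨-, h, hh, c⟩ := hg
  obtain ⟨-, h', hh', c'⟩ := hg'
  obtain ⟨-, h'', hh'', c''⟩ := hg''
  have cm := c.mul H.gauss c'
  simp only [mul_one] at cm
  have cc := cm.const_mul_pow H.gauss ha0 ha1 hv
  obtain ⟨h3, hh3, e3⟩ := H.gauss.mul_one_add_pow N hh hh'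
  have e : j g * (1 + j (algebraMap R 𝒞 t) ^ N * h) *
      (j g' * (1 + j (algebraMap R 𝒞 t) ^ N * h')) =
      j (g * g') * (1 + j (algebraMap R 𝒞 t) ^ N * h3) := by
    rw [map_mul, ← e3]
    ring
  rw [e] at cc
  exact cocEq_of_isCocycle_rel H hm hN hh3 hh'' cc c''

/-- **Transport** of a relative representative along compatible ring maps fixing the
references. -/
theorem IsCocRepRel.map (s : K →+* K) (φ : 𝒞 →+* 𝒞) (hjφ : ∀ c, j (φ c) = s (j c))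
    (h𝒪 : ∀ x ∈ 𝒪, s x ∈ 𝒪) (hR0 : ∀ i, ∀ x ∈ R0 i, s x ∈ R0 i)
    (hR1 : ∀ i, ∀ x ∈ R1 i, s x ∈ R1 i)
    (hπ : ∃ w ∈ 𝒪, s (j (algebraMap R 𝒞 t)) = j (algebraMap R 𝒞 t) * w)
    (hφt : ∀ c : 𝒞, φ (algebraMap R 𝒞 t * c) ∈ Ideal.span {t} • (⊤ : Submodule R 𝒞))
    {m N : ℕ} {ρ0 : ι0 → K} {ρ1 : ι1 → K} (hρ0 : ∀ i, s (ρ0 i) = ρ0 i)
    (hρ1 : ∀ i, s (ρ1 i) = ρ1 i) {f : K} {g : 𝒞}
    (h : IsCocRepRel t j 𝒪 R0 R1 m N ρ0 ρ1 f g) :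
    IsCocRepRel t j 𝒪 R0 R1 m N ρ0 ρ1 (s f) (φ g) := by
  obtain ⟨h1, h2, hh2, ψ0, ψ1, a0, a1, e⟩ := h
  obtain ⟨w, hw, ew⟩ := hπ
  refine ⟨?_, w ^ N * s h2, 𝒪.mul_mem (𝒪.pow_mem hw N) (h𝒪 h2 hh2), s ψ0, s ψ1, ?_, ?_, ?_⟩
  · obtain ⟨b, -, hb⟩ := (mem_span_singleton_smul_iff t _ _).1 h1
    have e1 : φ g - 1 = φ (algebraMap R 𝒞 t * b) := by rw [← hb, map_sub, map_one]
    rw [e1]
    exact hφt b
  · have h3 := a0.map s h𝒪 hw ew hR0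
    have e3 : (fun i => s (ρ0 i)) = ρ0 := funext hρ0
    rwa [e3] at h3
  · have h3 := a1.map s h𝒪 hw ew hR1
    have e3 : (fun i => s (ρ1 i)) = ρ1 := funext hρ1
    rwa [e3] at h3
  · rw [hjφ, ← map_div₀, ← e, map_mul, map_add, map_one, map_mul, map_pow, ew]
    ring

/-- **The cocycle clause of the Čech machine on a two-chart embedding.** -/
theorem hcoc_of_twoChartEmb {Γ : Type*} (I : Γ → Prop) {G : Type*} [AddCommGroup G]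
    (act : Γ → G → G) (G0 : AddSubgroup G) (hG0 : ∀ σ, I σ → ∀ x, act σ x - x ∈ G0)
    (H : TwoChartEmb C0 Cinf t j 𝒪 R0 R1 Rc) {m : ℕ} (hm : 0 < m)
    (φ : Γ → 𝒞 →+* 𝒞) (s : Γ → K →+* K)
    (hjφ : ∀ σ, I σ → ∀ c, j (φ σ c) = s σ (j c))
    (hs𝒪 : ∀ σ, I σ → ∀ x ∈ 𝒪, s σ x ∈ 𝒪)
    (hsR0 : ∀ σ, I σ → ∀ i, ∀ x ∈ R0 i, s σ x ∈ R0 i)
    (hsR1 : ∀ σ, I σ → ∀ i, ∀ x ∈ R1 i, s σ x ∈ R1 i)
    (hsπ : ∀ σ, I σ → ∃ w ∈ 𝒪, s σ (j (algebraMap R 𝒞 t)) = j (algebraMap R 𝒞 t) * w)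
    (hφt : ∀ σ, I σ → ∀ c : 𝒞,
      φ σ (algebraMap R 𝒞 t * c) ∈ Ideal.span {t} • (⊤ : Submodule R 𝒞))
    (F : G → K) (hFu : ∀ x, IsUnitIn 𝒪 (F x))
    (hF1 : ∀ x ∈ G0, ∃ h ∈ 𝒪, F x = 1 + j (algebraMap R 𝒞 t) * h)
    (hstar0 : ∀ x ∈ G0, ∀ i, ∃ y : K, IsUnitIn (R0 i) (y ^ m * F x))
    (hstar1 : ∀ x ∈ G0, ∀ i, ∃ y : K, IsUnitIn (R1 i) (y ^ m * F x))
    (hF_hom : ∀ x ∈ G0, ∀ y ∈ G0, Nrm t j 𝒪 R0 R1 m (F (x + y)) (F x * F y))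
    (hF_eqv : ∀ σ, I σ → ∀ x ∈ G0, Nrm t j 𝒪 R0 R1 m (s σ (F x)) (F (act σ x)))
    (rep : G ⧸ G0 → G) (hrep : ∀ c, ((rep c : G) : G ⧸ G0) = c)
    (hF_peq : ∀ σ, I σ → ∀ c,
      Nrm t j 𝒪 R0 R1 m (s σ (F (rep c))) (F (rep c) * F (act σ (rep c) - rep c)))
    (hcos0 : ∀ c i, ∃ ρ : K, (∀ σ, I σ → s σ ρ = ρ) ∧
      ∃ u, (∃ h ∈ 𝒪, u = 1 + j (algebraMap R 𝒞 t) * h) ∧
        IsUnitIn (R0 i) (F (rep c) * ((ρ * u)⁻¹) ^ m))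
    (hcos1 : ∀ c i, ∃ ρ : K, (∀ σ, I σ → s σ ρ = ρ) ∧
      ∃ u, (∃ h ∈ 𝒪, u = 1 + j (algebraMap R 𝒞 t) * h) ∧
        IsUnitIn (R1 i) (F (rep c) * ((ρ * u)⁻¹) ^ m))
    (n0 : ℕ) (hn0 : 0 < n0)
    (halg : ∀ x ∈ G0, ∀ N, n0 ≤ N → ∀ ψ0 ψ1 : K,
      IsRootRel 𝒪 (j (algebraMap R 𝒞 t)) R0 m N (fun _ => 1) (F x) ψ0 →
      IsRootRel 𝒪 (j (algebraMap R 𝒞 t)) R1 m N (fun _ => 1) (F x) ψ1 →
      (∃ h ∈ 𝒪, ψ0 = ψ1 * (1 + j (algebraMap R 𝒞 t) ^ n0 * h)) → x = 0) :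
    ∀ N : ℕ, n0 ≤ N → ∃ (g : G → 𝒞) (p : G ⧸ G0 → 𝒞) (rep : G ⧸ G0 → G),
      (∀ c, ((rep c : G) : G ⧸ G0) = c) ∧
      (∀ x ∈ G0, g x - 1 ∈ Ideal.span {t} • (⊤ : Submodule R 𝒞)) ∧
      (∀ c, p c - 1 ∈ Ideal.span {t} • (⊤ : Submodule R 𝒞)) ∧
      (∀ x ∈ G0, ∀ y ∈ G0, CocEq C0 Cinf t N (g (x + y)) (g x * g y)) ∧
      (∀ σ, I σ → ∀ x ∈ G0, CocEq C0 Cinf t N (φ σ (g x)) (g (act σ x))) ∧
      (∀ σ, I σ → ∀ c, CocEq C0 Cinf t N (φ σ (p c)) (p c * g (act σ (rep c) - rep c))) ∧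
      (∀ x ∈ G0, CocEq C0 Cinf t n0 (g x) 1 → x = 0) := by
  classical
  have hG := H.gauss
  -- the references, as functions of the local ring
  let Good : G ⧸ G0 → Subring K → K → Prop := fun c S ρ =>
    (∀ σ, I σ → s σ ρ = ρ) ∧ ∃ u, (∃ h ∈ 𝒪, u = 1 + j (algebraMap R 𝒞 t) * h) ∧
      IsUnitIn S (F (rep c) * ((ρ * u)⁻¹) ^ m)
  let ρt : G ⧸ G0 → Subring K → K := fun c S =>
    if IsUnitIn S (F (rep c)) then 1 else if h : ∃ ρ, Good c S ρ then h.choose else 1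
  have hρt_unit : ∀ c S, IsUnitIn S (F (rep c)) → ρt c S = 1 := fun c S h => if_pos h
  have hρt_fix : ∀ c S σ, I σ → s σ (ρt c S) = ρt c S := by
    intro c S σ hσ
    by_cases h1 : IsUnitIn S (F (rep c))
    · rw [hρt_unit c S h1, map_one]
    · by_cases h2 : ∃ ρ, Good c S ρ
      · have e : ρt c S = h2.choose := by
          simp only [ρt, if_neg h1, dif_pos h2]
        rw [e]
        exact h2.choose_spec.1 σ hσ
      · have e : ρt c S = 1 := by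
          simp only [ρt, if_neg h1, dif_neg h2]
        rw [e, map_one]
  have hρt_loc : ∀ c S, (∃ ρ, Good c S ρ) →
      ∃ u, (∃ h ∈ 𝒪, u = 1 + j (algebraMap R 𝒞 t) * h) ∧
        IsUnitIn S (F (rep c) * ((ρt c S * u)⁻¹) ^ m) := by
    intro c S h2
    by_cases h1 : IsUnitIn S (F (rep c))
    · refine ⟨1, ⟨0, 𝒪.zero_mem, by ring⟩, ?_⟩
      rw [hρt_unit c S h1, mul_one, inv_one, one_pow, mul_one]
      exact h1
    · have e : ρt c S = h2.choose := by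
        simp only [ρt, if_neg h1, dif_pos h2]
      rw [e]
      exact h2.choose_spec.2
  intro N hN
  refine CocAssembly.hcoc_of_rep I act G0 hG0 C0 Cinf t φ (fun σ x => s σ x)
    (Nrm t j 𝒪 R0 R1 m) (P := (ι0 → K) × (ι1 → K))
    (fun N f g => IsCocRep t j 𝒪 R0 R1 m N f g)
    (fun N r f g => IsCocRepRel t j 𝒪 R0 R1 m N r.1 r.2 f g) F rep hrep
    (fun c => (fun i => ρt c (R0 i), fun i => ρt c (R1 i))) n0
    (fun N _ f g h => h.1) (fun N _ r f g h => h.1)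
    (fun N _ => isCocRep_one t j 𝒪 R0 R1 m N) ?_ ?_ ?_ ?_ ?_ ?_ hF_hom ?_ hF_peq ?_ N hN
  · intro N hN x hx
    exact exists_isCocRep H hm (lt_of_lt_of_le hn0 hN) (F x) (hF1 x hx) (hstar0 x hx)
      (hstar1 x hx)
  · intro N hN c
    refine exists_isCocRepRel H hm (lt_of_lt_of_le hn0 hN) _ _ (fun k => ρt c (Rc k)) ?_ ?_
      (F (rep c)) (fun i => hρt_loc c (R0 i) (hcos0 c i)) (finite_not_isUnitIn H.chart0 (hFu (rep c)) _ (fun i h => hρt_unit c (R0 i) h) m)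
      (fun i => hρt_loc c (R1 i) (hcos1 c i)) (finite_not_isUnitIn H.chart1 (hFu (rep c)) _ (fun i h => hρt_unit c (R1 i) h) m)
    · intro k
      obtain ⟨i, hi⟩ := H.ref0 k
      exact ⟨i, hi, by rw [hi]⟩
    · intro k
      obtain ⟨i, hi⟩ := H.ref1 k
      exact ⟨i, hi, by rw [hi]⟩
  · intro N hN f f' f'' g g' g'' hg hg' hg'' hn
    obtain ⟨a, v, ha0, ha1, hv, rfl⟩ := hn
    exact IsCocRep.cocEq_mul H hm (lt_of_lt_of_le hn0 hN) hg hg' hg'' ha0 ha1 hv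
  · intro N hN r f f' f'' g g' g'' hg hg' hg'' hn
    exact IsCocRepRel.cocEq_mul H hm (lt_of_lt_of_le hn0 hN) hg hg' hg'' hn
  · intro N _ σ hσ f g h
    exact IsCocRep.map (s σ) (φ σ) (hjφ σ hσ) (hs𝒪 σ hσ) (hsR0 σ hσ) (hsR1 σ hσ) (hsπ σ hσ)
      (hφt σ hσ) h
  · intro N _ σ hσ c f g h
    exact IsCocRepRel.map (s σ) (φ σ) (hjφ σ hσ) (hs𝒪 σ hσ) (hsR0 σ hσ) (hsR1 σ hσ) (hsπ σ hσ)
      (hφt σ hσ) (fun i => hρt_fix c (R0 i) σ hσ) (fun i => hρt_fix c (R1 i) σ hσ) h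
  · intro σ hσ x hx
    have h := hF_eqv σ hσ x hx
    rwa [← mul_one (F (act σ x))] at h
  · intro N hN x hx g hg hce
    obtain ⟨ψ0, ψ1, r0, r1, hh⟩ := IsCocRep.exists_roots H hN hg hce
    exact halg x hx N hN ψ0 ψ1 r0 r1 hh

end Fermat.Agent.S19.Cech.CocRep
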