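/-
S19 (program FG, Route C), THE CHART MACHINE (helper167, integrator).

`hasCechCoords_of_twoChartEmb` = `Cech.Machine.hasCechCoords_of_machine` with its cocycle clause
`hcoc` discharged by `Cech.CocRep.hcoc_of_twoChartEmb`: from a two-chart embedding
(`Lib/GaussChartCoc.TwoChartEmb`) with `Dec` / `Uniq`, semilinear inertia maps `φ`, `ψ` compatible
with maps `s σ` of the function field (F4), a family `F` of normalised Kummer functions, (STAR),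
invariant local references for the coset representatives and the algebraisation statement at
the level `n0`, to the abstract exit `Cech.Exit.HasCechCoords`.

Level-free: its hypotheses are exactly what the chart instance (R = O_E, t = π, 𝒞 = the overlap
chart ring, K = the function field) owes.
-/
import Mathlib
import Fermat.Agent.S19.Cech.Machine
import Fermat.Agent.S19.Cech.CocRep

set_option autoImplicit false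

noncomputable section

namespace Fermat.Agent.S19.Cech.ChartMachine

open Fermat.Agent.Lib.TwoChartNormalForm Fermat.Agent.Lib.ChartRoots
open Fermat.Agent.S19.HopfOrder Fermat.Agent.S19.Contract Fermat.Agent.S19.Cech.Exit
open Fermat.Agent.S19.Cech.Machine Fermat.Agent.S19.Cech.CocRep

/-- **The chart machine.** -/
theorem hasCechCoords_of_twoChartEmb {ℓ : ℕ} {G : Type} [AddCommGroup G]
    (act : Gal → G → G) (hadd : ∀ σ x y, act σ (x + y) = act σ x + act σ y)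
    (A : ValuationSubring Qb) (hA : A.LiesOverPrime ℓ)
    (E : IntermediateField ℚ Qb) [FiniteDimensional ℚ E]
    (hlev : ∀ σ : Gal, σ ∈ E.fixingSubgroup → ∀ x, act σ x = x)
    (G0 : AddSubgroup G) (hG0 : ∀ σ ∈ A.inertiaSubgroupIn ℚ, ∀ x, act σ x - x ∈ G0)
    {R 𝒞 : Type*} [CommRing R] [CommRing 𝒞] [Algebra R 𝒞]
    (C0 Cinf : Subalgebra R 𝒞) {d : ℕ} (e : Fin d → 𝒞)
    (hdec : Dec C0 Cinf e) (huniq : Uniq C0 Cinf e)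
    (t : R)
    (ι : R →+* Qb) (hιA : ∀ r, ι r ∈ A) (hιE : ∀ r, ι r ∈ E)
    (hsat : ∀ (r : R) (k : ℕ), (∃ a ∈ A, ι r = ι t ^ k * a) → r ∈ Ideal.span {t ^ k})
    (hℓt : (ℓ : R) ∈ Ideal.span {t})
    (htℓ : ∃ e0 : ℕ, ∃ a ∈ A, ι t ^ e0 = (ℓ : Qb) * a)
    (φ : Gal → 𝒞 →+* 𝒞) (ψ : Gal → R →+* R)
    (hψ : ∀ σ ∈ A.inertiaSubgroupIn ℚ, ∀ r, ι (ψ σ r) = σ (ι r))
    (hφψ : ∀ σ ∈ A.inertiaSubgroupIn ℚ, ∀ (r : R) (c : 𝒞), φ σ (r • c) = ψ σ r • φ σ c)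
    (hφ0 : ∀ σ ∈ A.inertiaSubgroupIn ℚ, ∀ c ∈ C0, φ σ c ∈ C0)
    (hφ1 : ∀ σ ∈ A.inertiaSubgroupIn ℚ, ∀ c ∈ Cinf, φ σ c ∈ Cinf)
    (hφe : ∀ σ ∈ A.inertiaSubgroupIn ℚ, ∀ i, φ σ (e i) = e i)
    (hψt : ∀ σ ∈ A.inertiaSubgroupIn ℚ, ψ σ t ∈ Ideal.span {t})
    {K : Type*} [Field K] (j : 𝒞 →+* K) (𝒪 : Subring K)
    {ι0 ι1 ιc : Type*} (R0 : ι0 → Subring K) (R1 : ι1 → Subring K) (Rc : ιc → Subring K)
    (H : TwoChartEmb C0 Cinf t j 𝒪 R0 R1 Rc) {m : ℕ} (hm : 0 < m)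
    (s : Gal → K →+* K)
    (hjφ : ∀ σ ∈ A.inertiaSubgroupIn ℚ, ∀ c, j (φ σ c) = s σ (j c))
    (hs𝒪 : ∀ σ ∈ A.inertiaSubgroupIn ℚ, ∀ x ∈ 𝒪, s σ x ∈ 𝒪)
    (hsR0 : ∀ σ ∈ A.inertiaSubgroupIn ℚ, ∀ i, ∀ x ∈ R0 i, s σ x ∈ R0 i)
    (hsR1 : ∀ σ ∈ A.inertiaSubgroupIn ℚ, ∀ i, ∀ x ∈ R1 i, s σ x ∈ R1 i)
    (hsπ : ∀ σ ∈ A.inertiaSubgroupIn ℚ,
      ∃ w ∈ 𝒪, s σ (j (algebraMap R 𝒞 t)) = j (algebraMap R 𝒞 t) * w)
    (F : G → K) (hFu : ∀ x, IsUnitIn 𝒪 (F x))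
    (hF1 : ∀ x ∈ G0, ∃ h ∈ 𝒪, F x = 1 + j (algebraMap R 𝒞 t) * h)
    (hstar0 : ∀ x ∈ G0, ∀ i, ∃ y : K, IsUnitIn (R0 i) (y ^ m * F x))
    (hstar1 : ∀ x ∈ G0, ∀ i, ∃ y : K, IsUnitIn (R1 i) (y ^ m * F x))
    (hF_hom : ∀ x ∈ G0, ∀ y ∈ G0, Nrm t j 𝒪 R0 R1 m (F (x + y)) (F x * F y))
    (hF_eqv : ∀ σ ∈ A.inertiaSubgroupIn ℚ, ∀ x ∈ G0,
      Nrm t j 𝒪 R0 R1 m (s σ (F x)) (F (act σ x)))
    (rep : G ⧸ G0 → G) (hrep : ∀ c, ((rep c : G) : G ⧸ G0) = c)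
    (hF_peq : ∀ σ ∈ A.inertiaSubgroupIn ℚ, ∀ c,
      Nrm t j 𝒪 R0 R1 m (s σ (F (rep c))) (F (rep c) * F (act σ (rep c) - rep c)))
    (hcos0 : ∀ c i, ∃ ρ : K, (∀ σ ∈ A.inertiaSubgroupIn ℚ, s σ ρ = ρ) ∧
      ∃ u, (∃ h ∈ 𝒪, u = 1 + j (algebraMap R 𝒞 t) * h) ∧
        IsUnitIn (R0 i) (F (rep c) * ((ρ * u)⁻¹) ^ m))
    (hcos1 : ∀ c i, ∃ ρ : K, (∀ σ ∈ A.inertiaSubgroupIn ℚ, s σ ρ = ρ) ∧
      ∃ u, (∃ h ∈ 𝒪, u = 1 + j (algebraMap R 𝒞 t) * h) ∧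
        IsUnitIn (R1 i) (F (rep c) * ((ρ * u)⁻¹) ^ m))
    (n0 : ℕ) (hn0 : 0 < n0)
    (halg : ∀ x ∈ G0, ∀ N, n0 ≤ N → ∀ ψ0 ψ1 : K,
      IsRootRel 𝒪 (j (algebraMap R 𝒞 t)) R0 m N (fun _ => 1) (F x) ψ0 →
      IsRootRel 𝒪 (j (algebraMap R 𝒞 t)) R1 m N (fun _ => 1) (F x) ψ1 →
      (∃ h ∈ 𝒪, ψ0 = ψ1 * (1 + j (algebraMap R 𝒞 t) ^ n0 * h)) → x = 0) :
    HasCechCoords ℓ act := by
  have ht : ∀ c : 𝒞, algebraMap R 𝒞 t * c = 0 → c = 0 := by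
    intro c hc
    apply H.inj
    have h1 : j (algebraMap R 𝒞 t) * j c = 0 := by rw [← map_mul, hc, map_zero]
    rw [map_zero]
    exact (mul_eq_zero.mp h1).resolve_left H.gauss.pi_ne_zero
  have hφt : ∀ σ ∈ A.inertiaSubgroupIn ℚ, ∀ c : 𝒞,
      φ σ (algebraMap R 𝒞 t * c) ∈ Ideal.span {t} • (⊤ : Submodule R 𝒞) := by
    intro σ hσ c
    rw [← Algebra.smul_def, hφψ σ hσ]
    exact Submodule.smul_mem_smul (hψt σ hσ) Submodule.mem_top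
  exact hasCechCoords_of_machine act hadd A hA E hlev G0 hG0 C0 Cinf e hdec huniq t ht ι hιA hιE
    hsat hℓt htℓ φ ψ hψ hφψ hφ0 hφ1 hφe hψt n0
    (hcoc_of_twoChartEmb (fun σ : Gal => σ ∈ A.inertiaSubgroupIn ℚ) act G0 hG0 H hm φ s hjφ hs𝒪
      hsR0 hsR1 hsπ hφt F hFu hF1 hstar0 hstar1 hF_hom hF_eqv rep hrep hF_peq hcos0 hcos1 n0 hn0
      halg)

end Fermat.Agent.S19.Cech.ChartMachine
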