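import Mathlib
import Fermat.Agent.S34.HauptU.LevelMAux
import Fermat.Agent.S37.Fn.ModelInst

/-!
# S19 (program FG), route C: the chart instances, uniformly in the number field

For a level `M`, a prime `ℓ ∤ M` with `3 < ℓ ∨ 2 ∣ M ∨ 3 ∣ M`, a valuation ring `A` of `ℚ̄` over `ℓ`
and a primitive `M`-th root of unity `z`, there is ONE rational `q`-series `u₀` such that over
EVERY number field `E ∋ z` with `O_E = A ∩ E` a discrete valuation ring the element `u` of
`LE M E` with `q`-expansion `u₀` (the chart function: `j`, `h₂` or `h₃`) satisfies the level-`M`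
facts `LevelMAux.ChartFacts E π u u⁻¹` of the Model theorem for every uniformiser `π` of `O_E`:
`π` prime in both chart rings, both special fibres Dedekind, regular at every closed point; and
the package `S37.Fn.ModelInst.ChartModelC M (OE A E) E u` (integral `q`-series with a pole, ...).

* `exists_chart` : the uniform statement (the finite set `S₀` of the landed
  `LevelMAux.exists_levelM_*` is made explicit: `S₀ = {z}`).
-/

set_option autoImplicit false
set_option synthInstance.maxHeartbeats 400000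
set_option linter.style.haveILetI false
set_option linter.unusedSectionVars false

noncomputable section

open Polynomial IntermediateField ModularCurve

namespace Fermat.Agent.S19.Cech.ChartInst

open Fermat.Agent.S18.K1Defs Fermat.Agent.S18.K1Main Fermat.Agent.S30 Fermat.Agent.S30.Model
  Fermat.Agent.S30.Haupt Fermat.Agent.S34.ModelNormal Fermat.Agent.S34.HauptU.LevelMAux

local notation "Qb" => AlgebraicClosure ℚ

/-- **The chart function and the level-`M` facts, uniformly in the number field `E ∋ z`.** -/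
theorem exists_chart (M : ℕ) [NeZero M] {ℓ : ℕ} [Fact ℓ.Prime] (hℓM : ¬ ℓ ∣ M)
    (hcase : 3 < ℓ ∨ 2 ∣ M ∨ 3 ∣ M) (A : ValuationSubring Qb) (hA : A.LiesOverPrime ℓ)
    {z : Qb} (hz : IsPrimitiveRoot z M) :
    ∃ u₀ : LaurentSeries ℚ, ∀ (E : IntermediateField ℚ Qb) [FiniteDimensional ℚ E]
      [IsDiscreteValuationRing (OE A E)], z ∈ E →
      letI := algebraOL (OE A E) E (LE M E)
      ∃ u : LE M E, (u : LaurentSeries E) = coeffEmb E u₀ ∧
        Fermat.Agent.S37.Fn.ModelInst.ChartModelC M (OE A E) E u ∧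
        ∀ π : OE A E, Irreducible π → ChartFacts E π u u⁻¹ := by
  have hℓp : ℓ.Prime := Fact.out
  have hMℓ : Nat.Coprime M ℓ := Nat.coprime_comm.mp ((Nat.Prime.coprime_iff_not_dvd hℓp).mpr hℓM)
  rcases hcase with h3 | h2M | h3M
  · -- the `j`-chart
    refine ⟨jq, fun E _ _ hzE => ?_⟩
    letI := algebraOL (OE A E) E (LE M E)
    haveI := isScalarTower_OL (OE A E) E (LE M E)
    have h' : JInputs M (OE A E) E 0 := E2.JInputsAll.jInputsC_OE M A E hA hMℓ hz hzE 0
    exact ⟨jE M E, rfl, Fermat.Agent.S37.Fn.ModelInst.chartModel_j A M hℓM hA h3 hz E hzE,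
      fun π hπ => chartFacts_jE M E h' (isUnit_1728_OE A E hℓp hA h3) π hπ⟩
  · -- the `h₂`-chart
    have hℓ2 : ℓ ≠ 2 := fun h => hℓM (h ▸ h2M)
    refine ⟨Two.s2⁻¹, fun E _ _ hzE => ?_⟩
    letI := algebraOL (OE A E) E (LE M E)
    haveI := isScalarTower_OL (OE A E) E (LE M E)
    have h' : JInputs M (OE A E) E 0 := E2.JInputsAll.jInputsC_OE M A E hA hMℓ hz hzE 0
    have h2 : IsUnit (2 : OE A E) := by
      have hc : Nat.Coprime 2 ℓ := (Nat.coprime_primes Nat.prime_two hℓp).mpr (Ne.symm hℓ2)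
      have := isUnit_natCast_OE A E hA 2 hc
      exact_mod_cast this
    refine ⟨HorizTwo.h2E M E h2M, ?_,
      Fermat.Agent.S37.Fn.ModelInst.chartModel_h2 A M h2M hℓM hA hz E hzE, fun π hπ => ?_⟩
    · rw [HorizTwo.coe_h2E, map_inv₀]
    · have h := chartFacts_two M E h2M h' h2 π hπ
      rwa [s2E_eq_inv] at h
  · -- the `h₃`-chart
    have hℓ3 : ℓ ≠ 3 := fun h => hℓM (h ▸ h3M)
    refine ⟨Three.s3⁻¹, fun E _ _ hzE => ?_⟩
    letI := algebraOL (OE A E) E (LE M E)
    haveI := isScalarTower_OL (OE A E) E (LE M E)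
    have h' : JInputs M (OE A E) E 0 := E2.JInputsAll.jInputsC_OE M A E hA hMℓ hz hzE 0
    have h3 : IsUnit (3 : OE A E) := by
      have hc : Nat.Coprime 3 ℓ := (Nat.coprime_primes Nat.prime_three hℓp).mpr (Ne.symm hℓ3)
      have := isUnit_natCast_OE A E hA 3 hc
      exact_mod_cast this
    refine ⟨HorizThree.h3E M E h3M, ?_,
      Fermat.Agent.S37.Fn.ModelInst.chartModel_h3 A M h3M hℓM hA hz E hzE, fun π hπ => ?_⟩
    · rw [HorizThree.coe_h3E, map_inv₀]
    · have h := chartFacts_three M E h3M h' h3 π hπ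
      rwa [s3E_eq_inv] at h

end Fermat.Agent.S19.Cech.ChartInst
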