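import Mathlib
import Fermat.Agent.Lib.ChartBaseChangeGen
import Fermat.Agent.S36.CycloBase
import Fermat.Agent.S18.K1Top
import Fermat.Agent.S19.Cech.ChartInst

/-!
# S19 (Program FG, Route C, brick `EQ`): base change (BC) of the chart rings along `E' ≤ E`

`Qb = AlgebraicClosure ℚ`, `A` a valuation subring of `Qb`, `E' ≤ E` intermediate fields with
`O' = OE A E'`, `O = OE A E` discrete valuation rings, `lvl M h : LE M E' →+* LE M E` the
coefficientwise inclusion of the level-`M` function fields.  Given

* a family `b : Fin r → O` spanning `O` over `O'` (`hspanO`), residue degree one (`hres`),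
* `b` is a basis of `LE M E` over `lvl (LE M E')` (`hindL`, `hspanL`: the Laurent base change),

the integral closure of `O[lvl S']` in `LE M E` is `⊕ j, b j • lvl (integral closure of O'[S'])`
for every generator set `S'` whose chart over `O'` has reduced special fibre:

* `isIntegral_iff_inSpan_lvl` : the general statement (`Lib/ChartBaseChange`, `…Gen`);
* `hrad_of_prime` : "`π` prime in the chart" gives the reducedness hypothesis;
* `bc_zero`, `bc_inf`, `bc_overlap` : the three charts `{u}`, `{u⁻¹}`, `{u, u⁻¹}` of a chart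
  function (the overlap by localisation).
-/

set_option autoImplicit false
set_option linter.style.haveILetI false
set_option linter.unusedSectionVars false
set_option synthInstance.maxHeartbeats 400000

noncomputable section

open Polynomial IntermediateField ModularCurve

namespace Fermat.Agent.S19.Cech.BCChart

open Fermat.Agent.S18.K1Defs Fermat.Agent.S18.K1Main Fermat.Agent.S30 Fermat.Agent.S30.Model
  Fermat.Agent.S36.CycloBase Fermat.Agent.Lib.ChartBaseChange

local notation "Qb" => AlgebraicClosure ℚ

section Lvl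

variable (M : ℕ) {E' E : IntermediateField ℚ Qb} (h : E' ≤ E)

/-- The coefficientwise inclusion `LE M E' → LE M E` for `E' ≤ E`. -/
def lvl : LE M E' →+* LE M E :=
  ((coeffMap (IntermediateField.inclusion h : E' →+* E)).comp
    (algebraMap (LE M E') (LaurentSeries E'))).codRestrict (LE M E)
    (fun x => Fermat.Agent.S18.K1Top.coeffMap_mem_laurentBaseChange_hom _ x.2)

theorem coe_lvl (x : LE M E') :
    ((lvl M h x : LE M E) : LaurentSeries E)
      = coeffMap (IntermediateField.inclusion h : E' →+* E) (x : LaurentSeries E') := rfl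

theorem lvl_algebraMap (c : E') :
    lvl M h (algebraMap E' (LE M E') c)
      = algebraMap E (LE M E) (IntermediateField.inclusion h c) := by
  apply Subtype.ext
  rw [coe_lvl]
  exact Fermat.Agent.S18.K1Top.coeffMap_algebraMap_hom _ c

/-- An element with rational `q`-expansion is mapped to the element with the same expansion. -/
theorem lvl_eq_of_coeffEmb {u' : LE M E'} {u : LE M E} {u₀ : LaurentSeries ℚ}
    (hu' : (u' : LaurentSeries E') = coeffEmb E' u₀) (hu : (u : LaurentSeries E) = coeffEmb E u₀) :
    lvl M h u' = u := by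
  apply Subtype.ext
  rw [coe_lvl, hu', hu]
  exact Fermat.Agent.S18.K1Top.coeffMap_coeffEmb_hom _ u₀

end Lvl

/-- "`π` is prime in the integral closure of `S`" gives the reducedness of the special fibre in
the elementwise form used by `Lib/ChartBaseChange`. -/
theorem hrad_of_prime {O L : Type*} [CommRing O] [Field L] [Algebra O L] (S : Subalgebra O L)
    (π : O) (hp : Prime (GlueChart.piElt S π)) :
    ∀ x : L, IsIntegral S x → ∀ (n : ℕ) (y : L), IsIntegral S y →
      x ^ n = algebraMap O L π * y → ∃ z : L, IsIntegral S z ∧ x = algebraMap O L π * z := by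
  intro x hx n y hy hxy
  have h1 : GlueChart.piElt S π ∣ (⟨x, hx⟩ : integralClosure S L) ^ n :=
    ⟨⟨y, hy⟩, Subtype.ext hxy⟩
  obtain ⟨z, hz⟩ := hp.dvd_of_dvd_pow h1
  exact ⟨z.1, z.2, congrArg Subtype.val hz⟩

section Main

variable (M : ℕ) [NeZero M] (A : ValuationSubring Qb) {E' E : IntermediateField ℚ Qb} (h : E' ≤ E)
  [IsDiscreteValuationRing (OE A E')] [IsDiscreteValuationRing (OE A E)]

/-- **(BC) for a general generator set.** -/
theorem isIntegral_iff_inSpan_lvl {r : ℕ} (b : Fin r → OE A E)
    (hspanO : ∀ a : OE A E, ∃ a' : Fin r → OE A E', a = ∑ j, inclOE A h (a' j) * b j)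
    (hres : ∀ a : OE A E, ∃ a' : OE A E', ¬ IsUnit (a - inclOE A h a'))
    (hindL : ∀ c : Fin r → LaurentSeries E',
      ∑ j, algebraMap E (LaurentSeries E) ((b j : OE A E) : E) *
        coeffMap (IntermediateField.inclusion h : E' →+* E) (c j) = 0 → ∀ j, c j = 0)
    (hspanL : ∀ x : LaurentSeries E, x ∈ LE M E → ∃ c : Fin r → LaurentSeries E',
      (∀ j, c j ∈ LE M E') ∧ x = ∑ j, algebraMap E (LaurentSeries E) ((b j : OE A E) : E) *
        coeffMap (IntermediateField.inclusion h : E' →+* E) (c j))
    (π' : OE A E') (hπ' : Irreducible π') :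
    letI := algebraOL (OE A E') E' (LE M E')
    letI := algebraOL (OE A E) E (LE M E)
    letI := (inclOE A h).toAlgebra
    ∀ (S' : Set (LE M E')),
      (∀ x : LE M E', IsIntegral (Algebra.adjoin (OE A E') S') x → ∀ (n : ℕ) (y : LE M E'),
        IsIntegral (Algebra.adjoin (OE A E') S') y →
        x ^ n = algebraMap (OE A E') (LE M E') π' * y →
        ∃ z : LE M E', IsIntegral (Algebra.adjoin (OE A E') S') z ∧
          x = algebraMap (OE A E') (LE M E') π' * z) →
      ∀ x : LE M E, IsIntegral (Algebra.adjoin (OE A E) (lvl M h '' S')) x ↔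
        InSpan (OE A E') (lvl M h) b S' x := by
  letI := algebraOL (OE A E') E' (LE M E')
  letI := algebraOL (OE A E) E (LE M E)
  letI := (inclOE A h).toAlgebra
  haveI := isScalarTower_OL (OE A E') E' (LE M E')
  haveI := isScalarTower_OL (OE A E) E (LE M E)
  intro S' hrad x
  have hι : ∀ a : OE A E', lvl M h (algebraMap (OE A E') (LE M E') a)
      = algebraMap (OE A E) (LE M E) (algebraMap (OE A E') (OE A E) a) :=
    fun a => lvl_algebraMap M h (a : E')
  have hspan : ∀ a : OE A E, ∃ a' : Fin r → OE A E',
      a = ∑ j, algebraMap (OE A E') (OE A E) (a' j) * b j := hspanO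
  have hcoe : ∀ c : Fin r → LE M E',
      ((∑ j, algebraMap (OE A E) (LE M E) (b j) * lvl M h (c j) : LE M E) : LaurentSeries E)
        = ∑ j, algebraMap E (LaurentSeries E) ((b j : OE A E) : E) *
          coeffMap (IntermediateField.inclusion h : E' →+* E) ((c j : LE M E') : LaurentSeries E') := by
    intro c
    rw [AddSubmonoidClass.coe_finsetSum]
    rfl
  have hind : ∀ c : Fin r → LE M E',
      ∑ j, algebraMap (OE A E) (LE M E) (b j) * lvl M h (c j) = 0 → ∀ j, c j = 0 := by
    intro c hc j
    have h1 := hindL (fun j => ((c j : LE M E') : LaurentSeries E')) (by rw [← hcoe c, hc]; rfl) j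
    exact Subtype.ext h1
  have hLspan : ∀ y : LE M E, ∃ c : Fin r → LE M E',
      y = ∑ j, algebraMap (OE A E) (LE M E) (b j) * lvl M h (c j) := by
    intro y
    obtain ⟨c, hc, hy⟩ := hspanL (y : LaurentSeries E) y.2
    refine ⟨fun j => ⟨c j, hc j⟩, Subtype.ext ?_⟩
    rw [hcoe, hy]
  obtain ⟨π, hπ⟩ := IsDiscreteValuationRing.exists_irreducible (OE A E)
  have hπ'0 : inclOE A h π' ≠ 0 := fun h0 =>
    hπ'.ne_zero (inclOE_injective A h (by rw [h0, map_zero]))
  obtain ⟨e, w, hw⟩ := IsDiscreteValuationRing.eq_unit_mul_pow_irreducible hπ'0 hπ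
  have he : e ≠ 0 := by
    rintro rfl
    rw [pow_zero, mul_one] at hw
    exact hπ'.not_isUnit ((isUnit_inclOE_iff A h π').mp (hw ▸ w.isUnit))
  have hres' : ∀ a : OE A E, ∃ a' : OE A E', ∃ a'' : OE A E,
      a = algebraMap (OE A E') (OE A E) a' + π * a'' := by
    intro a
    obtain ⟨a', ha'⟩ := hres a
    have h1 : a - inclOE A h a' ∈ IsLocalRing.maximalIdeal (OE A E) :=
      (IsLocalRing.mem_maximalIdeal _).mpr ha'
    rw [hπ.maximalIdeal_eq, Ideal.mem_span_singleton] at h1
    obtain ⟨a'', ha''⟩ := h1
    refine ⟨a', a'', ?_⟩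
    show a = inclOE A h a' + π * a''
    rw [← ha'']; ring
  have hπL : algebraMap (OE A E) (LE M E) π ≠ 0 := by
    intro h0
    have h1 : algebraMap E (LE M E) ((π : OE A E) : E) = 0 := h0
    have h2 : ((π : OE A E) : E) = 0 := by
      rwa [map_eq_zero_iff _ (algebraMap E (LE M E)).injective] at h1
    exact hπ.ne_zero (Subtype.ext h2)
  have hOL' : ∀ y : LE M E', IsIntegral (OE A E') y →
      ∃ a : OE A E', algebraMap (OE A E') (LE M E') a = y :=
    fun y hy => Assembly.exists_of_isIntegral_of_algClosedIn (Inst.algClosedIn_laurent (LE M E')) y hy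
  exact isIntegral_iff_inSpan hι hspan hind π' hπ' π hπ.not_isUnit e he w hw hres' hrad hπL
    (fun y hy => exists_mul_inSpan (lvl M h) hι b hspan hind hLspan hOL' S' y hy) x

end Main

end Fermat.Agent.S19.Cech.BCChart
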