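import Mathlib
import Fermat.Agent.S19.Cech.BCChart
import Fermat.Agent.S30.Model.CechP1

/-!
# S19 (Program FG, Route C, brick `EQ`): (BC) for the three charts of a chart function

In the setting of `S19/Cech/BCChart` (`E' ≤ E`, `O' = OE A E'`, `O = OE A E`, a family
`b : Fin r → O` which is a basis of `O` over `O'` and of `LE M E` over `lvl (LE M E')`, residue
degree one), let `u' : LE M E'` be nonzero with `π'` prime in the integral closures of `O'[u']`
and `O'[u'⁻¹]`, and `u = lvl M h u'`.  Then each of the three chart rings of `u` over `O`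
(generators `{u}`, `{u⁻¹}`, `{u, u⁻¹}`) is `⊕ j, b j • lvl (the chart ring of u' over O')`.
-/

set_option autoImplicit false
set_option linter.style.haveILetI false
set_option linter.unusedSectionVars false
set_option synthInstance.maxHeartbeats 400000

noncomputable section

open Polynomial IntermediateField ModularCurve

namespace Fermat.Agent.S19.Cech.BCChart

open Fermat.Agent.S18.K1Defs Fermat.Agent.S18.K1Main Fermat.Agent.S30 Fermat.Agent.S30.Model
  Fermat.Agent.S36.CycloBase Fermat.Agent.Lib.ChartBaseChange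

local notation "Qb" => AlgebraicClosure ℚ

variable (M : ℕ) [NeZero M] (A : ValuationSubring Qb) {E' E : IntermediateField ℚ Qb} (h : E' ≤ E)
  [IsDiscreteValuationRing (OE A E')] [IsDiscreteValuationRing (OE A E)]

/-- **(BC) for the three charts.** -/
theorem bc_three {r : ℕ} (b : Fin r → OE A E)
    (hspanO : ∀ a : OE A E, ∃ a' : Fin r → OE A E', a = ∑ j, inclOE A h (a' j) * b j)
    (hres : ∀ a : OE A E, ∃ a' : OE A E', ¬ IsUnit (a - inclOE A h a'))
    (hindL : ∀ c : Fin r → LaurentSeries E',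
      ∑ j, algebraMap E (LaurentSeries E) ((b j : OE A E) : E) *
        coeffMap (IntermediateField.inclusion h : E' →+* E) (c j) = 0 → ∀ j, c j = 0)
    (hspanL : ∀ x : LaurentSeries E, x ∈ LE M E → ∃ c : Fin r → LaurentSeries E',
      (∀ j, c j ∈ LE M E') ∧ x = ∑ j, algebraMap E (LaurentSeries E) ((b j : OE A E) : E) *
        coeffMap (IntermediateField.inclusion h : E' →+* E) (c j))
    (π' : OE A E') (hπ' : Irreducible π') (u' : LE M E') (hu'0 : u' ≠ 0) :
    letI := algebraOL (OE A E') E' (LE M E')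
    letI := algebraOL (OE A E) E (LE M E)
    letI := (inclOE A h).toAlgebra
    Prime (GlueChart.piElt (Algebra.adjoin (OE A E') ({u'} : Set (LE M E'))) π') →
    Prime (GlueChart.piElt (Algebra.adjoin (OE A E') ({u'⁻¹} : Set (LE M E'))) π') →
    (∀ x : LE M E, IsIntegral (Algebra.adjoin (OE A E) ({lvl M h u'} : Set (LE M E))) x ↔
      InSpan (OE A E') (lvl M h) b ({u'} : Set (LE M E')) x) ∧
    (∀ x : LE M E, IsIntegral (Algebra.adjoin (OE A E) ({(lvl M h u')⁻¹} : Set (LE M E))) x ↔
      InSpan (OE A E') (lvl M h) b ({u'⁻¹} : Set (LE M E')) x) ∧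
    (∀ x : LE M E,
      IsIntegral (Algebra.adjoin (OE A E) ({lvl M h u', (lvl M h u')⁻¹} : Set (LE M E))) x ↔
      InSpan (OE A E') (lvl M h) b ({u', u'⁻¹} : Set (LE M E')) x) := by
  letI := algebraOL (OE A E') E' (LE M E')
  letI := algebraOL (OE A E) E (LE M E)
  letI := (inclOE A h).toAlgebra
  intro hp0 hp1
  have hι : ∀ a : OE A E', lvl M h (algebraMap (OE A E') (LE M E') a)
      = algebraMap (OE A E) (LE M E) (algebraMap (OE A E') (OE A E) a) :=
    fun a => lvl_algebraMap M h (a : E')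
  have hu0 : lvl M h u' ≠ 0 := (map_ne_zero (lvl M h)).mpr hu'0
  have key := isIntegral_iff_inSpan_lvl M A h b hspanO hres hindL hspanL π' hπ'
  have h0 : ∀ x : LE M E, IsIntegral (Algebra.adjoin (OE A E) ({lvl M h u'} : Set (LE M E))) x ↔
      InSpan (OE A E') (lvl M h) b ({u'} : Set (LE M E')) x := by
    intro x
    have := key {u'} (hrad_of_prime _ π' hp0) x
    rwa [Set.image_singleton] at this
  have h1 : ∀ x : LE M E,
      IsIntegral (Algebra.adjoin (OE A E) ({(lvl M h u')⁻¹} : Set (LE M E))) x ↔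
      InSpan (OE A E') (lvl M h) b ({u'⁻¹} : Set (LE M E')) x := by
    intro x
    have := key {u'⁻¹} (hrad_of_prime _ π' hp1) x
    rwa [Set.image_singleton, map_inv₀] at this
  refine ⟨h0, h1, fun x => ⟨fun hx => ?_, fun hx => ?_⟩⟩
  · obtain ⟨n, hn⟩ := CechP1.exists_pow_mul_isIntegral (lvl M h u') hu0 x hx
    obtain ⟨c, hc, hcx⟩ := (h0 _).mp hn
    have hinv : IsIntegral (Algebra.adjoin (OE A E') ({u', u'⁻¹} : Set (LE M E'))) u'⁻¹ :=
      isIntegral_of_mem_adjoin (Algebra.subset_adjoin (by simp))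
    refine ⟨fun j => u'⁻¹ ^ n * c j, fun j => (hinv.pow n).mul
      (CechP1.isIntegral_mono (Algebra.adjoin_mono (by simp)) (hc j)), ?_⟩
    have h2 : x = (lvl M h u')⁻¹ ^ n * ((lvl M h u') ^ n * x) := by
      rw [← mul_assoc, ← mul_pow, inv_mul_cancel₀ hu0, one_pow, one_mul]
    rw [h2, hcx, Finset.mul_sum]
    refine Finset.sum_congr rfl fun j _ => ?_
    rw [map_mul, map_pow, map_inv₀]
    ring
  · have := hx.isIntegral hι
    rwa [Set.image_pair, map_inv₀] at this

end Fermat.Agent.S19.Cech.BCChart
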