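import Mathlib
import Fermat.Agent.S18.K1Defs
import Fermat.Agent.S30.E2.Degree

/-!
# S19 (Program FG, Route C, brick `EQ`): base change of constants on the generic fibre

For subfields `E' ≤ E` of `Q̄` and a finite family `b` of elements of `E` spanning `E` over `E'`,
every element of the level-`M` function field `LE M E ⊆ E((q))` is a combination
`∑ j, b j * ι (c j)` with `c j ∈ LE M E'` (`ι` = coefficientwise inclusion `E'((q)) → E((q))`);
the coordinates are unique when `b` is linearly independent over `E'`.

* `exists_coords_gen`, `coords_unique_gen` : the same for an arbitrary field homomorphism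
  `f : E' →+* E` and an arbitrary base field `F₀ ⊆ ℚ((q))`.
* `exists_coords`, `coords_unique` : the modular instance, for `E' ≤ E ≤ Q̄`.
-/

set_option autoImplicit false

noncomputable section

namespace Fermat.Agent.S19.Cech.LaurentBC

open Fermat.Agent.S18.K1Defs ModularCurve

local notation "Qb" => AlgebraicClosure ℚ

section Gen

variable {E' E : Type*} [Field E'] [Field E]

/-- coefficientwise base change of a constant -/
theorem coeffMap_algebraMap_field (f : E' →+* E) (e : E') :
    coeffMap f (algebraMap E' (LaurentSeries E') e) = algebraMap E (LaurentSeries E) (f e) := by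
  rw [algebraMap_laurentSeries_eq_single, algebraMap_laurentSeries_eq_single, coeffMap_single]

/-- coefficientwise base change of a rational series -/
theorem coeffMap_coeffEmb_field [Algebra ℚ E'] [Algebra ℚ E] (f : E' →+* E)
    (x : LaurentSeries ℚ) : coeffMap f (coeffEmb E' x) = coeffEmb E x := by
  rw [coeffEmb, coeffEmb, coeffMap_coeffMap]
  exact coeffMap_congr (Subsingleton.elim _ _) x

/-- the coefficient of a constant multiple -/
theorem coeff_algebraMap_mul (e : E) (z : LaurentSeries E) (n : ℤ) :
    (algebraMap E (LaurentSeries E) e * z).coeff n = e * z.coeff n := by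
  rw [algebraMap_laurentSeries_eq_single, ← HahnSeries.C_apply, HahnSeries.C_mul_eq_smul,
    HahnSeries.coeff_smul, smul_eq_mul]

/-- **Base change of constants, spanning** (general form): if `b` spans `E` over `f(E')`, then
`laurentBaseChange E F₀ = ∑ j, b j • ι (laurentBaseChange E' F₀)`. -/
theorem exists_coords_gen [Algebra ℚ E'] [Algebra ℚ E]
    (F₀ : IntermediateField ℚ (LaurentSeries ℚ)) (f : E' →+* E) {r : ℕ} (b : Fin r → E)
    (hspan : ∀ x : E, ∃ c : Fin r → E', x = ∑ j, b j * f (c j))
    (x : LaurentSeries E) (hx : x ∈ laurentBaseChange E F₀) :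
    ∃ c : Fin r → LaurentSeries E', (∀ j, c j ∈ laurentBaseChange E' F₀) ∧
      x = ∑ j, algebraMap E (LaurentSeries E) (b j) * coeffMap f (c j) := by
  classical
  -- the field `K' = laurentBaseChange E' F₀` acts on `E((q))` through `ι`
  let φ : laurentBaseChange E' F₀ →+* LaurentSeries E :=
    (coeffMap f).comp (algebraMap (laurentBaseChange E' F₀) (LaurentSeries E'))
  let _ : Algebra (laurentBaseChange E' F₀) (LaurentSeries E) := φ.toAlgebra
  have hsmul : ∀ (c : laurentBaseChange E' F₀) (y : LaurentSeries E),
      c • y = coeffMap f (c : LaurentSeries E') * y := fun c y => rfl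
  let B : Fin r → LaurentSeries E := fun j => algebraMap E (LaurentSeries E) (b j)
  let T : Submodule (laurentBaseChange E' F₀) (LaurentSeries E) :=
    Submodule.span (laurentBaseChange E' F₀) (Set.range B)
  -- constants of `E` lie in `T`
  have hconst : ∀ e : E, algebraMap E (LaurentSeries E) e ∈ T := by
    intro e
    obtain ⟨c, hc⟩ := hspan e
    rw [hc, map_sum]
    refine Submodule.sum_mem _ fun j _ => ?_
    have h1 : algebraMap E (LaurentSeries E) (b j * f (c j))
        = (algebraMap E' (laurentBaseChange E' F₀) (c j)) • B j := by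
      rw [hsmul, map_mul, mul_comm]
      congr 1
      exact (coeffMap_algebraMap_field f (c j)).symm
    rw [h1]
    exact Submodule.smul_mem _ _ (Submodule.subset_span ⟨j, rfl⟩)
  have hone : (1 : LaurentSeries E) ∈ T := by
    have h1 := hconst 1
    rwa [map_one] at h1
  have hmul : ∀ x y, x ∈ T → y ∈ T → x * y ∈ T := by
    intro x y hx hy
    have h1 : x * y ∈ T * T := Submodule.mul_mem_mul hx hy
    have h2 : T * T ≤ T := by
      rw [Submodule.span_mul_span, Submodule.span_le]
      rintro _ ⟨_, ⟨i, rfl⟩, _, ⟨j, rfl⟩, rfl⟩
      have h3 := hconst (b i * b j)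
      rwa [map_mul] at h3
    exact h2 h1
  let S : Subalgebra (laurentBaseChange E' F₀) (LaurentSeries E) := T.toSubalgebra hone hmul
  have hfg : (Subalgebra.toSubmodule S).FG := by
    have h1 : Subalgebra.toSubmodule S = T := by
      ext y
      exact Iff.rfl
    rw [h1]
    exact Submodule.fg_span (Set.finite_range B)
  have hinv : ∀ y ∈ S, y⁻¹ ∈ S := by
    intro y hy
    have h1 : IsIntegral (laurentBaseChange E' F₀) y := IsIntegral.of_mem_of_fg S hfg y hy
    exact Subalgebra.inv_mem_of_algebraic S (x := ⟨y, hy⟩) h1.isAlgebraic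
  have hall : x ∈ S := by
    rw [mem_laurentBaseChange_iff] at hx
    induction hx using Subfield.closure_induction with
    | mem y hy =>
      rcases hy with ⟨a, rfl⟩ | ⟨z, hz, rfl⟩
      · exact hconst a
      · have h1 : coeffEmb E z
            = (⟨coeffEmb E' z, coeffEmb_mem_laurentBaseChange E' hz⟩ : laurentBaseChange E' F₀)
              • (1 : LaurentSeries E) := by
          rw [hsmul, mul_one]
          exact (coeffMap_coeffEmb_field f z).symm
        rw [h1]
        exact Submodule.smul_mem T _ hone
    | one => exact hone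
    | add x y _ _ hx hy => exact add_mem hx hy
    | neg x _ hx => exact neg_mem hx
    | inv x _ hx => exact hinv x hx
    | mul x y _ _ hx hy => exact mul_mem hx hy
  obtain ⟨c, hc⟩ := (Submodule.mem_span_range_iff_exists_fun (laurentBaseChange E' F₀)).mp
    (show x ∈ T from hall)
  refine ⟨fun j => (c j : LaurentSeries E'), fun j => (c j).2, ?_⟩
  rw [← hc]
  refine Finset.sum_congr rfl fun j _ => ?_
  rw [hsmul, mul_comm]

/-- **Base change of constants, uniqueness** (general form): if `b` is linearly independent
over `f(E')`, the coordinates are unique — for arbitrary series. -/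
theorem coords_unique_gen (f : E' →+* E) {r : ℕ} (b : Fin r → E)
    (hind : ∀ c : Fin r → E', ∑ j, b j * f (c j) = 0 → ∀ j, c j = 0)
    (c : Fin r → LaurentSeries E')
    (hc : ∑ j, algebraMap E (LaurentSeries E) (b j) * coeffMap f (c j) = 0) :
    ∀ j, c j = 0 := by
  intro j
  ext n
  have h1 : ∑ i, b i * f ((c i).coeff n) = 0 := by
    have h2 := congrArg (fun z : LaurentSeries E => z.coeff n) hc
    simp only [HahnSeries.coeff_sum, HahnSeries.coeff_zero] at h2
    rw [← h2]
    refine Finset.sum_congr rfl fun i _ => ?_
    rw [coeff_algebraMap_mul, coeffMap_coeff]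
  exact hind (fun i => (c i).coeff n) h1 j

end Gen

/-- **(LBC), spanning.** For `E' ≤ E ≤ Q̄` and `b` spanning `E` over `E'`:
`LE M E = ∑ j, b j • ι (LE M E')`. -/
theorem exists_coords (M : ℕ) {E' E : IntermediateField ℚ Qb} (h : E' ≤ E) {r : ℕ}
    (b : Fin r → E)
    (hspan : ∀ x : E, ∃ c : Fin r → E', x = ∑ j, b j * IntermediateField.inclusion h (c j))
    (x : LaurentSeries E) (hx : x ∈ LE M E) :
    ∃ c : Fin r → LaurentSeries E', (∀ j, c j ∈ LE M E') ∧
      x = ∑ j, algebraMap E (LaurentSeries E) (b j)
        * coeffMap (IntermediateField.inclusion h : E' →+* E) (c j) :=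
  exists_coords_gen (modularFunctionFieldFull M) (IntermediateField.inclusion h : E' →+* E) b
    hspan x hx

/-- **(LBC), uniqueness.** For `b` linearly independent over `E'` the coordinates are unique. -/
theorem coords_unique {E' E : IntermediateField ℚ Qb} (h : E' ≤ E) {r : ℕ} (b : Fin r → E)
    (hind : ∀ c : Fin r → E', ∑ j, b j * IntermediateField.inclusion h (c j) = 0 → ∀ j, c j = 0)
    (c : Fin r → LaurentSeries E')
    (hc : ∑ j, algebraMap E (LaurentSeries E) (b j)
      * coeffMap (IntermediateField.inclusion h : E' →+* E) (c j) = 0) :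
    ∀ j, c j = 0 :=
  coords_unique_gen (IntermediateField.inclusion h : E' →+* E) b hind c hc

end Fermat.Agent.S19.Cech.LaurentBC
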