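import Mathlib
import Fermat.Agent.S36.CycloBase
import Fermat.Agent.S34.TrivModE
import Fermat.Agent.S30.E2.Degree

/-!
# S19 (Program FG, Route C, brick `EQ`): the inertia subfield of a number field — vocabulary

`Qb = AlgebraicClosure ℚ`, `A` a valuation subring of `Qb`, `I = A.inertiaSubgroupIn ℚ`.
For an intermediate field `E`, `inertiaField A E = E ∩ Qb^I` (`= E^{I_E}` when `E / ℚ` is normal).
The base change statement (BC) of the two-chart Čech route is stated for the pair
`inertiaField A E ≤ E` (the prime of `A ∩ E` is the only one above the prime of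
`A ∩ inertiaField A E`, so `A ∩ E` is finite free over `A ∩ inertiaField A E`).
-/

set_option autoImplicit false

noncomputable section

namespace Fermat.Agent.S19.Cech.InertiaField

open Fermat.Agent.S18.K1Defs ModularCurve

local notation "Qb" => AlgebraicClosure ℚ
local notation "Gq" => (AlgebraicClosure ℚ ≃ₐ[ℚ] AlgebraicClosure ℚ)

/-- The inertia subfield of `E`: the elements of `E` fixed by the inertia group of `A`. -/
def inertiaField (A : ValuationSubring Qb) (E : IntermediateField ℚ Qb) :
    IntermediateField ℚ Qb :=
  E ⊓ IntermediateField.fixedField (A.inertiaSubgroupIn ℚ)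

theorem inertiaField_le (A : ValuationSubring Qb) (E : IntermediateField ℚ Qb) :
    inertiaField A E ≤ E := inf_le_left

theorem mem_inertiaField_iff {A : ValuationSubring Qb} {E : IntermediateField ℚ Qb} {x : Qb} :
    x ∈ inertiaField A E ↔ x ∈ E ∧ ∀ σ ∈ A.inertiaSubgroupIn ℚ, σ x = x := by
  unfold inertiaField
  rw [IntermediateField.mem_inf, IntermediateField.mem_fixedField_iff]

end Fermat.Agent.S19.Cech.InertiaField
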