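/-
S19 (Program FG, Route C, brick `EQ.OFree`, helper200): the number theory of the base change
`E' = inertiaField A E ⊆ E` in the `OE` vocabulary of the base-change owner.

`Qb = AlgebraicClosure ℚ`, `A` a valuation subring of `Qb` over the prime `ℓ`, `E` a finite normal
subfield of `Qb`, `E' = inertiaField A E = E ∩ Qb^I`, `O = OE A E`, `O' = OE A E'`.

* `inertiaField_eq_inertiaFixed` : `S19.Cech.InertiaField.inertiaField A E` is
  `Lib.InertiaField.inertiaFixed A E` (by `rfl`);
* `exists_basis`   : `O = ⊕ O' b_j` for a family `b : Fin r → O`, independent over `E'`;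
* `exists_residue` : `k_E = k_{E'}` in the form `∀ a : O, ∃ a' : O', ¬ IsUnit (a - a')`.

Both are repackagings of the membership forms `Lib.InertiaField.exists_basis` and
`Lib.InertiaField.exists_residue_inertiaFixed`.
-/
import Mathlib
import Fermat.Agent.Lib.InertiaField
import Fermat.Agent.S19.Cech.InertiaField

set_option autoImplicit false

namespace Fermat.Agent.S19.Cech.OFree

open Fermat.Agent.S18.K1Defs Fermat.Agent.S19.Cech.InertiaField

local notation "Qb" => AlgebraicClosure ℚ

/-- The two definitions of the inertia subfield of `E` agree. -/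
theorem inertiaField_eq_inertiaFixed (A : ValuationSubring Qb) (E : IntermediateField ℚ Qb) :
    inertiaField A E = Fermat.Agent.Lib.InertiaField.inertiaFixed A E := rfl

/-- **(OFree)**: `A ∩ E` is a free module over `A ∩ E'`, `E' = inertiaField A E`: a finite family
`b_j ∈ A ∩ E` spanning `A ∩ E` over `A ∩ E'` and linearly independent over `E'`. -/
theorem exists_basis (A : ValuationSubring Qb) {ℓ : ℕ} (hℓ : ℓ.Prime) (hA : A.LiesOverPrime ℓ)
    (E : IntermediateField ℚ Qb) [FiniteDimensional ℚ E] [Normal ℚ E] :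
    ∃ (r : ℕ) (b : Fin r → OE A E),
      (∀ a : OE A E, ∃ a' : Fin r → OE A (inertiaField A E),
        a = ∑ j, Fermat.Agent.S36.CycloBase.inclOE A (inertiaField_le A E) (a' j) * b j) ∧
      (∀ c : Fin r → inertiaField A E,
        ∑ j, (((b j : OE A E) : E) : Qb) * (c j : Qb) = 0 → ∀ j, c j = 0) := by
  classical
  obtain ⟨ι, hι, b, hb, hspan, hli⟩ := Fermat.Agent.Lib.InertiaField.exists_basis A E hℓ hA
  let e : ι ≃ Fin (Fintype.card ι) := Fintype.equivFin ι
  let φ : OE A E →+* Qb := (algebraMap E Qb).comp (OE A E).subtype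
  refine ⟨Fintype.card ι, fun k => ⟨⟨b (e.symm k), (hb _).1⟩, (hb _).2⟩, ?_, ?_⟩
  · intro a
    obtain ⟨c, hc, hac⟩ := hspan (((a : E)) : Qb) (a : E).2 a.2
    refine ⟨fun k => ⟨⟨c (e.symm k), (hc _).1⟩, (hc _).2⟩, ?_⟩
    apply Subtype.ext
    apply Subtype.ext
    have h1 : φ (∑ k, Fermat.Agent.S36.CycloBase.inclOE A (inertiaField_le A E)
        (⟨⟨c (e.symm k), (hc _).1⟩, (hc _).2⟩ : OE A (inertiaField A E))
          * (⟨⟨b (e.symm k), (hb _).1⟩, (hb _).2⟩ : OE A E))
        = ∑ k, c (e.symm k) * b (e.symm k) := by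
      rw [map_sum]
      rfl
    have h2 : ∑ k, c (e.symm k) * b (e.symm k) = ∑ j, c j * b j :=
      Equiv.sum_comp e.symm (fun j => c j * b j)
    exact hac.trans (h2.symm.trans h1.symm)
  · intro c hc k
    have h1 : ∑ j, ((c (e j) : inertiaField A E) : Qb) * b j = 0 := by
      rw [← hc, ← Equiv.sum_comp e.symm]
      refine Finset.sum_congr rfl fun k _ => ?_
      rw [Equiv.apply_symm_apply, mul_comm]
    have h2 := hli (fun j => ((c (e j) : inertiaField A E) : Qb)) (fun j => (c (e j)).2) h1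
      (e.symm k)
    rw [Equiv.apply_symm_apply] at h2
    exact Subtype.ext h2

/-- **`k_E = k_{E'}`** in the form used by the base change: every element of `A ∩ E` differs from
an element of `A ∩ E'` by a non-unit. -/
theorem exists_residue (A : ValuationSubring Qb) {ℓ : ℕ} (hℓ : ℓ.Prime) (hA : A.LiesOverPrime ℓ)
    (E : IntermediateField ℚ Qb) [Normal ℚ E] (a : OE A E) :
    ∃ a' : OE A (inertiaField A E),
      ¬ IsUnit (a - Fermat.Agent.S36.CycloBase.inclOE A (inertiaField_le A E) a') := by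
  obtain ⟨y', h1, h2, h3⟩ := Fermat.Agent.Lib.InertiaField.exists_residue_inertiaFixed A E hℓ hA (((a : E)) : Qb) (a : E).2 a.2
  refine ⟨⟨⟨y', h1⟩, h2⟩, fun hu => ?_⟩
  have h4 := (Fermat.Agent.S36.UnramBase.isUnit_OE_iff A E _).mp hu
  have h5 : A.valuation (y' - ((a : E) : Qb)) < 1 := A.mem_nonunits_iff.mp h3
  have h6 : (((a - Fermat.Agent.S36.CycloBase.inclOE A (inertiaField_le A E)
      (⟨⟨y', h1⟩, h2⟩ : OE A (inertiaField A E)) : OE A E) : E) : Qb)
      = -(y' - ((a : E) : Qb)) := by
    push_cast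
    rw [Fermat.Agent.S36.CycloBase.coe_inclOE]
    ring
  rw [h6, Valuation.map_neg] at h4
  rw [h4] at h5
  exact lt_irrefl _ h5

end Fermat.Agent.S19.Cech.OFree
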