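import Mathlib
import Fermat.Agent.S19.Cech.BCThree
import Fermat.Agent.S19.Cech.OFree
import Fermat.Agent.S19.Cech.LaurentBC
import Fermat.Agent.S34.TrivModE

/-!
# S19 (Program FG, Route C, brick `EQ`): the base-change data at the inertia field

`Qb = AlgebraicClosure ℚ`, `A` a valuation subring of `Qb` over the prime `ℓ`, `E` a finite normal
subfield, `E' = inertiaField A E`, `O' = OE A E'`, `O = OE A E`.

* `finiteDimensional_inertiaField` : `E'` is finite over `ℚ` (instance);
* `exists_bc_data` : a family `b : Fin r → O` with the three basis hypotheses (`hspanO`, `hindL`,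
  `hspanL`) of `BCChart.isIntegral_iff_inSpan_lvl` / `BCChart.bc_three` at
  `h := inertiaField_le A E`, verbatim;
* `galE_lvl_of_mem_inertia` : the functions coming from level `E'` are fixed by the coefficientwise
  action of the inertia group.

(The residue hypothesis `hres` of `bc_three` is `OFree.exists_residue`.)
-/

set_option autoImplicit false
set_option linter.style.haveILetI false
set_option linter.unusedSectionVars false
set_option synthInstance.maxHeartbeats 400000

noncomputable section

open Polynomial IntermediateField ModularCurve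

namespace Fermat.Agent.S19.Cech.BCData

open Fermat.Agent.S18.K1Defs Fermat.Agent.S18.K1Main Fermat.Agent.S30 Fermat.Agent.S30.Model
  Fermat.Agent.S36.CycloBase Fermat.Agent.S34.TrivModE Fermat.Agent.S19.Cech.InertiaField
  Fermat.Agent.S19.Cech.BCChart

local notation "Qb" => AlgebraicClosure ℚ
local notation "Gq" => (AlgebraicClosure ℚ ≃ₐ[ℚ] AlgebraicClosure ℚ)

instance finiteDimensional_inertiaField (A : ValuationSubring Qb) (E : IntermediateField ℚ Qb)
    [FiniteDimensional ℚ E] : FiniteDimensional ℚ (inertiaField A E) :=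
  Fermat.Agent.Lib.InertiaField.finiteDimensional_inertiaFixed A E

/-- A family in `E` spanning `O_E` over `O_{E'}` and independent over `E'` is a basis of `E` over
`E'` (field-level span, by clearing a power of `ℓ`). -/
theorem exists_field_coords (A : ValuationSubring Qb) {ℓ : ℕ} (hℓ : ℓ.Prime)
    (hA : A.LiesOverPrime ℓ) {E' E : IntermediateField ℚ Qb} (h : E' ≤ E) {r : ℕ}
    (b : Fin r → OE A E)
    (hspanO : ∀ a : OE A E, ∃ a' : Fin r → OE A E', a = ∑ j, inclOE A h (a' j) * b j) (x : E) :
    ∃ c : Fin r → E', x = ∑ j, ((b j : OE A E) : E) * IntermediateField.inclusion h (c j) := by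
  obtain ⟨t, ht⟩ := Fermat.Agent.Lib.InertiaField.exists_pow_mul_mem A hℓ hA (x : Qb)
  have hmem : ((ℓ : E) ^ t * x) ∈ OE A E := by
    show algebraMap E Qb ((ℓ : E) ^ t * x) ∈ A
    rw [map_mul, map_pow, map_natCast]
    exact ht
  obtain ⟨a', ha'⟩ := hspanO ⟨(ℓ : E) ^ t * x, hmem⟩
  have hℓ0 : ((ℓ : E) ^ t) ≠ 0 := pow_ne_zero _ (Nat.cast_ne_zero.mpr hℓ.ne_zero)
  have h1 : (ℓ : E) ^ t * x = ∑ j, ((inclOE A h (a' j) : OE A E) : E) * ((b j : OE A E) : E) := by
    have := congrArg (fun z : OE A E => (z : E)) ha'
    simpa using this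
  refine ⟨fun j => ((ℓ : E') ^ t)⁻¹ * ((a' j : OE A E') : E'), ?_⟩
  have h2 : x = ((ℓ : E) ^ t)⁻¹ * ((ℓ : E) ^ t * x) := by
    rw [← mul_assoc, inv_mul_cancel₀ hℓ0, one_mul]
  rw [h2, h1, Finset.mul_sum]
  refine Finset.sum_congr rfl fun j _ => ?_
  rw [map_mul, map_inv₀, map_pow, map_natCast]
  have h3 : ((inclOE A h (a' j) : OE A E) : E)
      = IntermediateField.inclusion h ((a' j : OE A E') : E') := rfl
  rw [h3]
  ring

/-- **The base-change data at the inertia field.**  The three basis hypotheses of
`BCChart.bc_three` at `h := inertiaField_le A E`. -/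
theorem exists_bc_data (M : ℕ) (A : ValuationSubring Qb) {ℓ : ℕ} (hℓ : ℓ.Prime)
    (hA : A.LiesOverPrime ℓ) (E : IntermediateField ℚ Qb) [FiniteDimensional ℚ E] [Normal ℚ E] :
    ∃ (r : ℕ) (b : Fin r → OE A E),
      (∀ a : OE A E, ∃ a' : Fin r → OE A (inertiaField A E),
        a = ∑ j, inclOE A (inertiaField_le A E) (a' j) * b j) ∧
      (∀ c : Fin r → LaurentSeries (inertiaField A E),
        ∑ j, algebraMap E (LaurentSeries E) ((b j : OE A E) : E) *
          coeffMap (IntermediateField.inclusion (inertiaField_le A E) : inertiaField A E →+* E)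
            (c j) = 0 → ∀ j, c j = 0) ∧
      (∀ x : LaurentSeries E, x ∈ LE M E → ∃ c : Fin r → LaurentSeries (inertiaField A E),
        (∀ j, c j ∈ LE M (inertiaField A E)) ∧
        x = ∑ j, algebraMap E (LaurentSeries E) ((b j : OE A E) : E) *
          coeffMap (IntermediateField.inclusion (inertiaField_le A E) : inertiaField A E →+* E)
            (c j)) := by
  obtain ⟨r, b, hspanO, hind⟩ := Fermat.Agent.S19.Cech.OFree.exists_basis A hℓ hA E
  refine ⟨r, b, hspanO, ?_, ?_⟩
  · intro c hc
    refine Fermat.Agent.S19.Cech.LaurentBC.coords_unique (inertiaField_le A E)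
      (fun j => ((b j : OE A E) : E)) ?_ c hc
    intro c' hc'
    apply hind c'
    have := congrArg (algebraMap E Qb) hc'
    rw [map_sum, map_zero] at this
    rw [← this]
    refine Finset.sum_congr rfl fun j _ => ?_
    rw [map_mul]
    rfl
  · intro x hx
    exact Fermat.Agent.S19.Cech.LaurentBC.exists_coords M (inertiaField_le A E)
      (fun j => ((b j : OE A E) : E))
      (exists_field_coords A hℓ hA (inertiaField_le A E) b hspanO) x hx

/-- The functions coming from the level of the inertia field are fixed by the coefficientwise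
action of the inertia group. -/
theorem galE_lvl_of_mem_inertia (M : ℕ) (A : ValuationSubring Qb) (E : IntermediateField ℚ Qb)
    [Normal ℚ E] {σ : Gq} (hσ : σ ∈ A.inertiaSubgroupIn ℚ) (x : LE M (inertiaField A E)) :
    galE E M σ (lvl M (inertiaField_le A E) x) = lvl M (inertiaField_le A E) x := by
  apply Subtype.ext
  rw [coe_galE, coe_lvl, coeffMap_coeffMap]
  refine coeffMap_congr (RingHom.ext fun c => ?_) _
  apply Subtype.ext
  show algebraMap E Qb ((σ.restrictNormal E) (IntermediateField.inclusion (inertiaField_le A E) c))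
    = (c : Qb)
  rw [AlgEquiv.restrictNormal_commutes]
  exact (mem_inertiaField_iff.mp c.2).2 σ hσ

end Fermat.Agent.S19.Cech.BCData
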