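import Mathlib
import Fermat.Agent.S18.K1Defs
import Fermat.Agent.S30.GaussDescent
import Fermat.Agent.S19.TorsionLevel
import Fermat.Agent.S19.TorsionFinite

/-!
# S19 (program FG), route C: the base-ring instances of the Čech machine

The level-free machine `S19/Cech/Machine.hasCechCoords_of_machine` takes a base ring `R` with an
element `t` and a ring homomorphism `ι : R →+* ℚ̄`.  Here are its base-ring hypotheses for
`R = O_E = A ∩ E` (`E` a number field, `A` a valuation ring of `ℚ̄` over `ℓ`), `t = π` a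
uniformiser of `O_E`, `ι = iota A E` the inclusion:

* `iota_mem_A`, `iota_mem_E`  : `hιA`, `hιE`;
* `sat`                        : `hsat`  (`A ∩ E = O_E` in divisibility form);
* `natCast_mem_span`           : `hℓt`   (`ℓ ∈ (π)`);
* `exists_pow_eq`              : `htℓ`   (`π ^ e0 ∈ ℓ • A`);
* `exists_field`               : the choice of the number field `E`: normal, finite, containing a
  given number field, with `O_E` a discrete valuation ring, through which the Galois action on
  `J₀(M)[ℓ^k]` factors (`hlev`).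
-/

set_option autoImplicit false
set_option linter.style.haveILetI false
set_option linter.unusedSectionVars false

noncomputable section

open IntermediateField ModularCurve

namespace Fermat.Agent.S19.Cech.BaseInst

open Fermat.Agent.S18.K1Defs Fermat.Agent.S19.HopfOrder

local notation "Qb" => AlgebraicClosure ℚ
local notation "Gq" => (AlgebraicClosure ℚ ≃ₐ[ℚ] AlgebraicClosure ℚ)

/-- `ℚ̄ / ℚ` is normal (instance search needs the hint in some contexts). -/
theorem normal_Qb : Normal ℚ Qb := by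
  have h : (DivisionRing.toRatAlgebra : Algebra ℚ (AlgebraicClosure ℚ)) =
      AlgebraicClosure.instAlgebra ℚ := Subsingleton.elim _ _
  rw [h]; infer_instance

variable (A : ValuationSubring Qb) (E : IntermediateField ℚ Qb)

/-- The inclusion `O_E = A ∩ E → ℚ̄`. -/
def iota : OE A E →+* Qb := (algebraMap E Qb).comp (OE A E).subtype

theorem iota_apply (r : OE A E) : iota A E r = ((r : E) : Qb) := rfl

theorem iota_mem_A (r : OE A E) : iota A E r ∈ A := r.2

theorem iota_mem_E (r : OE A E) : iota A E r ∈ E := (r : E).2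

theorem iota_injective : Function.Injective (iota A E) := fun _ _ h =>
  Subtype.ext (Subtype.ext h)

variable {A E}

/-- `hsat`: an element of `O_E` which is divisible by `π ^ k` in `A` is divisible by `π ^ k`
in `O_E`. -/
theorem sat {π : OE A E} (hπ0 : π ≠ 0) (r : OE A E) (k : ℕ)
    (h : ∃ a ∈ A, iota A E r = iota A E π ^ k * a) : r ∈ Ideal.span {π ^ k} := by
  obtain ⟨a, ha, hra⟩ := h
  have hπE : (π : E) ≠ 0 := fun h0 => hπ0 (Subtype.ext h0)
  have hπQ : iota A E π ≠ 0 := by
    rw [iota_apply]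
    exact fun h0 => hπE (Subtype.ext h0)
  have haE : (((r : E) / (π : E) ^ k : E) : Qb) = a := by
    have h1 : (((r : E) / (π : E) ^ k : E) : Qb) = iota A E r / iota A E π ^ k := by
      rw [iota_apply, iota_apply]
      push_cast
      rfl
    rw [h1, hra, mul_div_assoc, mul_comm, div_mul_cancel₀]
    exact pow_ne_zero k hπQ
  have hmem : (r : E) / (π : E) ^ k ∈ OE A E := by
    show algebraMap E Qb ((r : E) / (π : E) ^ k) ∈ A
    have : algebraMap E Qb ((r : E) / (π : E) ^ k) = a := haE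
    rw [this]
    exact ha
  refine Ideal.mem_span_singleton.mpr ⟨⟨_, hmem⟩, ?_⟩
  apply Subtype.ext
  show (r : E) = ((π ^ k : OE A E) : E) * ((r : E) / (π : E) ^ k)
  have : ((π ^ k : OE A E) : E) = (π : E) ^ k := rfl
  rw [this, mul_div_cancel₀ _ (pow_ne_zero k hπE)]

/-- `ℓ` is not a unit of `O_E`. -/
theorem not_isUnit_natCast {ℓ : ℕ} (hA : A.LiesOverPrime ℓ) : ¬ IsUnit ((ℓ : ℕ) : OE A E) := by
  intro hu
  obtain ⟨v, hv⟩ := hu.exists_right_inv
  have h1 : (ℓ : Qb) * iota A E v = 1 := by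
    have := congrArg (iota A E) hv
    rwa [map_mul, map_natCast, map_one] at this
  have h2 : A.valuation (ℓ : Qb) < 1 := hA
  have h3 : A.valuation (iota A E v) ≤ 1 :=
    (ValuationSubring.valuation_le_one_iff A _).mpr (iota_mem_A A E v)
  have h4 : A.valuation (ℓ : Qb) * A.valuation (iota A E v) = 1 := by
    rw [← map_mul, h1, map_one]
  have h5 : A.valuation (ℓ : Qb) * A.valuation (iota A E v) < 1 := by
    calc A.valuation (ℓ : Qb) * A.valuation (iota A E v) ≤ A.valuation (ℓ : Qb) * 1 :=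
          mul_le_mul' le_rfl h3
      _ = A.valuation (ℓ : Qb) := mul_one _
      _ < 1 := h2
  exact absurd h4 (ne_of_lt h5)

/-- `hℓt`: `ℓ ∈ (π)`. -/
theorem natCast_mem_span [IsDiscreteValuationRing (OE A E)] {ℓ : ℕ} (hA : A.LiesOverPrime ℓ)
    {π : OE A E} (hπ : Irreducible π) : ((ℓ : ℕ) : OE A E) ∈ Ideal.span {π} := by
  rw [← hπ.maximalIdeal_eq]
  exact (IsLocalRing.mem_maximalIdeal _).mpr (not_isUnit_natCast hA)

/-- `htℓ`: a power of `π` is `ℓ` times a unit. -/
theorem exists_pow_eq [IsDiscreteValuationRing (OE A E)] {ℓ : ℕ} (hℓ : ℓ.Prime)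
    {π : OE A E} (hπ : Irreducible π) :
    ∃ e0 : ℕ, ∃ a ∈ A, iota A E π ^ e0 = (ℓ : Qb) * a := by
  have hℓ0 : ((ℓ : ℕ) : OE A E) ≠ 0 := by
    intro h0
    have := congrArg (iota A E) h0
    rw [map_natCast, map_zero] at this
    exact (Nat.cast_ne_zero.mpr hℓ.ne_zero) this
  obtain ⟨n, u, hu⟩ := IsDiscreteValuationRing.eq_unit_mul_pow_irreducible hℓ0 hπ
  refine ⟨n, iota A E ((u⁻¹ : (OE A E)ˣ) : OE A E), iota_mem_A A E _, ?_⟩
  have h1 : π ^ n = ((ℓ : ℕ) : OE A E) * ((u⁻¹ : (OE A E)ˣ) : OE A E) := by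
    rw [hu, mul_comm (u : OE A E), mul_assoc, Units.mul_inv, mul_one]
  have := congrArg (iota A E) h1
  rwa [map_pow, map_mul, map_natCast] at this

/-- **The number field of the Čech machine**: normal, finite, containing a given number field
`E₀`, with `O_E = A ∩ E` a discrete valuation ring, and such that the Galois action on
`J₀(M)[ℓ^k]` factors through `Gal(E/ℚ)`. -/
theorem exists_field (M : ℕ) [NeZero M] (ℓ : ℕ) [Fact ℓ.Prime] (k : ℕ)
    (A : ValuationSubring Qb) (hA : A.LiesOverPrime ℓ) (E₀ : IntermediateField ℚ Qb)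
    [FiniteDimensional ℚ E₀] :
    ∃ E : IntermediateField ℚ Qb, E₀ ≤ E ∧ FiniteDimensional ℚ E ∧ Normal ℚ E ∧
      IsDiscreteValuationRing (OE A E) ∧
      ∀ σ : Gq, σ ∈ E.fixingSubgroup →
        ∀ x : ↥(Submodule.torsionBy ℤ (JZero M) ((ℓ : ℤ) ^ k)), torsAct ((ℓ : ℤ) ^ k) σ x = x := by
  have hℓ : ℓ.Prime := Fact.out
  haveI := Fermat.Agent.S19.TorsionFinite.finite_torsion_prime_pow M ℓ k
  obtain ⟨E₁, hE₁, h₁⟩ := Fermat.Agent.S19.TorsionLevel.exists_fd_fixing_torsion_all M
    (n := (ℓ : ℤ) ^ k) (pow_ne_zero k (Int.natCast_ne_zero.mpr hℓ.ne_zero))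
  haveI := hE₁
  haveI : FiniteDimensional ℚ (E₀ ⊔ E₁ : IntermediateField ℚ Qb) :=
    IntermediateField.finiteDimensional_sup E₀ E₁
  set E : IntermediateField ℚ Qb := normalClosure ℚ ↥(E₀ ⊔ E₁) Qb with hE
  have hle : E₀ ⊔ E₁ ≤ E := IntermediateField.le_normalClosure _
  haveI hfd : FiniteDimensional ℚ E := normalClosure.is_finiteDimensional _ _ _
  haveI : Normal ℚ Qb := normal_Qb
  haveI hnorm : Normal ℚ E := normalClosure.normal _ _ _
  refine ⟨E, le_trans le_sup_left hle, hfd, hnorm,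
    Fermat.Agent.S30.GaussDescent.isDiscreteValuationRing_OE A E hℓ hA, fun σ hσ x => ?_⟩
  refine h₁ σ ?_ x
  rw [IntermediateField.mem_fixingSubgroup_iff] at hσ ⊢
  exact fun e he => hσ e (hle (le_sup_right (a := E₀) he))

end Fermat.Agent.S19.Cech.BaseInst
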