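import Mathlib
import Fermat.Agent.S34.TrivModE
import Fermat.Agent.S44.D.CechAdapter
import Fermat.Agent.S19.Cech.H1Basis
import Fermat.Agent.S18.K1Main.JBase

/-!
# S19 (Program FG, Route C, brick `EQ`): the coefficientwise inertia action on the charts

`Qb = AlgebraicClosure ℚ`, `A` a valuation subring of `Qb`, `E` a normal intermediate field with
`O = OE A E` a discrete valuation ring, `u : LE M E` a chart function.  The Čech machine
(`S19/Cech/Machine.hasCechCoords_of_machine`) wants total maps `φ : Gal → 𝒞 →+* 𝒞` on the overlap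
chart ring `𝒞 = ↥(C01 u)` and `ψ : Gal → O →+* O`, with six clauses for `σ` in the inertia group
of `A`.  Here:

* `psi A E σ` : the restriction of `σ` to `O` (`TrivModE.sOE`) for `σ` in the decomposition group
  of `A`, the identity otherwise;
* `phi M A E u σ` : the coefficientwise action `TrivModE.galE E M σ` restricted to the overlap
  chart ring, for `σ` in the decomposition group with `galE E M σ u = u`; the identity otherwise;
* `coe_psi` (`hψ`), `phi_smul` (`hφψ`), `phi_mem_zero` (`hφ0`), `phi_mem_inf` (`hφ1`),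
  `psi_mem_span` (`hψt`), and `coe_phi` : `phi` is `galE` on the underlying functions.

The clause `hφe` (the `e i` are fixed) is in `S19/Cech/EqFinal` (it needs the base change).
-/

set_option autoImplicit false
set_option linter.style.haveILetI false
set_option linter.unusedSectionVars false
set_option synthInstance.maxHeartbeats 400000

noncomputable section

open Polynomial IntermediateField ModularCurve

namespace Fermat.Agent.S19.Cech.EqAction

open Fermat.Agent.S18.K1Defs Fermat.Agent.S18.K1Main Fermat.Agent.S30 Fermat.Agent.S30.Model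
  Fermat.Agent.S34.TrivModE Fermat.Agent.S44.D Fermat.Agent.S19.Cech.H1Basis

local notation "Qb" => AlgebraicClosure ℚ
local notation "Gq" => (AlgebraicClosure ℚ ≃ₐ[ℚ] AlgebraicClosure ℚ)

variable (M : ℕ) (A : ValuationSubring Qb) (E : IntermediateField ℚ Qb) [Normal ℚ E]

theorem mem_decomposition_of_mem_inertia {σ : Gq} (hσ : σ ∈ A.inertiaSubgroupIn ℚ) :
    σ ∈ A.decompositionSubgroup ℚ := by
  obtain ⟨τ, -, rfl⟩ := hσ
  exact τ.2

open Classical in
/-- `ψ σ`: the restriction of `σ` to `O_E` for `σ` in the decomposition group of `A`, the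
identity otherwise. -/
def psi (σ : Gq) : OE A E →+* OE A E :=
  if hσ : σ ∈ A.decompositionSubgroup ℚ then sOE A E ⟨σ, hσ⟩ else RingHom.id _

theorem psi_of_mem {σ : Gq} (hσ : σ ∈ A.decompositionSubgroup ℚ) :
    psi A E σ = sOE A E ⟨σ, hσ⟩ := dif_pos hσ

/-- (`hψ`) `ψ σ` is the restriction of `σ`. -/
theorem coe_psi {σ : Gq} (hσ : σ ∈ A.inertiaSubgroupIn ℚ) (r : OE A E) :
    (((psi A E σ r : OE A E) : E) : Qb) = σ (((r : OE A E) : E) : Qb) := by
  rw [psi_of_mem A E (mem_decomposition_of_mem_inertia A hσ), coe_sOE]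
  exact AlgEquiv.restrictNormal_commutes σ E _

/-- (`hψt`) `ψ σ` preserves the maximal ideal. -/
theorem psi_mem_span [IsDiscreteValuationRing (OE A E)] {σ : Gq}
    (hσ : σ ∈ A.inertiaSubgroupIn ℚ) (π : OE A E) (hπ : Irreducible π) :
    psi A E σ π ∈ Ideal.span {π} := by
  obtain ⟨τ, hτ, rfl⟩ := hσ
  have hD : (A.decompositionSubgroup ℚ).subtype τ ∈ A.decompositionSubgroup ℚ := τ.2
  rw [psi_of_mem A E hD]
  have h1 : IsLocalRing.residue (OE A E) (sOE A E τ π) = IsLocalRing.residue (OE A E) π :=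
    residue_sOE_inertia A E τ hτ π
  have h2 : IsLocalRing.residue (OE A E) π = 0 := by
    rw [IsLocalRing.residue_eq_zero_iff]
    exact (IsLocalRing.mem_maximalIdeal _).mpr hπ.not_isUnit
  rw [h2, IsLocalRing.residue_eq_zero_iff, hπ.maximalIdeal_eq] at h1
  exact h1

variable [IsDiscreteValuationRing (OE A E)]

/-- `galE τ` preserves the integral closure of `O[S]` when `τ` is in the decomposition group and
fixes `S`. -/
theorem galE_mem_chart (τ : A.decompositionSubgroup ℚ) (S : Set (LE M E))
    (hS : ∀ s ∈ S, galE E M (τ : Gq) s = s) :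
    letI := algebraOL (OE A E) E (LE M E)
    ∀ x : LE M E, x ∈ CechP1.chart (OE A E) S → galE E M (τ : Gq) x ∈ CechP1.chart (OE A E) S := by
  letI := algebraOL (OE A E) E (LE M E)
  haveI := isScalarTower_OL (OE A E) E (LE M E)
  intro x hx
  exact isIntegral_map_of_stable (Algebra.adjoin (OE A E) S)
    (galE E M (τ : Gq) : LE M E →+* LE M E)
    (adjoin_stable (LE M E) (sOE A E τ) _ (restrictNormal_algebraMap_OE A E τ)
      (galE E M (τ : Gq)) (coe_galE E M (τ : Gq)) S hS) hx

open Classical in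
/-- `φ σ`: the coefficientwise action of `σ` on the overlap chart ring `↥(C01 u)`, for `σ` in the
decomposition group of `A` fixing the chart function `u`; the identity otherwise. -/
def phi (u : LE M E) (σ : Gq) :
    letI := algebraOL (OE A E) E (LE M E)
    ↥(CechAdapter.C01 (O := OE A E) u) →+* ↥(CechAdapter.C01 (O := OE A E) u) :=
  letI := algebraOL (OE A E) E (LE M E)
  if hσ : σ ∈ A.decompositionSubgroup ℚ ∧ galE E M σ u = u then
    (((galE E M σ : LE M E →+* LE M E)).comp
      (CechAdapter.C01 (O := OE A E) u).val.toRingHom).codRestrict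
      (CechAdapter.C01 (O := OE A E) u)
      (fun x => galE_mem_chart M A E ⟨σ, hσ.1⟩ {u, u⁻¹}
        (by
          intro s hs
          rcases hs with hs | hs
          · rw [hs]; exact hσ.2
          · rw [Set.mem_singleton_iff] at hs
            rw [hs, map_inv₀, hσ.2]) x x.2)
  else RingHom.id _

/-- `φ σ` is `galE σ` on the underlying functions. -/
theorem coe_phi (u : LE M E) {σ : Gq} (hσ : σ ∈ A.decompositionSubgroup ℚ)
    (hu : galE E M σ u = u) :
    letI := algebraOL (OE A E) E (LE M E)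
    ∀ c : ↥(CechAdapter.C01 (O := OE A E) u),
      ((phi M A E u σ c : ↥(CechAdapter.C01 (O := OE A E) u)) : LE M E)
        = galE E M σ (c : LE M E) := by
  letI := algebraOL (OE A E) E (LE M E)
  intro c
  unfold phi
  rw [dif_pos ⟨hσ, hu⟩]
  rfl

/-- (`hφψ`) `φ σ` is `ψ σ`-semilinear. -/
theorem phi_smul (u : LE M E) {σ : Gq} (hσ : σ ∈ A.decompositionSubgroup ℚ)
    (hu : galE E M σ u = u) :
    letI := algebraOL (OE A E) E (LE M E)
    ∀ (r : OE A E) (c : ↥(CechAdapter.C01 (O := OE A E) u)),
      phi M A E u σ (r • c) = psi A E σ r • phi M A E u σ c := by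
  letI := algebraOL (OE A E) E (LE M E)
  haveI := isScalarTower_OL (OE A E) E (LE M E)
  intro r c
  apply Subtype.ext
  have h1 := coe_phi M A E u hσ hu (r • c)
  have h2 := coe_phi M A E u hσ hu c
  rw [h1, psi_of_mem A E hσ]
  show galE E M σ (r • (c : LE M E)) = sOE A E ⟨σ, hσ⟩ r • ((phi M A E u σ c : _) : LE M E)
  rw [h2, Algebra.smul_def, Algebra.smul_def, map_mul]
  congr 1
  exact map_algebraMap_OL (LE M E) (sOE A E ⟨σ, hσ⟩) _ (restrictNormal_algebraMap_OE A E ⟨σ, hσ⟩)
    (galE E M σ) (coe_galE E M σ) r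

/-- (`hφ0`) `φ σ` preserves the chart of `u`. -/
theorem phi_mem_zero (u : LE M E) {σ : Gq} (hσ : σ ∈ A.decompositionSubgroup ℚ)
    (hu : galE E M σ u = u) :
    letI := algebraOL (OE A E) E (LE M E)
    ∀ c ∈ sub (CechAdapter.C0 (O := OE A E) u) (CechAdapter.C01 u),
      phi M A E u σ c ∈ sub (CechAdapter.C0 (O := OE A E) u) (CechAdapter.C01 u) := by
  letI := algebraOL (OE A E) E (LE M E)
  intro c hc
  rw [mem_sub] at hc ⊢
  rw [coe_phi M A E u hσ hu c]
  exact galE_mem_chart M A E ⟨σ, hσ⟩ {u} (by rintro s rfl; exact hu) _ hc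

/-- (`hφ1`) `φ σ` preserves the chart of `u⁻¹`. -/
theorem phi_mem_inf (u : LE M E) {σ : Gq} (hσ : σ ∈ A.decompositionSubgroup ℚ)
    (hu : galE E M σ u = u) :
    letI := algebraOL (OE A E) E (LE M E)
    ∀ c ∈ sub (CechAdapter.C1 (O := OE A E) u) (CechAdapter.C01 u),
      phi M A E u σ c ∈ sub (CechAdapter.C1 (O := OE A E) u) (CechAdapter.C01 u) := by
  letI := algebraOL (OE A E) E (LE M E)
  intro c hc
  rw [mem_sub] at hc ⊢
  rw [coe_phi M A E u hσ hu c]
  exact galE_mem_chart M A E ⟨σ, hσ⟩ {u⁻¹}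
    (by rintro s rfl; show galE E M σ u⁻¹ = u⁻¹; rw [map_inv₀, hu]) _ hc

/-- A function with rational `q`-expansion is fixed by the coefficientwise Galois action. -/
theorem galE_eq_self_of_coeffEmb (σ : Gq) (u : LE M E) (u₀ : LaurentSeries ℚ)
    (hu : (u : LaurentSeries E) = coeffEmb E u₀) : galE E M σ u = u := by
  apply Subtype.ext
  rw [coe_galE, hu]
  exact coeffMap_coeffEmb (σ.restrictNormal E) u₀

end Fermat.Agent.S19.Cech.EqAction
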