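import Mathlib
import Fermat.Agent.Lib.ChartBaseChange
import Fermat.Agent.Lib.TwoChartBaseChange
import Fermat.Agent.S19.Cech.H1Basis
import Fermat.Agent.S30.Model.CechP1

/-!
# (DEC) and (UNIQ) on the charts over a larger base, with the basis of the smaller base

Program FG (S19), Route C, row `H1` (the "`e` fixed by inertia" half), level-free.

`O' → O` commutative rings, `L'`, `L` fields over them, `ι : L' →+* L` over `O' → O`, a family
`b : Fin r → O` spanning `O` over `O'` with `ι`-independent image in `L`, and `u : L'`.  Charts: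
`CechP1.chart O' {u}`, `{u⁻¹}`, `{u, u⁻¹}` in `L'` and `CechP1.chart O {ι u}`, `{(ι u)⁻¹}`,
`{ι u, (ι u)⁻¹}` in `L`.  If the charts over `O` are `⊕ j, b j • ι (charts over O')`
(`Lib/ChartBaseChange.isIntegral_iff_inSpan`, the statement (BC)), then a family
`e' : Fin d → ↥(chart O' {u, u⁻¹})` with `Dec` / `Uniq` over `O'` gives `Dec` / `Uniq` over `O`
for `lvl ∘ e'`, where `lvl` is the ring homomorphism induced by `ι` on the overlap rings.  In the
application the `lvl (e' i)` are fixed by every automorphism of `L` fixing `ι L'`.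
-/

set_option autoImplicit false

namespace Fermat.Agent.S19.Cech.H1BaseChange

open Fermat.Agent.Lib.ChartBaseChange Fermat.Agent.Lib.TwoChartNormalForm
open Fermat.Agent.S19.Cech.H1Basis Fermat.Agent.S30.Model.CechP1

variable {O' O L' L : Type*} [CommRing O'] [CommRing O] [Field L'] [Field L]
  [Algebra O' O] [Algebra O' L'] [Algebra O L]

theorem image_singleton_eq (ι : L' →+* L) (u : L') : ι '' ({u} : Set L') = {ι u} :=
  Set.image_singleton

theorem image_inv_eq (ι : L' →+* L) (u : L') : ι '' ({u⁻¹} : Set L') = {(ι u)⁻¹} := by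
  rw [Set.image_singleton, map_inv₀]

theorem image_pair_eq (ι : L' →+* L) (u : L') :
    ι '' ({u, u⁻¹} : Set L') = {ι u, (ι u)⁻¹} := by
  rw [Set.image_pair, map_inv₀]

section Lvl

variable (ι : L' →+* L)
  (hι : ∀ a : O', ι (algebraMap O' L' a) = algebraMap O L (algebraMap O' O a))

include hι

theorem map_mem_chart_zero {u x : L'} (hx : x ∈ chart O' ({u} : Set L')) :
    ι x ∈ chart O ({ι u} : Set L) := by
  have h := isIntegral_map (S' := ({u} : Set L')) hι hx
  rw [image_singleton_eq] at h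
  exact h

theorem map_mem_chart_inf {u x : L'} (hx : x ∈ chart O' ({u⁻¹} : Set L')) :
    ι x ∈ chart O ({(ι u)⁻¹} : Set L) := by
  have h := isIntegral_map (S' := ({u⁻¹} : Set L')) hι hx
  rw [image_inv_eq] at h
  exact h

theorem map_mem_chart_overlap {u x : L'} (hx : x ∈ chart O' ({u, u⁻¹} : Set L')) :
    ι x ∈ chart O ({ι u, (ι u)⁻¹} : Set L) := by
  have h := isIntegral_map (S' := ({u, u⁻¹} : Set L')) hι hx
  rw [image_pair_eq] at h
  exact h

/-- The ring homomorphism induced by `ι` on the overlap rings. -/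
def lvl (u : L') : ↥(chart O' ({u, u⁻¹} : Set L')) →+* ↥(chart O ({ι u, (ι u)⁻¹} : Set L)) where
  toFun x := ⟨ι x, map_mem_chart_overlap ι hι x.2⟩
  map_one' := Subtype.ext (map_one ι)
  map_mul' x y := Subtype.ext (map_mul ι (x : L') (y : L'))
  map_zero' := Subtype.ext (map_zero ι)
  map_add' x y := Subtype.ext (map_add ι (x : L') (y : L'))

@[simp]
theorem coe_lvl (u : L') (x : ↥(chart O' ({u, u⁻¹} : Set L'))) :
    ((lvl ι hι u x : ↥(chart O ({ι u, (ι u)⁻¹} : Set L))) : L) = ι (x : L') := rfl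

theorem lvl_smul (u : L') (a : O') (c : ↥(chart O' ({u, u⁻¹} : Set L'))) :
    lvl ι hι u (a • c) = algebraMap O' O a • lvl ι hι u c := by
  apply Subtype.ext
  rw [coe_lvl, Subalgebra.coe_smul, Subalgebra.coe_smul, coe_lvl, Algebra.smul_def,
    Algebra.smul_def, map_mul, hι]

theorem coe_sum_smul_lvl (u : L') {r : ℕ} (b : Fin r → O)
    (c' : Fin r → ↥(chart O' ({u, u⁻¹} : Set L'))) :
    ((∑ j, b j • lvl ι hι u (c' j) : ↥(chart O ({ι u, (ι u)⁻¹} : Set L))) : L) =
      ∑ j, algebraMap O L (b j) * ι (c' j : L') := by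
  rw [AddSubmonoidClass.coe_finsetSum]
  refine Finset.sum_congr rfl fun j _ => ?_
  rw [Subalgebra.coe_smul, coe_lvl, Algebra.smul_def]

/-- **(DEC) + (UNIQ) over the larger base with the basis of the smaller base.** -/
theorem dec_uniq_of_baseChange {r : ℕ} (b : Fin r → O)
    (hspan : ∀ a : O, ∃ a' : Fin r → O', a = ∑ j, algebraMap O' O (a' j) * b j)
    (hind : ∀ c : Fin r → L', ∑ j, algebraMap O L (b j) * ι (c j) = 0 → ∀ j, c j = 0)
    (u : L')
    (hbc0 : ∀ x : L, IsIntegral (Algebra.adjoin O (ι '' ({u} : Set L'))) x →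
      InSpan O' ι b ({u} : Set L') x)
    (hbc1 : ∀ x : L, IsIntegral (Algebra.adjoin O (ι '' ({u⁻¹} : Set L'))) x →
      InSpan O' ι b ({u⁻¹} : Set L') x)
    (hbc01 : ∀ x : L, IsIntegral (Algebra.adjoin O (ι '' ({u, u⁻¹} : Set L'))) x →
      InSpan O' ι b ({u, u⁻¹} : Set L') x)
    {d : ℕ} (e' : Fin d → ↥(chart O' ({u, u⁻¹} : Set L')))
    (hdec : Dec (sub (chart O' ({u} : Set L')) (chart O' ({u, u⁻¹} : Set L')))
      (sub (chart O' ({u⁻¹} : Set L')) (chart O' ({u, u⁻¹} : Set L'))) e')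
    (huniq : Uniq (sub (chart O' ({u} : Set L')) (chart O' ({u, u⁻¹} : Set L')))
      (sub (chart O' ({u⁻¹} : Set L')) (chart O' ({u, u⁻¹} : Set L'))) e') :
    Dec (sub (chart O ({ι u} : Set L)) (chart O ({ι u, (ι u)⁻¹} : Set L)))
        (sub (chart O ({(ι u)⁻¹} : Set L)) (chart O ({ι u, (ι u)⁻¹} : Set L)))
        (fun i => lvl ι hι u (e' i)) ∧
      Uniq (sub (chart O ({ι u} : Set L)) (chart O ({ι u, (ι u)⁻¹} : Set L)))
        (sub (chart O ({(ι u)⁻¹} : Set L)) (chart O ({ι u, (ι u)⁻¹} : Set L)))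
        (fun i => lvl ι hι u (e' i)) := by
  have hle0 : chart O' ({u} : Set L') ≤ chart O' ({u, u⁻¹} : Set L') := chart_mono (by simp)
  have hle1 : chart O' ({u⁻¹} : Set L') ≤ chart O' ({u, u⁻¹} : Set L') := chart_mono (by simp)
  -- membership of a sum in a chart over `O`
  have hmem0 : ∀ c' : Fin r → ↥(chart O' ({u, u⁻¹} : Set L')),
      (∀ j, c' j ∈ sub (chart O' ({u} : Set L')) (chart O' ({u, u⁻¹} : Set L'))) →
      ∑ j, b j • lvl ι hι u (c' j) ∈
        sub (chart O ({ι u} : Set L)) (chart O ({ι u, (ι u)⁻¹} : Set L)) := by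
    intro c' hc'
    rw [mem_sub, coe_sum_smul_lvl]
    exact Subalgebra.sum_mem _ fun j _ => Subalgebra.mul_mem _ (Subalgebra.algebraMap_mem _ _)
      (map_mem_chart_zero ι hι (hc' j))
  have hmem1 : ∀ c' : Fin r → ↥(chart O' ({u, u⁻¹} : Set L')),
      (∀ j, c' j ∈ sub (chart O' ({u⁻¹} : Set L')) (chart O' ({u, u⁻¹} : Set L'))) →
      ∑ j, b j • lvl ι hι u (c' j) ∈
        sub (chart O ({(ι u)⁻¹} : Set L)) (chart O ({ι u, (ι u)⁻¹} : Set L)) := by
    intro c' hc'
    rw [mem_sub, coe_sum_smul_lvl]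
    exact Subalgebra.sum_mem _ fun j _ => Subalgebra.mul_mem _ (Subalgebra.algebraMap_mem _ _)
      (map_mem_chart_inf ι hι (hc' j))
  constructor
  · refine Dec.baseChange hdec (lvl ι hι u) (lvl_smul ι hι u) b ?_ hmem0 hmem1
    intro c
    have hc : IsIntegral (Algebra.adjoin O (ι '' ({u, u⁻¹} : Set L'))) (c : L) := by
      rw [image_pair_eq]
      exact c.2
    obtain ⟨cj, hcj, hceq⟩ := hbc01 _ hc
    refine ⟨fun j => ⟨cj j, hcj j⟩, Subtype.ext ?_⟩
    rw [coe_sum_smul_lvl]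
    exact hceq
  · refine Uniq.baseChange huniq (lvl ι hι u) (lvl_smul ι hι u) b hspan ?_ ?_ ?_
    · intro c' hc' j
      have h0 := congrArg (Subtype.val : ↥(chart O ({ι u, (ι u)⁻¹} : Set L)) → L) hc'
      rw [coe_sum_smul_lvl] at h0
      exact Subtype.ext (hind (fun j => (c' j : L')) h0 j)
    · intro c hc
      have hc' : IsIntegral (Algebra.adjoin O (ι '' ({u} : Set L'))) (c : L) := by
        rw [image_singleton_eq]
        exact hc
      obtain ⟨cj, hcj, hceq⟩ := hbc0 _ hc'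
      refine ⟨fun j => ⟨cj j, hle0 (hcj j)⟩, fun j => hcj j, Subtype.ext ?_⟩
      rw [coe_sum_smul_lvl]
      exact hceq
    · intro c hc
      have hc' : IsIntegral (Algebra.adjoin O (ι '' ({u⁻¹} : Set L'))) (c : L) := by
        rw [image_inv_eq]
        exact hc
      obtain ⟨cj, hcj, hceq⟩ := hbc1 _ hc'
      refine ⟨fun j => ⟨cj j, hle1 (hcj j)⟩, fun j => hcj j, Subtype.ext ?_⟩
      rw [coe_sum_smul_lvl]
      exact hceq

end Lvl

end Fermat.Agent.S19.Cech.H1BaseChange
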