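import Fermat.Agent.S19.Cech.H1Charts
import Fermat.Agent.S37.Fn.ModelInst
import Fermat.Agent.S30.E2.G1

/-!
# S19 (FG), route C: (DEC) + (UNIQ) at a chart function with a Model package (instance of H1)
-/

set_option autoImplicit false
set_option linter.unusedSectionVars false
set_option linter.style.haveILetI false
set_option synthInstance.maxHeartbeats 400000
set_option maxHeartbeats 1000000

open ModularCurve AlgebraicCurve Polynomial

noncomputable section

namespace Fermat.Agent.S19.Cech.H1Inst

open Fermat.Agent.S18.K1Defs Fermat.Agent.S18.K1Main Fermat.Agent.S30 Fermat.Agent.S30.Model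
open Fermat.Agent.S44.D Fermat.Agent.S37.Fn
open Fermat.Agent.Lib.TwoChartNormalForm Fermat.Agent.S19.Cech.H1Basis

local notation "Qb" => AlgebraicClosure ℚ

variable (M : ℕ) [NeZero M] (A : ValuationSubring Qb) (E : IntermediateField ℚ Qb)
  [IsDiscreteValuationRing (OE A E)]

/-- **(DEC) + (UNIQ)** for the two charts of a chart function with a Model package. -/
theorem exists_dec_uniq_of_chartModel (u : LE M E)
    (h : ModelInst.ChartModelC M (OE A E) E u) :
    letI := algebraOL (OE A E) E (LE M E)
    ∃ (d : ℕ) (e : Fin d → ↥(CechAdapter.C01 (O := OE A E) u)),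
      Dec (sub (CechAdapter.C0 (O := OE A E) u) (CechAdapter.C01 u))
        (sub (CechAdapter.C1 (O := OE A E) u) (CechAdapter.C01 u)) e ∧
      Uniq (sub (CechAdapter.C0 (O := OE A E) u) (CechAdapter.C01 u))
        (sub (CechAdapter.C1 (O := OE A E) u) (CechAdapter.C01 u)) e := by
  letI := algebraOL (OE A E) E (LE M E)
  haveI := isScalarTower_OL (OE A E) E (LE M E)
  have hCM : ModelInst.ChartModel M (OE A E) E u := h
  obtain ⟨π, hπ⟩ := IsDiscreteValuationRing.exists_irreducible (OE A E)
  obtain ⟨uO, hu, hpole⟩ := hCM.model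
  haveI := hCM.fin
  obtain ⟨d, e, hdec, huniq, -⟩ :=
    H1Charts.exists_dec_uniq_charts (O := OE A E) (E := E) (L := LE M E) (LE M E).val
      (fun x => E2G1.mem_fracField_of_mem_LE M A E x.2) π hπ u uO hu hpole
      (hCM.prime_zero π hπ)
      (Model.Assembly.exists_of_isIntegral_of_algClosedIn (algClosedIn_laurent (LE M E)))
  exact ⟨d, e, hdec, huniq⟩

end Fermat.Agent.S19.Cech.H1Inst
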