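import Mathlib
import Fermat.Agent.S19.Cech.BCData
import Fermat.Agent.S19.Cech.H1BaseChange
import Fermat.Agent.S19.Cech.H1Inst
import Fermat.Agent.S19.Cech.EqAction
import Fermat.Agent.S19.Cech.BaseInst

/-!
# S19 (Program FG, Route C, brick `EQ`): the equivariance data of the Čech machine

`Qb = AlgebraicClosure ℚ`, `A` a valuation subring of `Qb` over the prime `ℓ`, `E` a finite normal
subfield with `O = OE A E` a discrete valuation ring, `E' = inertiaField A E`, `u : LE M E` a
chart function with rational `q`-expansion `u₀` (so `u = lvl u'` for the chart function `u'` with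
the same expansion at level `E'`).  For the machine `S19/Cech/Machine.hasCechCoords_of_machine` at
`R = O`, `𝒞 = ↥(C01 u)`, `C0 = sub (C0 u) (C01 u)`, `Cinf = sub (C1 u) (C01 u)`, `t = π`,
`ι = BaseInst.iota A E`, `φ = phi M A E u`, `ψ = psi A E`:

* `exists_fixed_dec_uniq_lvl`, `exists_eq_data`, `exists_eq_data_of_chart` : a family `e` with
  `hdec`, `huniq` and `hφe` (the `e i` come from level `E'`, hence are fixed by inertia);
* `hψ`, `hφψ`, `hφ0`, `hφ1`, `hψt` : the other clauses, for `σ` in the inertia group;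
* `hjφ` : `φ σ` is `galE σ` on the underlying functions; `hφt` : `φ σ (π c) ∈ π 𝒞`.
-/

set_option autoImplicit false
set_option linter.style.haveILetI false
set_option linter.unusedSectionVars false
set_option synthInstance.maxHeartbeats 400000

noncomputable section

open Polynomial IntermediateField ModularCurve

namespace Fermat.Agent.S19.Cech.EqFinal

open Fermat.Agent.S18.K1Defs Fermat.Agent.S18.K1Main Fermat.Agent.S30 Fermat.Agent.S30.Model
  Fermat.Agent.S36.CycloBase Fermat.Agent.S34.TrivModE Fermat.Agent.S44.D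
  Fermat.Agent.S19.Cech.H1Basis Fermat.Agent.S19.Cech.InertiaField Fermat.Agent.S19.Cech.BCChart
  Fermat.Agent.S19.Cech.EqAction Fermat.Agent.Lib.TwoChartNormalForm Fermat.Agent.S37.Fn
  Fermat.Agent.Lib.ChartBaseChange

local notation "Qb" => AlgebraicClosure ℚ
local notation "Gq" => (AlgebraicClosure ℚ ≃ₐ[ℚ] AlgebraicClosure ℚ)

variable (M : ℕ) [NeZero M] (A : ValuationSubring Qb) (E : IntermediateField ℚ Qb)
  [FiniteDimensional ℚ E] [Normal ℚ E]

/-- **(DEC) + (UNIQ) with an inertia-fixed family**, for the chart function `lvl u'` coming from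
the level of the inertia field. -/
theorem exists_fixed_dec_uniq_lvl {ℓ : ℕ} (hℓ : ℓ.Prime) (hA : A.LiesOverPrime ℓ)
    [IsDiscreteValuationRing (OE A (inertiaField A E))] [IsDiscreteValuationRing (OE A E)]
    (u' : LE M (inertiaField A E))
    (hCM' : ModelInst.ChartModelC M (OE A (inertiaField A E)) (inertiaField A E) u') :
    letI := algebraOL (OE A E) E (LE M E)
    ∃ (d : ℕ) (e : Fin d → ↥(CechAdapter.C01 (O := OE A E) (lvl M (inertiaField_le A E) u'))),
      Dec (sub (CechAdapter.C0 (O := OE A E) (lvl M (inertiaField_le A E) u'))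
          (CechAdapter.C01 (lvl M (inertiaField_le A E) u')))
        (sub (CechAdapter.C1 (O := OE A E) (lvl M (inertiaField_le A E) u'))
          (CechAdapter.C01 (lvl M (inertiaField_le A E) u'))) e ∧
      Uniq (sub (CechAdapter.C0 (O := OE A E) (lvl M (inertiaField_le A E) u'))
          (CechAdapter.C01 (lvl M (inertiaField_le A E) u')))
        (sub (CechAdapter.C1 (O := OE A E) (lvl M (inertiaField_le A E) u'))
          (CechAdapter.C01 (lvl M (inertiaField_le A E) u'))) e ∧
      ∀ σ ∈ A.inertiaSubgroupIn ℚ, ∀ i, galE E M σ (e i : LE M E) = (e i : LE M E) := by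
  letI := algebraOL (OE A (inertiaField A E)) (inertiaField A E) (LE M (inertiaField A E))
  haveI := isScalarTower_OL (OE A (inertiaField A E)) (inertiaField A E) (LE M (inertiaField A E))
  letI := algebraOL (OE A E) E (LE M E)
  letI := (inclOE A (inertiaField_le A E)).toAlgebra
  have hCM : ModelInst.ChartModel M (OE A (inertiaField A E)) (inertiaField A E) u' := hCM'
  obtain ⟨π', hπ'⟩ := IsDiscreteValuationRing.exists_irreducible (OE A (inertiaField A E))
  obtain ⟨r, b, hspanO, hindL, hspanL⟩ := BCData.exists_bc_data M A hℓ hA E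
  have hu'0 : u' ≠ 0 := by
    rintro rfl
    exact hCM.tr isAlgebraic_zero
  obtain ⟨h0, h1, h01⟩ := bc_three M A (inertiaField_le A E) b hspanO
    (fun a => OFree.exists_residue A hℓ hA E a) hindL hspanL π' hπ' u' hu'0
    (hCM.prime_zero π' hπ') (hCM.prime_inf π' hπ')
  obtain ⟨d, e', hdec', huniq'⟩ :=
    H1Inst.exists_dec_uniq_of_chartModel M A (inertiaField A E) u' hCM'
  have hι : ∀ a : OE A (inertiaField A E),
      lvl M (inertiaField_le A E) (algebraMap (OE A (inertiaField A E))
        (LE M (inertiaField A E)) a)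
      = algebraMap (OE A E) (LE M E) (algebraMap (OE A (inertiaField A E)) (OE A E) a) :=
    fun a => lvl_algebraMap M (inertiaField_le A E) (a : inertiaField A E)
  have hcoe : ∀ c : Fin r → LE M (inertiaField A E),
      ((∑ j, algebraMap (OE A E) (LE M E) (b j) * lvl M (inertiaField_le A E) (c j) : LE M E) :
        LaurentSeries E)
        = ∑ j, algebraMap E (LaurentSeries E) ((b j : OE A E) : E) *
          coeffMap (IntermediateField.inclusion (inertiaField_le A E) : inertiaField A E →+* E)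
            ((c j : LE M (inertiaField A E)) : LaurentSeries (inertiaField A E)) := by
    intro c
    rw [AddSubmonoidClass.coe_finsetSum]
    rfl
  have hind : ∀ c : Fin r → LE M (inertiaField A E),
      ∑ j, algebraMap (OE A E) (LE M E) (b j) * lvl M (inertiaField_le A E) (c j) = 0 →
        ∀ j, c j = 0 := by
    intro c hc j
    have h1 := hindL (fun j => ((c j : LE M (inertiaField A E)) :
      LaurentSeries (inertiaField A E))) (by rw [← hcoe c, hc]; rfl) j
    exact Subtype.ext h1
  have key := H1BaseChange.dec_uniq_of_baseChange (lvl M (inertiaField_le A E)) hι b hspanO hind u'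
    (fun x hx => (h0 x).mp (by rwa [H1BaseChange.image_singleton_eq] at hx))
    (fun x hx => (h1 x).mp (by rwa [H1BaseChange.image_inv_eq] at hx))
    (fun x hx => (h01 x).mp (by rwa [H1BaseChange.image_pair_eq] at hx))
    e' hdec' huniq'
  refine ⟨d, fun i => H1BaseChange.lvl (lvl M (inertiaField_le A E)) hι u' (e' i), key.1, key.2,
    ?_⟩
  intro σ hσ i
  exact BCData.galE_lvl_of_mem_inertia M A E hσ (e' i : LE M (inertiaField A E))

/-- **(H1) + (EQ): `hdec`, `huniq`, `hφe` of the Čech machine**, for a chart function `u` with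
rational `q`-expansion `u₀`, given the chart package of the function `u'` with the same expansion
at the level of the inertia field. -/
theorem exists_eq_data {ℓ : ℕ} (hℓ : ℓ.Prime) (hA : A.LiesOverPrime ℓ)
    [IsDiscreteValuationRing (OE A (inertiaField A E))] [IsDiscreteValuationRing (OE A E)]
    (u₀ : LaurentSeries ℚ) (u' : LE M (inertiaField A E))
    (hu' : (u' : LaurentSeries (inertiaField A E)) = coeffEmb (inertiaField A E) u₀)
    (hCM' : ModelInst.ChartModelC M (OE A (inertiaField A E)) (inertiaField A E) u')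
    (u : LE M E) (hu : (u : LaurentSeries E) = coeffEmb E u₀) :
    letI := algebraOL (OE A E) E (LE M E)
    ∃ (d : ℕ) (e : Fin d → ↥(CechAdapter.C01 (O := OE A E) u)),
      Dec (sub (CechAdapter.C0 (O := OE A E) u) (CechAdapter.C01 u))
        (sub (CechAdapter.C1 (O := OE A E) u) (CechAdapter.C01 u)) e ∧
      Uniq (sub (CechAdapter.C0 (O := OE A E) u) (CechAdapter.C01 u))
        (sub (CechAdapter.C1 (O := OE A E) u) (CechAdapter.C01 u)) e ∧
      ∀ σ ∈ A.inertiaSubgroupIn ℚ, ∀ i, phi M A E u σ (e i) = e i := by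
  letI := algebraOL (OE A E) E (LE M E)
  have hlvl : lvl M (inertiaField_le A E) u' = u :=
    lvl_eq_of_coeffEmb M (inertiaField_le A E) hu' hu
  subst hlvl
  obtain ⟨d, e, hdec, huniq, hfix⟩ := exists_fixed_dec_uniq_lvl M A E hℓ hA u' hCM'
  refine ⟨d, e, hdec, huniq, fun σ hσ i => Subtype.ext ?_⟩
  rw [coe_phi M A E _ (mem_decomposition_of_mem_inertia A hσ)
    (galE_eq_self_of_coeffEmb M E σ _ u₀ hu) (e i)]
  exact hfix σ hσ i

/-- The same, consuming the body of `ChartInst.exists_chart` verbatim: `z` a primitive `M`-th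
root of unity in `E`, `ℓ ∤ M`. -/
theorem exists_eq_data_of_chart {ℓ : ℕ} (hℓ : ℓ.Prime) (hℓM : ¬ ℓ ∣ M) (hA : A.LiesOverPrime ℓ)
    [IsDiscreteValuationRing (OE A E)] {z : Qb} (hz : IsPrimitiveRoot z M) (hzE : z ∈ E)
    (u₀ : LaurentSeries ℚ)
    (hu₀ : ∀ (E : IntermediateField ℚ Qb) [FiniteDimensional ℚ E]
      [IsDiscreteValuationRing (OE A E)], z ∈ E →
      letI := algebraOL (OE A E) E (LE M E)
      ∃ u : LE M E, (u : LaurentSeries E) = coeffEmb E u₀ ∧
        ModelInst.ChartModelC M (OE A E) E u ∧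
        ∀ π : OE A E, Irreducible π →
          Fermat.Agent.S34.HauptU.LevelMAux.ChartFacts E π u u⁻¹)
    (u : LE M E) (hu : (u : LaurentSeries E) = coeffEmb E u₀) :
    letI := algebraOL (OE A E) E (LE M E)
    ∃ (d : ℕ) (e : Fin d → ↥(CechAdapter.C01 (O := OE A E) u)),
      Dec (sub (CechAdapter.C0 (O := OE A E) u) (CechAdapter.C01 u))
        (sub (CechAdapter.C1 (O := OE A E) u) (CechAdapter.C01 u)) e ∧
      Uniq (sub (CechAdapter.C0 (O := OE A E) u) (CechAdapter.C01 u))
        (sub (CechAdapter.C1 (O := OE A E) u) (CechAdapter.C01 u)) e ∧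
      ∀ σ ∈ A.inertiaSubgroupIn ℚ, ∀ i, phi M A E u σ (e i) = e i := by
  haveI : IsDiscreteValuationRing (OE A (inertiaField A E)) :=
    GaussDescent.isDiscreteValuationRing_OE A (inertiaField A E) hℓ hA
  have hcop : Nat.Coprime M ℓ := ((Nat.Prime.coprime_iff_not_dvd hℓ).mpr hℓM).symm
  have hz' : z ∈ inertiaField A E :=
    Fermat.Agent.Lib.InertiaField.rootOfUnity_mem_inertiaFixed A E hA hcop hzE hz.pow_eq_one
  obtain ⟨u', hu', hCM', -⟩ := hu₀ (inertiaField A E) hz'
  exact exists_eq_data M A E hℓ hA u₀ u' hu' hCM' u hu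

section Clauses

variable [IsDiscreteValuationRing (OE A E)] (u : LE M E) (u₀ : LaurentSeries ℚ)
  (hu : (u : LaurentSeries E) = coeffEmb E u₀)

/-- (`hψ`) at `ι = BaseInst.iota A E`. -/
theorem hψ : ∀ σ ∈ A.inertiaSubgroupIn ℚ, ∀ r : OE A E,
    BaseInst.iota A E (psi A E σ r) = σ (BaseInst.iota A E r) :=
  fun _ hσ r => coe_psi A E hσ r

/-- (`hψt`) -/
theorem hψt (π : OE A E) (hπ : Irreducible π) :
    ∀ σ ∈ A.inertiaSubgroupIn ℚ, psi A E σ π ∈ Ideal.span {π} :=
  fun _ hσ => psi_mem_span A E hσ π hπ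

include hu

/-- (`hφψ`) -/
theorem hφψ :
    letI := algebraOL (OE A E) E (LE M E)
    ∀ σ ∈ A.inertiaSubgroupIn ℚ, ∀ (r : OE A E) (c : ↥(CechAdapter.C01 (O := OE A E) u)),
      phi M A E u σ (r • c) = psi A E σ r • phi M A E u σ c :=
  fun σ hσ => phi_smul M A E u (mem_decomposition_of_mem_inertia A hσ)
    (galE_eq_self_of_coeffEmb M E σ u u₀ hu)

/-- (`hφ0`) -/
theorem hφ0 :
    letI := algebraOL (OE A E) E (LE M E)
    ∀ σ ∈ A.inertiaSubgroupIn ℚ,
      ∀ c ∈ sub (CechAdapter.C0 (O := OE A E) u) (CechAdapter.C01 u),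
        phi M A E u σ c ∈ sub (CechAdapter.C0 (O := OE A E) u) (CechAdapter.C01 u) :=
  fun σ hσ => phi_mem_zero M A E u (mem_decomposition_of_mem_inertia A hσ)
    (galE_eq_self_of_coeffEmb M E σ u u₀ hu)

/-- (`hφ1`) -/
theorem hφ1 :
    letI := algebraOL (OE A E) E (LE M E)
    ∀ σ ∈ A.inertiaSubgroupIn ℚ,
      ∀ c ∈ sub (CechAdapter.C1 (O := OE A E) u) (CechAdapter.C01 u),
        phi M A E u σ c ∈ sub (CechAdapter.C1 (O := OE A E) u) (CechAdapter.C01 u) :=
  fun σ hσ => phi_mem_inf M A E u (mem_decomposition_of_mem_inertia A hσ)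
    (galE_eq_self_of_coeffEmb M E σ u u₀ hu)

/-- (`hjφ`) `φ σ` is `galE σ` on the underlying functions. -/
theorem hjφ :
    letI := algebraOL (OE A E) E (LE M E)
    ∀ σ ∈ A.inertiaSubgroupIn ℚ, ∀ c : ↥(CechAdapter.C01 (O := OE A E) u),
      algebraMap ↥(CechAdapter.C01 (O := OE A E) u) (LE M E) (phi M A E u σ c)
        = (galE E M σ : LE M E →+* LE M E)
            (algebraMap ↥(CechAdapter.C01 (O := OE A E) u) (LE M E) c) :=
  fun σ hσ => coe_phi M A E u (mem_decomposition_of_mem_inertia A hσ)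
    (galE_eq_self_of_coeffEmb M E σ u u₀ hu)

/-- (`hφt`) `φ σ (π c) ∈ π 𝒞`. -/
theorem hφt (π : OE A E) (hπ : Irreducible π) :
    letI := algebraOL (OE A E) E (LE M E)
    ∀ σ ∈ A.inertiaSubgroupIn ℚ, ∀ c : ↥(CechAdapter.C01 (O := OE A E) u),
      phi M A E u σ (algebraMap (OE A E) ↥(CechAdapter.C01 (O := OE A E) u) π * c)
        ∈ Ideal.span {π} • (⊤ : Submodule (OE A E) ↥(CechAdapter.C01 (O := OE A E) u)) := by
  letI := algebraOL (OE A E) E (LE M E)
  intro σ hσ c
  rw [← Algebra.smul_def, hφψ M A E u u₀ hu σ hσ π c]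
  exact Submodule.smul_mem_smul (psi_mem_span A E hσ π hπ) Submodule.mem_top

end Clauses

end Fermat.Agent.S19.Cech.EqFinal
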