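import Mathlib
import Fermat.Agent.S19.Cech.ChartMachine
import Fermat.Agent.S19.Cech.EqFinal

/-!
# S19 (Program FG, Route C): the chart machine at the chart instance, (H1) + (EQ) + (INST) in

`hasCechCoords_of_chart` = `ChartMachine.hasCechCoords_of_twoChartEmb` at
`R = OE A E`, `𝒞 = ↥(C01 u)`, `C0 = sub (C0 u) (C01 u)`, `Cinf = sub (C1 u) (C01 u)`, `t = π`,
`K = LE M E`, `j = algebraMap ↥(C01 u) (LE M E)`, `s σ = galE E M σ`, `ι = BaseInst.iota A E`,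
`φ = EqAction.phi M A E u`, `ψ = EqAction.psi A E`, with

* `hdec`, `huniq`, `hφe` from `EqFinal.exists_eq_data_of_chart`,
* `hψ`, `hφψ`, `hφ0`, `hφ1`, `hψt`, `hjφ` from `EqFinal`,
* `hιA`, `hιE`, `hsat`, `hℓt`, `htℓ` from `BaseInst`.

What is left as hypotheses: the two-chart embedding, (F4) on the function field, the Kummer
family with its normalisations, (STAR), the invariant references and (ALG).
-/

set_option autoImplicit false
set_option linter.style.haveILetI false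
set_option linter.unusedSectionVars false
set_option synthInstance.maxHeartbeats 400000

noncomputable section

open Polynomial IntermediateField ModularCurve

namespace Fermat.Agent.S19.Cech.ChartMachineEq

open Fermat.Agent.S18.K1Defs Fermat.Agent.S18.K1Main Fermat.Agent.S30 Fermat.Agent.S30.Model
  Fermat.Agent.S34.TrivModE Fermat.Agent.S44.D
  Fermat.Agent.S19.Cech.H1Basis Fermat.Agent.S19.Cech.EqAction
  Fermat.Agent.Lib.TwoChartNormalForm Fermat.Agent.Lib.ChartRoots Fermat.Agent.S37.Fn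
  Fermat.Agent.S19.HopfOrder Fermat.Agent.S19.Contract Fermat.Agent.S19.Cech.Exit
  Fermat.Agent.S19.Cech.Machine Fermat.Agent.S19.Cech.CocRep

local notation "Qb" => AlgebraicClosure ℚ

/-- **The chart machine at the chart instance**, with (H1), (EQ) and the base-ring clauses
discharged. -/
theorem hasCechCoords_of_chart (M : ℕ) [NeZero M] {ℓ : ℕ} (hℓ : ℓ.Prime) (hℓM : ¬ ℓ ∣ M)
    {G : Type} [AddCommGroup G]
    (act : Gal → G → G) (hadd : ∀ σ x y, act σ (x + y) = act σ x + act σ y)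
    (A : ValuationSubring Qb) (hA : A.LiesOverPrime ℓ)
    (E : IntermediateField ℚ Qb) [FiniteDimensional ℚ E] [Normal ℚ E]
    [IsDiscreteValuationRing (OE A E)]
    (hlev : ∀ σ : Gal, σ ∈ E.fixingSubgroup → ∀ x, act σ x = x)
    (G0 : AddSubgroup G) (hG0 : ∀ σ ∈ A.inertiaSubgroupIn ℚ, ∀ x, act σ x - x ∈ G0)
    {z : Qb} (hz : IsPrimitiveRoot z M) (hzE : z ∈ E) (u₀ : LaurentSeries ℚ)
    (hu₀ : ∀ (E : IntermediateField ℚ Qb) [FiniteDimensional ℚ E]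
      [IsDiscreteValuationRing (OE A E)], z ∈ E →
      letI := algebraOL (OE A E) E (LE M E)
      ∃ u : LE M E, (u : LaurentSeries E) = coeffEmb E u₀ ∧
        ModelInst.ChartModelC M (OE A E) E u ∧
        ∀ π : OE A E, Irreducible π →
          Fermat.Agent.S34.HauptU.LevelMAux.ChartFacts E π u u⁻¹)
    (u : LE M E) (hu : (u : LaurentSeries E) = coeffEmb E u₀)
    (π : OE A E) (hπ : Irreducible π) :
    letI := algebraOL (OE A E) E (LE M E)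
    ∀ (𝒪 : Subring (LE M E)) {ι0 ι1 ιc : Type*} (R0 : ι0 → Subring (LE M E))
      (R1 : ι1 → Subring (LE M E)) (Rc : ιc → Subring (LE M E))
      (_H : TwoChartEmb (sub (CechAdapter.C0 (O := OE A E) u) (CechAdapter.C01 u))
        (sub (CechAdapter.C1 (O := OE A E) u) (CechAdapter.C01 u)) π
        (algebraMap ↥(CechAdapter.C01 (O := OE A E) u) (LE M E)) 𝒪 R0 R1 Rc)
      {m : ℕ} (_hm : 0 < m)
      (_hs𝒪 : ∀ σ ∈ A.inertiaSubgroupIn ℚ, ∀ x ∈ 𝒪, galE E M σ x ∈ 𝒪)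
      (_hsR0 : ∀ σ ∈ A.inertiaSubgroupIn ℚ, ∀ i, ∀ x ∈ R0 i, galE E M σ x ∈ R0 i)
      (_hsR1 : ∀ σ ∈ A.inertiaSubgroupIn ℚ, ∀ i, ∀ x ∈ R1 i, galE E M σ x ∈ R1 i)
      (_hsπ : ∀ σ ∈ A.inertiaSubgroupIn ℚ, ∃ w ∈ 𝒪,
        galE E M σ (algebraMap (OE A E) (LE M E) π) = algebraMap (OE A E) (LE M E) π * w)
      (F : G → LE M E) (_hFu : ∀ x, IsUnitIn 𝒪 (F x))
      (_hF1 : ∀ x ∈ G0, ∃ h ∈ 𝒪, F x = 1 + algebraMap (OE A E) (LE M E) π * h)
      (_hstar0 : ∀ x ∈ G0, ∀ i, ∃ y : LE M E, IsUnitIn (R0 i) (y ^ m * F x))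
      (_hstar1 : ∀ x ∈ G0, ∀ i, ∃ y : LE M E, IsUnitIn (R1 i) (y ^ m * F x))
      (_hF_hom : ∀ x ∈ G0, ∀ y ∈ G0,
        Nrm π (algebraMap ↥(CechAdapter.C01 (O := OE A E) u) (LE M E)) 𝒪 R0 R1 m
          (F (x + y)) (F x * F y))
      (_hF_eqv : ∀ σ ∈ A.inertiaSubgroupIn ℚ, ∀ x ∈ G0,
        Nrm π (algebraMap ↥(CechAdapter.C01 (O := OE A E) u) (LE M E)) 𝒪 R0 R1 m
          (galE E M σ (F x)) (F (act σ x)))
      (rep : G ⧸ G0 → G) (_hrep : ∀ c, ((rep c : G) : G ⧸ G0) = c)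
      (_hF_peq : ∀ σ ∈ A.inertiaSubgroupIn ℚ, ∀ c,
        Nrm π (algebraMap ↥(CechAdapter.C01 (O := OE A E) u) (LE M E)) 𝒪 R0 R1 m
          (galE E M σ (F (rep c))) (F (rep c) * F (act σ (rep c) - rep c)))
      (_hcos0 : ∀ c i, ∃ ρ : LE M E, (∀ σ ∈ A.inertiaSubgroupIn ℚ, galE E M σ ρ = ρ) ∧
        ∃ v, (∃ h ∈ 𝒪, v = 1 + algebraMap (OE A E) (LE M E) π * h) ∧
          IsUnitIn (R0 i) (F (rep c) * ((ρ * v)⁻¹) ^ m))
      (_hcos1 : ∀ c i, ∃ ρ : LE M E, (∀ σ ∈ A.inertiaSubgroupIn ℚ, galE E M σ ρ = ρ) ∧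
        ∃ v, (∃ h ∈ 𝒪, v = 1 + algebraMap (OE A E) (LE M E) π * h) ∧
          IsUnitIn (R1 i) (F (rep c) * ((ρ * v)⁻¹) ^ m))
      (n0 : ℕ) (_hn0 : 0 < n0)
      (_halg : ∀ x ∈ G0, ∀ N, n0 ≤ N → ∀ ψ0 ψ1 : LE M E,
        IsRootRel 𝒪 (algebraMap (OE A E) (LE M E) π) R0 m N (fun _ => 1) (F x) ψ0 →
        IsRootRel 𝒪 (algebraMap (OE A E) (LE M E) π) R1 m N (fun _ => 1) (F x) ψ1 →
        (∃ h ∈ 𝒪, ψ0 = ψ1 * (1 + algebraMap (OE A E) (LE M E) π ^ n0 * h)) → x = 0),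
      HasCechCoords ℓ act := by
  letI := algebraOL (OE A E) E (LE M E)
  intro 𝒪 ι0 ι1 ιc R0 R1 Rc H m hm hs𝒪 hsR0 hsR1 hsπ F hFu hF1 hstar0 hstar1 hF_hom hF_eqv rep hrep
    hF_peq hcos0 hcos1 n0 hn0 halg
  obtain ⟨d, e, hdec, huniq, hφe⟩ :=
    EqFinal.exists_eq_data_of_chart M A E hℓ hℓM hA hz hzE u₀ hu₀ u hu
  exact ChartMachine.hasCechCoords_of_twoChartEmb act hadd A hA E hlev G0 hG0
    (sub (CechAdapter.C0 (O := OE A E) u) (CechAdapter.C01 u))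
    (sub (CechAdapter.C1 (O := OE A E) u) (CechAdapter.C01 u)) e hdec huniq π
    (BaseInst.iota A E) (BaseInst.iota_mem_A A E) (BaseInst.iota_mem_E A E)
    (fun r k => BaseInst.sat hπ.ne_zero r k) (BaseInst.natCast_mem_span hA hπ)
    (BaseInst.exists_pow_eq hℓ hπ)
    (phi M A E u) (psi A E) (EqFinal.hψ A E) (EqFinal.hφψ M A E u u₀ hu)
    (EqFinal.hφ0 M A E u u₀ hu) (EqFinal.hφ1 M A E u u₀ hu) hφe (EqFinal.hψt A E π hπ)
    (algebraMap ↥(CechAdapter.C01 (O := OE A E) u) (LE M E)) 𝒪 R0 R1 Rc H hm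
    (fun σ => (galE E M σ : LE M E →+* LE M E)) (EqFinal.hjφ M A E u u₀ hu)
    hs𝒪 hsR0 hsR1 hsπ F hFu hF1 hstar0 hstar1 hF_hom hF_eqv rep hrep hF_peq hcos0 hcos1 n0 hn0
    halg

end Fermat.Agent.S19.Cech.ChartMachineEq
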