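import Mathlib
import Fermat.Agent.S44.D.CechAdapter
import Fermat.Agent.S34.TrivModE
import Fermat.Agent.S34.ToricInertia
import Fermat.Agent.Lib.GaussChartTriv

/-!
# S19 (program FG, GEOM, row EQ): inertia is the identity on the special fibre of the charts

"(F4) of the note for the inertia group" at the chart instance.

* Level-free (vocabulary of `S44/D/CechAdapter`: `O` a DVR, `E = Frac O`, `emb : L →ₐ[E] E((q))`,
  `u` with integral expansion and a pole modulo `π`, `π` prime in `C0`): an element of a chart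
  ring (`C0`, `C01`, `C1`) whose reduction vanishes is divisible by `π` in that chart ring
  (`exists_eq_unif_mul_C0`, `_C01`, `_C1`): the kernel of the reduction on each chart is `π C_?`.
* Instance (`L = LE N E`, `O = OE A E`, `E ⊆ ℚ̄` normal over `ℚ`): for `τ` in the inertia group
  of `A` and a chart function `u` fixed by the coefficientwise action `galE E N τ`
  (e.g. `u` with rational `q`-expansion), `galE E N τ` is the identity modulo `π` on the three
  chart rings: `trivMod_zero`, `trivMod_inf`, `trivMod_pair'` (`S34.ToricInertia.TrivMod`).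
* `trivOn_of_trivMod`, `trivOn_zero`, `trivOn_inf` : the same in the form
  `Lib.GaussChartTriv.TrivOn (piElt (O[t]) π) (galE E N τ)` for the chart ring
  `integralClosure (Algebra.adjoin O {t}) L`, `t = u`, `u⁻¹`; by `Lib/GaussChartTriv` this gives:
  `galE E N τ` preserves the Gauss ring, the local ring of EVERY closed point of the special
  fibre of both charts, and multiplies `π` by an element of the Gauss ring, i.e. the hypotheses
  of `ChartRoots.IsRootRel.map` / `IsCocycle.map`.
-/

set_option autoImplicit false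
set_option linter.unusedSectionVars false

open Polynomial ModularCurve

noncomputable section

namespace Fermat.Agent.S19.Cech.InertiaTriv

open Fermat.Agent.S30 Fermat.Agent.S30.Model Fermat.Agent.S48.G1.K1
  Fermat.Agent.S44.D.CechAdapter Fermat.Agent.S34.TrivModE Fermat.Agent.S34.ToricInertia
  Fermat.Agent.Lib.GaussChartTriv

/-! ### Level-free: the kernel of the reduction on the chart rings -/

section LevelFree

variable {O E : Type*} [CommRing O] [IsDomain O] [IsDiscreteValuationRing O] [Field E]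
  [Algebra O E] [IsFractionRing O E]
variable {L : Type*} [Field L] [Algebra E L] [Algebra O L] [IsScalarTower O E L]

/-- **The kernel of the reduction on `C0` is `π C0`.** -/
theorem exists_eq_unif_mul_C0 (emb : L →ₐ[E] LaurentSeries E)
    (hfrac : ∀ x : L, emb x ∈ GaussDVR.fracField O E) (π : O) (hπ : Irreducible π) (u : L)
    (uO : LaurentSeries O) (hu : emb u = GaussDVR.iota O E uO)
    (hpole : (GaussDVR.rho O uO).order < 0)
    (hprime : Prime (GlueChart.piElt (Algebra.adjoin O ({u} : Set L)) π))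
    (x : L) (hx : x ∈ C0 (O := O) u) (hxV : emb x ∈ GaussDVR.V O E)
    (hred : GaussDVR.red O E ⟨emb x, hxV⟩ = 0) :
    ∃ c : L, c ∈ C0 (O := O) u ∧ x = algebraMap O L π * c := by
  have hπL : algebraMap O L π ≠ 0 := fun h0 =>
    hπ.ne_zero (ChartProv.algebraMap_injective_base O E L (h0.trans (map_zero _).symm))
  obtain ⟨y, hy⟩ := GaussDVR.ker' E π hπ ⟨emb x, hxV⟩ hred
  have hC0 : (HahnSeries.C (algebraMap O E π) : LaurentSeries E) ≠ 0 := by
    rw [← GaussDVR.coe_unif]
    exact GaussDVR.coe_unif_ne_zero E π hπ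
  have hcV : emb (x / algebraMap O L π) ∈ GaussDVR.V O E := by
    have e : emb (x / algebraMap O L π) = (y : LaurentSeries E) := by
      rw [map_div₀, GaussOne.emb_algebraMap, div_eq_iff hC0, mul_comm]
      exact hy
    rw [e]
    exact y.2
  refine ⟨x / algebraMap O L π, ?_, by field_simp⟩
  refine GaussInt.isIntegral_of_mul_of_mem_V emb hfrac π hπ u uO hu hpole hprime _ hcV π
    hπ.ne_zero ?_
  rw [mul_div_cancel₀ _ hπL]
  exact hx

/-- **The kernel of the reduction on the overlap `C01` is `π C01`.** -/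
theorem exists_eq_unif_mul_C01 (emb : L →ₐ[E] LaurentSeries E)
    (hfrac : ∀ x : L, emb x ∈ GaussDVR.fracField O E) (π : O) (hπ : Irreducible π) (u : L)
    (uO : LaurentSeries O) (hu : emb u = GaussDVR.iota O E uO)
    (hpole : (GaussDVR.rho O uO).order < 0)
    (hprime : Prime (GlueChart.piElt (Algebra.adjoin O ({u} : Set L)) π))
    (x : L) (hx : x ∈ C01 (O := O) u) (hxV : emb x ∈ GaussDVR.V O E)
    (hred : GaussDVR.red O E ⟨emb x, hxV⟩ = 0) :
    ∃ c : L, c ∈ C01 (O := O) u ∧ x = algebraMap O L π * c := by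
  have hu0 : u ≠ 0 :=
    ne_zero_of_transcendental u (transcendental_of_pole emb u uO hu hpole)
  obtain ⟨n, hn⟩ := hloc0 u hu0 x hx
  have huV : emb (u ^ n) ∈ GaussDVR.V O E := by
    rw [map_pow, hu]
    exact pow_mem (GaussDVR.mem_of_int O E _) n
  have hxV' : emb (u ^ n * x) ∈ GaussDVR.V O E := by
    rw [map_mul]
    exact mul_mem huV hxV
  have hred' : GaussDVR.red O E ⟨emb (u ^ n * x), hxV'⟩ = 0 := by
    have e : (⟨emb (u ^ n * x), hxV'⟩ : GaussDVR.V O E) = ⟨emb (u ^ n), huV⟩ * ⟨emb x, hxV⟩ :=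
      Subtype.ext (map_mul emb _ _)
    rw [e, map_mul, hred, mul_zero]
  obtain ⟨c0, hc0, e0⟩ :=
    exists_eq_unif_mul_C0 emb hfrac π hπ u uO hu hpole hprime _ hn hxV' hred'
  have h1 : u⁻¹ ∈ C01 (O := O) u :=
    CechP1.isIntegral_adjoin_of_mem (Algebra.subset_adjoin (by simp))
  refine ⟨u⁻¹ ^ n * c0, Subalgebra.mul_mem _ (Subalgebra.pow_mem _ h1 n) (C0_le_C01 u hc0), ?_⟩
  have h3 : u⁻¹ ^ n * u ^ n = 1 := by
    rw [← mul_pow, inv_mul_cancel₀ hu0, one_pow]
  calc x = u⁻¹ ^ n * u ^ n * x := by rw [h3, one_mul]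
    _ = u⁻¹ ^ n * (u ^ n * x) := by ring
    _ = algebraMap O L π * (u⁻¹ ^ n * c0) := by rw [e0]; ring

/-- **The kernel of the reduction on `C1` is `π C1`.** -/
theorem exists_eq_unif_mul_C1 (emb : L →ₐ[E] LaurentSeries E)
    (hfrac : ∀ x : L, emb x ∈ GaussDVR.fracField O E) (π : O) (hπ : Irreducible π) (u : L)
    (uO : LaurentSeries O) (hu : emb u = GaussDVR.iota O E uO)
    (hpole : (GaussDVR.rho O uO).order < 0)
    (hprime : Prime (GlueChart.piElt (Algebra.adjoin O ({u} : Set L)) π))
    (x : L) (hx : x ∈ C1 (O := O) u) (hxV : emb x ∈ GaussDVR.V O E)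
    (hred : GaussDVR.red O E ⟨emb x, hxV⟩ = 0) :
    ∃ c : L, c ∈ C1 (O := O) u ∧ x = algebraMap O L π * c := by
  have htr : Transcendental E u := transcendental_of_pole emb u uO hu hpole
  obtain ⟨c, hc, e⟩ :=
    exists_eq_unif_mul_C01 emb hfrac π hπ u uO hu hpole hprime x (C1_le_C01 u hx) hxV hred
  exact ⟨c, hsat1 π hπ u htr c hc (e ▸ hx), e⟩

end LevelFree

/-! ### `TrivMod` in the form `TrivOn` of `Lib/GaussChartTriv` -/

section TrivOn

variable {O F : Type*} [CommRing O] [Field F] [Algebra O F]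

/-- `TrivMod π t τ` is `TrivOn (piElt (O[t]) π) τ` for the chart ring
`integralClosure (Algebra.adjoin O t) F`. -/
theorem trivOn_of_trivMod (π : O) (t : Set F) (τ : F ≃+* F) (hT : TrivMod π t τ) :
    TrivOn (C := integralClosure (Algebra.adjoin O t) F) (K := F)
      (GlueChart.piElt (Algebra.adjoin O t) π) (τ : F →+* F) := by
  intro c
  obtain ⟨c', hc', e⟩ := hT (c : F) c.2
  refine ⟨⟨c', hc'⟩, ?_⟩
  show τ (c : F) = (c : F) + algebraMap O F π * c'
  rw [← e]
  ring

end TrivOn

/-! ### The instance: inertia on the level-`N` function field -/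

section Instance

open Fermat.Agent.S18.K1Defs Fermat.Agent.S18.K1Top

local notation "Qb" => AlgebraicClosure ℚ
local notation "Gq" => (AlgebraicClosure ℚ ≃ₐ[ℚ] AlgebraicClosure ℚ)

variable (A : ValuationSubring Qb) (E : IntermediateField ℚ Qb) [Normal ℚ E]
  [IsDiscreteValuationRing (OE A E)] (N : ℕ) [NeZero N]
  [Algebra (OE A E) (LE N E)] [IsScalarTower (OE A E) E (LE N E)]

/-- **Inertia is the identity modulo `π` on the chart `C0`** (integral closure of `O_E[u]`). -/
theorem trivMod_zero (π : OE A E) (hπ : Irreducible π) {τ : Gq}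
    (hτ : τ ∈ A.inertiaSubgroupIn ℚ) (u : LE N E) (uO : LaurentSeries (OE A E))
    (hu : ((u : LE N E) : LaurentSeries E) = GaussDVR.iota (OE A E) E uO)
    (hpole : (GaussDVR.rho (OE A E) uO).order < 0)
    (hprime : Prime (GlueChart.piElt (Algebra.adjoin (OE A E) ({u} : Set (LE N E))) π))
    (hτu : galE E N τ u = u) :
    TrivMod π ({u} : Set (LE N E)) (galE E N τ) := by
  have hV : ((u : LE N E) : LaurentSeries E) ∈ GaussDVR.V (OE A E) E := by
    rw [hu]
    exact GaussDVR.mem_of_int (OE A E) E _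
  refine trivMod_inertia A E N π hπ hτ {u} (fun s hs => ?_) (fun s hs => ?_) (RingEquiv.refl _)
    (fun _ => rfl) (fun _ => rfl) (fun _ _ => rfl) (fun x hx _ hxint hred _ => ?_)
  · rw [Set.mem_singleton_iff.mp hs]
    exact hV
  · rw [Set.mem_singleton_iff.mp hs]
    exact hτu
  · exact exists_eq_unif_mul_C0 (LE N E).val (mem_fracField_LE A E N) π hπ u uO hu hpole hprime
      x hxint hx hred

/-- **Inertia is the identity modulo `π` on the chart `C1`** (integral closure of
`O_E[u⁻¹]`). -/
theorem trivMod_inf (π : OE A E) (hπ : Irreducible π) {τ : Gq}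
    (hτ : τ ∈ A.inertiaSubgroupIn ℚ) (u : LE N E) (uO : LaurentSeries (OE A E))
    (hu : ((u : LE N E) : LaurentSeries E) = GaussDVR.iota (OE A E) E uO)
    (hpole : (GaussDVR.rho (OE A E) uO).order < 0)
    (hprime : Prime (GlueChart.piElt (Algebra.adjoin (OE A E) ({u} : Set (LE N E))) π))
    (hτu : galE E N τ u = u) :
    TrivMod π ({u⁻¹} : Set (LE N E)) (galE E N τ) := by
  have hV : ((u⁻¹ : LE N E) : LaurentSeries E) ∈ GaussDVR.V (OE A E) E :=
    inv_mem_gaussSub (LE N E).val u uO hu (rho_ne_zero_of_pole uO hpole)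
  refine trivMod_inertia A E N π hπ hτ {u⁻¹} (fun s hs => ?_) (fun s hs => ?_)
    (RingEquiv.refl _) (fun _ => rfl) (fun _ => rfl) (fun _ _ => rfl)
    (fun x hx _ hxint hred _ => ?_)
  · rw [Set.mem_singleton_iff.mp hs]
    exact hV
  · rw [Set.mem_singleton_iff.mp hs, map_inv₀, hτu]
  · exact exists_eq_unif_mul_C1 (LE N E).val (mem_fracField_LE A E N) π hπ u uO hu hpole hprime
      x hxint hx hred

/-- **Inertia is the identity modulo `π` on the overlap `C01`.** -/
theorem trivMod_pair' (π : OE A E) (hπ : Irreducible π) {τ : Gq}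
    (hτ : τ ∈ A.inertiaSubgroupIn ℚ) (u : LE N E) (uO : LaurentSeries (OE A E))
    (hu : ((u : LE N E) : LaurentSeries E) = GaussDVR.iota (OE A E) E uO)
    (hpole : (GaussDVR.rho (OE A E) uO).order < 0)
    (hprime : Prime (GlueChart.piElt (Algebra.adjoin (OE A E) ({u} : Set (LE N E))) π))
    (hτu : galE E N τ u = u) :
    TrivMod π ({u, u⁻¹} : Set (LE N E)) (galE E N τ) := by
  have hu0 : u ≠ 0 :=
    ne_zero_of_transcendental u (transcendental_of_pole (LE N E).val u uO hu hpole)
  exact trivMod_pair π u hu0 (galE E N τ) hτu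
    (trivMod_zero A E N π hπ hτ u uO hu hpole hprime hτu)

/-- `TrivOn` form at the chart `C0`: with `Lib/GaussChartTriv`, `galE E N τ` preserves the Gauss
ring and the local ring of every closed point of the special fibre of `C0`. -/
theorem trivOn_zero (π : OE A E) (hπ : Irreducible π) {τ : Gq}
    (hτ : τ ∈ A.inertiaSubgroupIn ℚ) (u : LE N E) (uO : LaurentSeries (OE A E))
    (hu : ((u : LE N E) : LaurentSeries E) = GaussDVR.iota (OE A E) E uO)
    (hpole : (GaussDVR.rho (OE A E) uO).order < 0)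
    (hprime : Prime (GlueChart.piElt (Algebra.adjoin (OE A E) ({u} : Set (LE N E))) π))
    (hτu : galE E N τ u = u) :
    TrivOn (C := integralClosure (Algebra.adjoin (OE A E) ({u} : Set (LE N E))) (LE N E))
      (K := LE N E) (GlueChart.piElt (Algebra.adjoin (OE A E) ({u} : Set (LE N E))) π)
      (galE E N τ : LE N E →+* LE N E) :=
  trivOn_of_trivMod π {u} (galE E N τ) (trivMod_zero A E N π hπ hτ u uO hu hpole hprime hτu)

/-- `TrivOn` form at the chart `C1`. -/
theorem trivOn_inf (π : OE A E) (hπ : Irreducible π) {τ : Gq}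
    (hτ : τ ∈ A.inertiaSubgroupIn ℚ) (u : LE N E) (uO : LaurentSeries (OE A E))
    (hu : ((u : LE N E) : LaurentSeries E) = GaussDVR.iota (OE A E) E uO)
    (hpole : (GaussDVR.rho (OE A E) uO).order < 0)
    (hprime : Prime (GlueChart.piElt (Algebra.adjoin (OE A E) ({u} : Set (LE N E))) π))
    (hτu : galE E N τ u = u) :
    TrivOn (C := integralClosure (Algebra.adjoin (OE A E) ({u⁻¹} : Set (LE N E))) (LE N E))
      (K := LE N E) (GlueChart.piElt (Algebra.adjoin (OE A E) ({u⁻¹} : Set (LE N E))) π)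
      (galE E N τ : LE N E →+* LE N E) :=
  trivOn_of_trivMod π {u⁻¹} (galE E N τ) (trivMod_inf A E N π hπ hτ u uO hu hpole hprime hτu)

/-- `TrivOn` form at the overlap `C01`. -/
theorem trivOn_pair (π : OE A E) (hπ : Irreducible π) {τ : Gq}
    (hτ : τ ∈ A.inertiaSubgroupIn ℚ) (u : LE N E) (uO : LaurentSeries (OE A E))
    (hu : ((u : LE N E) : LaurentSeries E) = GaussDVR.iota (OE A E) E uO)
    (hpole : (GaussDVR.rho (OE A E) uO).order < 0)
    (hprime : Prime (GlueChart.piElt (Algebra.adjoin (OE A E) ({u} : Set (LE N E))) π))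
    (hτu : galE E N τ u = u) :
    TrivOn (C := integralClosure (Algebra.adjoin (OE A E) ({u, u⁻¹} : Set (LE N E))) (LE N E))
      (K := LE N E) (GlueChart.piElt (Algebra.adjoin (OE A E) ({u, u⁻¹} : Set (LE N E))) π)
      (galE E N τ : LE N E →+* LE N E) :=
  trivOn_of_trivMod π {u, u⁻¹} (galE E N τ)
    (trivMod_pair' A E N π hπ hτ u uO hu hpole hprime hτu)

end Instance

end Fermat.Agent.S19.Cech.InertiaTriv
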