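import Mathlib
import Fermat.Agent.S19.Cech.InertiaTriv

/-!
# S19 (program FG, Route C): (F4) at the chart instance, in the literals of the chart machine

Setting of `S19/Cech/ChartMachineEq.hasCechCoords_of_chart`: `A` a valuation subring of
`ℚ̄`, `E ⊆ ℚ̄` a normal number field with `O_E = OE A E` a discrete valuation ring, `u : LE M E`
a chart function with rational `q`-expansion `u₀` which is an integral `q`-series with a pole
modulo `π` (the field `model` of `S37.Fn.ModelInst.ChartModel`), `π` a uniformiser of `O_E`,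
prime in the chart ring of `u` (the field `prime_zero`).  The `O_E`-algebra structure on
`LE M E` is an instance argument (in the application: `K1Main.algebraOL`, with
`K1Main.isScalarTower_OL`).

The two chart rings are `B0 = integralClosure (O_E[u]) (LE M E)`,
`B1 = integralClosure (O_E[u⁻¹]) (LE M E)`, with prime elements `ϖ? = GlueChart.piElt _ π`;
`𝒪 = gaussRing hp0`, `R0 Q = locRing Q` (`Q : Pt ϖ0`), `R1 Q = locRing Q` (`Q : Pt ϖ1`) in the
vocabulary of `Lib/GaussChartOfPrime`.

For `σ` in the inertia group of `A` the coefficientwise action `galE E M σ`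

* `hsO`  : preserves the Gauss ring `𝒪`                                     (`hs𝒪` of the machine),
* `hsR0` : preserves the local ring of every closed point of the chart `B0`   (`hsR0`),
* `hsR1` : preserves the local ring of every closed point of the chart `B1`   (`hsR1`),
* `hsπ`  : multiplies `π` by an element of `𝒪`                               (`hsπ`),
* `hsO_inf` : preserves the Gauss ring of the chart `B1` as well,
* `exists_eq_add` : is the identity modulo `π 𝒪` on `𝒪`.

All are `Lib/GaussChartTriv` applied to `S19/Cech/InertiaTriv.trivOn_zero` / `trivOn_inf`.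
-/

set_option autoImplicit false
set_option linter.unusedSectionVars false

noncomputable section

open Polynomial ModularCurve

namespace Fermat.Agent.S19.Cech.F4Inst

open Fermat.Agent.S18.K1Defs Fermat.Agent.S30 Fermat.Agent.S30.Model
  Fermat.Agent.S34.TrivModE Fermat.Agent.Lib.GaussChartOfPrime Fermat.Agent.Lib.GaussChartTriv

local notation "Qb" => AlgebraicClosure ℚ
local notation "Gq" => (AlgebraicClosure ℚ ≃ₐ[ℚ] AlgebraicClosure ℚ)

variable (M : ℕ) [NeZero M] (A : ValuationSubring Qb) (E : IntermediateField ℚ Qb) [Normal ℚ E]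
  [IsDiscreteValuationRing (OE A E)]
  [Algebra (OE A E) (LE M E)] [IsScalarTower (OE A E) E (LE M E)]

/-- A function with rational `q`-expansion is fixed by the coefficientwise Galois action. -/
theorem galE_eq_self_of_rat (σ : Gq) (u : LE M E) (u₀ : LaurentSeries ℚ)
    (hu : (u : LaurentSeries E) = coeffEmb E u₀) : galE E M σ u = u := by
  apply Subtype.ext
  rw [coe_galE, hu]
  exact coeffMap_coeffEmb (σ.restrictNormal E) u₀

/-- **Inertia is the identity modulo `π` on the chart `B0`** (`TrivOn` form), for a chart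
function with rational `q`-expansion. -/
theorem trivOn_zero (u : LE M E) (u₀ : LaurentSeries ℚ)
    (hu : (u : LaurentSeries E) = coeffEmb E u₀)
    (hmodel : ∃ uO : LaurentSeries (OE A E),
      (u : LaurentSeries E) = GaussDVR.iota (OE A E) E uO ∧ (GaussDVR.rho (OE A E) uO).order < 0)
    (π : OE A E) (hπ : Irreducible π)
    (hp0 : Prime (GlueChart.piElt (Algebra.adjoin (OE A E) ({u} : Set (LE M E))) π))
    {σ : Gq} (hσ : σ ∈ A.inertiaSubgroupIn ℚ) :
    TrivOn (C := integralClosure (Algebra.adjoin (OE A E) ({u} : Set (LE M E))) (LE M E))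
      (K := LE M E) (GlueChart.piElt (Algebra.adjoin (OE A E) ({u} : Set (LE M E))) π)
      (galE E M σ : LE M E →+* LE M E) := by
  obtain ⟨uO, huO, hpole⟩ := hmodel
  exact InertiaTriv.trivOn_zero A E M π hπ hσ u uO huO hpole hp0
    (galE_eq_self_of_rat M E σ u u₀ hu)

/-- **Inertia is the identity modulo `π` on the chart `B1`** (`TrivOn` form). -/
theorem trivOn_inf (u : LE M E) (u₀ : LaurentSeries ℚ)
    (hu : (u : LaurentSeries E) = coeffEmb E u₀)
    (hmodel : ∃ uO : LaurentSeries (OE A E),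
      (u : LaurentSeries E) = GaussDVR.iota (OE A E) E uO ∧ (GaussDVR.rho (OE A E) uO).order < 0)
    (π : OE A E) (hπ : Irreducible π)
    (hp0 : Prime (GlueChart.piElt (Algebra.adjoin (OE A E) ({u} : Set (LE M E))) π))
    {σ : Gq} (hσ : σ ∈ A.inertiaSubgroupIn ℚ) :
    TrivOn (C := integralClosure (Algebra.adjoin (OE A E) ({u⁻¹} : Set (LE M E))) (LE M E))
      (K := LE M E) (GlueChart.piElt (Algebra.adjoin (OE A E) ({u⁻¹} : Set (LE M E))) π)
      (galE E M σ : LE M E →+* LE M E) := by
  obtain ⟨uO, huO, hpole⟩ := hmodel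
  exact InertiaTriv.trivOn_inf A E M π hπ hσ u uO huO hpole hp0
    (galE_eq_self_of_rat M E σ u u₀ hu)

/-- (`hs𝒪`) **Inertia preserves the Gauss ring** `𝒪 = gaussRing hp0` of the chart `B0`. -/
theorem hsO (u : LE M E) (u₀ : LaurentSeries ℚ) (hu : (u : LaurentSeries E) = coeffEmb E u₀)
    (hmodel : ∃ uO : LaurentSeries (OE A E),
      (u : LaurentSeries E) = GaussDVR.iota (OE A E) E uO ∧ (GaussDVR.rho (OE A E) uO).order < 0)
    (π : OE A E) (hπ : Irreducible π)
    (hp0 : Prime (GlueChart.piElt (Algebra.adjoin (OE A E) ({u} : Set (LE M E))) π)) :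
    ∀ σ ∈ A.inertiaSubgroupIn ℚ, ∀ x ∈ gaussRing (K := LE M E) hp0,
      galE E M σ x ∈ gaussRing (K := LE M E) hp0 :=
  fun _ hσ x hx =>
    (trivOn_zero M A E u u₀ hu hmodel π hπ hp0 hσ).map_mem_gaussRing hp0 x hx

/-- **Inertia preserves the Gauss ring of the chart `B1`** as well. -/
theorem hsO_inf (u : LE M E) (u₀ : LaurentSeries ℚ) (hu : (u : LaurentSeries E) = coeffEmb E u₀)
    (hmodel : ∃ uO : LaurentSeries (OE A E),
      (u : LaurentSeries E) = GaussDVR.iota (OE A E) E uO ∧ (GaussDVR.rho (OE A E) uO).order < 0)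
    (π : OE A E) (hπ : Irreducible π)
    (hp0 : Prime (GlueChart.piElt (Algebra.adjoin (OE A E) ({u} : Set (LE M E))) π))
    (hp1 : Prime (GlueChart.piElt (Algebra.adjoin (OE A E) ({u⁻¹} : Set (LE M E))) π)) :
    ∀ σ ∈ A.inertiaSubgroupIn ℚ, ∀ x ∈ gaussRing (K := LE M E) hp1,
      galE E M σ x ∈ gaussRing (K := LE M E) hp1 :=
  fun _ hσ x hx =>
    (trivOn_inf M A E u u₀ hu hmodel π hπ hp0 hσ).map_mem_gaussRing hp1 x hx

/-- (`hsR0`) **Inertia preserves the local ring of every closed point of the special fibre of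
the chart `B0`.** -/
theorem hsR0 (u : LE M E) (u₀ : LaurentSeries ℚ) (hu : (u : LaurentSeries E) = coeffEmb E u₀)
    (hmodel : ∃ uO : LaurentSeries (OE A E),
      (u : LaurentSeries E) = GaussDVR.iota (OE A E) E uO ∧ (GaussDVR.rho (OE A E) uO).order < 0)
    (π : OE A E) (hπ : Irreducible π)
    (hp0 : Prime (GlueChart.piElt (Algebra.adjoin (OE A E) ({u} : Set (LE M E))) π)) :
    ∀ σ ∈ A.inertiaSubgroupIn ℚ,
      ∀ Q : Pt (GlueChart.piElt (Algebra.adjoin (OE A E) ({u} : Set (LE M E))) π),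
        ∀ x ∈ locRing (K := LE M E) Q, galE E M σ x ∈ locRing (K := LE M E) Q :=
  fun _ hσ Q x hx =>
    (trivOn_zero M A E u u₀ hu hmodel π hπ hp0 hσ).map_mem_locRing Q x hx

/-- (`hsR1`) **Inertia preserves the local ring of every closed point of the special fibre of
the chart `B1`.** -/
theorem hsR1 (u : LE M E) (u₀ : LaurentSeries ℚ) (hu : (u : LaurentSeries E) = coeffEmb E u₀)
    (hmodel : ∃ uO : LaurentSeries (OE A E),
      (u : LaurentSeries E) = GaussDVR.iota (OE A E) E uO ∧ (GaussDVR.rho (OE A E) uO).order < 0)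
    (π : OE A E) (hπ : Irreducible π)
    (hp0 : Prime (GlueChart.piElt (Algebra.adjoin (OE A E) ({u} : Set (LE M E))) π)) :
    ∀ σ ∈ A.inertiaSubgroupIn ℚ,
      ∀ Q : Pt (GlueChart.piElt (Algebra.adjoin (OE A E) ({u⁻¹} : Set (LE M E))) π),
        ∀ x ∈ locRing (K := LE M E) Q, galE E M σ x ∈ locRing (K := LE M E) Q :=
  fun _ hσ Q x hx =>
    (trivOn_inf M A E u u₀ hu hmodel π hπ hp0 hσ).map_mem_locRing Q x hx

/-- (`hsπ`) **Inertia multiplies `π` by an element of the Gauss ring.** -/
theorem hsπ (u : LE M E) (u₀ : LaurentSeries ℚ) (hu : (u : LaurentSeries E) = coeffEmb E u₀)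
    (hmodel : ∃ uO : LaurentSeries (OE A E),
      (u : LaurentSeries E) = GaussDVR.iota (OE A E) E uO ∧ (GaussDVR.rho (OE A E) uO).order < 0)
    (π : OE A E) (hπ : Irreducible π)
    (hp0 : Prime (GlueChart.piElt (Algebra.adjoin (OE A E) ({u} : Set (LE M E))) π)) :
    ∀ σ ∈ A.inertiaSubgroupIn ℚ, ∃ w ∈ gaussRing (K := LE M E) hp0,
      galE E M σ (algebraMap (OE A E) (LE M E) π) = algebraMap (OE A E) (LE M E) π * w := by
  intro σ hσ
  obtain ⟨w, hw, e⟩ := (trivOn_zero M A E u u₀ hu hmodel π hπ hp0 hσ).exists_map_pi hp0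
  exact ⟨w, hw, e⟩

/-- **Inertia is the identity modulo `π 𝒪` on the Gauss ring `𝒪`.** -/
theorem exists_eq_add (u : LE M E) (u₀ : LaurentSeries ℚ)
    (hu : (u : LaurentSeries E) = coeffEmb E u₀)
    (hmodel : ∃ uO : LaurentSeries (OE A E),
      (u : LaurentSeries E) = GaussDVR.iota (OE A E) E uO ∧ (GaussDVR.rho (OE A E) uO).order < 0)
    (π : OE A E) (hπ : Irreducible π)
    (hp0 : Prime (GlueChart.piElt (Algebra.adjoin (OE A E) ({u} : Set (LE M E))) π)) :
    ∀ σ ∈ A.inertiaSubgroupIn ℚ, ∀ x ∈ gaussRing (K := LE M E) hp0,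
      ∃ h ∈ gaussRing (K := LE M E) hp0,
        galE E M σ x = x + algebraMap (OE A E) (LE M E) π * h := by
  intro σ hσ x hx
  obtain ⟨h, hh, e⟩ := (trivOn_zero M A E u u₀ hu hmodel π hπ hp0 hσ).exists_eq_add
    Subtype.val_injective hp0 hx
  exact ⟨h, hh, e⟩

end Fermat.Agent.S19.Cech.F4Inst
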