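import Mathlib
import Fermat.Agent.S19.Cech.ChartMachineEq
import Fermat.Agent.S19.Cech.ChartEmb
import Fermat.Agent.S19.Cech.F4Inst

/-!
# S19 (Program FG, Route C): the chart machine at the chart instance, (Z*) + (F4) in

`hasCechCoords_of_chart_gauss` = `ChartMachineEq.hasCechCoords_of_chart` with

* the two-chart embedding `H` from `ChartEmb.twoChartEmb` at `𝒪 = gaussRing hp0`,
  `R0 Q = locRing Q` (`Q : Pt ϖ0`), `R1 Q = locRing Q` (`Q : Pt ϖ1`), `Rc Q = locRing Q`
  (`Q` a closed point of the overlap),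
* (F4) `hs𝒪`, `hsR0`, `hsR1`, `hsπ` from `F4Inst`.

What is left as hypotheses: the Kummer family `F` with its normalisations, (STAR), the invariant
references for the coset representatives and (ALG) - all in the vocabulary
`gaussRing hp0` / `locRing Q` of `Lib/GaussChartOfPrime` on the chart rings
`ChartGauss.CRing (OE A E) {u}`, `ChartGauss.CRing (OE A E) {u⁻¹}`.
-/

set_option autoImplicit false
set_option linter.style.haveILetI false
set_option linter.unusedSectionVars false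
set_option synthInstance.maxHeartbeats 400000

noncomputable section

open Polynomial IntermediateField ModularCurve

namespace Fermat.Agent.S19.Cech.ChartMachineZ

open Fermat.Agent.S18.K1Defs Fermat.Agent.S18.K1Main Fermat.Agent.S30 Fermat.Agent.S30.Model
  Fermat.Agent.S34.TrivModE Fermat.Agent.S44.D
  Fermat.Agent.S19.Cech.H1Basis Fermat.Agent.S19.Cech.EqAction
  Fermat.Agent.Lib.TwoChartNormalForm Fermat.Agent.Lib.ChartRoots Fermat.Agent.S37.Fn
  Fermat.Agent.S19.HopfOrder Fermat.Agent.S19.Contract Fermat.Agent.S19.Cech.Exit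
  Fermat.Agent.S19.Cech.Machine Fermat.Agent.S19.Cech.CocRep
  Fermat.Agent.Lib.GaussChartOfPrime Fermat.Agent.S19.Cech.ChartGauss

local notation "Qb" => AlgebraicClosure ℚ

/-- **The chart machine at the chart instance**, with (H1), (EQ), the base-ring clauses, the
two-chart embedding (Z*) and (F4) discharged. -/
theorem hasCechCoords_of_chart_gauss (M : ℕ) [NeZero M] {ℓ : ℕ} (hℓ : ℓ.Prime) (hℓM : ¬ ℓ ∣ M)
    {G : Type} [AddCommGroup G]
    (act : Gal → G → G) (hadd : ∀ σ x y, act σ (x + y) = act σ x + act σ y)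
    (A : ValuationSubring Qb) (hA : A.LiesOverPrime ℓ)
    (E : IntermediateField ℚ Qb) [FiniteDimensional ℚ E] [Normal ℚ E]
    [IsDiscreteValuationRing (OE A E)]
    (hlev : ∀ σ : Gal, σ ∈ E.fixingSubgroup → ∀ x, act σ x = x)
    (G0 : AddSubgroup G) (hG0 : ∀ σ ∈ A.inertiaSubgroupIn ℚ, ∀ x, act σ x - x ∈ G0)
    {z : Qb} (hz : IsPrimitiveRoot z M) (hzE : z ∈ E) (u₀ : LaurentSeries ℚ)
    (hu₀ : ∀ (E : IntermediateField ℚ Qb) [FiniteDimensional ℚ E]
      [IsDiscreteValuationRing (OE A E)], z ∈ E →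
      letI := algebraOL (OE A E) E (LE M E)
      ∃ u : LE M E, (u : LaurentSeries E) = coeffEmb E u₀ ∧
        ModelInst.ChartModelC M (OE A E) E u ∧
        ∀ π : OE A E, Irreducible π →
          Fermat.Agent.S34.HauptU.LevelMAux.ChartFacts E π u u⁻¹)
    (u : LE M E) (hu : (u : LaurentSeries E) = coeffEmb E u₀)
    (π : OE A E) (hπ : Irreducible π) :
    letI := algebraOL (OE A E) E (LE M E)
    ∀ (_hmodel : ∃ uO : LaurentSeries (OE A E),
        (u : LaurentSeries E) = GaussDVR.iota (OE A E) E uO ∧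
          (GaussDVR.rho (OE A E) uO).order < 0)
      (_htr : Transcendental E u)
      (_hfin : FiniteDimensional (IntermediateField.adjoin E {u}) (LE M E))
      (hp0 : Prime (piOf (OE A E) ({u} : Set (LE M E)) π))
      (_hp1 : Prime (piOf (OE A E) ({u⁻¹} : Set (LE M E)) π))
      (_hd0 : IsDedekindDomain (CRing (OE A E) ({u} : Set (LE M E)) ⧸
        Ideal.span {piOf (OE A E) ({u} : Set (LE M E)) π}))
      (_hd1 : IsDedekindDomain (CRing (OE A E) ({u⁻¹} : Set (LE M E)) ⧸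
        Ideal.span {piOf (OE A E) ({u⁻¹} : Set (LE M E)) π}))
      {m : ℕ} (_hm : 0 < m)
      (F : G → LE M E) (_hFu : ∀ x, IsUnitIn (gaussRing (K := LE M E) hp0) (F x))
      (_hF1 : ∀ x ∈ G0, ∃ h ∈ gaussRing (K := LE M E) hp0,
        F x = 1 + algebraMap (OE A E) (LE M E) π * h)
      (_hstar0 : ∀ x ∈ G0, ∀ Q : Pt (piOf (OE A E) ({u} : Set (LE M E)) π),
        ∃ y : LE M E, IsUnitIn (locRing (K := LE M E) Q) (y ^ m * F x))
      (_hstar1 : ∀ x ∈ G0, ∀ Q : Pt (piOf (OE A E) ({u⁻¹} : Set (LE M E)) π),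
        ∃ y : LE M E, IsUnitIn (locRing (K := LE M E) Q) (y ^ m * F x))
      (_hF_hom : ∀ x ∈ G0, ∀ y ∈ G0,
        Nrm π (algebraMap ↥(CechAdapter.C01 (O := OE A E) u) (LE M E))
          (gaussRing (K := LE M E) hp0)
          (fun Q : Pt (piOf (OE A E) ({u} : Set (LE M E)) π) => locRing (K := LE M E) Q)
          (fun Q : Pt (piOf (OE A E) ({u⁻¹} : Set (LE M E)) π) => locRing (K := LE M E) Q) m
          (F (x + y)) (F x * F y))
      (_hF_eqv : ∀ σ ∈ A.inertiaSubgroupIn ℚ, ∀ x ∈ G0,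
        Nrm π (algebraMap ↥(CechAdapter.C01 (O := OE A E) u) (LE M E))
          (gaussRing (K := LE M E) hp0)
          (fun Q : Pt (piOf (OE A E) ({u} : Set (LE M E)) π) => locRing (K := LE M E) Q)
          (fun Q : Pt (piOf (OE A E) ({u⁻¹} : Set (LE M E)) π) => locRing (K := LE M E) Q) m
          (galE E M σ (F x)) (F (act σ x)))
      (rep : G ⧸ G0 → G) (_hrep : ∀ c, ((rep c : G) : G ⧸ G0) = c)
      (_hF_peq : ∀ σ ∈ A.inertiaSubgroupIn ℚ, ∀ c,
        Nrm π (algebraMap ↥(CechAdapter.C01 (O := OE A E) u) (LE M E))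
          (gaussRing (K := LE M E) hp0)
          (fun Q : Pt (piOf (OE A E) ({u} : Set (LE M E)) π) => locRing (K := LE M E) Q)
          (fun Q : Pt (piOf (OE A E) ({u⁻¹} : Set (LE M E)) π) => locRing (K := LE M E) Q) m
          (galE E M σ (F (rep c))) (F (rep c) * F (act σ (rep c) - rep c)))
      (_hcos0 : ∀ c, ∀ Q : Pt (piOf (OE A E) ({u} : Set (LE M E)) π), ∃ ρ : LE M E,
        (∀ σ ∈ A.inertiaSubgroupIn ℚ, galE E M σ ρ = ρ) ∧
        ∃ v, (∃ h ∈ gaussRing (K := LE M E) hp0, v = 1 + algebraMap (OE A E) (LE M E) π * h) ∧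
          IsUnitIn (locRing (K := LE M E) Q) (F (rep c) * ((ρ * v)⁻¹) ^ m))
      (_hcos1 : ∀ c, ∀ Q : Pt (piOf (OE A E) ({u⁻¹} : Set (LE M E)) π), ∃ ρ : LE M E,
        (∀ σ ∈ A.inertiaSubgroupIn ℚ, galE E M σ ρ = ρ) ∧
        ∃ v, (∃ h ∈ gaussRing (K := LE M E) hp0, v = 1 + algebraMap (OE A E) (LE M E) π * h) ∧
          IsUnitIn (locRing (K := LE M E) Q) (F (rep c) * ((ρ * v)⁻¹) ^ m))
      (n0 : ℕ) (_hn0 : 0 < n0)
      (_halg : ∀ x ∈ G0, ∀ N, n0 ≤ N → ∀ ψ0 ψ1 : LE M E,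
        IsRootRel (gaussRing (K := LE M E) hp0) (algebraMap (OE A E) (LE M E) π)
          (fun Q : Pt (piOf (OE A E) ({u} : Set (LE M E)) π) => locRing (K := LE M E) Q)
          m N (fun _ => 1) (F x) ψ0 →
        IsRootRel (gaussRing (K := LE M E) hp0) (algebraMap (OE A E) (LE M E) π)
          (fun Q : Pt (piOf (OE A E) ({u⁻¹} : Set (LE M E)) π) => locRing (K := LE M E) Q)
          m N (fun _ => 1) (F x) ψ1 →
        (∃ h ∈ gaussRing (K := LE M E) hp0,
          ψ0 = ψ1 * (1 + algebraMap (OE A E) (LE M E) π ^ n0 * h)) → x = 0),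
      HasCechCoords ℓ act := by
  letI := algebraOL (OE A E) E (LE M E)
  haveI := isScalarTower_OL (OE A E) E (LE M E)
  intro hmodel htr hfin hp0 hp1 hd0 hd1 m hm F hFu hF1 hstar0 hstar1 hF_hom hF_eqv rep hrep hF_peq
    hcos0 hcos1 n0 hn0 halg
  haveI := hfin
  have H := ChartEmb.twoChartEmb (E := E) π hπ u htr hp0 hp1 hd0 hd1
  exact ChartMachineEq.hasCechCoords_of_chart M hℓ hℓM act hadd A hA E hlev G0 hG0 hz hzE u₀ hu₀ u
    hu π hπ (gaussRing (K := LE M E) hp0)
    (fun Q : Pt (piOf (OE A E) ({u} : Set (LE M E)) π) => locRing (K := LE M E) Q)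
    (fun Q : Pt (piOf (OE A E) ({u⁻¹} : Set (LE M E)) π) => locRing (K := LE M E) Q)
    (fun Q : Pt (piOf (OE A E) ({u, u⁻¹} : Set (LE M E)) π) => locRing (K := LE M E) Q)
    H hm
    (F4Inst.hsO M A E u u₀ hu hmodel π hπ hp0)
    (F4Inst.hsR0 M A E u u₀ hu hmodel π hπ hp0)
    (F4Inst.hsR1 M A E u u₀ hu hmodel π hπ hp0)
    (F4Inst.hsπ M A E u u₀ hu hmodel π hπ hp0)
    F hFu hF1 hstar0 hstar1 hF_hom hF_eqv rep hrep hF_peq hcos0 hcos1 n0 hn0 halg

/-- The same, with the chart hypotheses read off the packages `ChartModelC` and `ChartFacts`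
delivered by `ChartInst.exists_chart`. -/
theorem chart_hyps (M : ℕ) [NeZero M] (A : ValuationSubring Qb) (E : IntermediateField ℚ Qb)
    [IsDiscreteValuationRing (OE A E)] (u : LE M E) (π : OE A E) :
    letI := algebraOL (OE A E) E (LE M E)
    ModelInst.ChartModelC M (OE A E) E u →
    Fermat.Agent.S34.HauptU.LevelMAux.ChartFacts E π u u⁻¹ →
    (∃ uO : LaurentSeries (OE A E),
        (u : LaurentSeries E) = GaussDVR.iota (OE A E) E uO ∧
          (GaussDVR.rho (OE A E) uO).order < 0) ∧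
      Transcendental E u ∧
      FiniteDimensional (IntermediateField.adjoin E {u}) (LE M E) ∧
      Prime (piOf (OE A E) ({u} : Set (LE M E)) π) ∧
      Prime (piOf (OE A E) ({u⁻¹} : Set (LE M E)) π) ∧
      IsDedekindDomain (CRing (OE A E) ({u} : Set (LE M E)) ⧸
        Ideal.span {piOf (OE A E) ({u} : Set (LE M E)) π}) ∧
      IsDedekindDomain (CRing (OE A E) ({u⁻¹} : Set (LE M E)) ⧸
        Ideal.span {piOf (OE A E) ({u⁻¹} : Set (LE M E)) π}) := by
  letI := algebraOL (OE A E) E (LE M E)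
  haveI := isScalarTower_OL (OE A E) E (LE M E)
  intro hCM hCF
  have hCM' : ModelInst.ChartModel M (OE A E) E u := hCM
  exact ⟨hCM'.model, hCF.transcendental, hCF.finite, hCF.prime_zero, hCF.prime_inf,
    hCF.dedekind_zero, hCF.dedekind_inf⟩

end Fermat.Agent.S19.Cech.ChartMachineZ
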