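import Mathlib
import Fermat.Agent.S19.Cech.ChartGauss

/-!
# Three small facts about the chart rings (Program FG, brick `CH`)

Setting of `S19/Cech/ChartGauss`: `O` a discrete valuation ring with fraction field `E` and
uniformiser `π`, `L / E` a field, `t : L` transcendental over `E`; the chart ring
`CRing O {t} = integralClosure (Algebra.adjoin O {t}) L` with `ϖ = piOf O {t} π`.

* `exists_mem_not_dvd` (`(D)`) : every closed point `Q` of the special fibre contains an element
  not divisible by `ϖ` (the special fibre is not a field);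
* `gaussRing_inv_eq` : the Gauss rings of the `u`-chart and of the `u⁻¹`-chart are THE SAME
  subring of `L`;
* `isUnitIn_locRing_algebraMap`, `isUnitIn_gaussRing_algebraMap` : units of `O` are units of
  every local ring `locRing Q` and of the Gauss ring (for an arbitrary set `s` of generators).
-/

set_option autoImplicit false

open Fermat.Agent.Lib.PrimeLocGlobal Fermat.Agent.Lib.ChartRoots Fermat.Agent.Lib.PrimeLocOverlap
  Fermat.Agent.Lib.GaussChartOfPrime Fermat.Agent.Lib.GaussChartOverlap
open Fermat.Agent.S30.Model Fermat.Agent.S30.Model.GlueChart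
open Fermat.Agent.S19.Cech.ChartGauss

namespace Fermat.Agent.S19.Cech.ChartFibre

section Units

variable {O L : Type*} [CommRing O] [Field L] [Algebra O L]

/-- The image of `a : O` in `L` lies in every local ring of every chart ring. -/
theorem inLoc_algebraMap (s : Set L) (Q : Ideal (CRing O s)) [Q.IsPrime] (a : O) :
    InLoc Q (algebraMap O L a) := by
  have h := inLoc_of_algebraMap (K := L) Q (piOf O s a)
  rw [algebraMap_piOf] at h
  exact h

/-- Units of `O` are units of every local ring `locRing Q` of every chart ring. -/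
theorem isUnitIn_locRing_algebraMap (s : Set L) (π : O) (Q : Pt (piOf O s π)) {a : O}
    (ha : IsUnit a) : IsUnitIn (locRing (K := L) Q) (algebraMap O L a) := by
  have : Q.1.IsPrime := Q.2.1.isPrime
  obtain ⟨v, rfl⟩ := ha
  have hu : IsUnit (algebraMap O L (v : O)) := v.isUnit.map _
  refine ⟨hu.ne_zero, mem_locRing.2 (inLoc_algebraMap s Q.1 _), ?_⟩
  have e : (algebraMap O L (v : O))⁻¹ = algebraMap O L ((v⁻¹ : Oˣ) : O) := by
    refine inv_eq_of_mul_eq_one_left ?_
    rw [← map_mul, Units.inv_mul, map_one]
  rw [e]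
  exact mem_locRing.2 (inLoc_algebraMap s Q.1 _)

/-- Units of `O` are units of the Gauss ring of every chart ring. -/
theorem isUnitIn_gaussRing_algebraMap (s : Set L) {π : O} (hp : Prime (piOf O s π)) {a : O}
    (ha : IsUnit a) : IsUnitIn (gaussRing (K := L) hp) (algebraMap O L a) := by
  obtain ⟨v, rfl⟩ := ha
  have hu : IsUnit (algebraMap O L (v : O)) := v.isUnit.map _
  have hmem : ∀ b : O, algebraMap O L b ∈ gaussRing (K := L) hp := fun b => by
    have h := inGauss_algebraMap (K := L) hp (piOf O s b)
    rw [algebraMap_piOf] at h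
    exact (mem_gaussRing hp).2 h
  refine ⟨hu.ne_zero, hmem _, ?_⟩
  have e : (algebraMap O L (v : O))⁻¹ = algebraMap O L ((v⁻¹ : Oˣ) : O) := by
    refine inv_eq_of_mul_eq_one_left ?_
    rw [← map_mul, Units.inv_mul, map_one]
  rw [e]
  exact hmem _

end Units

section Main

variable {O E L : Type*} [CommRing O] [IsDomain O] [IsDiscreteValuationRing O] [Field E]
  [Algebra O E] [IsFractionRing O E] [Field L] [Algebra E L] [Algebra O L] [IsScalarTower O E L]

/-- **`(D)`.**  Every closed point of the special fibre of the chart of `t` contains an element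
which is not divisible by `ϖ`: the special fibre is not a field. -/
theorem exists_mem_not_dvd (π : O) (hπ : Irreducible π) (t : L) (ht : Transcendental E t)
    (Q : Pt (piOf O ({t} : Set L) π)) : ∃ x ∈ Q.1, ¬ piOf O ({t} : Set L) π ∣ x := by
  by_contra hcon
  push Not at hcon
  have htO : Transcendental O t := ChartProv.transcendental_base (E := E) t ht
  obtain ⟨Q', hQ', hπQ', hy⟩ := ChartPoint.exists_maximal_sub_mem t htO π hπ.not_isUnit 0
  have hle : Q.1 ≤ Q' := fun x hx => by
    obtain ⟨w, rfl⟩ := hcon x hx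
    exact Q'.mul_mem_right w hπQ'
  have heq : Q.1 = Q' := Q.2.1.eq_of_le hQ'.ne_top hle
  have hgen : gen O t ∈ Q.1 := by
    rw [heq]
    exact hy (gen O t) (by rw [coe_gen, map_zero, sub_zero])
  exact ChartBasic.not_piElt_dvd (E := E) π hπ t ht (gen O t) (coe_gen O t) (hcon _ hgen)

/-- `(D)` in the form of the binder `hne` of `Lib/GaussChartRefCos.hcos_of_fixed_of_eq`. -/
theorem forall_exists_mem_not_dvd (π : O) (hπ : Irreducible π) (t : L) (ht : Transcendental E t) :
    ∀ Q : Pt (piOf O ({t} : Set L) π), ∃ x ∈ Q.1, ¬ piOf O ({t} : Set L) π ∣ x :=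
  fun Q => exists_mem_not_dvd (E := E) π hπ t ht Q

/-- **The two charts have the same Gauss ring.** -/
theorem gaussRing_inv_eq (π : O) (hπ : Irreducible π) (u : L) (htr : Transcendental E u)
    (hp0 : Prime (piOf O ({u} : Set L) π)) (hp1 : Prime (piOf O ({u⁻¹} : Set L) π)) :
    gaussRing (K := L) hp1 = gaussRing (K := L) hp0 := by
  have hu : u ≠ 0 := by
    rintro rfl
    exact htr isAlgebraic_zero
  have htr' : Transcendental E u⁻¹ := fun h => htr (by simpa using h.inv)
  have hC0 := ChartBasic.algebraMap_injective (Algebra.adjoin O ({u} : Set L))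
  have hC1 := ChartBasic.algebraMap_injective (Algebra.adjoin O ({u⁻¹} : Set L))
  have hpu0 : ¬ piOf O ({u} : Set L) π ∣ gen O u :=
    ChartBasic.not_piElt_dvd (E := E) π hπ u htr (gen O u) (coe_gen O u)
  have hpu1 : ¬ piOf O ({u⁻¹} : Set L) π ∣ gen O u⁻¹ :=
    ChartBasic.not_piElt_dvd (E := E) π hπ u⁻¹ htr' (gen O u⁻¹) (coe_gen O u⁻¹)
  exact gaussRing_eq_of_isAway (isAway_invToPair O u hu) (isAway_toPair O u hu) hC1 hC0 hp1 hpu1
    hp0 hpu0 ((invToPair_piOf O u π).trans (toPair_piOf O u π).symm)

/-- The same, oriented as `gaussRing hp0 = gaussRing hp1`. -/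
theorem gaussRing_eq_inv (π : O) (hπ : Irreducible π) (u : L) (htr : Transcendental E u)
    (hp0 : Prime (piOf O ({u} : Set L) π)) (hp1 : Prime (piOf O ({u⁻¹} : Set L) π)) :
    gaussRing (K := L) hp0 = gaussRing (K := L) hp1 :=
  (gaussRing_inv_eq (E := E) π hπ u htr hp0 hp1).symm

end Main

end Fermat.Agent.S19.Cech.ChartFibre
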