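import Mathlib
import Fermat.Agent.S19.Cech.BCData

/-!
# S19 (Program FG, Route C, brick `EQ`, export (E) for `COS`): `C = C^I + π C`

Setting of `S19/Cech/BCChart`: `E' ≤ E` intermediate fields of `Qb / ℚ`, `O' = OE A E'`,
`O = OE A E` a discrete valuation ring with uniformiser `π`, `lvl M h : LE M E' →+* LE M E`, a
family `b : Fin r → O` spanning `O` over `O'`, residue degree one (`hres`), and the base change
(BC) of a chart ring (`hbc`, the conclusion of `BCChart.bc_three`).

* `exists_lvl_dvd_sub` : every element `x` of the chart `C` over `O` is congruent modulo `π C` to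
  an element coming from the chart over `O'`;
* `exists_fixed_dvd_sub` : for `E' = inertiaField A E` (`E / ℚ` normal): every `x : C` is
  congruent modulo `π C` to an element of `C` fixed by the coefficientwise action of the inertia
  group of `A`;
* `exists_fixed_dvd_sub_charts` : the same for the two charts `{u}`, `{u⁻¹}` of a chart function
  `u = lvl u'`, from "`π'` is prime in the two charts of `u'` over `O'`";
* `exists_fixed_dvd_sub_of_chartFacts` : the same from `ChartFacts` at `E'` and the common rational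
  `q`-expansion `u₀` of `u'` and `u` (the output of `ChartInst.exists_chart`).

This is the hypothesis `hF` of `Lib/GaussChartRefFix.exists_isRefAt_of_fixed` for both charts
(`((τ : C) : LE M E)` is `algebraMap C (LE M E) τ` by `rfl`).
-/

set_option autoImplicit false
set_option linter.style.haveILetI false
set_option linter.unusedSectionVars false
set_option synthInstance.maxHeartbeats 400000
set_option maxHeartbeats 1600000

noncomputable section

open Polynomial IntermediateField ModularCurve

namespace Fermat.Agent.S19.Cech.FixedParam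

open Fermat.Agent.S18.K1Defs Fermat.Agent.S18.K1Main Fermat.Agent.S30 Fermat.Agent.S30.Model
  Fermat.Agent.S36.CycloBase Fermat.Agent.Lib.ChartBaseChange Fermat.Agent.S19.Cech.BCChart
  Fermat.Agent.S19.Cech.InertiaField Fermat.Agent.S34.TrivModE
  Fermat.Agent.S34.HauptU.LevelMAux

local notation "Qb" => AlgebraicClosure ℚ
local notation "Gq" => (AlgebraicClosure ℚ ≃ₐ[ℚ] AlgebraicClosure ℚ)

/-- **`C = lvl C' + π C`**: every element of the chart over `O = OE A E` is congruent modulo `π`
to an element coming from the chart over `O' = OE A E'`. -/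
theorem exists_lvl_dvd_sub (M : ℕ) [NeZero M] (A : ValuationSubring Qb)
    {E' E : IntermediateField ℚ Qb} (h : E' ≤ E) [IsDiscreteValuationRing (OE A E)]
    {r : ℕ} (b : Fin r → OE A E)
    (hspanO : ∀ a : OE A E, ∃ a' : Fin r → OE A E', a = ∑ j, inclOE A h (a' j) * b j)
    (hres : ∀ a : OE A E, ∃ a' : OE A E', ¬ IsUnit (a - inclOE A h a'))
    (π : OE A E) (hπ : Irreducible π) (S' : Set (LE M E')) (S : Set (LE M E)) :
    letI := algebraOL (OE A E') E' (LE M E')
    letI := algebraOL (OE A E) E (LE M E)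
    letI := (inclOE A h).toAlgebra
    (∀ x : LE M E, IsIntegral (Algebra.adjoin (OE A E) S) x ↔
      InSpan (OE A E') (lvl M h) b S' x) →
    ∀ x : integralClosure (Algebra.adjoin (OE A E) S) (LE M E),
      ∃ τ' : LE M E', IsIntegral (Algebra.adjoin (OE A E') S') τ' ∧
        ∃ τ : integralClosure (Algebra.adjoin (OE A E) S) (LE M E),
          (τ : LE M E) = lvl M h τ' ∧
          GlueChart.piElt (Algebra.adjoin (OE A E) S) π ∣ x - τ := by
  letI := algebraOL (OE A E') E' (LE M E')
  letI := algebraOL (OE A E) E (LE M E)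
  letI := (inclOE A h).toAlgebra
  intro hbc x
  have hι : ∀ a : OE A E', lvl M h (algebraMap (OE A E') (LE M E') a)
      = algebraMap (OE A E) (LE M E) (algebraMap (OE A E') (OE A E) a) :=
    fun a => lvl_algebraMap M h (a : E')
  have hspan : ∀ a : OE A E, ∃ a' : Fin r → OE A E',
      a = ∑ j, algebraMap (OE A E') (OE A E) (a' j) * b j := hspanO
  have hmap : ∀ c' : LE M E', IsIntegral (Algebra.adjoin (OE A E') S') c' →
      IsIntegral (Algebra.adjoin (OE A E) S) (lvl M h c') :=
    fun c' hc' => (hbc _).mpr (inSpan_map hι hspan hc')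
  -- residue degree one: `a = incl a' + π * a''`
  have hres' : ∀ a : OE A E, ∃ a' : OE A E', ∃ a'' : OE A E,
      a = algebraMap (OE A E') (OE A E) a' + π * a'' := by
    intro a
    obtain ⟨a', ha'⟩ := hres a
    have h1 : a - inclOE A h a' ∈ IsLocalRing.maximalIdeal (OE A E) :=
      (IsLocalRing.mem_maximalIdeal _).mpr ha'
    rw [hπ.maximalIdeal_eq, Ideal.mem_span_singleton] at h1
    obtain ⟨a'', ha''⟩ := h1
    refine ⟨a', a'', ?_⟩
    show a = inclOE A h a' + π * a''
    rw [← ha'']; ring
  obtain ⟨cj, hcj, hc⟩ := (hbc (x : LE M E)).mp x.2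
  choose β b'' hβ using fun j => hres' (b j)
  have hτ' : IsIntegral (Algebra.adjoin (OE A E') S')
      (∑ j, algebraMap (OE A E') (LE M E') (β j) * cj j) :=
    IsIntegral.sum _ fun j _ => (isIntegral_algebraMap_adjoin S' (β j)).mul (hcj j)
  refine ⟨∑ j, algebraMap (OE A E') (LE M E') (β j) * cj j, hτ',
    ⟨lvl M h (∑ j, algebraMap (OE A E') (LE M E') (β j) * cj j), hmap _ hτ'⟩, rfl,
    ⟨∑ j, algebraMap (OE A E) (LE M E) (b'' j) * lvl M h (cj j),
      IsIntegral.sum _ fun j _ => (isIntegral_algebraMap_adjoin S (b'' j)).mul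
        (hmap _ (hcj j))⟩, ?_⟩
  apply Subtype.ext
  rw [Subalgebra.coe_sub, Subalgebra.coe_mul, GlueChart.coe_piElt]
  dsimp only
  rw [hc, map_sum, Finset.mul_sum, ← Finset.sum_sub_distrib]
  refine Finset.sum_congr rfl fun j _ => ?_
  rw [map_mul, hι]
  conv_lhs => rw [hβ j]
  rw [map_add, map_mul]
  ring

/-- **`C = C^I + π C`**: for `E / ℚ` normal and `E' = inertiaField A E`, every element of the
chart over `O = OE A E` is congruent modulo `π` to an element of the chart fixed by the
coefficientwise action of the inertia group of `A`. -/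
theorem exists_fixed_dvd_sub (M : ℕ) [NeZero M] (A : ValuationSubring Qb) {ℓ : ℕ}
    (hℓ : ℓ.Prime) (hA : A.LiesOverPrime ℓ) (E : IntermediateField ℚ Qb) [Normal ℚ E]
    [IsDiscreteValuationRing (OE A E)] {r : ℕ} (b : Fin r → OE A E)
    (hspanO : ∀ a : OE A E, ∃ a' : Fin r → OE A (inertiaField A E),
      a = ∑ j, inclOE A (inertiaField_le A E) (a' j) * b j)
    (π : OE A E) (hπ : Irreducible π) (S' : Set (LE M (inertiaField A E)))
    (S : Set (LE M E)) :
    letI := algebraOL (OE A (inertiaField A E)) (inertiaField A E) (LE M (inertiaField A E))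
    letI := algebraOL (OE A E) E (LE M E)
    letI := (inclOE A (inertiaField_le A E)).toAlgebra
    (∀ x : LE M E, IsIntegral (Algebra.adjoin (OE A E) S) x ↔
      InSpan (OE A (inertiaField A E)) (lvl M (inertiaField_le A E)) b S' x) →
    ∀ x : integralClosure (Algebra.adjoin (OE A E) S) (LE M E),
      ∃ τ : integralClosure (Algebra.adjoin (OE A E) S) (LE M E),
        (∀ σ ∈ A.inertiaSubgroupIn ℚ, galE E M σ (τ : LE M E) = (τ : LE M E)) ∧
        GlueChart.piElt (Algebra.adjoin (OE A E) S) π ∣ x - τ := by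
  letI := algebraOL (OE A (inertiaField A E)) (inertiaField A E) (LE M (inertiaField A E))
  letI := algebraOL (OE A E) E (LE M E)
  letI := (inclOE A (inertiaField_le A E)).toAlgebra
  intro hbc x
  obtain ⟨τ', -, τ, hτ, hdvd⟩ := exists_lvl_dvd_sub M A (inertiaField_le A E) b hspanO
    (Fermat.Agent.S19.Cech.OFree.exists_residue A hℓ hA E) π hπ S' S hbc x
  refine ⟨τ, fun σ hσ => ?_, hdvd⟩
  rw [hτ]
  exact Fermat.Agent.S19.Cech.BCData.galE_lvl_of_mem_inertia M A E hσ τ'

/-- **(E) for the two charts of a chart function**, from the primality of `π'` in the two charts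
over the inertia field. -/
theorem exists_fixed_dvd_sub_charts (M : ℕ) [NeZero M] (A : ValuationSubring Qb) {ℓ : ℕ}
    (hℓ : ℓ.Prime) (hA : A.LiesOverPrime ℓ) (E : IntermediateField ℚ Qb)
    [FiniteDimensional ℚ E] [Normal ℚ E]
    [IsDiscreteValuationRing (OE A (inertiaField A E))] [IsDiscreteValuationRing (OE A E)]
    (π' : OE A (inertiaField A E)) (hπ' : Irreducible π') (π : OE A E) (hπ : Irreducible π)
    (u' : LE M (inertiaField A E)) (hu'0 : u' ≠ 0) (u : LE M E)
    (hu : lvl M (inertiaField_le A E) u' = u) :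
    letI := algebraOL (OE A (inertiaField A E)) (inertiaField A E) (LE M (inertiaField A E))
    letI := algebraOL (OE A E) E (LE M E)
    Prime (GlueChart.piElt (Algebra.adjoin (OE A (inertiaField A E))
      ({u'} : Set (LE M (inertiaField A E)))) π') →
    Prime (GlueChart.piElt (Algebra.adjoin (OE A (inertiaField A E))
      ({u'⁻¹} : Set (LE M (inertiaField A E)))) π') →
    (∀ x : integralClosure (Algebra.adjoin (OE A E) ({u} : Set (LE M E))) (LE M E),
      ∃ τ : integralClosure (Algebra.adjoin (OE A E) ({u} : Set (LE M E))) (LE M E),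
        (∀ σ ∈ A.inertiaSubgroupIn ℚ, galE E M σ (τ : LE M E) = (τ : LE M E)) ∧
        GlueChart.piElt (Algebra.adjoin (OE A E) ({u} : Set (LE M E))) π ∣ x - τ) ∧
    (∀ x : integralClosure (Algebra.adjoin (OE A E) ({u⁻¹} : Set (LE M E))) (LE M E),
      ∃ τ : integralClosure (Algebra.adjoin (OE A E) ({u⁻¹} : Set (LE M E))) (LE M E),
        (∀ σ ∈ A.inertiaSubgroupIn ℚ, galE E M σ (τ : LE M E) = (τ : LE M E)) ∧
        GlueChart.piElt (Algebra.adjoin (OE A E) ({u⁻¹} : Set (LE M E))) π ∣ x - τ) := by
  obtain ⟨r, b, hspanO, hindL, hspanL⟩ :=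
    Fermat.Agent.S19.Cech.BCData.exists_bc_data M A hℓ hA E
  subst hu
  intro hp0 hp1
  have hbc := bc_three M A (inertiaField_le A E) b hspanO
    (Fermat.Agent.S19.Cech.OFree.exists_residue A hℓ hA E) hindL hspanL π' hπ' u' hu'0 hp0 hp1
  exact ⟨exists_fixed_dvd_sub M A hℓ hA E b hspanO π hπ {u'} _ hbc.1,
    exists_fixed_dvd_sub M A hℓ hA E b hspanO π hπ {u'⁻¹} _ hbc.2.1⟩

/-- **(E) for the two charts**, from `ChartFacts` at the inertia field and the common rational
`q`-expansion of the two chart functions (the output of `ChartInst.exists_chart` at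
`inertiaField A E` and at `E`). -/
theorem exists_fixed_dvd_sub_of_chartFacts (M : ℕ) [NeZero M] (A : ValuationSubring Qb) {ℓ : ℕ}
    (hℓ : ℓ.Prime) (hA : A.LiesOverPrime ℓ) (E : IntermediateField ℚ Qb)
    [FiniteDimensional ℚ E] [Normal ℚ E]
    [IsDiscreteValuationRing (OE A (inertiaField A E))] [IsDiscreteValuationRing (OE A E)]
    (π' : OE A (inertiaField A E)) (hπ' : Irreducible π') (π : OE A E) (hπ : Irreducible π)
    (u₀ : LaurentSeries ℚ) (u' : LE M (inertiaField A E))
    (hu' : (u' : LaurentSeries (inertiaField A E)) = coeffEmb (inertiaField A E) u₀)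
    (u : LE M E) (hu : (u : LaurentSeries E) = coeffEmb E u₀) :
    letI := algebraOL (OE A (inertiaField A E)) (inertiaField A E) (LE M (inertiaField A E))
    letI := algebraOL (OE A E) E (LE M E)
    ChartFacts (inertiaField A E) π' u' u'⁻¹ →
    (∀ x : integralClosure (Algebra.adjoin (OE A E) ({u} : Set (LE M E))) (LE M E),
      ∃ τ : integralClosure (Algebra.adjoin (OE A E) ({u} : Set (LE M E))) (LE M E),
        (∀ σ ∈ A.inertiaSubgroupIn ℚ, galE E M σ (τ : LE M E) = (τ : LE M E)) ∧
        GlueChart.piElt (Algebra.adjoin (OE A E) ({u} : Set (LE M E))) π ∣ x - τ) ∧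
    (∀ x : integralClosure (Algebra.adjoin (OE A E) ({u⁻¹} : Set (LE M E))) (LE M E),
      ∃ τ : integralClosure (Algebra.adjoin (OE A E) ({u⁻¹} : Set (LE M E))) (LE M E),
        (∀ σ ∈ A.inertiaSubgroupIn ℚ, galE E M σ (τ : LE M E) = (τ : LE M E)) ∧
        GlueChart.piElt (Algebra.adjoin (OE A E) ({u⁻¹} : Set (LE M E))) π ∣ x - τ) := by
  letI := algebraOL (OE A (inertiaField A E)) (inertiaField A E) (LE M (inertiaField A E))
  letI := algebraOL (OE A E) E (LE M E)
  intro hfacts
  have hu'0 : u' ≠ 0 := fun h0 => hfacts.transcendental (h0 ▸ isAlgebraic_zero)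
  exact exists_fixed_dvd_sub_charts M A hℓ hA E π' hπ' π hπ u' hu'0 u
    (lvl_eq_of_coeffEmb M (inertiaField_le A E) hu' hu) hfacts.prime_zero hfacts.prime_inf

end Fermat.Agent.S19.Cech.FixedParam
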