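import Mathlib
import Fermat.Agent.S19.Cech.FixedParam

/-!
# S19 (Program FG, Route C, `COS` instance input (E)): `C = C^I + π C` at the chart instance

The statement (E) of `S19/Cech/FixedParam` in the binder block of
`ChartMachineEq.hasCechCoords_of_chart` (the uniform chart function `u₀` with its package `hu₀`,
the body of `ChartInst.exists_chart`), and in the literal shape of the hypothesis `hE` of
`Lib/GaussChartRefCos.hcos_of_fixed_of_eq` with `I σ := σ ∈ A.inertiaSubgroupIn ℚ`,
`s σ := (galE E M σ : LE M E →+* LE M E)`, for both charts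
`B0 = integralClosure (Algebra.adjoin (OE A E) {u}) (LE M E)` and
`B1 = integralClosure (Algebra.adjoin (OE A E) {u⁻¹}) (LE M E)`.

* `hE_of_chart` : both charts at once;
* `hE_zero_of_chart`, `hE_inf_of_chart` : the two conjuncts.
-/

set_option autoImplicit false
set_option linter.style.haveILetI false
set_option linter.unusedSectionVars false
set_option synthInstance.maxHeartbeats 400000
set_option maxHeartbeats 1600000

noncomputable section

open Polynomial IntermediateField ModularCurve

namespace Fermat.Agent.S19.Cech.FixedParam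

open Fermat.Agent.S18.K1Defs Fermat.Agent.S18.K1Main Fermat.Agent.S30 Fermat.Agent.S30.Model
  Fermat.Agent.S19.Cech.InertiaField Fermat.Agent.S34.TrivModE Fermat.Agent.S37.Fn

local notation "Qb" => AlgebraicClosure ℚ

/-- **(E) at the chart instance, both charts**, consuming the body of `ChartInst.exists_chart`
verbatim. -/
theorem hE_of_chart (M : ℕ) [NeZero M] {ℓ : ℕ} (hℓ : ℓ.Prime) (hℓM : ¬ ℓ ∣ M)
    (A : ValuationSubring Qb) (hA : A.LiesOverPrime ℓ)
    (E : IntermediateField ℚ Qb) [FiniteDimensional ℚ E] [Normal ℚ E]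
    [IsDiscreteValuationRing (OE A E)]
    {z : Qb} (hz : IsPrimitiveRoot z M) (hzE : z ∈ E) (u₀ : LaurentSeries ℚ)
    (hu₀ : ∀ (E : IntermediateField ℚ Qb) [FiniteDimensional ℚ E]
      [IsDiscreteValuationRing (OE A E)], z ∈ E →
      letI := algebraOL (OE A E) E (LE M E)
      ∃ u : LE M E, (u : LaurentSeries E) = coeffEmb E u₀ ∧
        ModelInst.ChartModelC M (OE A E) E u ∧
        ∀ π : OE A E, Irreducible π →
          Fermat.Agent.S34.HauptU.LevelMAux.ChartFacts E π u u⁻¹)
    (u : LE M E) (hu : (u : LaurentSeries E) = coeffEmb E u₀)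
    (π : OE A E) (hπ : Irreducible π) :
    letI := algebraOL (OE A E) E (LE M E)
    (∀ x : integralClosure (Algebra.adjoin (OE A E) ({u} : Set (LE M E))) (LE M E),
      ∃ τ : integralClosure (Algebra.adjoin (OE A E) ({u} : Set (LE M E))) (LE M E),
        (∀ σ, σ ∈ A.inertiaSubgroupIn ℚ →
          (galE E M σ : LE M E →+* LE M E)
            (algebraMap (integralClosure (Algebra.adjoin (OE A E) ({u} : Set (LE M E))) (LE M E))
              (LE M E) τ)
          = algebraMap (integralClosure (Algebra.adjoin (OE A E) ({u} : Set (LE M E))) (LE M E))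
              (LE M E) τ) ∧
        GlueChart.piElt (Algebra.adjoin (OE A E) ({u} : Set (LE M E))) π ∣ x - τ) ∧
    (∀ x : integralClosure (Algebra.adjoin (OE A E) ({u⁻¹} : Set (LE M E))) (LE M E),
      ∃ τ : integralClosure (Algebra.adjoin (OE A E) ({u⁻¹} : Set (LE M E))) (LE M E),
        (∀ σ, σ ∈ A.inertiaSubgroupIn ℚ →
          (galE E M σ : LE M E →+* LE M E)
            (algebraMap (integralClosure (Algebra.adjoin (OE A E) ({u⁻¹} : Set (LE M E))) (LE M E))
              (LE M E) τ)
          = algebraMap (integralClosure (Algebra.adjoin (OE A E) ({u⁻¹} : Set (LE M E))) (LE M E))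
              (LE M E) τ) ∧
        GlueChart.piElt (Algebra.adjoin (OE A E) ({u⁻¹} : Set (LE M E))) π ∣ x - τ) := by
  haveI : IsDiscreteValuationRing (OE A (inertiaField A E)) :=
    GaussDescent.isDiscreteValuationRing_OE A (inertiaField A E) hℓ hA
  have hcop : Nat.Coprime M ℓ := ((Nat.Prime.coprime_iff_not_dvd hℓ).mpr hℓM).symm
  have hz' : z ∈ inertiaField A E :=
    Fermat.Agent.Lib.InertiaField.rootOfUnity_mem_inertiaFixed A E hA hcop hzE hz.pow_eq_one
  have key := (IsDiscreteValuationRing.exists_irreducible (OE A (inertiaField A E))).elim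
    fun π' hπ' => (hu₀ (inertiaField A E) hz').elim fun u' h =>
      exists_fixed_dvd_sub_of_chartFacts M A hℓ hA E π' hπ' π hπ u₀ u' h.1 u hu (h.2.2 π' hπ')
  exact ⟨fun x => (key.1 x).imp fun τ hτ => ⟨fun σ hσ => hτ.1 σ hσ, hτ.2⟩,
    fun x => (key.2 x).imp fun τ hτ => ⟨fun σ hσ => hτ.1 σ hσ, hτ.2⟩⟩

end Fermat.Agent.S19.Cech.FixedParam
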