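import Mathlib
import Fermat.Agent.S19.Cech.FixedParamInst
import Fermat.Agent.S19.Cech.ChartFibre
import Fermat.Agent.Lib.GaussChartRefCos

/-!
# S19 (Program FG, Route C, `COS` at the chart instance): the clauses `hcos0`, `hcos1`

The two coset-reference clauses of `ChartMachineEq.hasCechCoords_of_chart` at the chart instance
(`O = OE A E`, `L = LE M E`, `𝒪 = gaussRing hp0` the Gauss ring of the `u`-chart,
`R0 Q = locRing Q` for `Q : Pt ϖ0`, `R1 Q = locRing Q` for `Q : Pt ϖ1`), from

* (E) `C = C^I + π C` on both charts (`FixedParam.hE_of_chart`),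
* (D) no closed point of a special fibre is `(π)` (`ChartFibre.forall_exists_mem_not_dvd`),
* the two charts have the same Gauss ring (`ChartFibre.gaussRing_eq_inv`),
* the level-free clause `Lib/GaussChartRefCos.hcos_of_fixed_of_eq`,

given the Gauss-unit property `hFu` and (STAR) at all closed points of both charts for the
functions `F (rep c)` (`StarAll.hstar_family`).

* `chartFacts_of_chart` : `ChartFacts E π u u⁻¹` for the chart function with `q`-expansion `u₀`;
* `hcos_of_chart` : both clauses at once.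
-/

set_option autoImplicit false
set_option linter.style.haveILetI false
set_option linter.unusedSectionVars false
set_option synthInstance.maxHeartbeats 400000
set_option maxHeartbeats 1600000

noncomputable section

open Polynomial IntermediateField ModularCurve

namespace Fermat.Agent.S19.Cech.CosInst

open Fermat.Agent.S18.K1Defs Fermat.Agent.S18.K1Main Fermat.Agent.S30 Fermat.Agent.S30.Model
  Fermat.Agent.S19.Cech.InertiaField Fermat.Agent.S34.TrivModE Fermat.Agent.S37.Fn
  Fermat.Agent.Lib.PrimeLocGlobal Fermat.Agent.Lib.ChartRoots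
  Fermat.Agent.Lib.GaussChartOfPrime Fermat.Agent.S19.Cech.ChartGauss
  Fermat.Agent.Lib.GaussChartRefUnif Fermat.Agent.S19.Cech.FixedParam
  Fermat.Agent.S34.HauptU.LevelMAux

local notation "Qb" => AlgebraicClosure ℚ
local notation "Gq" => (AlgebraicClosure ℚ ≃ₐ[ℚ] AlgebraicClosure ℚ)

/-- The level facts of the chart function `u` over `E`, from the body of
`ChartInst.exists_chart` (the chart function is determined by its `q`-expansion). -/
theorem chartFacts_of_chart (M : ℕ) [NeZero M] (A : ValuationSubring Qb)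
    (E : IntermediateField ℚ Qb) [FiniteDimensional ℚ E] [IsDiscreteValuationRing (OE A E)]
    {z : Qb} (hzE : z ∈ E) (u₀ : LaurentSeries ℚ)
    (hu₀ : ∀ (E : IntermediateField ℚ Qb) [FiniteDimensional ℚ E]
      [IsDiscreteValuationRing (OE A E)], z ∈ E →
      letI := algebraOL (OE A E) E (LE M E)
      ∃ u : LE M E, (u : LaurentSeries E) = coeffEmb E u₀ ∧
        ModelInst.ChartModelC M (OE A E) E u ∧
        ∀ π : OE A E, Irreducible π → ChartFacts E π u u⁻¹)
    (u : LE M E) (hu : (u : LaurentSeries E) = coeffEmb E u₀)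
    (π : OE A E) (hπ : Irreducible π) :
    letI := algebraOL (OE A E) E (LE M E)
    ChartFacts E π u u⁻¹ := by
  obtain ⟨u2, hu2, -, hf⟩ := hu₀ E hzE
  have e : u2 = u := Subtype.ext (hu2.trans hu.symm)
  subst e
  exact hf π hπ

/-- **The clauses `hcos0`, `hcos1` at the chart instance.** -/
theorem hcos_of_chart (M : ℕ) [NeZero M] {ℓ : ℕ} (hℓ : ℓ.Prime) (hℓM : ¬ ℓ ∣ M)
    (A : ValuationSubring Qb) (hA : A.LiesOverPrime ℓ)
    (E : IntermediateField ℚ Qb) [FiniteDimensional ℚ E] [Normal ℚ E]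
    [IsDiscreteValuationRing (OE A E)]
    {z : Qb} (hz : IsPrimitiveRoot z M) (hzE : z ∈ E) (u₀ : LaurentSeries ℚ)
    (hu₀ : ∀ (E : IntermediateField ℚ Qb) [FiniteDimensional ℚ E]
      [IsDiscreteValuationRing (OE A E)], z ∈ E →
      letI := algebraOL (OE A E) E (LE M E)
      ∃ u : LE M E, (u : LaurentSeries E) = coeffEmb E u₀ ∧
        ModelInst.ChartModelC M (OE A E) E u ∧
        ∀ π : OE A E, Irreducible π → ChartFacts E π u u⁻¹)
    (u : LE M E) (hu : (u : LaurentSeries E) = coeffEmb E u₀)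
    (π : OE A E) (hπ : Irreducible π) :
    letI := algebraOL (OE A E) E (LE M E)
    ∀ (hp0 : Prime (piOf (OE A E) ({u} : Set (LE M E)) π))
      {m : ℕ} (_hm : 0 < m) {G X : Type*} (F : G → LE M E) (rep : X → G)
      (_hFu : ∀ c, IsUnitIn (gaussRing (K := LE M E) hp0) (F (rep c)))
      (_hstar0 : ∀ c (Q : Pt (piOf (OE A E) ({u} : Set (LE M E)) π)),
        ∃ y : LE M E, IsUnitIn (locRing (K := LE M E) Q) (y ^ m * F (rep c)))
      (_hstar1 : ∀ c (Q : Pt (piOf (OE A E) ({u⁻¹} : Set (LE M E)) π)),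
        ∃ y : LE M E, IsUnitIn (locRing (K := LE M E) Q) (y ^ m * F (rep c))),
      (∀ c (Q : Pt (piOf (OE A E) ({u} : Set (LE M E)) π)), ∃ ρ : LE M E,
        (∀ σ ∈ A.inertiaSubgroupIn ℚ, galE E M σ ρ = ρ) ∧
        ∃ v, (∃ h ∈ gaussRing (K := LE M E) hp0,
            v = 1 + algebraMap (OE A E) (LE M E) π * h) ∧
          IsUnitIn (locRing (K := LE M E) Q) (F (rep c) * ((ρ * v)⁻¹) ^ m)) ∧
      (∀ c (Q : Pt (piOf (OE A E) ({u⁻¹} : Set (LE M E)) π)), ∃ ρ : LE M E,
        (∀ σ ∈ A.inertiaSubgroupIn ℚ, galE E M σ ρ = ρ) ∧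
        ∃ v, (∃ h ∈ gaussRing (K := LE M E) hp0,
            v = 1 + algebraMap (OE A E) (LE M E) π * h) ∧
          IsUnitIn (locRing (K := LE M E) Q) (F (rep c) * ((ρ * v)⁻¹) ^ m)) := by
  letI := algebraOL (OE A E) E (LE M E)
  haveI := isScalarTower_OL (OE A E) E (LE M E)
  intro hp0 m hm G X F rep hFu hstar0 hstar1
  have H : ChartFacts E π u u⁻¹ := chartFacts_of_chart M A E hzE u₀ hu₀ u hu π hπ
  have hp1 : Prime (piOf (OE A E) ({u⁻¹} : Set (LE M E)) π) := H.prime_inf
  haveI hd0 : IsDedekindDomain (CRing (OE A E) ({u} : Set (LE M E)) ⧸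
      Ideal.span {piOf (OE A E) ({u} : Set (LE M E)) π}) := H.dedekind_zero
  haveI hd1 : IsDedekindDomain (CRing (OE A E) ({u⁻¹} : Set (LE M E)) ⧸
      Ideal.span {piOf (OE A E) ({u⁻¹} : Set (LE M E)) π}) := H.dedekind_inf
  haveI := H.finite
  haveI := H.finite_inv
  have htr := H.transcendental
  have htr' := H.transcendental_inv
  have hE := hE_of_chart M hℓ hℓM A hA E hz hzE u₀ hu₀ u hu π hπ
  have hG0 := gaussRing_chart (E := E) π u htr hp0
  have hG1 := gaussRing_chart (E := E) π u⁻¹ htr' hp1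
  have h01 : gaussRing (K := LE M E) hp0 = gaussRing (K := LE M E) hp1 :=
    Fermat.Agent.S19.Cech.ChartFibre.gaussRing_eq_inv (E := E) π hπ u htr hp0 hp1
  exact ⟨hcos_of_fixed_of_eq
      (ChartBasic.algebraMap_injective (Algebra.adjoin (OE A E) ({u} : Set (LE M E)))) hp0 hG0
      (Fermat.Agent.S19.Cech.ChartFibre.forall_exists_mem_not_dvd (E := E) π hπ u htr)
      (fun σ : Gq => σ ∈ A.inertiaSubgroupIn ℚ) (fun σ => (galE E M σ : LE M E →+* LE M E))
      hE.1 hm F rep rfl rfl id (fun _ => rfl) hFu hstar0,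
    hcos_of_fixed_of_eq
      (ChartBasic.algebraMap_injective (Algebra.adjoin (OE A E) ({u⁻¹} : Set (LE M E)))) hp1 hG1
      (Fermat.Agent.S19.Cech.ChartFibre.forall_exists_mem_not_dvd (E := E) π hπ u⁻¹ htr')
      (fun σ : Gq => σ ∈ A.inertiaSubgroupIn ℚ) (fun σ => (galE E M σ : LE M E →+* LE M E))
      hE.2 hm F rep h01 rfl id (fun _ => rfl) hFu hstar1⟩

end Fermat.Agent.S19.Cech.CosInst
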