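import Mathlib
import Fermat.Agent.S34.Regular
import Fermat.Agent.S34.Nodal.InfGlue
import Fermat.Agent.Lib.PrimeLocGlobal

/-!
# S19 (program FG), route C: (STAR) at EVERY closed point of the special fibre of a smooth chart

`O` a discrete valuation ring with uniformiser `π`, `E = Frac O`, `L / E` a function field,
`t : L` a coordinate, `B = integralClosure O[t] L` the chart ring, `ϖ = piElt O[t] π` the image
of `π` in `B`.  Assume `ϖ` is a prime element of `B` and `B / ϖ` is a Dedekind domain (the landed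
Model theorem: `S34/HauptU/LevelMAux.ChartFacts`).  Then for every `f ∈ Lˣ` which is a unit of
the Gauss ring `B_(ϖ)` and satisfies `m ∣ div f` on the generic fibre (`Model.LocPow m t f`), and
every maximal ideal `Q ∋ ϖ` of `B`:

  `∃ y ≠ 0,  y ^ m * f ∈ (B_Q)ˣ`

in the vocabulary `InLoc` / `InGauss` of `Lib/PrimeLocGlobal`.  This is the hypothesis `hstar` of
the local-root brick (PHI).  Proof: the landed `S34/Regular.star_of_one_branch` with the two
"components" `p₁ = (ϖ)`, `p₂ = ⊤`.
-/

set_option autoImplicit false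
set_option linter.unusedSectionVars false
set_option linter.style.haveILetI false

open Polynomial

namespace Fermat.Agent.S19.Cech.StarSmooth

open Fermat.Agent.S30.Model Fermat.Agent.S30.Model.GlueChart Fermat.Agent.S34.ToricInertia
  Fermat.Agent.S34.Nodal Fermat.Agent.Lib.PrimeLocGlobal

variable {O E L : Type*} [CommRing O] [IsDomain O] [IsDiscreteValuationRing O]
  [Field E] [CharZero E] [Algebra O E] [IsFractionRing O E]
  [Field L] [Algebra E L] [Algebra O L] [IsScalarTower O E L]

/-- A unit of the Gauss ring `B_(ϖ)` is a quotient of two elements of `B` not divisible by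
`ϖ`. -/
theorem exists_frac_of_inGauss {C K : Type*} [CommRing C] [Field K] [Algebra C K]
    (hinj : Function.Injective (algebraMap C K)) {p : C} (hp : Prime p) {f : K} (hf0 : f ≠ 0)
    (hf : InGauss p f) (hf' : InGauss p f⁻¹) :
    ∃ a b : C, ¬ p ∣ a ∧ ¬ p ∣ b ∧ f * algebraMap C K b = algebraMap C K a := by
  obtain ⟨t₁, ht₁, c₁, h₁⟩ := hf
  obtain ⟨t₂, ht₂, c₂, h₂⟩ := hf'
  refine ⟨c₁, t₁, ?_, ht₁, by rw [← h₁, mul_comm]⟩
  intro hdvd
  have e : algebraMap C K (c₁ * c₂) = algebraMap C K (t₁ * t₂) := by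
    rw [map_mul, map_mul, ← h₁, ← h₂]
    field_simp
  have e' : c₁ * c₂ = t₁ * t₂ := hinj e
  have : p ∣ t₁ * t₂ := e' ▸ Dvd.dvd.mul_right hdvd c₂
  exact (hp.dvd_or_dvd this).elim ht₁ ht₂

/-- **(STAR) at every closed point of the special fibre of a smooth chart.** -/
theorem exists_inLoc_unit (π : O) (hπ : Irreducible π) (t : L) (ht : Transcendental E t)
    [FiniteDimensional (IntermediateField.adjoin E {t}) L]
    (hprime : Prime (piElt (Algebra.adjoin O ({t} : Set L)) π))
    (hded : IsDedekindDomain (integralClosure (Algebra.adjoin O ({t} : Set L)) L ⧸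
      Ideal.span {piElt (Algebra.adjoin O ({t} : Set L)) π}))
    (m : ℕ) (hm : 0 < m) (f : L) (hf0 : f ≠ 0) (hdiv : LocPow (E := E) m t f)
    (hf : InGauss (piElt (Algebra.adjoin O ({t} : Set L)) π) f)
    (hf' : InGauss (piElt (Algebra.adjoin O ({t} : Set L)) π) f⁻¹)
    (Q : Ideal (integralClosure (Algebra.adjoin O ({t} : Set L)) L)) (hQ : Q.IsMaximal)
    (hπQ : piElt (Algebra.adjoin O ({t} : Set L)) π ∈ Q) :
    ∃ y : L, y ≠ 0 ∧ InLoc Q (y ^ m * f) ∧ InLoc Q (y ^ m * f)⁻¹ := by
  classical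
  haveI := hQ
  haveI : IsNoetherianRing (integralClosure (Algebra.adjoin O ({t} : Set L)) L) :=
    Fermat.Agent.S34.Nodal.InfGlue.isNoetherianRing_chart (O := O) (E := E) t ht
  set ϖ : integralClosure (Algebra.adjoin O ({t} : Set L)) L :=
    piElt (Algebra.adjoin O ({t} : Set L)) π with hϖ
  have hπE := Fermat.Agent.S34.Regular.exists_pow_mul_eq_algebraMap (O := O) (E := E) π hπ
  have hπ0 : algebraMap O L π ≠ 0 := by
    intro h0
    exact hprime.ne_zero (Subtype.ext h0)
  haveI hp₁ : (Ideal.span {ϖ}).IsPrime :=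
    (Ideal.span_singleton_prime hprime.ne_zero).mpr hprime
  haveI := hded
  have hinj : Function.Injective
      (algebraMap (integralClosure (Algebra.adjoin O ({t} : Set L)) L) L) :=
    Subtype.val_injective
  obtain ⟨a, b, ha, hb, hab⟩ := exists_frac_of_inGauss hinj hprime hf0 hf hf'
  have hstar : Star O {t} m f Q :=
    Fermat.Agent.S34.Regular.star_of_one_branch (E := E) π hπE hπ0 t (Ideal.span {ϖ}) ⊤
      (inf_top_eq _) m hm f
      ⟨a, b, fun h => ha (Ideal.mem_span_singleton.mp h),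
        fun h => hb (Ideal.mem_span_singleton.mp h), hab⟩ hdiv Q
      ((Ideal.span_singleton_le_iff_mem _).mpr hπQ)
      (fun h => hQ.ne_top (top_le_iff.mp h))
  obtain ⟨y, c, hc, hyc⟩ := hstar
  have hc0 : (c : L) ≠ 0 := fun h0 => hc (by
    have : c = 0 := Subtype.ext h0
    rw [this]; exact Q.zero_mem)
  have hy0 : y ≠ 0 := by
    rintro rfl
    rw [zero_pow hm.ne', zero_mul] at hyc
    exact hc0 hyc.symm
  refine ⟨y, hy0, ⟨1, fun h1 => hQ.ne_top ((Ideal.eq_top_iff_one Q).mpr h1), c, ?_⟩,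
    ⟨c, hc, 1, ?_⟩⟩
  · rw [map_one, one_mul, hyc]; rfl
  · rw [hyc, map_one]
    exact mul_inv_cancel₀ hc0

end Fermat.Agent.S19.Cech.StarSmooth
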