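import Mathlib
import Fermat.Agent.S19.Cech.StarSmooth
import Fermat.Agent.S34.LocPowK
import Fermat.Agent.S34.HauptU.LevelMAux
import Fermat.Agent.Lib.GaussChartOfPrime

/-!
# S19 (program FG), route C, row STAR*: (STAR) at ALL points of BOTH charts, for ALL `x`

(helper213; dealt by FG RULING #3.)  Level-free glue between

* `S19/Cech/StarSmooth.exists_inLoc_unit` ((STAR) at a closed point of the special fibre of a
  smooth chart, vocabulary `InLoc` / `InGauss` / `Model.LocPow`),
* `S34/LocPowK.locPow_of_places` (`m ∣ ord_P f` at all places `⟹ Model.LocPow m t f`), and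
* the vocabulary `Pt` / `locRing` / `gaussRing` / `IsUnitIn` of `Lib/GaussChartOfPrime`, in which
  the cocycle machine (`CocRep.hcoc_of_twoChartEmb`: `hstar0`, `hstar1`) and the coset clause
  (`Lib/GaussChartRefCos.hcos_of_fixed_of_eq`: `hstar`) consume it.

`O` a discrete valuation ring with uniformiser `π`, `E = Frac O`, `L / E` a function field,
`t : L` a coordinate, `B = integralClosure O[t] L`, `ϖ = piElt O[t] π`; `ϖ` prime in `B` and
`B / ϖ` Dedekind.  For `f` a unit of the Gauss ring `gaussRing hϖ` with `m ∣ ord_P f` at every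
place `P` of `L / E`:

  `∀ Q : Pt ϖ, ∃ y : L, IsUnitIn (locRing Q) (y ^ m * f)`.

* `exists_isUnitIn_locRing` : one function, one point, one chart (coordinate `t`);
* `hstar_family`            : a family `F : G → L`, ALL `x`, the Gauss ring given up to equality
                              (the shape in which the instance meets the second chart);
* `hstar_zero_of_chartFacts`, `hstar_inf_of_chartFacts`, `hstar_both_of_chartFacts` : the two
  charts `u`, `s = u⁻¹` of `S34/HauptU/LevelMAux.ChartFacts E π u s`.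
-/

set_option autoImplicit false
set_option linter.unusedSectionVars false
set_option linter.style.haveILetI false

namespace Fermat.Agent.S19.Cech.StarAll

open AlgebraicCurve Fermat.Agent.S30.Model Fermat.Agent.S30.Model.GlueChart
  Fermat.Agent.Lib.PrimeLocGlobal Fermat.Agent.Lib.ChartRoots Fermat.Agent.Lib.GaussChartOfPrime
  Fermat.Agent.S34.HauptU.LevelMAux

variable {O E L : Type*} [CommRing O] [IsDomain O] [IsDiscreteValuationRing O]
  [Field E] [CharZero E] [Algebra O E] [IsFractionRing O E]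
  [Field L] [Algebra E L] [Algebra O L] [IsScalarTower O E L]

/-- **(STAR) in the chart vocabulary: one function, one point, one chart.**  A unit `f` of the
Gauss ring of the chart `t` with `m ∣ ord_P f` at every place of `L / E` is, at every closed
point `Q` of the special fibre, an `m`-th power times a unit of the local ring of `Q`. -/
theorem exists_isUnitIn_locRing (π : O) (hπ : Irreducible π) (t : L) (ht : Transcendental E t)
    [FiniteDimensional (IntermediateField.adjoin E {t}) L]
    (hprime : Prime (piElt (Algebra.adjoin O ({t} : Set L)) π))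
    (hded : IsDedekindDomain (integralClosure (Algebra.adjoin O ({t} : Set L)) L ⧸
      Ideal.span {piElt (Algebra.adjoin O ({t} : Set L)) π}))
    {m : ℕ} (hm : 0 < m) {f : L} (hdiv : ∀ P : Place E L, (m : ℤ) ∣ P.ord f)
    (hfu : IsUnitIn (gaussRing (K := L) hprime) f)
    (Q : Pt (piElt (Algebra.adjoin O ({t} : Set L)) π)) :
    ∃ y : L, IsUnitIn (locRing (K := L) Q) (y ^ m * f) := by
  obtain ⟨y, hy0, h1, h2⟩ := Fermat.Agent.S19.Cech.StarSmooth.exists_inLoc_unit (E := E) π hπ t ht
    hprime hded m hm f hfu.1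
    (Fermat.Agent.S34.LocPowK.locPow_of_places (E := E) t ht m f hfu.1 hdiv)
    hfu.2.1 hfu.2.2 Q.1 Q.2.1 Q.2.2
  exact ⟨y, mul_ne_zero (pow_ne_zero m hy0) hfu.1, h1, h2⟩

/-- **(STAR) for a family, at ALL `x` and ALL points of the chart `t`** — the binder `hstar0` /
`hstar1` of `CocRep.hcoc_of_twoChartEmb` and `hstar` of
`Lib/GaussChartRefCos.hcos_of_fixed_of_eq` (with `R i = locRing i`).  The Gauss ring is given up
to equality. -/
theorem hstar_family (π : O) (hπ : Irreducible π) (t : L) (ht : Transcendental E t)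
    [FiniteDimensional (IntermediateField.adjoin E {t}) L]
    (hprime : Prime (piElt (Algebra.adjoin O ({t} : Set L)) π))
    (hded : IsDedekindDomain (integralClosure (Algebra.adjoin O ({t} : Set L)) L ⧸
      Ideal.span {piElt (Algebra.adjoin O ({t} : Set L)) π}))
    {m : ℕ} (hm : 0 < m) {G : Type*} (F : G → L)
    (hdiv : ∀ (x : G) (P : Place E L), (m : ℤ) ∣ P.ord (F x))
    {𝒪 : Subring L} (h𝒪 : 𝒪 = gaussRing (K := L) hprime) (hFu : ∀ x, IsUnitIn 𝒪 (F x)) :
    ∀ (x : G) (Q : Pt (piElt (Algebra.adjoin O ({t} : Set L)) π)),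
      ∃ y : L, IsUnitIn (locRing (K := L) Q) (y ^ m * F x) := by
  subst h𝒪
  exact fun x Q => exists_isUnitIn_locRing (E := E) π hπ t ht hprime hded hm (hdiv x) (hFu x) Q

/-- **(STAR) on the chart `u`** of `ChartFacts E π u s`, ALL `x`, ALL points. -/
theorem hstar_zero_of_chartFacts {π : O} (hπ : Irreducible π) {u s : L}
    (H : ChartFacts E π u s) {m : ℕ} (hm : 0 < m) {G : Type*} (F : G → L)
    (hdiv : ∀ (x : G) (P : Place E L), (m : ℤ) ∣ P.ord (F x))
    {𝒪 : Subring L} (h𝒪 : 𝒪 = gaussRing (K := L) H.prime_zero) (hFu : ∀ x, IsUnitIn 𝒪 (F x)) :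
    ∀ (x : G) (Q : Pt (piElt (Algebra.adjoin O ({u} : Set L)) π)),
      ∃ y : L, IsUnitIn (locRing (K := L) Q) (y ^ m * F x) :=
  haveI := H.finite
  hstar_family (E := E) π hπ u H.transcendental H.prime_zero H.dedekind_zero hm F hdiv h𝒪 hFu

/-- **(STAR) on the chart `s = u⁻¹`** of `ChartFacts E π u s`, ALL `x`, ALL points. -/
theorem hstar_inf_of_chartFacts {π : O} (hπ : Irreducible π) {u s : L}
    (H : ChartFacts E π u s) {m : ℕ} (hm : 0 < m) {G : Type*} (F : G → L)
    (hdiv : ∀ (x : G) (P : Place E L), (m : ℤ) ∣ P.ord (F x))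
    {𝒪 : Subring L} (h𝒪 : 𝒪 = gaussRing (K := L) H.prime_inf) (hFu : ∀ x, IsUnitIn 𝒪 (F x)) :
    ∀ (x : G) (Q : Pt (piElt (Algebra.adjoin O ({s} : Set L)) π)),
      ∃ y : L, IsUnitIn (locRing (K := L) Q) (y ^ m * F x) :=
  haveI := H.finite_inv
  hstar_family (E := E) π hπ s H.transcendental_inv H.prime_inf H.dedekind_inf hm F hdiv h𝒪 hFu

/-- **(STAR) on BOTH charts** of `ChartFacts E π u s`, ALL `x`, ALL points, for one Gauss ring
`𝒪` equal to the Gauss rings of the two charts. -/
theorem hstar_both_of_chartFacts {π : O} (hπ : Irreducible π) {u s : L}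
    (H : ChartFacts E π u s) {m : ℕ} (hm : 0 < m) {G : Type*} (F : G → L)
    (hdiv : ∀ (x : G) (P : Place E L), (m : ℤ) ∣ P.ord (F x))
    {𝒪 : Subring L} (h𝒪0 : 𝒪 = gaussRing (K := L) H.prime_zero)
    (h𝒪1 : 𝒪 = gaussRing (K := L) H.prime_inf) (hFu : ∀ x, IsUnitIn 𝒪 (F x)) :
    (∀ (x : G) (Q : Pt (piElt (Algebra.adjoin O ({u} : Set L)) π)),
      ∃ y : L, IsUnitIn (locRing (K := L) Q) (y ^ m * F x)) ∧
    (∀ (x : G) (Q : Pt (piElt (Algebra.adjoin O ({s} : Set L)) π)),
      ∃ y : L, IsUnitIn (locRing (K := L) Q) (y ^ m * F x)) :=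
  ⟨hstar_zero_of_chartFacts (E := E) hπ H hm F hdiv h𝒪0 hFu,
    hstar_inf_of_chartFacts (E := E) hπ H hm F hdiv h𝒪1 hFu⟩

end Fermat.Agent.S19.Cech.StarAll
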