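import Mathlib
import Fermat.Agent.S19.Cech.ChartMachineZ
import Fermat.Agent.S19.Cech.StarAll
import Fermat.Agent.S19.Cech.CosInst
import Fermat.Agent.S19.Cech.AlgSeam

/-!
# S19 (Program FG, Route C): the chart machine at the chart instance, Kummer side only

`hasCechCoords_of_kummer` = `ChartMachineZ.hasCechCoords_of_chart_gauss` with

* (STAR) `hstar0`, `hstar1` from `StarAll.hstar_both_of_chartFacts` (input: `m ∣ ord_P (F x)` at
  every place of `LE M E / E`, every `x`),
* (COS) `hcos0`, `hcos1` from `CosInst.hcos_of_chart`,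
* (ALG) `n0`, `halg` from `AlgSeam.halg_of_chartFacts` (input: `F x = c * h ^ m → x = 0`),
* the chart hypotheses from the body of `ChartInst.exists_chart`.

What is left as hypotheses is the Kummer family alone: `F` with `hFu` (Gauss units), `hF1`
(`≡ 1 mod π` on `G0`), `hdiv`, the three normalisation clauses `hF_hom`, `hF_eqv`, `hF_peq`, a
section `rep` of `G → G ⧸ G0` and the triviality `htriv`.
-/

set_option autoImplicit false
set_option linter.style.haveILetI false
set_option linter.unusedSectionVars false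
set_option synthInstance.maxHeartbeats 400000
set_option maxHeartbeats 1600000

noncomputable section

open Polynomial IntermediateField ModularCurve AlgebraicCurve

namespace Fermat.Agent.S19.Cech.ChartMachineK

open Fermat.Agent.S18.K1Defs Fermat.Agent.S18.K1Main Fermat.Agent.S30 Fermat.Agent.S30.Model
  Fermat.Agent.S34.TrivModE Fermat.Agent.S44.D
  Fermat.Agent.S19.Cech.H1Basis Fermat.Agent.S19.Cech.EqAction
  Fermat.Agent.Lib.TwoChartNormalForm Fermat.Agent.Lib.ChartRoots Fermat.Agent.S37.Fn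
  Fermat.Agent.S19.HopfOrder Fermat.Agent.S19.Contract Fermat.Agent.S19.Cech.Exit
  Fermat.Agent.S19.Cech.Machine Fermat.Agent.S19.Cech.CocRep
  Fermat.Agent.Lib.GaussChartOfPrime Fermat.Agent.S19.Cech.ChartGauss
  Fermat.Agent.S34.HauptU.LevelMAux

local notation "Qb" => AlgebraicClosure ℚ

/-- **The chart machine at the chart instance, Kummer side only.** -/
theorem hasCechCoords_of_kummer (M : ℕ) [NeZero M] {ℓ : ℕ} (hℓ : ℓ.Prime) (hℓM : ¬ ℓ ∣ M)
    {G : Type} [AddCommGroup G] [Finite G]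
    (act : Gal → G → G) (hadd : ∀ σ x y, act σ (x + y) = act σ x + act σ y)
    (A : ValuationSubring Qb) (hA : A.LiesOverPrime ℓ)
    (E : IntermediateField ℚ Qb) [FiniteDimensional ℚ E] [Normal ℚ E]
    [IsDiscreteValuationRing (OE A E)]
    (hlev : ∀ σ : Gal, σ ∈ E.fixingSubgroup → ∀ x, act σ x = x)
    (G0 : AddSubgroup G) (hG0 : ∀ σ ∈ A.inertiaSubgroupIn ℚ, ∀ x, act σ x - x ∈ G0)
    {z : Qb} (hz : IsPrimitiveRoot z M) (hzE : z ∈ E) (u₀ : LaurentSeries ℚ)
    (hu₀ : ∀ (E : IntermediateField ℚ Qb) [FiniteDimensional ℚ E]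
      [IsDiscreteValuationRing (OE A E)], z ∈ E →
      letI := algebraOL (OE A E) E (LE M E)
      ∃ u : LE M E, (u : LaurentSeries E) = coeffEmb E u₀ ∧
        ModelInst.ChartModelC M (OE A E) E u ∧
        ∀ π : OE A E, Irreducible π → ChartFacts E π u u⁻¹)
    (u : LE M E) (hu : (u : LaurentSeries E) = coeffEmb E u₀)
    (π : OE A E) (hπ : Irreducible π) :
    letI := algebraOL (OE A E) E (LE M E)
    ∀ (hp0 : Prime (piOf (OE A E) ({u} : Set (LE M E)) π))
      {m : ℕ} (_hm : 0 < m)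
      (F : G → LE M E) (_hFu : ∀ x, IsUnitIn (gaussRing (K := LE M E) hp0) (F x))
      (_hF1 : ∀ x ∈ G0, ∃ h ∈ gaussRing (K := LE M E) hp0,
        F x = 1 + algebraMap (OE A E) (LE M E) π * h)
      (_hdiv : ∀ (x : G) (P : Place E (LE M E)), (m : ℤ) ∣ P.ord (F x))
      (_hF_hom : ∀ x ∈ G0, ∀ y ∈ G0,
        Nrm π (algebraMap ↥(CechAdapter.C01 (O := OE A E) u) (LE M E))
          (gaussRing (K := LE M E) hp0)
          (fun Q : Pt (piOf (OE A E) ({u} : Set (LE M E)) π) => locRing (K := LE M E) Q)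
          (fun Q : Pt (piOf (OE A E) ({u⁻¹} : Set (LE M E)) π) => locRing (K := LE M E) Q) m
          (F (x + y)) (F x * F y))
      (_hF_eqv : ∀ σ ∈ A.inertiaSubgroupIn ℚ, ∀ x ∈ G0,
        Nrm π (algebraMap ↥(CechAdapter.C01 (O := OE A E) u) (LE M E))
          (gaussRing (K := LE M E) hp0)
          (fun Q : Pt (piOf (OE A E) ({u} : Set (LE M E)) π) => locRing (K := LE M E) Q)
          (fun Q : Pt (piOf (OE A E) ({u⁻¹} : Set (LE M E)) π) => locRing (K := LE M E) Q) m
          (galE E M σ (F x)) (F (act σ x)))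
      (rep : G ⧸ G0 → G) (_hrep : ∀ c, ((rep c : G) : G ⧸ G0) = c)
      (_hF_peq : ∀ σ ∈ A.inertiaSubgroupIn ℚ, ∀ c,
        Nrm π (algebraMap ↥(CechAdapter.C01 (O := OE A E) u) (LE M E))
          (gaussRing (K := LE M E) hp0)
          (fun Q : Pt (piOf (OE A E) ({u} : Set (LE M E)) π) => locRing (K := LE M E) Q)
          (fun Q : Pt (piOf (OE A E) ({u⁻¹} : Set (LE M E)) π) => locRing (K := LE M E) Q) m
          (galE E M σ (F (rep c))) (F (rep c) * F (act σ (rep c) - rep c)))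
      (_htriv : ∀ x ∈ G0, ∀ (c : E) (h : LE M E), c ≠ 0 → h ≠ 0 →
        F x = algebraMap E (LE M E) c * h ^ m → x = 0),
      HasCechCoords ℓ act := by
  letI := algebraOL (OE A E) E (LE M E)
  haveI := isScalarTower_OL (OE A E) E (LE M E)
  intro hp0 m hm F hFu hF1 hdiv hF_hom hF_eqv rep hrep hF_peq htriv
  have hCF : ChartFacts E π u u⁻¹ := CosInst.chartFacts_of_chart M A E hzE u₀ hu₀ u hu π hπ
  have hCM : ModelInst.ChartModelC M (OE A E) E u := by
    obtain ⟨u2, hu2, hCM, -⟩ := hu₀ E hzE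
    have e : u2 = u := Subtype.ext (hu2.trans hu.symm)
    subst e
    exact hCM
  obtain ⟨hmodel, htr, hfin, -, hp1, hd0, hd1⟩ := ChartMachineZ.chart_hyps M A E u π hCM hCF
  haveI := hfin
  have h01 : gaussRing (K := LE M E) hp0 = gaussRing (K := LE M E) hp1 :=
    Fermat.Agent.S19.Cech.ChartFibre.gaussRing_eq_inv (E := E) π hπ u htr hp0 hp1
  have hstar := StarAll.hstar_both_of_chartFacts (E := E) hπ hCF hm F hdiv
    (𝒪 := gaussRing (K := LE M E) hp0) rfl h01 hFu
  obtain ⟨hcos0, hcos1⟩ := CosInst.hcos_of_chart M hℓ hℓM A hA E hz hzE u₀ hu₀ u hu π hπ hp0 hm F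
    rep (fun c => hFu (rep c)) (fun c Q => hstar.1 (rep c) Q) (fun c Q => hstar.2 (rep c) Q)
  obtain ⟨n0, hn0, halg⟩ := AlgSeam.halg_of_chartFacts (E := E) π hπ u htr
    (Model.Assembly.exists_of_isIntegral_of_algClosedIn (algClosedIn_laurent (LE M E)))
    hp0 hp1 hd0 hd1 G0 F hm hF1 htriv
  exact ChartMachineZ.hasCechCoords_of_chart_gauss M hℓ hℓM act hadd A hA E hlev G0 hG0 hz hzE u₀
    hu₀ u hu π hπ hmodel htr hfin hp0 hp1 hd0 hd1 hm F hFu hF1
    (fun x _ Q => hstar.1 x Q) (fun x _ Q => hstar.2 x Q) hF_hom hF_eqv rep hrep hF_peq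
    hcos0 hcos1 n0 hn0 halg

end Fermat.Agent.S19.Cech.ChartMachineK
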