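import Fermat.Agent.S30.GaussDVR
import Fermat.Agent.S37.ConstLemma

/-!
# Normalisation of Kummer relations in the Gauss ring (program FG / S19, Route C)

`O` a discrete valuation ring with fraction field `E`, uniformiser `ϖ`, residue field `k`;
`V = GaussDVR.V O E ⊆ E((q))` the Gauss ring with its reduction `red : V → k((q))`.

* `const_mem` : a constant `C c ∈ V` with nonzero reduction is `C (algebraMap O E u)`, `u ∈ Oˣ`.
* `exists_normalised` : if `x = C c * h ^ m` (`c ∈ Eˣ`, `h` a nonzero fraction of integral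
  series, `m > 0`) lies in `V` with `red x = 1`, then `x = C (algebraMap O E a) * v ^ m` with
  `a ∈ Oˣ` and `v ∈ V`, `red v = 1`, and `v = C e * h` for a constant `e ∈ Eˣ` (so `v` lies in
  every subfield of `E((q))` containing the constants and `h`).
  (Two normalised Kummer functions of the same class differ by a unit constant times the `m`-th
  power of a principal unit of the Gauss ring.)
* `exists_normalised'` : the same with `v = 1 + C ϖ * w`, `w ∈ V`.
-/

set_option autoImplicit false

open ModularCurve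

noncomputable section

namespace Fermat.Agent.S19.Cech.GaussNorm

open Fermat.Agent.S30 Fermat.Agent.S30.GaussDVR

variable {O E : Type*} [CommRing O] [IsDomain O] [IsDiscreteValuationRing O] [Field E]
  [Algebra O E] [IsFractionRing O E]

/-- The constant `C (algebraMap O E r)` as an element of `V`. -/
theorem coe_ofInt_C (r : O) :
    ((ofInt O E (HahnSeries.C r) : V O E) : LaurentSeries E) =
      HahnSeries.C (algebraMap O E r) := by
  rw [coe_ofInt, iota_C]

theorem red_ofInt_C (r : O) :
    red O E (ofInt O E (HahnSeries.C r)) = HahnSeries.C (IsLocalRing.residue O r) := by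
  rw [red_ofInt, rho_C]

/-- A constant of `V` with nonzero reduction is a unit of `O`. -/
theorem const_mem {c : E} (s : V O E)
    (hs : (s : LaurentSeries E) = HahnSeries.C c) (hred : red O E s ≠ 0) :
    ∃ u : O, IsUnit u ∧ c = algebraMap O E u := by
  have hc0 : c ≠ 0 := by
    rintro rfl
    apply hred
    have : s = 0 := Subtype.ext (by rw [hs, map_zero]; rfl)
    rw [this, map_zero]
  -- a nonunit constant has reduction zero
  have key : ∀ d : O, ¬ IsUnit d → red O E (ofInt O E (HahnSeries.C d)) = 0 := by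
    intro d hd
    rw [red_ofInt_C]
    have : IsLocalRing.residue O d = 0 := by
      rw [IsLocalRing.residue_eq_zero_iff]
      exact (IsLocalRing.mem_maximalIdeal d).2 hd
    rw [this, map_zero]
  rcases ValuationRing.isInteger_or_isInteger O c with ⟨d, hd⟩ | ⟨d, hd⟩
  · refine ⟨d, ?_, hd.symm⟩
    by_contra hdu
    apply hred
    have : s = ofInt O E (HahnSeries.C d) := Subtype.ext (by rw [hs, coe_ofInt_C, hd])
    rw [this]
    exact key d hdu
  · -- `c⁻¹ = d ∈ O`
    have hd0 : d ≠ 0 := by
      rintro rfl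
      rw [map_zero] at hd
      exact inv_ne_zero hc0 hd.symm
    by_cases hdu : IsUnit d
    · obtain ⟨u, rfl⟩ := hdu
      refine ⟨((u⁻¹ : Oˣ) : O), Units.isUnit _, ?_⟩
      have h1 : algebraMap O E (u : O) * algebraMap O E ((u⁻¹ : Oˣ) : O) = 1 := by
        rw [← map_mul, Units.mul_inv, map_one]
      rw [hd] at h1
      have := eq_inv_of_mul_eq_one_right h1
      rw [inv_inv] at this
      exact this.symm
    · exfalso
      apply hred
      have h1 : s * ofInt O E (HahnSeries.C d) = 1 := by
        apply Subtype.ext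
        rw [Subring.coe_mul, hs, coe_ofInt_C, hd, ← map_mul, mul_inv_cancel₀ hc0, map_one]
        rfl
      have h2 := congrArg (red O E) h1
      rw [map_mul, key d hdu, mul_zero, map_one] at h2
      exact absurd h2 zero_ne_one

/-- **Normalisation.**  A principal unit of the Gauss ring of the form `C c * h ^ m` is
`C a * v ^ m` with `a ∈ Oˣ` and `v` a principal unit. -/
theorem exists_normalised (ϖ : O) (hϖ : Irreducible ϖ) {m : ℕ} (hm : 0 < m) {c : E}
    {h : LaurentSeries E} (hh : h ∈ fracField O E) (hh0 : h ≠ 0) (x : V O E)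
    (hx : (x : LaurentSeries E) = HahnSeries.C c * h ^ m) (hred : red O E x = 1) :
    ∃ (a : O) (v : V O E) (e : E), IsUnit a ∧ red O E v = 1 ∧ e ≠ 0 ∧
      (v : LaurentSeries E) = HahnSeries.C e * h ∧
      (x : LaurentSeries E) = HahnSeries.C (algebraMap O E a) * (v : LaurentSeries E) ^ m := by
  classical
  obtain ⟨i, k, y, hy, hik⟩ := exists_unit_pow E ϖ hϖ h hh hh0
  have hu : ((unif E ϖ : V O E) : LaurentSeries E) ≠ 0 := coe_unif_ne_zero E ϖ hϖ
  have hy0 : (y : LaurentSeries E) ≠ 0 := by
    intro h0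
    have : y = 0 := Subtype.ext h0
    exact hy (by rw [this, map_zero])
  -- the inverse of `y ^ m` in `V`
  have hym : red O E (y ^ m) ≠ 0 := by rw [map_pow]; exact pow_ne_zero m hy
  let yi : V O E := ⟨((y ^ m : V O E) : LaurentSeries E)⁻¹, inv_mem O E (y ^ m) hym⟩
  have hyi : (y ^ m) * yi = 1 := by
    apply Subtype.ext
    rw [Subring.coe_mul]
    change ((y ^ m : V O E) : LaurentSeries E) * ((y ^ m : V O E) : LaurentSeries E)⁻¹ = 1
    rw [Subring.coe_pow]
    exact mul_inv_cancel₀ (pow_ne_zero m hy0)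
  -- the constant `c' = c * ϖ ^ (i m) / ϖ ^ (k m)`
  obtain ⟨c', hc'⟩ : ∃ c' : E, c' = c * algebraMap O E ϖ ^ (i * m) / algebraMap O E ϖ ^ (k * m) :=
    ⟨_, rfl⟩
  have hϖE : algebraMap O E ϖ ≠ 0 := by
    intro h0
    apply hu
    rw [coe_unif, h0, map_zero]
  have hCc' : (HahnSeries.C c' : LaurentSeries E) = ((x * yi : V O E) : LaurentSeries E) := by
    rw [Subring.coe_mul, hx]
    change _ = HahnSeries.C c * h ^ m * ((y ^ m : V O E) : LaurentSeries E)⁻¹
    rw [Subring.coe_pow]
    have e1 : h = ((unif E ϖ : V O E) : LaurentSeries E) ^ i * (y : LaurentSeries E) /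
        ((unif E ϖ : V O E) : LaurentSeries E) ^ k := by
      rw [eq_div_iff (pow_ne_zero k hu)]; exact hik
    rw [e1, coe_unif, hc', map_div₀, map_mul, map_pow, map_pow, div_pow, mul_pow, ← pow_mul,
      ← pow_mul]
    have hC : (HahnSeries.C (algebraMap O E ϖ) : LaurentSeries E) ≠ 0 := by
      rw [← coe_unif]; exact hu
    have hym0 : (y : LaurentSeries E) ^ m ≠ 0 := pow_ne_zero m hy0
    field_simp
  have hredc : red O E (x * yi) ≠ 0 := by
    rw [map_mul, hred, one_mul]
    intro h0
    have := congrArg (red O E) hyi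
    rw [map_mul, h0, mul_zero, map_one] at this
    exact zero_ne_one this
  obtain ⟨u, hu', hcu⟩ := const_mem (x * yi) hCc'.symm hredc
  -- `x = C u * y ^ m`
  have hxy : x = ofInt O E (HahnSeries.C u) * y ^ m := by
    have : x * yi = ofInt O E (HahnSeries.C u) := by
      apply Subtype.ext
      rw [← hCc', coe_ofInt_C, hcu]
    calc x = x * (y ^ m * yi) := by rw [hyi, mul_one]
      _ = (x * yi) * y ^ m := by ring
      _ = ofInt O E (HahnSeries.C u) * y ^ m := by rw [this]
  -- the reduction of `y` is a constant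
  have hredy : HahnSeries.C (IsLocalRing.residue O u) * red O E y ^ m = 1 := by
    have := congrArg (red O E) hxy
    rw [hred, map_mul, map_pow, red_ofInt_C] at this
    exact this.symm
  have hru : IsLocalRing.residue O u ≠ 0 := by
    intro h0
    rw [h0, map_zero, zero_mul] at hredy
    exact zero_ne_one hredy
  have hint : IsIntegral (IsLocalRing.ResidueField O) (red O E y) := by
    refine ⟨Polynomial.X ^ m - Polynomial.C ((IsLocalRing.residue O u)⁻¹),
      Polynomial.monic_X_pow_sub_C _ hm.ne', ?_⟩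
    rw [Polynomial.eval₂_sub, Polynomial.eval₂_pow, Polynomial.eval₂_X, Polynomial.eval₂_C]
    have e2 : algebraMap (IsLocalRing.ResidueField O)
        (LaurentSeries (IsLocalRing.ResidueField O)) ((IsLocalRing.residue O u)⁻¹) =
        HahnSeries.C ((IsLocalRing.residue O u)⁻¹) := by
      rw [HahnSeries.algebraMap_apply', ← HahnSeries.ofPowerSeries_C]
      rfl
    rw [e2, sub_eq_zero]
    have e3 : (HahnSeries.C (IsLocalRing.residue O u) : LaurentSeries (IsLocalRing.ResidueField O))
        * HahnSeries.C ((IsLocalRing.residue O u)⁻¹) = 1 := by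
      rw [← map_mul, mul_inv_cancel₀ hru, map_one]
    calc red O E y ^ m = (HahnSeries.C (IsLocalRing.residue O u) * red O E y ^ m) *
          HahnSeries.C ((IsLocalRing.residue O u)⁻¹) := by
          rw [mul_right_comm, e3, one_mul]
      _ = HahnSeries.C ((IsLocalRing.residue O u)⁻¹) := by rw [hredy, one_mul]
  obtain ⟨b0, hb0⟩ := Fermat.Agent.S37.ConstLemma.laurent_eq_C_of_isIntegral _ hint
  have hb0ne : b0 ≠ 0 := by
    rintro rfl
    rw [map_zero] at hb0
    exact hy hb0.symm
  obtain ⟨w, rfl⟩ := IsLocalRing.residue_surjective (R := O) b0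
  have hwu : IsUnit w := by
    by_contra hw
    apply hb0ne
    rw [IsLocalRing.residue_eq_zero_iff]
    exact (IsLocalRing.mem_maximalIdeal w).2 hw
  obtain ⟨wu, rfl⟩ := hwu
  obtain ⟨uu, rfl⟩ := hu'
  refine ⟨(uu : O) * (wu : O) ^ m, y * ofInt O E (HahnSeries.C ((wu⁻¹ : Oˣ) : O)),
    algebraMap O E ϖ ^ k / algebraMap O E ϖ ^ i * algebraMap O E ((wu⁻¹ : Oˣ) : O),
    (uu * wu ^ m).isUnit, ?_, ?_, ?_, ?_⟩
  · rw [map_mul, red_ofInt_C, ← hb0, ← map_mul, ← map_mul, Units.mul_inv, map_one, map_one]
  · refine mul_ne_zero (div_ne_zero (pow_ne_zero k hϖE) (pow_ne_zero i hϖE)) ?_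
    intro h0
    have h1 : algebraMap O E (wu : O) * algebraMap O E ((wu⁻¹ : Oˣ) : O) = 1 := by
      rw [← map_mul, Units.mul_inv, map_one]
    rw [h0, mul_zero] at h1
    exact zero_ne_one h1
  · rw [Subring.coe_mul, coe_ofInt_C, map_mul, map_div₀, map_pow, map_pow]
    have hC : (HahnSeries.C (algebraMap O E ϖ) : LaurentSeries E) ≠ 0 := by
      rw [← coe_unif]; exact hu
    have e1 : (y : LaurentSeries E) = HahnSeries.C (algebraMap O E ϖ) ^ k /
        HahnSeries.C (algebraMap O E ϖ) ^ i * h := by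
      rw [div_mul_eq_mul_div, eq_div_iff (pow_ne_zero i hC), ← coe_unif, mul_comm _ h, hik]
      ring
    rw [e1]
    ring
  · rw [hxy, Subring.coe_mul, Subring.coe_mul, Subring.coe_pow, coe_ofInt_C, coe_ofInt_C, mul_pow]
    simp only [map_mul, map_pow]
    have e4 : (HahnSeries.C (algebraMap O E (wu : O)) : LaurentSeries E) *
        HahnSeries.C (algebraMap O E ((wu⁻¹ : Oˣ) : O)) = 1 := by
      rw [← map_mul, ← map_mul, Units.mul_inv, map_one, map_one]
    have e5 : (HahnSeries.C (algebraMap O E (wu : O)) : LaurentSeries E) ^ m *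
        HahnSeries.C (algebraMap O E ((wu⁻¹ : Oˣ) : O)) ^ m = 1 := by
      rw [← mul_pow, e4, one_pow]
    linear_combination (-(HahnSeries.C (algebraMap O E (uu : O)) : LaurentSeries E) *
      (y : LaurentSeries E) ^ m) * e5

/-- **Normalisation**, principal units written as `1 + C ϖ * w`. -/
theorem exists_normalised' (ϖ : O) (hϖ : Irreducible ϖ) {m : ℕ} (hm : 0 < m) {c : E}
    {h : LaurentSeries E} (hh : h ∈ fracField O E) (hh0 : h ≠ 0) (x : V O E)
    (hx : (x : LaurentSeries E) = HahnSeries.C c * h ^ m) (hred : red O E x = 1) :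
    ∃ (a : O) (w : V O E), IsUnit a ∧
      HahnSeries.C c * h ^ m = HahnSeries.C (algebraMap O E a) *
        (1 + HahnSeries.C (algebraMap O E ϖ) * (w : LaurentSeries E)) ^ m := by
  obtain ⟨a, v, -, ha, hv, -, -, e⟩ := exists_normalised ϖ hϖ hm hh hh0 x hx hred
  have h1 : red O E (v - 1) = 0 := by rw [map_sub, hv, map_one, sub_self]
  obtain ⟨w, hw⟩ := ker' E ϖ hϖ (v - 1) h1
  refine ⟨a, w, ha, ?_⟩
  rw [← hx, e, ← hw]
  congr 2
  change (v : LaurentSeries E) = 1 + ((v : LaurentSeries E) - 1)
  ring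


/-- **Normalisation inside a field of functions** `L ⊆ E((q))`: for `h ∈ L`, the principal unit
`v` of `exists_normalised` lies in `L`. -/
theorem exists_normalised_mem (L : IntermediateField E (LaurentSeries E)) (ϖ : O)
    (hϖ : Irreducible ϖ) {m : ℕ} (hm : 0 < m) {c : E}
    {h : LaurentSeries E} (hL : h ∈ L) (hh : h ∈ fracField O E) (hh0 : h ≠ 0) (x : V O E)
    (hx : (x : LaurentSeries E) = HahnSeries.C c * h ^ m) (hred : red O E x = 1) :
    ∃ (a : O) (v : V O E), IsUnit a ∧ red O E v = 1 ∧ (v : LaurentSeries E) ∈ L ∧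
      (x : LaurentSeries E) = HahnSeries.C (algebraMap O E a) * (v : LaurentSeries E) ^ m := by
  obtain ⟨a, v, e, ha, hv, -, hve, hxv⟩ := exists_normalised ϖ hϖ hm hh hh0 x hx hred
  refine ⟨a, v, ha, hv, ?_, hxv⟩
  rw [hve]
  refine L.mul_mem ?_ hL
  have : (HahnSeries.C e : LaurentSeries E) = algebraMap E (LaurentSeries E) e := by
    rw [HahnSeries.algebraMap_apply', ← HahnSeries.ofPowerSeries_C]
    rfl
  rw [this]
  exact L.algebraMap_mem e

end Fermat.Agent.S19.Cech.GaussNorm
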