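import Mathlib
import Fermat.Agent.S19.TorsionRep
import Fermat.Agent.S19.HopfOrder.Frozen
import Fermat.Agent.S24.FF.Dedekind
import Fermat.Agent.S30.HeckeInputs
import Fermat.Agent.S30.GaussDescent
import Fermat.Agent.S30.E4.Defs
import Fermat.Agent.S18.K1Descent
import Fermat.Agent.S34.TrivModE

set_option autoImplicit false
set_option linter.dupNamespace false
set_option linter.unusedSectionVars false

/-!
# S19 (FG), Route C, brick (KD): the Kummer dictionary at one finite level

`G = J₀(M)[m] = ↥(Submodule.torsionBy ℤ (JZero M) m)` (finite).  For every sufficiently large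
number field `E ⊆ ℚ̄`, normal over `ℚ`, there is a family `f : G → LE M E` of functions of the
level-`M` function field over `E` such that (`IsDict M m E f`):

* `ne_zero` : `f x ≠ 0`;
* `div`     : `f x` is a Kummer function of `x`: `x = [D]` with `m • D = div (f x)` (over `ℚ̄`);
* `add`     : `f (x + y) = a * h ^ m * (f x * f y)` with `a ∈ Eˣ`, `h ∈ (LE M E)ˣ`;
* `gal`     : `σ (f x) = a * h ^ m * f (σ x)` for every `σ ∈ Gal(ℚ̄/ℚ)` (acting coefficientwise
              through `σ|_E`, `TrivModE.galE`);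
* `zero`    : `f x = a * h ^ m` (with `a ∈ E`, `h ∈ LE M E`) forces `x = 0`.

No Hilbert 90 and no descent of the function field over `ℚ̄`: the finitely many relations over
`ℚ̄` ("a function with zero divisor is constant") are descended to a number field.
-/

noncomputable section

namespace Fermat.Agent.S19.Cech.KummerDict

open ModularCurve AlgebraicCurve HahnSeries IntermediateField
open Fermat.Agent.S18.K1Defs Fermat.Agent.S30
open Fermat.Agent.S19.HopfOrder
open scoped IntermediateField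

/-! ### A function without zeros and poles is constant -/

section Const

variable {K F : Type*} [Field K] [Field F] [Algebra K F] [IsAlgClosed K] [CharZero K]
  [Algebra.EssFiniteType K F]

/-- A function without zeros and poles is constant. -/
theorem const_of_ord_eq_zero (htr : Algebra.trdeg K F = 1) {u : F}
    (h : ∀ v : Place K F, v.ord u = 0) : ∃ c : K, algebraMap K F c = u := by
  by_contra hne
  have hu : u ∉ Set.range (algebraMap K F) := fun ⟨c, hc⟩ => hne ⟨c, hc⟩
  have htrans := Fermat.Agent.S24.FF.transcendental_of_not_mem_range hu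
  have hsum := Fermat.Agent.S24.FF.sum_ord_zeros htr htrans 0
  haveI : Module.Finite K⟮u⟯ F := Fermat.Agent.S24.FF.finite_adjoin_simple htr htrans
  have hempty : {v : Place K F | 0 < v.ord (u - algebraMap K F 0)} = ∅ := by
    ext v
    simp [h v]
  rw [hempty, finsum_mem_empty] at hsum
  have hpos : 0 < Module.finrank K⟮u⟯ F := Module.finrank_pos
  have h0 : (Module.finrank K⟮u⟯ F : ℤ) = 0 := hsum.symm
  omega

/-- Two Kummer functions of the same class differ by a constant times an `m`-th power. -/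
theorem exists_const_pow_of_mk_eq (htr : Algebra.trdeg K F = 1) {m : ℕ}
    {D D' : Divisor.degZero (K := K) (F := F)} {f f' : F} (hf : f ≠ 0) (hf' : f' ≠ 0)
    (h : ∀ v : Place K F, (m : ℤ) * (D : Divisor K F) v = v.ord f)
    (h' : ∀ v : Place K F, (m : ℤ) * (D' : Divisor K F) v = v.ord f')
    (hDD : Pic0.mk D = Pic0.mk D') :
    ∃ (c : K) (g : F), c ≠ 0 ∧ g ≠ 0 ∧ f = algebraMap K F c * g ^ m * f' := by
  obtain ⟨y, hy0, hy⟩ := (Fermat.Agent.S19.TorsionRep.mk_eq_mk_iff D D').mp hDD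
  have hym : y ^ m ≠ 0 := pow_ne_zero m hy0
  have hden : y ^ m * f' ≠ 0 := mul_ne_zero hym hf'
  obtain ⟨c, hc⟩ := const_of_ord_eq_zero htr (u := f / (y ^ m * f')) (fun v => by
    rw [div_eq_mul_inv, v.ord_mul hf (inv_ne_zero hden), Place.ord_inv, v.ord_mul hym hf',
      Fermat.Agent.S19.TorsionRep.ord_npow', ← h v, ← h' v, ← hy v]
    ring)
  have hc0 : c ≠ 0 := by
    rintro rfl
    rw [map_zero] at hc
    exact div_ne_zero hf hden hc.symm
  refine ⟨c, y, hc0, hy0, ?_⟩
  rw [hc, mul_assoc, div_mul_cancel₀ f hden]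

end Const

/-! ### The Galois action on Kummer functions -/

section GalKummer

variable {L : Type*} [Field L] [Algebra ℚ L] (F₀ : IntermediateField ℚ (LaurentSeries ℚ))

/-- The divisor of a translated Kummer function. -/
theorem ord_smul_eq {m : ℤ} (σ : L ≃ₐ[ℚ] L) {D : Divisor L (laurentBaseChange L F₀)}
    {f : laurentBaseChange L F₀}
    (h : ∀ v : Place L (laurentBaseChange L F₀), m * D v = v.ord f)
    (v : Place L (laurentBaseChange L F₀)) :
    m * (arithmeticGalois F₀ σ • D) v = v.ord (arithmeticGalois F₀ σ • f) := by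
  rw [SemilinearAut.divisor_smul_apply, h]
  have h1 := SemilinearAut.ord_smul (arithmeticGalois F₀ σ) ((arithmeticGalois F₀ σ)⁻¹ • v) f
  rw [smul_inv_smul] at h1
  exact h1.symm

/-- A class with a fixed Kummer function is fixed. -/
theorem smul_mk_eq_of_smul_eq {m : ℤ} (hm : m ≠ 0) (σ : L ≃ₐ[ℚ] L)
    {D : Divisor.degZero (K := L) (F := laurentBaseChange L F₀)} {f : laurentBaseChange L F₀}
    (h : ∀ v : Place L (laurentBaseChange L F₀),
      m * (D : Divisor L (laurentBaseChange L F₀)) v = v.ord f)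
    (hσ : arithmeticGalois F₀ σ • f = f) : σ • Pic0.mk D = Pic0.mk D := by
  rw [galois_smul_pic0_def, SemilinearAut.pic0_smul_mk]
  refine congrArg Pic0.mk (Subtype.ext ?_)
  rw [SemilinearAut.coe_degZeroSMulHom]
  ext w
  apply mul_left_cancel₀ hm
  rw [ord_smul_eq F₀ σ h w, hσ, h]

end GalKummer

/-! ### "For all sufficiently large number fields" -/

/-- `P E` holds for every intermediate field `E` of `ℚ̄ / ℚ` containing a suitable number
field. -/
def Large (P : IntermediateField ℚ Qb → Prop) : Prop :=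
  ∃ E₀ : IntermediateField ℚ Qb, FiniteDimensional ℚ E₀ ∧
    ∀ E : IntermediateField ℚ Qb, E₀ ≤ E → P E

theorem Large.mono {P Q : IntermediateField ℚ Qb → Prop} (h : Large P)
    (hPQ : ∀ E, P E → Q E) : Large Q := by
  obtain ⟨E₀, hE₀, hP⟩ := h
  exact ⟨E₀, hE₀, fun E hE => hPQ E (hP E hE)⟩

theorem Large.and {P Q : IntermediateField ℚ Qb → Prop} (hP : Large P) (hQ : Large Q) :
    Large (fun E => P E ∧ Q E) := by
  obtain ⟨E₁, hE₁, h₁⟩ := hP
  obtain ⟨E₂, hE₂, h₂⟩ := hQ
  haveI := hE₁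
  haveI := hE₂
  exact ⟨E₁ ⊔ E₂, IntermediateField.finiteDimensional_sup E₁ E₂, fun E hE =>
    ⟨h₁ E (le_trans le_sup_left hE), h₂ E (le_trans le_sup_right hE)⟩⟩

theorem large_all {P : IntermediateField ℚ Qb → Prop} (h : ∀ E, P E) : Large P :=
  ⟨⊥, inferInstance, fun E _ => h E⟩

theorem large_finset {ι : Type*} (s : Finset ι) (P : ι → IntermediateField ℚ Qb → Prop)
    (h : ∀ i ∈ s, Large (P i)) : Large (fun E => ∀ i ∈ s, P i E) := by
  classical
  induction s using Finset.induction_on with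
  | empty => exact large_all (by simp)
  | insert a s ha ih =>
    have h1 := h a (Finset.mem_insert_self a s)
    have h2 := ih (fun i hi => h i (Finset.mem_insert_of_mem hi))
    refine (h1.and h2).mono (fun E hE i hi => ?_)
    rcases Finset.mem_insert.mp hi with rfl | hi
    · exact hE.1
    · exact hE.2 i hi

theorem large_forall {ι : Type*} [Finite ι] (P : ι → IntermediateField ℚ Qb → Prop)
    (h : ∀ i, Large (P i)) : Large (fun E => ∀ i, P i E) := by
  classical
  haveI := Fintype.ofFinite ι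
  exact (large_finset Finset.univ P fun i _ => h i).mono fun E hE i => hE i (Finset.mem_univ i)

theorem large_le (E₁ : IntermediateField ℚ Qb) [FiniteDimensional ℚ E₁] :
    Large (fun E => E₁ ≤ E) :=
  ⟨E₁, inferInstance, fun _ h => h⟩

theorem large_mem (c : Qb) : Large (fun E => c ∈ E) :=
  ⟨ℚ⟮c⟯, IntermediateField.adjoin.finiteDimensional
      (GaussDescent.isAlgebraic_rat_Qb.isAlgebraic c).isIntegral,
    fun _ hE => hE (IntermediateField.mem_adjoin_simple_self ℚ c)⟩

variable (M : ℕ) [NeZero M]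

/-- Every function of level `M` over `ℚ̄` is defined over every sufficiently large number
field. -/
theorem large_descent (z : modularFunctionFieldBar M) :
    Large (fun E => ∃ y : LE M E, Fermat.Agent.S18.K1Descent.upHom M E y = z) := by
  obtain ⟨E₀, hE₀, h⟩ := GaussDescent.exists_descent (modularFunctionFieldFull M) z.2
  refine ⟨E₀, hE₀, fun E hE => ?_⟩
  obtain ⟨y, hy, hyz⟩ := h E hE
  exact ⟨⟨y, hy⟩, Subtype.ext hyz⟩

/-! ### The extension of constants `LE M E → Fb M` -/

theorem upHom_injective (E : IntermediateField ℚ Qb) :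
    Function.Injective (Fermat.Agent.S18.K1Descent.upHom M E) :=
  (Fermat.Agent.S18.K1Descent.upHom M E).injective

theorem upHom_algebraMap (E : IntermediateField ℚ Qb) (a : E) :
    Fermat.Agent.S18.K1Descent.upHom M E (algebraMap E (LE M E) a)
      = algebraMap Qb (modularFunctionFieldBar M) (a : Qb) :=
  Subtype.ext (GaussDescent.up_algebraMap E a)

theorem upHom_galE (E : IntermediateField ℚ Qb) [Normal ℚ E] (σ : Gal) (y : LE M E) :
    Fermat.Agent.S18.K1Descent.upHom M E (Fermat.Agent.S34.TrivModE.galE E M σ y)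
      = arithmeticGalois (modularFunctionFieldFull M) σ •
          Fermat.Agent.S18.K1Descent.upHom M E y :=
  Subtype.ext (Fermat.Agent.S34.TrivModE.up_galE E M σ y)

/-! ### The dictionary -/

/-- **Kummer dictionary over `E`** for `G = J₀(M)[m]`. -/
structure IsDict (m : ℕ) (E : IntermediateField ℚ Qb) [Normal ℚ E]
    (f : ↥(Submodule.torsionBy ℤ (JZero M) (m : ℤ)) → LE M E) : Prop where
  ne_zero : ∀ x : ↥(Submodule.torsionBy ℤ (JZero M) (m : ℤ)), f x ≠ 0
  div : ∀ x : ↥(Submodule.torsionBy ℤ (JZero M) (m : ℤ)),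
    ∃ D : Divisor.degZero (K := Qb) (F := modularFunctionFieldBar M),
      Pic0.mk D = (x : JZero M) ∧
        ∀ v : Place Qb (modularFunctionFieldBar M),
          (m : ℤ) * (D : Divisor Qb (modularFunctionFieldBar M)) v
            = v.ord (Fermat.Agent.S18.K1Descent.upHom M E (f x))
  add : ∀ x y : ↥(Submodule.torsionBy ℤ (JZero M) (m : ℤ)),
    ∃ (a : E) (h : LE M E), a ≠ 0 ∧ h ≠ 0 ∧
      f (x + y) = algebraMap E (LE M E) a * h ^ m * (f x * f y)
  gal : ∀ (σ : Gal) (x : ↥(Submodule.torsionBy ℤ (JZero M) (m : ℤ))),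
    ∃ (a : E) (h : LE M E), a ≠ 0 ∧ h ≠ 0 ∧
      Fermat.Agent.S34.TrivModE.galE E M σ (f x)
        = algebraMap E (LE M E) a * h ^ m * f (torsAct (m : ℤ) σ x)
  zero : ∀ x : ↥(Submodule.torsionBy ℤ (JZero M) (m : ℤ)),
    (∃ (a : E) (h : LE M E), f x = algebraMap E (LE M E) a * h ^ m) → x = 0

/-- The functions of a dictionary have divisors divisible by `m`. -/
theorem IsDict.divBy {m : ℕ} {E : IntermediateField ℚ Qb} [Normal ℚ E]
    {f : ↥(Submodule.torsionBy ℤ (JZero M) (m : ℤ)) → LE M E} (d : IsDict M m E f)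
    (x : ↥(Submodule.torsionBy ℤ (JZero M) (m : ℤ))) :
    E4.DivBy M m (Fermat.Agent.S18.K1Descent.upHom M E (f x)) := by
  obtain ⟨D, -, h⟩ := d.div x
  exact fun P => ⟨_, (h P).symm⟩

/-- **(KD) Existence of the Kummer dictionary** over every sufficiently large normal number
field. -/
theorem exists_dict (m : ℕ) (hm : 0 < m) [Finite ↥(Submodule.torsionBy ℤ (JZero M) (m : ℤ))] :
    ∃ E₀ : IntermediateField ℚ Qb, FiniteDimensional ℚ E₀ ∧
      ∀ (E : IntermediateField ℚ Qb) [Normal ℚ E], E₀ ≤ E →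
        ∃ f : ↥(Submodule.torsionBy ℤ (JZero M) (m : ℤ)) → LE M E, IsDict M m E f := by
  classical
  have hmZ : (m : ℤ) ≠ 0 := by exact_mod_cast hm.ne'
  have htr := HeckeInputs.trdeg_bar M
  -- Kummer functions over `ℚ̄`
  choose D F hD hF0 hF using fun x : ↥(Submodule.torsionBy ℤ (JZero M) (m : ℤ)) =>
    Fermat.Agent.S19.TorsionRep.exists_rep_of_mem (K := Qb) (F := modularFunctionFieldBar M)
      (m : ℤ) x
  -- a number field `E₁` over which all `F x` are defined
  obtain ⟨E₁, hE₁fd, hE₁⟩ := large_forall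
    (fun (x : ↥(Submodule.torsionBy ℤ (JZero M) (m : ℤ))) E =>
      ∃ y : LE M E, Fermat.Agent.S18.K1Descent.upHom M E y = F x)
    (fun x => large_descent M (F x))
  haveI := hE₁fd
  choose y₁ hy₁ using hE₁ E₁ le_rfl
  -- automorphisms fixing `E₁` fix the `F x` and the points
  have hfixF : ∀ τ : Gal, (∀ e ∈ E₁, τ e = e) → ∀ x,
      arithmeticGalois (modularFunctionFieldFull M) τ • F x = F x := by
    intro τ hτ x
    rw [← hy₁ x]
    apply Subtype.ext
    show coeffMap ((τ : Qb ≃ₐ[ℚ] Qb) : Qb →+* Qb)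
        (coeffMap (algebraMap E₁ Qb) ((y₁ x : LE M E₁) : LaurentSeries E₁))
      = coeffMap (algebraMap E₁ Qb) ((y₁ x : LE M E₁) : LaurentSeries E₁)
    have hcomp : ((τ : Qb ≃ₐ[ℚ] Qb) : Qb →+* Qb).comp (algebraMap E₁ Qb) = algebraMap E₁ Qb :=
      RingHom.ext fun e => hτ (e : Qb) e.2
    rw [coeffMap_coeffMap, coeffMap_congr hcomp]
  have hfixx : ∀ τ : Gal, (∀ e ∈ E₁, τ e = e) →
      ∀ x : ↥(Submodule.torsionBy ℤ (JZero M) (m : ℤ)), τ • (x : JZero M) = (x : JZero M) := by
    intro τ hτ x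
    rw [← hD x]
    exact smul_mk_eq_of_smul_eq (modularFunctionFieldFull M) hmZ τ (hF x) (hfixF τ hτ x)
  -- representatives of the restrictions to `E₁`
  let res : Gal → (E₁ →ₐ[ℚ] Qb) := fun σ => (σ : Qb →ₐ[ℚ] Qb).comp E₁.val
  let sec : (E₁ →ₐ[ℚ] Qb) → Gal := fun ι => if h : ∃ τ : Gal, res τ = ι then h.choose else 1
  have hsec : ∀ σ : Gal, res (sec (res σ)) = res σ := by
    intro σ
    have h : ∃ τ : Gal, res τ = res σ := ⟨σ, rfl⟩
    show res (if h : ∃ τ : Gal, res τ = res σ then h.choose else 1) = res σ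
    rw [dif_pos h]
    exact h.choose_spec
  have hrep : ∀ σ : Gal, ∀ e ∈ E₁, ((sec (res σ))⁻¹ * σ) e = e := by
    intro σ e he
    have h1 : sec (res σ) e = σ e := congrArg (fun φ : E₁ →ₐ[ℚ] Qb => φ ⟨e, he⟩) (hsec σ)
    show (sec (res σ)).symm (σ e) = e
    rw [← h1]
    exact (sec (res σ)).symm_apply_apply e
  have hdec : ∀ σ : Gal, σ = sec (res σ) * ((sec (res σ))⁻¹ * σ) := fun σ =>
    (mul_inv_cancel_left _ _).symm
  -- the relations over `ℚ̄`
  have hR2 : ∀ x y : ↥(Submodule.torsionBy ℤ (JZero M) (m : ℤ)),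
      ∃ (c : Qb) (g : modularFunctionFieldBar M), c ≠ 0 ∧ g ≠ 0 ∧
        F (x + y) = algebraMap Qb (modularFunctionFieldBar M) c * g ^ m * (F x * F y) := by
    intro x y
    refine exists_const_pow_of_mk_eq htr (D := D (x + y)) (D' := D x + D y) (hF0 (x + y))
      (mul_ne_zero (hF0 x) (hF0 y)) (hF (x + y)) (fun v => ?_) ?_
    · rw [AddSubgroup.coe_add, Finsupp.add_apply, mul_add, hF x v, hF y v,
        v.ord_mul (hF0 x) (hF0 y)]
    · rw [Pic0.mk_add, hD, hD, hD]
      rfl
  have hR4 : ∀ (ι : E₁ →ₐ[ℚ] Qb) (x : ↥(Submodule.torsionBy ℤ (JZero M) (m : ℤ))),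
      ∃ (c : Qb) (g : modularFunctionFieldBar M), c ≠ 0 ∧ g ≠ 0 ∧
        arithmeticGalois (modularFunctionFieldFull M) (sec ι) • F x
          = algebraMap Qb (modularFunctionFieldBar M) c * g ^ m
            * F (torsAct (m : ℤ) (sec ι) x) := by
    intro ι x
    refine exists_const_pow_of_mk_eq htr
      (D := SemilinearAut.degZeroSMulHom (arithmeticGalois (modularFunctionFieldFull M) (sec ι))
        (D x))
      (D' := D (torsAct (m : ℤ) (sec ι) x)) ?_ (hF0 _) (fun v => ?_) (hF _) ?_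
    · rw [SemilinearAut.smul_def]
      exact (RingEquiv.map_ne_zero_iff _).mpr (hF0 x)
    · rw [SemilinearAut.coe_degZeroSMulHom]
      exact ord_smul_eq (modularFunctionFieldFull M) (sec ι) (hF x) v
    · rw [← SemilinearAut.pic0_smul_mk, ← galois_smul_pic0_def, hD, hD]
      rfl
  choose c2 g2 hc2 hg2 h2 using hR2
  choose c4 g4 hc4 hg4 h4 using hR4
  haveI : Finite (E₁ →ₐ[ℚ] Qb) := inferInstance
  -- descent of all the data
  have hL : Large (fun E => E₁ ≤ E ∧
      (∀ x : ↥(Submodule.torsionBy ℤ (JZero M) (m : ℤ)),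
        ∃ y : LE M E, Fermat.Agent.S18.K1Descent.upHom M E y = F x) ∧
      (∀ x y : ↥(Submodule.torsionBy ℤ (JZero M) (m : ℤ)),
        c2 x y ∈ E ∧ ∃ h : LE M E, Fermat.Agent.S18.K1Descent.upHom M E h = g2 x y) ∧
      (∀ (ι : E₁ →ₐ[ℚ] Qb) (x : ↥(Submodule.torsionBy ℤ (JZero M) (m : ℤ))),
        c4 ι x ∈ E ∧ ∃ h : LE M E, Fermat.Agent.S18.K1Descent.upHom M E h = g4 ι x)) :=
    (large_le E₁).and ((large_forall _ fun x => large_descent M (F x)).and
      ((large_forall _ fun x => large_forall _ fun y =>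
          (large_mem (c2 x y)).and (large_descent M (g2 x y))).and
        (large_forall _ fun ι => large_forall _ fun x =>
          (large_mem (c4 ι x)).and (large_descent M (g4 ι x)))))
  obtain ⟨E₀, hE₀fd, hE₀⟩ := hL
  refine ⟨E₀, hE₀fd, fun E _ hE => ?_⟩
  obtain ⟨hE₁E, hdF, hd2, hd4⟩ := hE₀ E hE
  choose f hf using hdF
  refine ⟨f, ⟨?_, ?_, ?_, ?_, ?_⟩⟩
  · -- ne_zero
    intro x h0
    apply hF0 x
    rw [← hf x, h0, map_zero]
  · -- div
    intro x
    exact ⟨D x, hD x, fun v => by rw [hf x]; exact hF x v⟩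
  · -- add
    intro x y
    obtain ⟨hc, h, hh⟩ := hd2 x y
    refine ⟨⟨c2 x y, hc⟩, h, ?_, ?_, ?_⟩
    · intro h0
      exact hc2 x y (congrArg Subtype.val h0)
    · rintro rfl
      apply hg2 x y
      rw [← hh, map_zero]
    · apply upHom_injective M E
      rw [map_mul, map_mul, map_pow, map_mul, upHom_algebraMap, hh, hf, hf, hf]
      exact h2 x y
  · -- gal
    intro σ x
    obtain ⟨hc, h, hh⟩ := hd4 (res σ) x
    have hτ := hrep σ
    have e1 : arithmeticGalois (modularFunctionFieldFull M) σ • F x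
        = arithmeticGalois (modularFunctionFieldFull M) (sec (res σ)) • F x := by
      conv_lhs => rw [hdec σ, map_mul, mul_smul, hfixF _ hτ x]
    have e2 : torsAct (m : ℤ) σ x = torsAct (m : ℤ) (sec (res σ)) x := by
      apply Subtype.ext
      show σ • (x : JZero M) = sec (res σ) • (x : JZero M)
      conv_lhs => rw [hdec σ, mul_smul, hfixx _ hτ x]
    refine ⟨⟨c4 (res σ) x, hc⟩, h, ?_, ?_, ?_⟩
    · intro h0
      exact hc4 (res σ) x (congrArg Subtype.val h0)
    · rintro rfl
      apply hg4 (res σ) x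
      rw [← hh, map_zero]
    · apply upHom_injective M E
      rw [upHom_galE, hf, e1, map_mul, map_mul, map_pow, upHom_algebraMap, hh, hf, e2]
      exact h4 (res σ) x
  · -- zero
    rintro x ⟨a, h, hah⟩
    have h1 : F x = algebraMap Qb (modularFunctionFieldBar M) (a : Qb)
        * (Fermat.Agent.S18.K1Descent.upHom M E h) ^ m := by
      rw [← hf x, hah, map_mul, map_pow, upHom_algebraMap]
    obtain ⟨b, hb⟩ := IsAlgClosed.exists_pow_nat_eq (a : Qb) hm
    have h2' : F x = (algebraMap Qb (modularFunctionFieldBar M) b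
        * Fermat.Agent.S18.K1Descent.upHom M E h) ^ m := by
      rw [mul_pow, ← map_pow, hb, h1]
    have h3 := Fermat.Agent.S19.TorsionRep.mk_eq_zero_of_pow hm.ne' (hF0 x) (hF x) h2'
    apply Subtype.ext
    rw [← hD x, h3]
    rfl

/-! ### The exit literal (FG review row 15) -/

/-- The coefficientwise action of `σ|_E` on the level-`M` function field over `E`
(`= TrivModE.galE E M σ y`). -/
def galE (M : ℕ) (E : IntermediateField ℚ Qb) [Normal ℚ E] (σ : Gal) (y : LE M E) : LE M E :=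
  arithmeticGalois (modularFunctionFieldFull M) (σ.restrictNormal E) • y

theorem galE_eq (E : IntermediateField ℚ Qb) [Normal ℚ E] (σ : Gal) (y : LE M E) :
    galE M E σ y = Fermat.Agent.S34.TrivModE.galE E M σ y := rfl

/-- **Kummer system over `E`** for `G = J₀(M)[n]`, `n = m` (the index `n : ℤ` is kept separate so
that the carrier is literally the contract's `↥(Submodule.torsionBy ℤ (JZero M) ((ℓ : ℤ) ^ k))`). -/
structure IsKummerSystem (M : ℕ) [NeZero M] (n : ℤ) (m : ℕ) (E : IntermediateField ℚ Qb)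
    [Normal ℚ E] (f : ↥(Submodule.torsionBy ℤ (JZero M) n) → LE M E) : Prop where
  ne_zero : ∀ x : ↥(Submodule.torsionBy ℤ (JZero M) n), f x ≠ 0
  rep : ∀ x : ↥(Submodule.torsionBy ℤ (JZero M) n),
    ∃ D : Divisor.degZero (K := Qb) (F := modularFunctionFieldBar M),
      Pic0.mk D = (x : JZero M) ∧
        ∀ v : Place Qb (modularFunctionFieldBar M),
          n * (D : Divisor Qb (modularFunctionFieldBar M)) v
            = v.ord (Fermat.Agent.S18.K1Descent.upHom M E (f x))
  dvd_ord : ∀ (x : ↥(Submodule.torsionBy ℤ (JZero M) n)) (P : Place E (LE M E)),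
    (m : ℤ) ∣ P.ord (f x)
  add : ∀ x y : ↥(Submodule.torsionBy ℤ (JZero M) n),
    ∃ (c : E) (h : LE M E), c ≠ 0 ∧ h ≠ 0 ∧
      f (x + y) = algebraMap E (LE M E) c * h ^ m * (f x * f y)
  gal : ∀ (σ : Gal) (x : ↥(Submodule.torsionBy ℤ (JZero M) n)),
    ∃ (c : E) (h : LE M E), c ≠ 0 ∧ h ≠ 0 ∧
      galE M E σ (f x) = algebraMap E (LE M E) c * h ^ m * f (torsAct n σ x)
  triv : ∀ (x : ↥(Submodule.torsionBy ℤ (JZero M) n)) (c : E) (h : LE M E),
    f x = algebraMap E (LE M E) c * h ^ m → x = 0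

/-- The orders at the `E`-level places of the functions of a dictionary are divisible by `m`. -/
theorem IsDict.dvd_ord {m : ℕ} {E : IntermediateField ℚ Qb} [FiniteDimensional ℚ E] [Normal ℚ E]
    {f : ↥(Submodule.torsionBy ℤ (JZero M) (m : ℤ)) → LE M E} (d : IsDict M m E f)
    (x : ↥(Submodule.torsionBy ℤ (JZero M) (m : ℤ))) (P : Place E (LE M E)) :
    (m : ℤ) ∣ P.ord (f x) := by
  obtain ⟨Pb, hPb⟩ := Fermat.Agent.S18.K1Descent.placeDescent M E P
  obtain ⟨D, -, hD⟩ := d.div x
  have h1 := hPb ((f x : LE M E) : LaurentSeries E) (f x).2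
  have h2 : P.ord (f x) = Pb.ord (Fermat.Agent.S18.K1Descent.upHom M E (f x)) := h1.symm
  rw [h2, ← hD Pb]
  exact dvd_mul_right _ _

/-- **(KD) Existence of a Kummer system** over every sufficiently large normal number field. -/
theorem exists_kummerSystem (M : ℕ) [NeZero M] {n : ℤ} {m : ℕ} (hm : 0 < m) (hmn : (m : ℤ) = n)
    [Finite ↥(Submodule.torsionBy ℤ (JZero M) n)] :
    ∃ E₁ : IntermediateField ℚ Qb, FiniteDimensional ℚ E₁ ∧
      ∀ (E : IntermediateField ℚ Qb) [FiniteDimensional ℚ E] [Normal ℚ E], E₁ ≤ E →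
        ∃ f : ↥(Submodule.torsionBy ℤ (JZero M) n) → LE M E, IsKummerSystem M n m E f := by
  subst hmn
  obtain ⟨E₀, hE₀, h⟩ := exists_dict M m hm
  refine ⟨E₀, hE₀, fun E _ _ hE => ?_⟩
  obtain ⟨f, d⟩ := h E hE
  exact ⟨f, ⟨d.ne_zero, d.div, d.dvd_ord M, d.add, d.gal, fun x c h hx => d.zero x ⟨c, h, hx⟩⟩⟩

end Fermat.Agent.S19.Cech.KummerDict

end
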