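import Mathlib
import Fermat.Agent.S19.Cech.KummerDict

set_option autoImplicit false
set_option linter.dupNamespace false
set_option linter.unusedSectionVars false

/-!
# S19 (FG), GEOM brick (KD), second file: the Kummer classes `[x]_E`

On top of `Cech/KummerDict` (`IsKummerSystem M n m E f`, `galE`).  For a Kummer system `f` the
class of `x ∈ G = J₀(M)[n]` is

  `cls m f x = {c · h ^ m · f x | c ∈ E^×, h ∈ F_E^×} ⊆ F_E`.

* `self_mem_cls`, `smul_mem_cls` : `f x ∈ [x]`, and `[x]` is stable under `E^× (F_E^×)^m`;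
* `exists_eq_of_mem_cls` **(K3)** : two elements of a class differ by `E^× (F_E^×)^m`;
* `dvd_ord_of_mem`, `rep_of_mem` **(K1)** : every element `g` of `[x]` has
  `m ∣ ord_P g` at the places of `F_E / E`, and `div g = n • D` over `ℚ̄` with `[D] = x`;
* `mul_mem_cls` **(K2)**, `inv_mem_cls`, `one_mem_cls_zero`, `f_zero`;
* `galE_mem_cls` **(K4)** : `σ [x] ⊆ [σ x]` for all `σ ∈ Gal(ℚ̄/ℚ)`;
* `eq_zero_of_mem_cls` **(K5)**, `mem_cls_zero_iff`, `eq_of_mem_cls`
  (distinct classes are disjoint);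
* the action `galE`: `galE_mul`, `galE_pow`, `galE_algebraMap`, `galE_ne_zero`, `galE_one`,
  `galE_comp`, `galE_of_mem_fixingSubgroup`.
-/

noncomputable section

namespace Fermat.Agent.S19.Cech.KummerClass

open ModularCurve AlgebraicCurve HahnSeries IntermediateField
open Fermat.Agent.S19.HopfOrder
open Fermat.Agent.S18.K1Defs Fermat.Agent.S18 Fermat.Agent.S19 Fermat.Agent.S30
open Fermat.Agent.S19.Cech.KummerDict

local notation "Fb" => modularFunctionFieldBar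

variable (M : ℕ) [NeZero M]

/-! ### The action `galE` -/

section GalE

variable (E : IntermediateField ℚ Qb) [Normal ℚ E]

theorem galE_mul (σ : Gal) (a b : LE M E) :
    galE M E σ (a * b) = galE M E σ a * galE M E σ b :=
  smul_mul' _ a b

theorem galE_pow (σ : Gal) (a : LE M E) (k : ℕ) : galE M E σ (a ^ k) = galE M E σ a ^ k :=
  smul_pow' _ a k

theorem galE_algebraMap (σ : Gal) (c : E) :
    galE M E σ (algebraMap E (LE M E) c) = algebraMap E (LE M E) (σ.restrictNormal E c) :=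
  SemilinearAut.smul_algebraMap _ c

theorem galE_ne_zero (σ : Gal) {a : LE M E} (h : a ≠ 0) : galE M E σ a ≠ 0 :=
  (smul_ne_zero_iff_ne _).mpr h

theorem galE_one (a : LE M E) : galE M E 1 a = a := by
  have h : (1 : Gal).restrictNormal E = 1 := map_one (AlgEquiv.restrictNormalHom E)
  unfold galE
  rw [h, map_one, one_smul]

theorem galE_comp (σ τ : Gal) (a : LE M E) :
    galE M E (σ * τ) a = galE M E σ (galE M E τ a) := by
  have h : (σ * τ).restrictNormal E = σ.restrictNormal E * τ.restrictNormal E :=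
    map_mul (AlgEquiv.restrictNormalHom E) σ τ
  unfold galE
  rw [h, map_mul, mul_smul]

theorem galE_of_mem_fixingSubgroup {σ : Gal} (hσ : σ ∈ E.fixingSubgroup) (a : LE M E) :
    galE M E σ a = a := by
  have h : σ.restrictNormal E = 1 := by
    ext e
    exact (AlgEquiv.restrictNormal_commutes σ E e).trans
      ((IntermediateField.mem_fixingSubgroup_iff E σ).mp hσ e e.2)
  unfold galE
  rw [h, map_one, one_smul]

end GalE

/-! ### The classes `[x]_E` -/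

section Classes

variable {M}
variable {n : ℤ} {m : ℕ} {E : IntermediateField ℚ Qb} [Normal ℚ E]
  {f : ↥(Submodule.torsionBy ℤ (JZero M) n) → LE M E}

/-- The class `[x]_E = E^× (F_E^×)^m · f x ⊆ F_E`. -/
def cls (m : ℕ) (f : ↥(Submodule.torsionBy ℤ (JZero M) n) → LE M E)
    (x : ↥(Submodule.torsionBy ℤ (JZero M) n)) : Set (LE M E) :=
  {g | ∃ (c : E) (h : LE M E), c ≠ 0 ∧ h ≠ 0 ∧ g = algebraMap E (LE M E) c * h ^ m * f x}

theorem self_mem_cls (x : ↥(Submodule.torsionBy ℤ (JZero M) n)) : f x ∈ cls m f x :=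
  ⟨1, 1, one_ne_zero, one_ne_zero, by rw [map_one, one_pow, one_mul, one_mul]⟩

/-- The classes are stable under `E^× (F_E^×)^m`. -/
theorem smul_mem_cls {x : ↥(Submodule.torsionBy ℤ (JZero M) n)} {g : LE M E}
    (hg : g ∈ cls m f x) {c : E} (hc : c ≠ 0) {h : LE M E} (hh : h ≠ 0) :
    algebraMap E (LE M E) c * h ^ m * g ∈ cls m f x := by
  obtain ⟨c', h', hc', hh', rfl⟩ := hg
  refine ⟨c * c', h * h', mul_ne_zero hc hc', mul_ne_zero hh hh', ?_⟩
  rw [map_mul, mul_pow]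
  ring

/-- **(K3)** two elements of a class differ by `E^× (F_E^×)^m`. -/
theorem exists_eq_of_mem_cls
    {x : ↥(Submodule.torsionBy ℤ (JZero M) n)} {g g' : LE M E}
    (hg : g ∈ cls m f x) (hg' : g' ∈ cls m f x) :
    ∃ (c : E) (h : LE M E), c ≠ 0 ∧ h ≠ 0 ∧ g' = algebraMap E (LE M E) c * h ^ m * g := by
  obtain ⟨c, h, hc, hh, rfl⟩ := hg
  obtain ⟨c', h', hc', hh', rfl⟩ := hg'
  have hc1 : algebraMap E (LE M E) c ≠ 0 := (map_ne_zero _).mpr hc
  refine ⟨c' * c⁻¹, h' * h⁻¹, mul_ne_zero hc' (inv_ne_zero hc), mul_ne_zero hh' (inv_ne_zero hh),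
    ?_⟩
  rw [map_mul, map_inv₀, mul_pow, inv_pow]
  field_simp

theorem ne_zero_of_mem (hf : IsKummerSystem M n m E f)
    {x : ↥(Submodule.torsionBy ℤ (JZero M) n)} {g : LE M E} (hg : g ∈ cls m f x) : g ≠ 0 := by
  obtain ⟨c, h, hc, hh, rfl⟩ := hg
  exact mul_ne_zero (mul_ne_zero ((map_ne_zero _).mpr hc) (pow_ne_zero m hh)) (hf.ne_zero x)

/-- **(K1)**, `E`-level places. -/
theorem dvd_ord_of_mem (hf : IsKummerSystem M n m E f)
    {x : ↥(Submodule.torsionBy ℤ (JZero M) n)} {g : LE M E} (hg : g ∈ cls m f x)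
    (P : Place E (LE M E)) : (m : ℤ) ∣ P.ord g := by
  obtain ⟨c, h, hc, hh, rfl⟩ := hg
  rw [P.ord_mul (mul_ne_zero ((map_ne_zero _).mpr hc) (pow_ne_zero m hh)) (hf.ne_zero x),
    P.ord_mul ((map_ne_zero _).mpr hc) (pow_ne_zero m hh), Fermat.Agent.S24.FF.ord_algebraMap,
    zero_add, TorsionRep.ord_npow']
  exact dvd_add (dvd_mul_right _ _) (hf.dvd_ord x P)

/-- **(K1)**, over `ℚ̄`: the divisor of an element of `[x]_E` is `n` times a divisor of
class `x`. -/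
theorem rep_of_mem (hf : IsKummerSystem M n m E f) (hmn : (m : ℤ) = n)
    {x : ↥(Submodule.torsionBy ℤ (JZero M) n)} {g : LE M E} (hg : g ∈ cls m f x) :
    ∃ D : Divisor.degZero (K := Qb) (F := Fb M), Pic0.mk D = (x : JZero M) ∧
      ∀ v : Place Qb (Fb M), n * (D : Divisor Qb (Fb M)) v = v.ord (K1Descent.upHom M E g) := by
  obtain ⟨c, h, hc, hh, rfl⟩ := hg
  obtain ⟨D, hDx, hD⟩ := hf.rep x
  have hPD := HeckeInputs.hasPrincipalDivisors_bar M
  have hh' : K1Descent.upHom M E h ≠ 0 := (map_ne_zero _).mpr hh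
  have hc' : K1Descent.upHom M E (algebraMap E (LE M E) c) ≠ 0 :=
    (map_ne_zero _).mpr ((map_ne_zero _).mpr hc)
  have hf' : K1Descent.upHom M E (f x) ≠ 0 := (map_ne_zero _).mpr (hf.ne_zero x)
  obtain ⟨Dh, hDh, hdeg⟩ := HasPrincipalDivisors.exists_divisor (K := Qb) _ hh'
  let Dh' : Divisor.degZero (K := Qb) (F := Fb M) := ⟨Dh, hdeg⟩
  have h0 : Pic0.mk Dh' = 0 :=
    (TorsionRep.mk_eq_zero_iff Dh').mpr ⟨_, hh', hDh⟩
  refine ⟨D + Dh', ?_, fun v => ?_⟩
  · rw [Pic0.mk_add, h0, add_zero, hDx]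
  · rw [AddSubgroup.coe_add, Finsupp.add_apply, mul_add, hD v, map_mul, map_mul, map_pow,
      v.ord_mul (mul_ne_zero hc' (pow_ne_zero m hh')) hf',
      v.ord_mul hc' (pow_ne_zero m hh'), upHom_algebraMap, Fermat.Agent.S24.FF.ord_algebraMap,
      zero_add, TorsionRep.ord_npow', ← hmn]
    have e1 : (Dh' : Divisor Qb (Fb M)) v = v.ord (K1Descent.upHom M E h) := hDh v
    rw [e1]
    ring

/-- `f 0` is a constant times an `m`-th power. -/
theorem f_zero (hf : IsKummerSystem M n m E f) :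
    ∃ (c : E) (h : LE M E), c ≠ 0 ∧ h ≠ 0 ∧ f 0 = algebraMap E (LE M E) c * h ^ m := by
  obtain ⟨c, h, hc, hh, he⟩ := hf.add 0 0
  rw [add_zero] at he
  have hc1 : algebraMap E (LE M E) c ≠ 0 := (map_ne_zero _).mpr hc
  have hf0 := hf.ne_zero 0
  refine ⟨c⁻¹, h⁻¹, inv_ne_zero hc, inv_ne_zero hh, ?_⟩
  have h1 : algebraMap E (LE M E) c * h ^ m * f 0 = 1 := by
    have h2 : f 0 * (algebraMap E (LE M E) c * h ^ m * f 0) = f 0 * 1 := by
      rw [mul_one]
      conv_rhs => rw [he]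
      ring
    exact mul_left_cancel₀ hf0 h2
  rw [map_inv₀, inv_pow, ← mul_inv]
  exact eq_inv_of_mul_eq_one_right h1

/-- **(K2)** `[x]_E [y]_E ⊆ [x + y]_E`. -/
theorem mul_mem_cls (hf : IsKummerSystem M n m E f)
    {x y : ↥(Submodule.torsionBy ℤ (JZero M) n)} {g g' : LE M E}
    (hg : g ∈ cls m f x) (hg' : g' ∈ cls m f y) : g * g' ∈ cls m f (x + y) := by
  obtain ⟨c, h, hc, hh, rfl⟩ := hg
  obtain ⟨c', h', hc', hh', rfl⟩ := hg'
  obtain ⟨c₀, h₀, hc₀, hh₀, he⟩ := hf.add x y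
  have hc1 : algebraMap E (LE M E) c₀ ≠ 0 := (map_ne_zero _).mpr hc₀
  refine ⟨c * c' * c₀⁻¹, h * h' * h₀⁻¹,
    mul_ne_zero (mul_ne_zero hc hc') (inv_ne_zero hc₀),
    mul_ne_zero (mul_ne_zero hh hh') (inv_ne_zero hh₀), ?_⟩
  rw [he, map_mul, map_mul, map_inv₀, mul_pow, mul_pow, inv_pow]
  field_simp

/-- **(K5)** a constant times an `m`-th power lies in `[x]_E` only for `x = 0`. -/
theorem eq_zero_of_mem_cls (hf : IsKummerSystem M n m E f)
    {x : ↥(Submodule.torsionBy ℤ (JZero M) n)} {c : E} {h : LE M E}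
    (hmem : algebraMap E (LE M E) c * h ^ m ∈ cls m f x) : x = 0 := by
  obtain ⟨c', h', hc', hh', he⟩ := hmem
  have hc1 : algebraMap E (LE M E) c' ≠ 0 := (map_ne_zero _).mpr hc'
  refine hf.triv x (c * c'⁻¹) (h * h'⁻¹) ?_
  rw [map_mul, map_inv₀, mul_pow, inv_pow]
  have h2 : f x = (algebraMap E (LE M E) c' * h' ^ m)⁻¹ * (algebraMap E (LE M E) c * h ^ m) := by
    rw [he]
    field_simp
  rw [h2]
  field_simp

/-- The class of `0` is `E^× (F_E^×)^m`. -/
theorem mem_cls_zero_iff (hf : IsKummerSystem M n m E f) {g : LE M E} :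
    g ∈ cls m f 0 ↔ ∃ (c : E) (h : LE M E), c ≠ 0 ∧ h ≠ 0 ∧ g = algebraMap E (LE M E) c * h ^ m := by
  obtain ⟨c₀, h₀, hc₀, hh₀, he⟩ := f_zero hf
  have hc1 : algebraMap E (LE M E) c₀ ≠ 0 := (map_ne_zero _).mpr hc₀
  constructor
  · rintro ⟨c, h, hc, hh, rfl⟩
    refine ⟨c * c₀, h * h₀, mul_ne_zero hc hc₀, mul_ne_zero hh hh₀, ?_⟩
    rw [he, map_mul, mul_pow]
    ring
  · rintro ⟨c, h, hc, hh, rfl⟩
    refine ⟨c * c₀⁻¹, h * h₀⁻¹, mul_ne_zero hc (inv_ne_zero hc₀),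
      mul_ne_zero hh (inv_ne_zero hh₀), ?_⟩
    rw [he, map_mul, map_inv₀, mul_pow, inv_pow]
    field_simp

theorem one_mem_cls_zero (hf : IsKummerSystem M n m E f) :
    (1 : LE M E) ∈ cls m f 0 :=
  (mem_cls_zero_iff hf).mpr ⟨1, 1, one_ne_zero, one_ne_zero, by rw [map_one, one_pow, one_mul]⟩

/-- `[x]_E⁻¹ ⊆ [-x]_E`. -/
theorem inv_mem_cls (hf : IsKummerSystem M n m E f)
    {x : ↥(Submodule.torsionBy ℤ (JZero M) n)} {g : LE M E} (hg : g ∈ cls m f x) :
    g⁻¹ ∈ cls m f (-x) := by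
  have hg0 := ne_zero_of_mem hf hg
  have h1 : g * f (-x) ∈ cls m f 0 := by
    have := mul_mem_cls hf hg (self_mem_cls (m := m) (f := f) (-x))
    rwa [add_neg_cancel] at this
  obtain ⟨c, h, hc, hh, he⟩ := (mem_cls_zero_iff hf).mp h1
  have hc1 : algebraMap E (LE M E) c ≠ 0 := (map_ne_zero _).mpr hc
  have hfx := hf.ne_zero (-x)
  refine ⟨c⁻¹, h⁻¹, inv_ne_zero hc, inv_ne_zero hh, ?_⟩
  rw [map_inv₀, inv_pow, ← mul_inv, ← he]
  field_simp

/-- Distinct classes are disjoint. -/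
theorem eq_of_mem_cls (hf : IsKummerSystem M n m E f)
    {x y : ↥(Submodule.torsionBy ℤ (JZero M) n)} {g : LE M E}
    (hx : g ∈ cls m f x) (hy : g ∈ cls m f y) : x = y := by
  have hg0 := ne_zero_of_mem hf hx
  have h1 := mul_mem_cls hf hx (inv_mem_cls hf hy)
  rw [mul_inv_cancel₀ hg0] at h1
  have h2 : (1 : LE M E) = algebraMap E (LE M E) 1 * 1 ^ m := by
    rw [map_one, one_pow, one_mul]
  rw [h2] at h1
  have h3 := eq_zero_of_mem_cls hf h1
  rwa [← sub_eq_add_neg, sub_eq_zero] at h3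

/-- **(K4)** `σ [x]_E ⊆ [σ x]_E`. -/
theorem galE_mem_cls (hf : IsKummerSystem M n m E f) (σ : Gal)
    {x : ↥(Submodule.torsionBy ℤ (JZero M) n)} {g : LE M E} (hg : g ∈ cls m f x) :
    galE M E σ g ∈ cls m f (torsAct n σ x) := by
  obtain ⟨c, h, hc, hh, rfl⟩ := hg
  obtain ⟨c₀, h₀, hc₀, hh₀, he⟩ := hf.gal σ x
  refine ⟨σ.restrictNormal E c * c₀, galE M E σ h * h₀,
    mul_ne_zero ((map_ne_zero _).mpr hc) hc₀, mul_ne_zero (galE_ne_zero M E σ hh) hh₀, ?_⟩
  rw [galE_mul, galE_mul, galE_pow, galE_algebraMap, he, map_mul, mul_pow]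
  ring

end Classes

end Fermat.Agent.S19.Cech.KummerClass

end
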