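import Mathlib
import Fermat.Agent.S19.Cech.KummerDict
import Fermat.Agent.S19.Cech.KummerClass
import Fermat.Agent.S19.Cech.GaussNorm

set_option autoImplicit false
set_option linter.dupNamespace false
set_option linter.unusedSectionVars false
set_option synthInstance.maxHeartbeats 200000

/-!
# S19 (FG), Route C, brick (KD), third file: the subgroup `G0` and the normalised Kummer family

On top of `Cech/KummerDict` (`IsKummerSystem M n m E f`), `Cech/KummerClass` (the classes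
`cls m f x = E^× (F_E^×)^m f x`) and `Cech/GaussNorm` (normalisation in the Gauss ring).

Setting: `A` a valuation subring of `ℚ̄`, `E ⊆ ℚ̄` normal over `ℚ` with `O_E = A ∩ E` a discrete
valuation ring, `V = GaussDVR.V O_E E ⊆ E((q))` the Gauss ring with reduction
`red : V → k((q))`, `d : IsKummerSystem M n m E f`, `G = J₀(M)[n]`.

* `GUnit A g` / `GOne A g` : `g ∈ LE M E` lies in `V` and `red g ≠ 0` / `red g = 1`;
* `act_eq_of_mem_fixingSubgroup` **(hlev)** : `Gal(ℚ̄ / E)` acts trivially on `G`;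
* `G0 A d` : the subgroup of the classes containing a function `≡ 1`;
  `sub_mem_G0` **(hG0)** : `σ x - x ∈ G0` for `σ` in the inertia group of `A`;
* `norm_const_pow` **(N)** : `c * h ^ m ≡ 1` is `a * v ^ m` with `a ∈ O_E^×` and `v ≡ 1`;
* `IsNormFamily A d F`, `exists_normFamily` : a family `F : G → LE M E` of Kummer functions
  which are Gauss units, `≡ 1` on `G0`; `IsNormFamily.hom` / `.eqv` / `.peq` (the relations
  `F (x + y) = a * v ^ m * (F x * F y)`, `σ (F x) = a * v ^ m * F (σ x)`,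
  `σ (F x) = a * v ^ m * (F x * F (σ x - x))`), `.inj`, `.dvd_ord`;
* `exists_normalised_system` : everything in one statement, for every sufficiently large `E`.
-/

noncomputable section

namespace Fermat.Agent.S19.Cech.KummerG0

open ModularCurve AlgebraicCurve HahnSeries IntermediateField
open Fermat.Agent.S18.K1Defs Fermat.Agent.S30
open Fermat.Agent.S19.HopfOrder Fermat.Agent.S19.Cech.KummerDict
open Fermat.Agent.S19.Cech.KummerClass

section Level

variable {M : ℕ} [NeZero M] {n : ℤ} {m : ℕ} {E : IntermediateField ℚ Qb} [Normal ℚ E]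
  {f : ↥(Submodule.torsionBy ℤ (JZero M) n) → LE M E}

/-! ### (G2) The level: `Gal(ℚ̄ / E)` acts trivially -/

/-- **(hlev)** The absolute Galois group of `E` fixes the torsion points. -/
theorem act_eq_of_mem_fixingSubgroup (d : IsKummerSystem M n m E f) (hn : n ≠ 0) (σ : Gal)
    (hσ : σ ∈ E.fixingSubgroup) (x : ↥(Submodule.torsionBy ℤ (JZero M) n)) :
    torsAct n σ x = x := by
  obtain ⟨D, hD, hF⟩ := d.rep x
  apply Subtype.ext
  show σ • (x : JZero M) = (x : JZero M)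
  rw [← hD]
  refine smul_mk_eq_of_smul_eq (modularFunctionFieldFull M) hn σ hF ?_
  apply Subtype.ext
  show coeffMap ((σ : Qb ≃ₐ[ℚ] Qb) : Qb →+* Qb)
      (coeffMap (algebraMap E Qb) ((f x : LE M E) : LaurentSeries E))
    = coeffMap (algebraMap E Qb) ((f x : LE M E) : LaurentSeries E)
  have hcomp : ((σ : Qb ≃ₐ[ℚ] Qb) : Qb →+* Qb).comp (algebraMap E Qb) = algebraMap E Qb :=
    RingHom.ext fun e => (IntermediateField.mem_fixingSubgroup_iff E σ).mp hσ (e : Qb) e.2
  rw [coeffMap_coeffMap, coeffMap_congr hcomp]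

/-- Quotients of Kummer functions: `[x]_E / [y]_E ⊆ [x - y]_E`. -/
theorem div_mem_cls (d : IsKummerSystem M n m E f)
    {x y : ↥(Submodule.torsionBy ℤ (JZero M) n)} {g g' : LE M E}
    (hg : g ∈ cls m f x) (hg' : g' ∈ cls m f y) : g / g' ∈ cls m f (x - y) := by
  have h := mul_mem_cls d hg (inv_mem_cls d hg')
  rwa [← div_eq_mul_inv, ← sub_eq_add_neg] at h

end Level

/-! ### The Gauss ring on `LE M E` -/

section GaussGen

variable {O E : Type*} [CommRing O] [IsDomain O] [IsDiscreteValuationRing O] [Field E]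
  [Algebra O E] [FaithfulSMul O E]

theorem red_eq_of_coe_eq (x : GaussDVR.V O E) {z : LaurentSeries E} (hz : z ∈ GaussDVR.V O E)
    (h : z = (x : LaurentSeries E)) : GaussDVR.red O E ⟨z, hz⟩ = GaussDVR.red O E x := by
  subst h
  rfl

theorem coe_ne_zero_of_red_ne_zero (x : GaussDVR.V O E) (hx : GaussDVR.red O E x ≠ 0) :
    (x : LaurentSeries E) ≠ 0 := by
  intro h0
  apply hx
  have : x = 0 := Subtype.ext h0
  rw [this, map_zero]

theorem red_mul_red_inv (x : GaussDVR.V O E) (hx : GaussDVR.red O E x ≠ 0) :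
    GaussDVR.red O E x * GaussDVR.red O E ⟨_, GaussDVR.inv_mem O E x hx⟩ = 1 := by
  rw [← map_mul, ← map_one (GaussDVR.red O E)]
  congr 1
  exact Subtype.ext (mul_inv_cancel₀ (coe_ne_zero_of_red_ne_zero x hx))

end GaussGen

section Gauss

variable {M : ℕ} [NeZero M] {E : IntermediateField ℚ Qb}
  (A : ValuationSubring Qb) [IsDiscreteValuationRing (OE A E)]

/-- `g` is a unit of the Gauss ring of `LE M E` (the valuation ring of the Gauss valuation
attached to `O_E = A ∩ E`). -/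
def GUnit (g : LE M E) : Prop :=
  ∃ hg : ((g : LE M E) : LaurentSeries E) ∈ GaussDVR.V (OE A E) E,
    GaussDVR.red (OE A E) E ⟨_, hg⟩ ≠ 0

/-- `g ≡ 1` modulo the maximal ideal of the Gauss ring of `LE M E`. -/
def GOne (g : LE M E) : Prop :=
  ∃ hg : ((g : LE M E) : LaurentSeries E) ∈ GaussDVR.V (OE A E) E,
    GaussDVR.red (OE A E) E ⟨_, hg⟩ = 1

theorem gUnit_iff_exists {g : LE M E} :
    GUnit A g ↔ ∃ x : GaussDVR.V (OE A E) E, (g : LaurentSeries E) = (x : LaurentSeries E) ∧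
      GaussDVR.red (OE A E) E x ≠ 0 := by
  constructor
  · rintro ⟨hg, h⟩
    exact ⟨⟨_, hg⟩, rfl, h⟩
  · rintro ⟨x, hx, h⟩
    have hg : (g : LaurentSeries E) ∈ GaussDVR.V (OE A E) E := hx ▸ x.2
    exact ⟨hg, by rw [red_eq_of_coe_eq x hg hx]; exact h⟩

theorem gOne_iff_exists {g : LE M E} :
    GOne A g ↔ ∃ x : GaussDVR.V (OE A E) E, (g : LaurentSeries E) = (x : LaurentSeries E) ∧
      GaussDVR.red (OE A E) E x = 1 := by
  constructor
  · rintro ⟨hg, h⟩
    exact ⟨⟨_, hg⟩, rfl, h⟩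
  · rintro ⟨x, hx, h⟩
    have hg : (g : LaurentSeries E) ∈ GaussDVR.V (OE A E) E := hx ▸ x.2
    exact ⟨hg, by rw [red_eq_of_coe_eq x hg hx]; exact h⟩

theorem GOne.gUnit {g : LE M E} (h : GOne A g) : GUnit A g := by
  obtain ⟨hg, h1⟩ := h
  exact ⟨hg, by rw [h1]; exact one_ne_zero⟩

theorem GUnit.ne_zero {g : LE M E} (h : GUnit A g) : g ≠ 0 := by
  obtain ⟨hg, h1⟩ := h
  intro h0
  exact coe_ne_zero_of_red_ne_zero _ h1
    (show ((g : LE M E) : LaurentSeries E) = 0 by rw [h0, IntermediateField.coe_zero])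

theorem gOne_one : GOne A (1 : LE M E) :=
  (gOne_iff_exists A).mpr ⟨1, by rw [IntermediateField.coe_one]; rfl, map_one _⟩

theorem GUnit.mul {g g' : LE M E} (h : GUnit A g) (h' : GUnit A g') : GUnit A (g * g') := by
  obtain ⟨hg, h1⟩ := h
  obtain ⟨hg', h1'⟩ := h'
  exact (gUnit_iff_exists A).mpr ⟨⟨_, hg⟩ * ⟨_, hg'⟩, by rw [IntermediateField.coe_mul]; rfl, by
    rw [map_mul]; exact mul_ne_zero h1 h1'⟩

theorem GOne.mul {g g' : LE M E} (h : GOne A g) (h' : GOne A g') : GOne A (g * g') := by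
  obtain ⟨hg, h1⟩ := h
  obtain ⟨hg', h1'⟩ := h'
  exact (gOne_iff_exists A).mpr ⟨⟨_, hg⟩ * ⟨_, hg'⟩, by rw [IntermediateField.coe_mul]; rfl, by
    rw [map_mul, h1, h1', mul_one]⟩

theorem GUnit.inv {g : LE M E} (h : GUnit A g) : GUnit A g⁻¹ := by
  obtain ⟨hg, h1⟩ := h
  have h2 := red_mul_red_inv (⟨_, hg⟩ : GaussDVR.V (OE A E) E) h1
  exact (gUnit_iff_exists A).mpr ⟨⟨_, GaussDVR.inv_mem (OE A E) E ⟨_, hg⟩ h1⟩,
    IntermediateField.coe_inv _ g, right_ne_zero_of_mul_eq_one h2⟩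

theorem GOne.inv {g : LE M E} (h : GOne A g) : GOne A g⁻¹ := by
  obtain ⟨hg, h1⟩ := h
  have h1' : GaussDVR.red (OE A E) E ⟨_, hg⟩ ≠ 0 := by rw [h1]; exact one_ne_zero
  have h2 := red_mul_red_inv (⟨_, hg⟩ : GaussDVR.V (OE A E) E) h1'
  rw [h1, one_mul] at h2
  exact (gOne_iff_exists A).mpr ⟨⟨_, GaussDVR.inv_mem (OE A E) E ⟨_, hg⟩ h1'⟩,
    IntermediateField.coe_inv _ g, h2⟩

theorem GUnit.div {g g' : LE M E} (h : GUnit A g) (h' : GUnit A g') : GUnit A (g / g') := by
  rw [div_eq_mul_inv]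
  exact h.mul A (h'.inv A)

theorem GOne.div {g g' : LE M E} (h : GOne A g) (h' : GOne A g') : GOne A (g / g') := by
  rw [div_eq_mul_inv]
  exact h.mul A (h'.inv A)

theorem GUnit.pow {g : LE M E} (h : GUnit A g) (k : ℕ) : GUnit A (g ^ k) := by
  induction k with
  | zero => rw [pow_zero]; exact (gOne_one A).gUnit
  | succ k ih => rw [pow_succ]; exact ih.mul A h

theorem GOne.pow {g : LE M E} (h : GOne A g) (k : ℕ) : GOne A (g ^ k) := by
  induction k with
  | zero => rw [pow_zero]; exact gOne_one A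
  | succ k ih => rw [pow_succ]; exact ih.mul A h

/-- The ratio of two Gauss units with the same reduction is `≡ 1`. -/
theorem gOne_div_of_red_eq {g g' : LE M E}
    (hg : (g : LaurentSeries E) ∈ GaussDVR.V (OE A E) E)
    (hg' : (g' : LaurentSeries E) ∈ GaussDVR.V (OE A E) E)
    (h' : GaussDVR.red (OE A E) E ⟨_, hg'⟩ ≠ 0)
    (h : GaussDVR.red (OE A E) E ⟨_, hg⟩ = GaussDVR.red (OE A E) E ⟨_, hg'⟩) :
    GOne A (g / g') := by
  have h2 := red_mul_red_inv (⟨_, hg'⟩ : GaussDVR.V (OE A E) E) h'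
  exact (gOne_iff_exists A).mpr ⟨⟨_, hg⟩ * ⟨_, GaussDVR.inv_mem (OE A E) E ⟨_, hg'⟩ h'⟩, by
    rw [IntermediateField.coe_div, div_eq_mul_inv]; rfl, by
    rw [map_mul, h]; exact h2⟩

/-! #### Constants -/

theorem coe_algebraMap_LE (c : E) :
    ((algebraMap E (LE M E) c : LE M E) : LaurentSeries E) = HahnSeries.C c := by
  rw [IntermediateField.coe_algebraMap_apply]
  have h1 : algebraMap E (PowerSeries E) c = PowerSeries.C c := by simp
  rw [HahnSeries.algebraMap_apply', h1, HahnSeries.ofPowerSeries_C]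

/-- Every nonzero function is a constant times a Gauss unit. -/
theorem exists_const_mul_gUnit {h : LE M E} (hh : h ≠ 0) :
    ∃ (t : E) (h' : LE M E), t ≠ 0 ∧ GUnit A h' ∧ h = algebraMap E (LE M E) t * h' := by
  obtain ⟨ϖ, hϖ⟩ := IsDiscreteValuationRing.exists_irreducible (OE A E)
  have hh' : ((h : LE M E) : LaurentSeries E) ≠ 0 := fun h0 => hh (Subtype.ext h0)
  obtain ⟨i, k, y, hy, e⟩ := GaussDVR.exists_unit_pow E ϖ hϖ _
    (Fermat.Agent.S34.TrivModE.mem_fracField_LE A E M h) hh'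
  rw [GaussDVR.coe_unif] at e
  have hp : algebraMap (OE A E) E ϖ ≠ 0 := fun h0 =>
    hϖ.ne_zero (FaithfulSMul.algebraMap_injective (OE A E) E (by rw [h0, map_zero]))
  obtain ⟨p, hpdef⟩ : ∃ p : E, p = algebraMap (OE A E) E ϖ := ⟨_, rfl⟩
  rw [← hpdef] at e hp
  have hCp : (HahnSeries.C p : LaurentSeries E) ≠ 0 := HahnSeries.C_ne_zero hp
  refine ⟨p ^ i * (p ^ k)⁻¹, algebraMap E (LE M E) (p ^ k * (p ^ i)⁻¹) * h,
    mul_ne_zero (pow_ne_zero i hp) (inv_ne_zero (pow_ne_zero k hp)), ?_, ?_⟩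
  · refine (gUnit_iff_exists A).mpr ⟨y, ?_, hy⟩
    rw [IntermediateField.coe_mul, coe_algebraMap_LE, map_mul, map_inv₀, map_pow, map_pow]
    have hCi : (HahnSeries.C p : LaurentSeries E) ^ i ≠ 0 := pow_ne_zero i hCp
    field_simp
    rw [← e]
    ring
  · rw [← mul_assoc, ← map_mul]
    have : p ^ i * (p ^ k)⁻¹ * (p ^ k * (p ^ i)⁻¹) = 1 := by
      have h1 : p ^ i ≠ 0 := pow_ne_zero i hp
      have h2 : p ^ k ≠ 0 := pow_ne_zero k hp
      field_simp
    rw [this, map_one, one_mul]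

end Gauss

/-! ### Inertia and the Gauss ring -/

section Inertia

variable {M : ℕ} [NeZero M] {E : IntermediateField ℚ Qb} [Normal ℚ E]
  (A : ValuationSubring Qb) [IsDiscreteValuationRing (OE A E)]

/-- Inertia preserves the Gauss ring and acts trivially on reductions. -/
theorem exists_red_galE {σ : Gal} (hσ : σ ∈ A.inertiaSubgroupIn ℚ) {g : LE M E}
    (hg : (g : LaurentSeries E) ∈ GaussDVR.V (OE A E) E) :
    ∃ hg' : ((Fermat.Agent.S19.Cech.KummerDict.galE M E σ g : LE M E) : LaurentSeries E)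
        ∈ GaussDVR.V (OE A E) E,
      GaussDVR.red (OE A E) E ⟨_, hg'⟩ = GaussDVR.red (OE A E) E ⟨_, hg⟩ := by
  obtain ⟨τ', hτ', rfl⟩ := hσ
  exact ⟨Fermat.Agent.S34.TrivModE.coeffMap_mem_V (Fermat.Agent.S34.TrivModE.sOE A E τ')
      (Fermat.Agent.S34.TrivModE.residue_sOE_inertia A E τ' hτ')
      ((((τ' : Gal).restrictNormal E : E ≃ₐ[ℚ] E) : E →+* E))
      (Fermat.Agent.S34.TrivModE.restrictNormal_algebraMap_OE A E τ') hg,
    Fermat.Agent.S34.TrivModE.red_coeffMap (Fermat.Agent.S34.TrivModE.sOE A E τ')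
      (Fermat.Agent.S34.TrivModE.residue_sOE_inertia A E τ' hτ')
      ((((τ' : Gal).restrictNormal E : E ≃ₐ[ℚ] E) : E →+* E))
      (Fermat.Agent.S34.TrivModE.restrictNormal_algebraMap_OE A E τ') hg⟩

theorem GUnit.galE {σ : Gal} (hσ : σ ∈ A.inertiaSubgroupIn ℚ) {g : LE M E} (hu : GUnit A g) :
    GUnit A (Fermat.Agent.S19.Cech.KummerDict.galE M E σ g) := by
  obtain ⟨hg, h1⟩ := hu
  obtain ⟨hg', h⟩ := exists_red_galE A hσ hg
  exact ⟨hg', by rw [h]; exact h1⟩

theorem GOne.galE {σ : Gal} (hσ : σ ∈ A.inertiaSubgroupIn ℚ) {g : LE M E} (hu : GOne A g) :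
    GOne A (Fermat.Agent.S19.Cech.KummerDict.galE M E σ g) := by
  obtain ⟨hg, h1⟩ := hu
  obtain ⟨hg', h⟩ := exists_red_galE A hσ hg
  exact ⟨hg', by rw [h]; exact h1⟩

/-- For `σ` in the inertia group and a Gauss unit `g`, `σ g / g ≡ 1`. -/
theorem gOne_galE_div {σ : Gal} (hσ : σ ∈ A.inertiaSubgroupIn ℚ) {g : LE M E} (hu : GUnit A g) :
    GOne A (Fermat.Agent.S19.Cech.KummerDict.galE M E σ g / g) := by
  obtain ⟨hg, h1⟩ := hu
  obtain ⟨hg', h⟩ := exists_red_galE A hσ hg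
  exact gOne_div_of_red_eq A hg' hg h1 h

end Inertia

/-! ### (G3) The subgroup `G0` -/

section G0

variable {M : ℕ} [NeZero M] {n : ℤ} {m : ℕ} {E : IntermediateField ℚ Qb} [Normal ℚ E]
  {f : ↥(Submodule.torsionBy ℤ (JZero M) n) → LE M E}
  (A : ValuationSubring Qb) [IsDiscreteValuationRing (OE A E)]

/-- **(G0)** The classes which contain a Kummer function `≡ 1` modulo the maximal ideal of the
Gauss ring. -/
def G0 (d : IsKummerSystem M n m E f) : AddSubgroup ↥(Submodule.torsionBy ℤ (JZero M) n) where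
  carrier := {x | ∃ g : LE M E, g ∈ cls m f x ∧ GOne A g}
  zero_mem' := ⟨1, one_mem_cls_zero d, gOne_one A⟩
  add_mem' := by
    rintro x y ⟨g, hg, h1⟩ ⟨g', hg', h1'⟩
    exact ⟨g * g', mul_mem_cls d hg hg', h1.mul A h1'⟩
  neg_mem' := by
    rintro x ⟨g, hg, h1⟩
    exact ⟨g⁻¹, inv_mem_cls d hg, h1.inv A⟩

theorem mem_G0 (d : IsKummerSystem M n m E f) {x : ↥(Submodule.torsionBy ℤ (JZero M) n)} :
    x ∈ G0 A d ↔ ∃ g : LE M E, g ∈ cls m f x ∧ GOne A g := Iff.rfl

/-- Every class contains a Kummer function which is a Gauss unit. -/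
theorem exists_unit_rep (d : IsKummerSystem M n m E f)
    (x : ↥(Submodule.torsionBy ℤ (JZero M) n)) : ∃ g : LE M E, g ∈ cls m f x ∧ GUnit A g := by
  obtain ⟨t, h', ht, hu, e⟩ := exists_const_mul_gUnit A (d.ne_zero x)
  have e' : h' = algebraMap E (LE M E) t⁻¹ * 1 ^ m * f x := by
    rw [e, one_pow, mul_one, ← mul_assoc, ← map_mul, inv_mul_cancel₀ ht, map_one, one_mul]
  have hcls : h' ∈ cls m f x := by
    rw [e']
    exact smul_mem_cls (self_mem_cls x) (inv_ne_zero ht) one_ne_zero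
  exact ⟨h', hcls, hu⟩

/-- **(hG0)** Inertia acts trivially modulo `G0`. -/
theorem sub_mem_G0 (d : IsKummerSystem M n m E f) {σ : Gal} (hσ : σ ∈ A.inertiaSubgroupIn ℚ)
    (x : ↥(Submodule.torsionBy ℤ (JZero M) n)) : torsAct n σ x - x ∈ G0 A d := by
  obtain ⟨g, hg, hu⟩ := exists_unit_rep A d x
  exact ⟨Fermat.Agent.S19.Cech.KummerDict.galE M E σ g / g,
    div_mem_cls d (galE_mem_cls d σ hg) hg, gOne_galE_div A hσ hu⟩

theorem act_mem_G0 (d : IsKummerSystem M n m E f) {σ : Gal} (hσ : σ ∈ A.inertiaSubgroupIn ℚ)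
    {x : ↥(Submodule.torsionBy ℤ (JZero M) n)} (hx : x ∈ G0 A d) : torsAct n σ x ∈ G0 A d := by
  have h := (G0 A d).add_mem (sub_mem_G0 A d hσ x) hx
  rwa [sub_add_cancel] at h

end G0

/-! ### (N) Normalisation -/

section Norm

variable {M : ℕ} [NeZero M] {E : IntermediateField ℚ Qb}
  (A : ValuationSubring Qb) [IsDiscreteValuationRing (OE A E)]

/-- **(N) Normalisation.**  A constant times an `m`-th power which is `≡ 1` modulo the maximal
ideal of the Gauss ring is a unit of `O_E` times the `m`-th power of a function `≡ 1`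
(`GaussNorm.exists_normalised_mem` at `O_E`, `LE M E`). -/
theorem norm_const_pow {m : ℕ} (hm : 0 < m) {c : E} {h : LE M E} (hh : h ≠ 0)
    (h1 : GOne A (algebraMap E (LE M E) c * h ^ m)) :
    ∃ (a : OE A E) (v : LE M E), IsUnit a ∧ GOne A v ∧
      algebraMap E (LE M E) c * h ^ m = algebraMap E (LE M E) (a : E) * v ^ m := by
  obtain ⟨ϖ, hϖ⟩ := IsDiscreteValuationRing.exists_irreducible (OE A E)
  obtain ⟨hV1, hr1⟩ := h1
  have hh' : ((h : LE M E) : LaurentSeries E) ≠ 0 := fun h0 => hh (Subtype.ext h0)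
  have hx : ((⟨_, hV1⟩ : GaussDVR.V (OE A E) E) : LaurentSeries E)
      = HahnSeries.C c * ((h : LE M E) : LaurentSeries E) ^ m := by
    show ((algebraMap E (LE M E) c * h ^ m : LE M E) : LaurentSeries E) = _
    rw [IntermediateField.coe_mul, IntermediateField.coe_pow, coe_algebraMap_LE]
  obtain ⟨a, v, ha, hv1, hvL, e⟩ := Fermat.Agent.S19.Cech.GaussNorm.exists_normalised_mem
    (LE M E) ϖ hϖ hm h.2 (Fermat.Agent.S34.TrivModE.mem_fracField_LE A E M h) hh' ⟨_, hV1⟩ hx hr1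
  refine ⟨a, ⟨v, hvL⟩, ha, (gOne_iff_exists A).mpr ⟨v, rfl, hv1⟩, ?_⟩
  apply Subtype.ext
  refine Eq.trans e ?_
  rw [IntermediateField.coe_mul, IntermediateField.coe_pow, coe_algebraMap_LE]
  rfl

end Norm

/-! ### (F) The normalised family -/

section Family

variable {M : ℕ} [NeZero M] {n : ℤ} {m : ℕ} {E : IntermediateField ℚ Qb} [Normal ℚ E]
  {f : ↥(Submodule.torsionBy ℤ (JZero M) n) → LE M E}
  (A : ValuationSubring Qb) [IsDiscreteValuationRing (OE A E)]

/-- Two Kummer functions of one class whose ratio is `≡ 1` differ by a unit of `O_E` times the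
`m`-th power of a function `≡ 1`. -/
theorem norm_of_mem_cls (d : IsKummerSystem M n m E f) (hm : 0 < m)
    {x : ↥(Submodule.torsionBy ℤ (JZero M) n)} {g g' : LE M E}
    (hg : g ∈ cls m f x) (hg' : g' ∈ cls m f x) (h1 : GOne A (g / g')) :
    ∃ (a : OE A E) (v : LE M E), IsUnit a ∧ GOne A v ∧
      g = algebraMap E (LE M E) (a : E) * v ^ m * g' := by
  obtain ⟨c, h, hc, hh, e⟩ := exists_eq_of_mem_cls hg' hg
  have hg'0 := ne_zero_of_mem d hg'
  have e' : g / g' = algebraMap E (LE M E) c * h ^ m := by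
    rw [e, mul_div_assoc, div_self hg'0, mul_one]
  rw [e'] at h1
  obtain ⟨a, v, ha, hv, e2⟩ := norm_const_pow A hm hh h1
  exact ⟨a, v, ha, hv, by rw [e, e2]⟩

/-- **A normalised family of Kummer functions**: `F x` is a Kummer function of `x` and a unit
of the Gauss ring, and `F x ≡ 1` for `x ∈ G0`. -/
structure IsNormFamily (d : IsKummerSystem M n m E f)
    (F : ↥(Submodule.torsionBy ℤ (JZero M) n) → LE M E) : Prop where
  mem_cls : ∀ x : ↥(Submodule.torsionBy ℤ (JZero M) n), F x ∈ cls m f x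
  unit : ∀ x : ↥(Submodule.torsionBy ℤ (JZero M) n), GUnit A (F x)
  one : ∀ x : ↥(Submodule.torsionBy ℤ (JZero M) n), x ∈ G0 A d → GOne A (F x)

theorem exists_normFamily (d : IsKummerSystem M n m E f) :
    ∃ F : ↥(Submodule.torsionBy ℤ (JZero M) n) → LE M E, IsNormFamily A d F := by
  classical
  have h1 : ∀ x : ↥(Submodule.torsionBy ℤ (JZero M) n),
      ∃ g : LE M E, g ∈ cls m f x ∧ GUnit A g ∧ (x ∈ G0 A d → GOne A g) := by
    intro x
    by_cases hx : x ∈ G0 A d
    · obtain ⟨g, hg, h⟩ := hx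
      exact ⟨g, hg, h.gUnit A, fun _ => h⟩
    · obtain ⟨g, hg, h⟩ := exists_unit_rep A d x
      exact ⟨g, hg, h, fun h' => absurd h' hx⟩
  choose F hF1 hF2 hF3 using h1
  exact ⟨F, ⟨hF1, hF2, hF3⟩⟩

variable {A}
variable {d : IsKummerSystem M n m E f} {F : ↥(Submodule.torsionBy ℤ (JZero M) n) → LE M E}

/-- **(hom)** on `G0`. -/
theorem IsNormFamily.hom (hF : IsNormFamily A d F) (hm : 0 < m)
    {x y : ↥(Submodule.torsionBy ℤ (JZero M) n)} (hx : x ∈ G0 A d) (hy : y ∈ G0 A d) :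
    ∃ (a : OE A E) (v : LE M E), IsUnit a ∧ GOne A v ∧
      F (x + y) = algebraMap E (LE M E) (a : E) * v ^ m * (F x * F y) :=
  norm_of_mem_cls A d hm (hF.mem_cls (x + y)) (mul_mem_cls d (hF.mem_cls x) (hF.mem_cls y))
    ((hF.one _ ((G0 A d).add_mem hx hy)).div A ((hF.one x hx).mul A (hF.one y hy)))

/-- **(eqv)** on `G0`, for the inertia group. -/
theorem IsNormFamily.eqv (hF : IsNormFamily A d F) (hm : 0 < m) {σ : Gal}
    (hσ : σ ∈ A.inertiaSubgroupIn ℚ)
    {x : ↥(Submodule.torsionBy ℤ (JZero M) n)} (hx : x ∈ G0 A d) :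
    ∃ (a : OE A E) (v : LE M E), IsUnit a ∧ GOne A v ∧
      Fermat.Agent.S19.Cech.KummerDict.galE M E σ (F x)
        = algebraMap E (LE M E) (a : E) * v ^ m * F (torsAct n σ x) :=
  norm_of_mem_cls A d hm (galE_mem_cls d σ (hF.mem_cls x)) (hF.mem_cls _)
    (((hF.one x hx).galE A hσ).div A (hF.one _ (act_mem_G0 A d hσ hx)))

/-- **(peq)** for every class (e.g. a coset representative), for the inertia group. -/
theorem IsNormFamily.peq (hF : IsNormFamily A d F) (hm : 0 < m) {σ : Gal}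
    (hσ : σ ∈ A.inertiaSubgroupIn ℚ) (x : ↥(Submodule.torsionBy ℤ (JZero M) n)) :
    ∃ (a : OE A E) (v : LE M E), IsUnit a ∧ GOne A v ∧
      Fermat.Agent.S19.Cech.KummerDict.galE M E σ (F x)
        = algebraMap E (LE M E) (a : E) * v ^ m * (F x * F (torsAct n σ x - x)) := by
  have hc : F x * F (torsAct n σ x - x) ∈ KummerClass.cls m f (torsAct n σ x) := by
    have h := mul_mem_cls d (hF.mem_cls x) (hF.mem_cls (torsAct n σ x - x))
    rwa [add_sub_cancel] at h
  refine norm_of_mem_cls A d hm (galE_mem_cls d σ (hF.mem_cls x)) hc ?_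
  have h1 := (gOne_galE_div A hσ (hF.unit x)).div A (hF.one _ (sub_mem_G0 A d hσ x))
  rwa [div_div] at h1

/-- **(inj)** a member of the family which is a constant times an `m`-th power belongs to the
trivial class. -/
theorem IsNormFamily.inj (hF : IsNormFamily A d F) (x : ↥(Submodule.torsionBy ℤ (JZero M) n))
    (c : E) (h : LE M E) (e : F x = algebraMap E (LE M E) c * h ^ m) : x = 0 :=
  eq_zero_of_mem_cls d (e ▸ hF.mem_cls x)

/-- **(star)** the orders of the members of the family are divisible by `m`. -/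
theorem IsNormFamily.dvd_ord (hF : IsNormFamily A d F)
    (x : ↥(Submodule.torsionBy ℤ (JZero M) n)) (P : Place E (LE M E)) :
    (m : ℤ) ∣ P.ord (F x) :=
  dvd_ord_of_mem d (hF.mem_cls x) P

end Family

/-! ### The exit -/

set_option maxHeartbeats 1000000 in
/-- **(KD) exit**: over every sufficiently large normal number field `E` with `O_E = A ∩ E` a
discrete valuation ring, the level `E`, the subgroup `G0` and a normalised family of Kummer
functions with all the relations the Čech machine consumes. -/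
theorem exists_normalised_system (M : ℕ) [NeZero M] {n : ℤ} {m : ℕ} (hm : 0 < m)
    (hmn : (m : ℤ) = n) [Finite ↥(Submodule.torsionBy ℤ (JZero M) n)]
    (A : ValuationSubring Qb) :
    ∃ E₁ : IntermediateField ℚ Qb, FiniteDimensional ℚ E₁ ∧
      ∀ (E : IntermediateField ℚ Qb) [FiniteDimensional ℚ E] [Normal ℚ E]
        [IsDiscreteValuationRing (OE A E)], E₁ ≤ E →
        ∃ (G₀ : AddSubgroup ↥(Submodule.torsionBy ℤ (JZero M) n))
          (F : ↥(Submodule.torsionBy ℤ (JZero M) n) → LE M E),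
          (∀ σ : Gal, σ ∈ E.fixingSubgroup →
            ∀ x : ↥(Submodule.torsionBy ℤ (JZero M) n), torsAct n σ x = x) ∧
          (∀ σ ∈ A.inertiaSubgroupIn ℚ,
            ∀ x : ↥(Submodule.torsionBy ℤ (JZero M) n), torsAct n σ x - x ∈ G₀) ∧
          (∀ x : ↥(Submodule.torsionBy ℤ (JZero M) n), GUnit A (F x)) ∧
          (∀ x ∈ G₀, GOne A (F x)) ∧
          (∀ x ∈ G₀, ∀ y ∈ G₀, ∃ (a : OE A E) (v : LE M E), IsUnit a ∧ GOne A v ∧
            F (x + y) = algebraMap E (LE M E) (a : E) * v ^ m * (F x * F y)) ∧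
          (∀ σ ∈ A.inertiaSubgroupIn ℚ, ∀ x ∈ G₀,
            ∃ (a : OE A E) (v : LE M E), IsUnit a ∧ GOne A v ∧
              Fermat.Agent.S19.Cech.KummerDict.galE M E σ (F x)
                = algebraMap E (LE M E) (a : E) * v ^ m * F (torsAct n σ x)) ∧
          (∀ σ ∈ A.inertiaSubgroupIn ℚ, ∀ x : ↥(Submodule.torsionBy ℤ (JZero M) n),
            ∃ (a : OE A E) (v : LE M E), IsUnit a ∧ GOne A v ∧
              Fermat.Agent.S19.Cech.KummerDict.galE M E σ (F x)
                = algebraMap E (LE M E) (a : E) * v ^ m * (F x * F (torsAct n σ x - x))) ∧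
          (∀ (x : ↥(Submodule.torsionBy ℤ (JZero M) n)) (c : E) (h : LE M E),
            F x = algebraMap E (LE M E) c * h ^ m → x = 0) ∧
          (∀ (x : ↥(Submodule.torsionBy ℤ (JZero M) n)) (P : Place E (LE M E)),
            (m : ℤ) ∣ P.ord (F x)) := by
  have hn : n ≠ 0 := by
    rw [← hmn]
    exact_mod_cast hm.ne'
  obtain ⟨E₁, hE₁, h⟩ := exists_kummerSystem M hm hmn
  refine ⟨E₁, hE₁, fun E _ _ _ hE => ?_⟩
  obtain ⟨f, d⟩ := h E hE
  obtain ⟨F, hF⟩ := exists_normFamily A d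
  exact ⟨G0 A d, F, act_eq_of_mem_fixingSubgroup d hn, fun σ hσ x => sub_mem_G0 A d hσ x,
    hF.unit, hF.one, fun x hx y hy => hF.hom hm hx hy, fun σ hσ x hx => hF.eqv hm hσ hx,
    fun σ hσ x => hF.peq hm hσ x, hF.inj, hF.dvd_ord⟩

end Fermat.Agent.S19.Cech.KummerG0

end
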