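import Mathlib
import Fermat.Agent.S30.GaussDVR
import Fermat.Agent.S30.GaussBridge
import Fermat.Agent.S30.GaussOne
import Fermat.Agent.S30.Model.GlueChart
import Fermat.Agent.Lib.GaussChartOfPrime
import Fermat.Agent.Lib.GaussChartUniq

set_option autoImplicit false
set_option linter.unusedSectionVars false

/-!
# S19 (FG), GEOM brick (KD), bridge: the chart Gauss ring is the `q`-expansion Gauss ring

`O` a discrete valuation ring with uniformiser `π`, `E ⊇ O` its fraction field, `L / E` a field
with an `E`-embedding `emb : L → E((q))` whose image lies in the fraction field of `O((q))`;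
`u ∈ L` with `emb u` an integral series whose reduction has a pole; `B = O[u]`,
`C = integralClosure B L` the chart ring, `ϖ = piElt B π`.  If `ϖ` is prime in `C` (Model
theorem), then the Gauss ring `C_(ϖ) ⊆ L` of the chart (`GaussChartOfPrime.gaussRing hp`) is the
pull-back `vSub O emb` of the `q`-expansion Gauss ring `GaussDVR.V O E`:

* `gaussRing_vSub` : `GaussRing (vSub O emb) π` (the pull-back of `V` is a Gauss ring);
* `emb_mem_V_of_mem_chart` : the chart ring maps into `V`;
* `piElt_dvd_of_red_eq_zero` : the `q`-expansion principle on the chart;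
* `gaussRing_le_vSub`, `gaussRing_chart`, `gaussRing_eq_vSub`, `mem_gaussRing_iff`;
* the consumer forms: `isUnitIn_gaussRing_of_red_ne_zero`, `exists_eq_one_add_of_red_eq_one`,
  `red_eq_one_of_eq_one_add`, `isUnitIn_locRing_algebraMap` (a unit of `O` is a unit of every
  local ring of every chart).
-/

noncomputable section

open ModularCurve Polynomial

namespace Fermat.Agent.S19.Cech.KummerBridge

open Fermat.Agent.S30 Fermat.Agent.S30.Model.GlueChart
open Fermat.Agent.Lib.ChartRoots Fermat.Agent.Lib.GaussChartOfPrime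
  Fermat.Agent.Lib.PrimeLocGlobal

variable {O E : Type*} [CommRing O] [IsDomain O] [IsDiscreteValuationRing O] [Field E]
  [Algebra O E] [FaithfulSMul O E]
variable {L : Type*} [Field L] [Algebra E L] [Algebra O L] [IsScalarTower O E L]

/-- The `q`-expansion Gauss ring `V` pulled back to `L` along `emb`. -/
def vSub (O : Type*) {E L : Type*} [CommRing O] [IsDomain O] [IsDiscreteValuationRing O]
    [Field E] [Algebra O E] [FaithfulSMul O E] [Field L] [Algebra E L]
    (emb : L →ₐ[E] LaurentSeries E) : Subring L :=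
  (GaussDVR.V O E).comap (emb : L →+* LaurentSeries E)

theorem mem_vSub (emb : L →ₐ[E] LaurentSeries E) {x : L} :
    x ∈ vSub O emb ↔ emb x ∈ GaussDVR.V O E := Iff.rfl

theorem emb_pi (emb : L →ₐ[E] LaurentSeries E) (π : O) :
    emb (algebraMap O L π) = ((GaussDVR.unif E π : GaussDVR.V O E) : LaurentSeries E) := by
  rw [GaussOne.emb_algebraMap, GaussDVR.coe_unif]

theorem algebraMap_pi_ne_zero (emb : L →ₐ[E] LaurentSeries E) (π : O) (hπ : Irreducible π) :
    algebraMap O L π ≠ 0 := by
  intro h0
  have h1 := GaussDVR.coe_unif_ne_zero E π hπ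
  rw [← emb_pi emb π, h0, map_zero] at h1
  exact h1 rfl

section Pullback

variable (emb : L →ₐ[E] LaurentSeries E)
  (hfrac : ∀ x : L, emb x ∈ GaussDVR.fracField O E) (π : O) (hπ : Irreducible π)

include hfrac hπ in
/-- **The pull-back of the `q`-expansion Gauss ring is a Gauss ring of `L`.** -/
theorem gaussRing_vSub : GaussRing (vSub O emb) (algebraMap O L π) := by
  have hembπ := emb_pi emb π
  have hπL := algebraMap_pi_ne_zero emb π hπ
  refine ⟨?_, ?_, ?_, ?_⟩
  · show emb (algebraMap O L π) ∈ GaussDVR.V O E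
    rw [hembπ]
    exact (GaussDVR.unif E π).2
  · intro hinv
    have hinv' : emb (algebraMap O L π)⁻¹ ∈ GaussDVR.V O E := hinv
    have h1 : GaussDVR.unif E π * ⟨emb (algebraMap O L π)⁻¹, hinv'⟩ = 1 := by
      apply Subtype.ext
      rw [Subring.coe_mul, ← hembπ, ← map_mul, mul_inv_cancel₀ hπL, map_one]
      rfl
    have h2 := congrArg (GaussDVR.red O E) h1
    rw [map_mul, GaussDVR.red_unif E π hπ, zero_mul, map_one] at h2
    exact zero_ne_one h2
  · intro x
    rcases GaussDVR.mem_or_inv_mem E π hπ (emb x) (hfrac x) with h | h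
    · exact Or.inl h
    · right
      show emb x⁻¹ ∈ GaussDVR.V O E
      rw [map_inv₀]
      exact h
  · intro x hx hxinv
    have hx' : emb x ∈ GaussDVR.V O E := hx
    have hred : GaussDVR.red O E ⟨emb x, hx'⟩ = 0 := by
      by_contra hne
      apply hxinv
      show emb x⁻¹ ∈ GaussDVR.V O E
      rw [map_inv₀]
      exact GaussDVR.inv_mem O E ⟨emb x, hx'⟩ hne
    obtain ⟨y, hy⟩ := GaussDVR.ker E π hπ ⟨emb x, hx'⟩ hred
    have hy' : emb x = emb (algebraMap O L π) * (y : LaurentSeries E) := by
      rw [hembπ]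
      exact congrArg Subtype.val hy
    refine ⟨x / algebraMap O L π, ?_, ?_⟩
    · show emb (x / algebraMap O L π) ∈ GaussDVR.V O E
      have e : emb (x / algebraMap O L π) = (y : LaurentSeries E) := by
        rw [map_div₀, hy', mul_div_assoc, mul_comm, div_mul_cancel₀]
        exact (_root_.map_ne_zero emb).mpr hπL
      rw [e]
      exact y.2
    · rw [mul_comm, div_mul_cancel₀ x hπL]

end Pullback

/-! ### The chart -/

section Chart

variable (emb : L →ₐ[E] LaurentSeries E)
  (hfrac : ∀ x : L, emb x ∈ GaussDVR.fracField O E) (π : O) (hπ : Irreducible π)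
  (u : L) (uO : LaurentSeries O) (hu : emb u = GaussDVR.iota O E uO)

include hfrac hπ hu in
/-- The chart ring maps into the `q`-expansion Gauss ring. -/
theorem emb_mem_V_of_mem_chart (c : integralClosure (Algebra.adjoin O ({u} : Set L)) L) :
    emb (c : L) ∈ GaussDVR.V O E := by
  set B : Subalgebra O L := Algebra.adjoin O ({u} : Set L) with hB
  set φ : B →+* LaurentSeries E := emb.toRingHom.comp (algebraMap B L) with hφ
  have hφV : ∀ b : B, φ b ∈ GaussDVR.V O E := by
    intro b
    have hb : (b : L) ∈ Algebra.adjoin O ({u} : Set L) := b.2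
    rw [Algebra.adjoin_singleton_eq_range_aeval] at hb
    obtain ⟨P, hP⟩ := hb
    show emb (b : L) ∈ GaussDVR.V O E
    rw [← hP]
    have := GaussOne.emb_aeval emb u uO hu P
    rw [show (aeval u).toRingHom P = aeval u P from rfl, this]
    exact GaussDVR.mem_of_int O E _
  refine GaussDVR.mem_of_isIntegralElem E π hπ φ hφV (emb (c : L)) (hfrac _) ?_
  obtain ⟨p, hp, hroot⟩ := c.2
  refine ⟨p, hp, ?_⟩
  have := congrArg emb hroot
  rw [map_zero, ← AlgHom.coe_toRingHom, hom_eval₂] at this
  exact this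

variable (hpole : (GaussDVR.rho O uO).order < 0)
  (hp : Prime (piElt (Algebra.adjoin O ({u} : Set L)) π))

include hpole hp in
/-- **The `q`-expansion principle on the chart**: an element of the chart ring whose reduction
vanishes is divisible by `ϖ`. -/
theorem piElt_dvd_of_red_eq_zero (c : integralClosure (Algebra.adjoin O ({u} : Set L)) L)
    (hc : GaussDVR.red O E ⟨emb (c : L), emb_mem_V_of_mem_chart emb hfrac π hπ u uO hu c⟩ = 0) :
    piElt (Algebra.adjoin O ({u} : Set L)) π ∣ c := by
  revert c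
  set B : Subalgebra O L := Algebra.adjoin O ({u} : Set L) with hB
  set C : Subalgebra B L := integralClosure B L with hC
  intro c hc
  set j : C →+* LaurentSeries E := emb.toRingHom.comp (algebraMap C L) with hj
  have hV : ∀ c : C, j c ∈ GaussDVR.V O E := fun c =>
    emb_mem_V_of_mem_chart emb hfrac π hπ u uO hu c
  have hBrange : ∀ b : B, ∃ P : O[X], (b : L) = aeval u P := by
    intro b
    have hb : (b : L) ∈ Algebra.adjoin O ({u} : Set L) := b.2
    rw [Algebra.adjoin_singleton_eq_range_aeval] at hb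
    obtain ⟨P, hP⟩ := hb
    exact ⟨P, hP.symm⟩
  have hjϖ : j (algebraMap B C (algebraMap O B π)) = HahnSeries.C (algebraMap O E π) := by
    show emb (algebraMap O L π) = _
    exact GaussOne.emb_algebraMap emb π
  have hGauss : ∀ b : B, GaussDVR.red O E ⟨j (algebraMap B C b), hV _⟩ = 0 →
      algebraMap O B π ∣ b := by
    intro b hb
    obtain ⟨P, hP⟩ := hBrange b
    have h1 : (⟨j (algebraMap B C b), hV _⟩ : GaussDVR.V O E) =
        GaussDVR.ofInt O E (P.eval₂ (HahnSeries.C : O →+* LaurentSeries O) uO) := by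
      apply Subtype.ext
      show emb (b : L) = _
      rw [hP, GaussOne.emb_aeval emb u uO hu]
      rfl
    rw [h1, GaussDVR.red_ofInt] at hb
    obtain ⟨P', rfl⟩ := GaussBridge.C_dvd_of_rho_eval₂_eq_zero π hπ uO hpole P hb
    refine ⟨⟨aeval u P', ?_⟩, ?_⟩
    · rw [hB, Algebra.adjoin_singleton_eq_range_aeval]
      exact ⟨P', rfl⟩
    · apply Subtype.ext
      rw [hP, map_mul, aeval_C]
      rfl
  have hc' : GaussDVR.red O E ⟨j c, hV c⟩ = 0 := hc
  exact GaussBridge.qExpansion_principle π hπ j hV (algebraMap O B π) hp hjϖ hGauss c hc'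

include hfrac hπ hu hpole in
/-- The Gauss ring of the chart lies in the pull-back of the `q`-expansion Gauss ring. -/
theorem gaussRing_le_vSub : gaussRing (K := L) hp ≤ vSub O emb := by
  intro x hx
  obtain ⟨t₁, ht₁, c, hc⟩ := (mem_gaussRing hp).mp hx
  have htV := emb_mem_V_of_mem_chart emb hfrac π hπ u uO hu t₁
  have hcV := emb_mem_V_of_mem_chart emb hfrac π hπ u uO hu c
  have hred : GaussDVR.red O E ⟨emb (t₁ : L), htV⟩ ≠ 0 := fun h0 =>
    ht₁ (piElt_dvd_of_red_eq_zero emb hfrac π hπ u uO hu hpole hp t₁ h0)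
  have hinv := GaussDVR.inv_mem O E ⟨emb (t₁ : L), htV⟩ hred
  have ht0 : emb (t₁ : L) ≠ 0 := by
    intro h0
    apply hred
    have : (⟨emb (t₁ : L), htV⟩ : GaussDVR.V O E) = 0 := Subtype.ext h0
    rw [this, map_zero]
  show emb x ∈ GaussDVR.V O E
  have h := congrArg emb hc
  rw [map_mul] at h
  have e : emb x = emb (c : L) * (emb (t₁ : L))⁻¹ := by
    have h' : emb (t₁ : L) * emb x = emb (c : L) := h
    rw [← h']
    field_simp
  rw [e]
  exact mul_mem hcV hinv

variable (halg : ∀ x : L, IsAlgebraic (Algebra.adjoin O ({u} : Set L)) x)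

include hfrac hπ hu halg in
/-- **The Gauss ring of the chart is a Gauss ring of `L`** with uniformiser `π`. -/
theorem gaussRing_chart : GaussRing (gaussRing (K := L) hp) (algebraMap O L π) := by
  set B : Subalgebra O L := Algebra.adjoin O ({u} : Set L) with hB
  set C : Subalgebra B L := integralClosure B L with hC
  have hinj : Function.Injective (algebraMap C L) := Subtype.val_injective
  have hembinj : Function.Injective emb := emb.toRingHom.injective
  have hV : ∀ c : C, emb (c : L) ∈ GaussDVR.V O E := fun c =>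
    emb_mem_V_of_mem_chart emb hfrac π hπ u uO hu c
  have hpow : ∀ a : C, a ≠ 0 → ∃ n : ℕ, ¬ piElt B π ^ n ∣ a := by
    intro a ha
    have hv0 : (⟨emb (a : L), hV a⟩ : GaussDVR.V O E) ≠ 0 := by
      intro h0
      apply ha
      apply Subtype.ext
      apply hembinj
      have h1 : emb (a : L) = 0 := congrArg Subtype.val h0
      rw [h1]
      exact (map_zero emb).symm
    obtain ⟨n, hn⟩ := GaussDVR.exists_not_pow_dvd E π hπ _ hv0
    refine ⟨n, fun hdvd => hn ?_⟩
    obtain ⟨w, rfl⟩ := hdvd
    refine ⟨⟨emb (w : L), hV w⟩, Subtype.ext ?_⟩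
    show emb ((piElt B π ^ n * w : C) : L) = _
    rw [Subring.coe_mul, Subring.coe_pow]
    show emb ((algebraMap O L π) ^ n * (w : L)) = _
    rw [map_mul, map_pow, emb_pi emb π]
  have hfracC : ∀ x : L, ∃ a b : C, b ≠ 0 ∧ algebraMap C L b * x = algebraMap C L a := by
    intro x
    obtain ⟨y, hy0, hyint⟩ := (halg x).exists_integral_multiple
    refine ⟨⟨y • x, hyint⟩, algebraMap B C y, ?_, ?_⟩
    · intro h0
      apply hy0
      have h1 : ((algebraMap B C y : C) : L) = 0 := by rw [h0]; rfl
      exact Subtype.ext h1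
    · show (y : L) * x = y • x
      rw [Algebra.smul_def]
      rfl
  exact gaussRing_of_chart_of_pow hinj hp hpow hfracC

include hfrac hπ hu hpole halg in
/-- **(KD.Bridge)** the Gauss ring of the chart is the pull-back of the `q`-expansion Gauss
ring. -/
theorem gaussRing_eq_vSub : gaussRing (K := L) hp = vSub O emb :=
  (gaussRing_chart emb hfrac π hπ u uO hu hp halg).eq_of_le (gaussRing_vSub emb hfrac π hπ)
    (gaussRing_le_vSub emb hfrac π hπ u uO hu hpole hp)

include hfrac hπ hu hpole halg in
theorem mem_gaussRing_iff (x : L) :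
    x ∈ gaussRing (K := L) hp ↔ emb x ∈ GaussDVR.V O E := by
  rw [gaussRing_eq_vSub emb hfrac π hπ u uO hu hpole hp halg]
  rfl

include hfrac hπ hu hpole halg in
/-- An element with nonzero reduction is a unit of the Gauss ring of the chart. -/
theorem isUnitIn_gaussRing_of_red_ne_zero {g : L} (hg : emb g ∈ GaussDVR.V O E)
    (hred : GaussDVR.red O E ⟨emb g, hg⟩ ≠ 0) : IsUnitIn (gaussRing (K := L) hp) g := by
  have hg0 : g ≠ 0 := by
    rintro rfl
    apply hred
    have : (⟨emb (0 : L), hg⟩ : GaussDVR.V O E) = 0 := Subtype.ext (map_zero emb)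
    rw [this, map_zero]
  refine ⟨hg0, (mem_gaussRing_iff emb hfrac π hπ u uO hu hpole hp halg g).mpr hg,
    (mem_gaussRing_iff emb hfrac π hπ u uO hu hpole hp halg g⁻¹).mpr ?_⟩
  rw [map_inv₀]
  exact GaussDVR.inv_mem O E ⟨emb g, hg⟩ hred

include hfrac hπ hu hpole halg in
/-- An element with reduction `1` lies in `1 + π 𝒪`. -/
theorem exists_eq_one_add_of_red_eq_one {g : L} (hg : emb g ∈ GaussDVR.V O E)
    (hred : GaussDVR.red O E ⟨emb g, hg⟩ = 1) :
    ∃ h ∈ gaussRing (K := L) hp, g = 1 + algebraMap O L π * h := by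
  have hπL := algebraMap_pi_ne_zero emb π hπ
  have hg1 : emb (g - 1) ∈ GaussDVR.V O E := by
    rw [map_sub, map_one]
    exact sub_mem hg (one_mem _)
  have hred1 : GaussDVR.red O E ⟨emb (g - 1), hg1⟩ = 0 := by
    have e : (⟨emb (g - 1), hg1⟩ : GaussDVR.V O E) = ⟨emb g, hg⟩ - 1 :=
      Subtype.ext (by
        show emb (g - 1) = emb g - 1
        rw [map_sub, map_one])
    rw [e, map_sub, hred, map_one, sub_self]
  obtain ⟨y, hy⟩ := GaussDVR.ker E π hπ ⟨emb (g - 1), hg1⟩ hred1
  have hy' : emb (g - 1) = emb (algebraMap O L π) * (y : LaurentSeries E) := by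
    rw [emb_pi emb π]
    exact congrArg Subtype.val hy
  refine ⟨(g - 1) / algebraMap O L π, ?_, by field_simp; ring⟩
  rw [mem_gaussRing_iff emb hfrac π hπ u uO hu hpole hp halg]
  have e : emb ((g - 1) / algebraMap O L π) = (y : LaurentSeries E) := by
    rw [map_div₀, hy', mul_div_assoc, mul_comm, div_mul_cancel₀]
    exact (_root_.map_ne_zero emb).mpr hπL
  rw [e]
  exact y.2

include hfrac hπ hu hpole halg in
/-- Conversely, an element of `1 + π 𝒪` lies in `V` and has reduction `1`. -/
theorem red_eq_one_of_eq_one_add {g h : L} (hh : h ∈ gaussRing (K := L) hp)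
    (hg : g = 1 + algebraMap O L π * h) :
    ∃ hgV : emb g ∈ GaussDVR.V O E, GaussDVR.red O E ⟨emb g, hgV⟩ = 1 := by
  have hhV : emb h ∈ GaussDVR.V O E :=
    (mem_gaussRing_iff emb hfrac π hπ u uO hu hpole hp halg h).mp hh
  have e : emb g = ((1 + GaussDVR.unif E π * ⟨emb h, hhV⟩ : GaussDVR.V O E) : LaurentSeries E) := by
    rw [hg, map_add, map_one, map_mul, emb_pi emb π]
    rfl
  have hgV : emb g ∈ GaussDVR.V O E := by
    rw [e]
    exact Subtype.property _
  refine ⟨hgV, ?_⟩
  have e' : (⟨emb g, hgV⟩ : GaussDVR.V O E) = 1 + GaussDVR.unif E π * ⟨emb h, hhV⟩ :=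
    Subtype.ext e
  rw [e', map_add, map_one, map_mul, GaussDVR.red_unif E π hπ, zero_mul, add_zero]

end Chart

/-! ### Units of `O` in the local rings of a chart -/

/-- A unit of `O` is a unit of every local ring `C_Q` of the chart of any coordinate `t`. -/
theorem isUnitIn_locRing_algebraMap (π : O) (t : L) {a : O} (ha : IsUnit a)
    (hinj : Function.Injective (algebraMap O L))
    (Q : Pt (piElt (Algebra.adjoin O ({t} : Set L)) π)) :
    IsUnitIn (locRing (K := L) Q) (algebraMap O L a) := by
  have hmem : ∀ r : O, algebraMap O L r ∈ locRing (K := L) Q := by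
    intro r
    refine (mem_locRing (Q := Q)).mpr ⟨1, fun h1 => Q.2.1.ne_top ((Ideal.eq_top_iff_one _).mpr h1),
      algebraMap (Algebra.adjoin O ({t} : Set L))
        (integralClosure (Algebra.adjoin O ({t} : Set L)) L)
        (algebraMap O (Algebra.adjoin O ({t} : Set L)) r), ?_⟩
    rw [map_one, one_mul]
    rfl
  obtain ⟨w, rfl⟩ := ha
  refine ⟨?_, hmem _, ?_⟩
  · intro h0
    exact w.ne_zero (hinj (by rw [h0, map_zero]))
  · have e : (algebraMap O L (w : O))⁻¹ = algebraMap O L ((w⁻¹ : Oˣ) : O) := by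
      apply inv_eq_of_mul_eq_one_right
      rw [← map_mul, Units.mul_inv, map_one]
    rw [e]
    exact hmem _

end Fermat.Agent.S19.Cech.KummerBridge

end
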