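import Mathlib
import Fermat.Agent.S19.Cech.KummerBridge
import Fermat.Agent.S19.Cech.CocRep

set_option autoImplicit false

/-!
# S19 (FG), GEOM brick (KD), bridge to `CocRep.Nrm`

The normalised Kummer relation `CocRep.Nrm` of the Čech machine, from the `q`-expansion form
produced by the Kummer dictionary: `g = a * v ^ m * g'` with `a` a unit of `O` and `v` a series
of the Gauss ring `V` with reduction `1`.

* `nrm_of_red_eq_one` : the unit spelled `algebraMap O L a`;
* `nrm_of_red_eq_one'` : the unit spelled `algebraMap E L (algebraMap O E a)`;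
* `nrm_of_eq` : the unit any `a₀ : L` equal to `algebraMap O L a`.

The overlap ring `C01 : Subalgebra O L` and the coordinate `t1` of the second chart are
arbitrary (instance: `C01 = CechP1.chart O {u, u⁻¹}`, `t1 = u⁻¹`); the Gauss ring is the one of
the `u`-chart.
-/

noncomputable section

open ModularCurve

namespace Fermat.Agent.S19.Cech.KummerNrm

open Fermat.Agent.S30 Fermat.Agent.S30.Model.GlueChart
open Fermat.Agent.Lib.ChartRoots Fermat.Agent.Lib.GaussChartOfPrime
open Fermat.Agent.S19.Cech.KummerBridge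

variable {O E : Type*} [CommRing O] [IsDomain O] [IsDiscreteValuationRing O] [Field E]
  [Algebra O E] [FaithfulSMul O E]
variable {L : Type*} [Field L] [Algebra E L] [Algebra O L] [IsScalarTower O E L]

/-- `O → L` is injective. -/
theorem algebraMap_injective_of_tower (O E L : Type*) [CommRing O] [Field E] [Algebra O E]
    [FaithfulSMul O E] [Field L] [Algebra E L] [Algebra O L] [IsScalarTower O E L] :
    Function.Injective (algebraMap O L) := by
  rw [IsScalarTower.algebraMap_eq O E L]
  exact (algebraMap E L).injective.comp (FaithfulSMul.algebraMap_injective O E)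

/-- **(KD.Bridge, Nrm form)** `g = a₀ * v ^ m * g'`, `a₀` the image of a unit of `O`,
`v ∈ V` with reduction `1`, is a normalised Kummer relation of the two charts. -/
theorem nrm_of_eq (emb : L →ₐ[E] LaurentSeries E)
    (hfrac : ∀ x : L, emb x ∈ GaussDVR.fracField O E) (π : O) (hπ : Irreducible π)
    (u : L) (uO : LaurentSeries O) (hu : emb u = GaussDVR.iota O E uO)
    (hpole : (GaussDVR.rho O uO).order < 0)
    (hp : Prime (piElt (Algebra.adjoin O ({u} : Set L)) π))
    (halg : ∀ x : L, IsAlgebraic (Algebra.adjoin O ({u} : Set L)) x)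
    (t1 : L) (C01 : Subalgebra O L) (m : ℕ) {a : O} (ha : IsUnit a) {a₀ v g g' : L}
    (ha₀ : a₀ = algebraMap O L a)
    (hv : emb v ∈ GaussDVR.V O E) (hred : GaussDVR.red O E ⟨emb v, hv⟩ = 1)
    (hg : g = a₀ * v ^ m * g') :
    CocRep.Nrm π (algebraMap ↥C01 L) (gaussRing (K := L) hp)
      (fun Q : Pt (piElt (Algebra.adjoin O ({u} : Set L)) π) => locRing (K := L) Q)
      (fun Q : Pt (piElt (Algebra.adjoin O ({t1} : Set L)) π) => locRing (K := L) Q) m g g' := by
  have hinj : Function.Injective (algebraMap O L) := algebraMap_injective_of_tower O E L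
  subst ha₀
  refine ⟨algebraMap O L a, v, fun Q => isUnitIn_locRing_algebraMap π u ha hinj Q,
    fun Q => isUnitIn_locRing_algebraMap π t1 ha hinj Q, ?_, hg⟩
  exact exists_eq_one_add_of_red_eq_one emb hfrac π hπ u uO hu hpole hp halg hv hred

/-- The unit spelled `algebraMap O L a`. -/
theorem nrm_of_red_eq_one (emb : L →ₐ[E] LaurentSeries E)
    (hfrac : ∀ x : L, emb x ∈ GaussDVR.fracField O E) (π : O) (hπ : Irreducible π)
    (u : L) (uO : LaurentSeries O) (hu : emb u = GaussDVR.iota O E uO)
    (hpole : (GaussDVR.rho O uO).order < 0)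
    (hp : Prime (piElt (Algebra.adjoin O ({u} : Set L)) π))
    (halg : ∀ x : L, IsAlgebraic (Algebra.adjoin O ({u} : Set L)) x)
    (t1 : L) (C01 : Subalgebra O L) (m : ℕ) {a : O} (ha : IsUnit a) {v g g' : L}
    (hv : emb v ∈ GaussDVR.V O E) (hred : GaussDVR.red O E ⟨emb v, hv⟩ = 1)
    (hg : g = algebraMap O L a * v ^ m * g') :
    CocRep.Nrm π (algebraMap ↥C01 L) (gaussRing (K := L) hp)
      (fun Q : Pt (piElt (Algebra.adjoin O ({u} : Set L)) π) => locRing (K := L) Q)
      (fun Q : Pt (piElt (Algebra.adjoin O ({t1} : Set L)) π) => locRing (K := L) Q) m g g' :=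
  nrm_of_eq emb hfrac π hπ u uO hu hpole hp halg t1 C01 m ha rfl hv hred hg

/-- The unit spelled `algebraMap E L (algebraMap O E a)`. -/
theorem nrm_of_red_eq_one' (emb : L →ₐ[E] LaurentSeries E)
    (hfrac : ∀ x : L, emb x ∈ GaussDVR.fracField O E) (π : O) (hπ : Irreducible π)
    (u : L) (uO : LaurentSeries O) (hu : emb u = GaussDVR.iota O E uO)
    (hpole : (GaussDVR.rho O uO).order < 0)
    (hp : Prime (piElt (Algebra.adjoin O ({u} : Set L)) π))
    (halg : ∀ x : L, IsAlgebraic (Algebra.adjoin O ({u} : Set L)) x)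
    (t1 : L) (C01 : Subalgebra O L) (m : ℕ) {a : O} (ha : IsUnit a) {v g g' : L}
    (hv : emb v ∈ GaussDVR.V O E) (hred : GaussDVR.red O E ⟨emb v, hv⟩ = 1)
    (hg : g = algebraMap E L (algebraMap O E a) * v ^ m * g') :
    CocRep.Nrm π (algebraMap ↥C01 L) (gaussRing (K := L) hp)
      (fun Q : Pt (piElt (Algebra.adjoin O ({u} : Set L)) π) => locRing (K := L) Q)
      (fun Q : Pt (piElt (Algebra.adjoin O ({t1} : Set L)) π) => locRing (K := L) Q) m g g' :=
  nrm_of_eq emb hfrac π hπ u uO hu hpole hp halg t1 C01 m ha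
    (IsScalarTower.algebraMap_apply O E L a).symm hv hred hg

end Fermat.Agent.S19.Cech.KummerNrm

end
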