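import Mathlib
import Fermat.Agent.S19.Cech.ChartMachineK
import Fermat.Agent.S19.Cech.KummerG0
import Fermat.Agent.S19.Cech.KummerNrm

/-!
# S19 (Program FG, Route C): Čech coordinates from a Kummer system at the chart instance

`hasCechCoords_of_kummerSystem` : for a finite normal `E ⊆ ℚ̄` with `O_E = A ∩ E` a discrete
valuation ring, containing a primitive `M`-th root of unity, a Kummer system
`d : KummerDict.IsKummerSystem M n m E f` on `J₀(M)[n]` (`n ≠ 0`, `0 < m`) and the chart family of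
`ChartInst.exists_chart`, the Galois module `J₀(M)[n]` has Čech coordinates
(`Cech.Exit.HasCechCoords ℓ (torsAct n)`).

It is `ChartMachineK.hasCechCoords_of_kummer` at `G0 = KummerG0.G0 A d`, `F` a normalised family
(`KummerG0.exists_normFamily`), with the clauses `hFu`, `hF1`, `hF_hom`, `hF_eqv`, `hF_peq`
translated from the `q`-expansion Gauss ring to the Gauss ring of the chart by
`KummerBridge` / `KummerNrm`.
-/

set_option autoImplicit false
set_option linter.style.haveILetI false
set_option linter.unusedSectionVars false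
set_option synthInstance.maxHeartbeats 400000
set_option maxHeartbeats 1600000

noncomputable section

open Polynomial IntermediateField ModularCurve AlgebraicCurve

namespace Fermat.Agent.S19.Cech.ChartMachineKD

open Fermat.Agent.S18.K1Defs Fermat.Agent.S18.K1Main Fermat.Agent.S30 Fermat.Agent.S30.Model
  Fermat.Agent.S34.TrivModE Fermat.Agent.S44.D
  Fermat.Agent.Lib.ChartRoots Fermat.Agent.S37.Fn
  Fermat.Agent.S19.HopfOrder Fermat.Agent.S19.Contract Fermat.Agent.S19.Cech.Exit
  Fermat.Agent.S19.Cech.CocRep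
  Fermat.Agent.Lib.GaussChartOfPrime Fermat.Agent.S19.Cech.ChartGauss
  Fermat.Agent.S34.HauptU.LevelMAux Fermat.Agent.S19.Cech.KummerDict

local notation "Qb" => AlgebraicClosure ℚ

/-- **Čech coordinates from a Kummer system.** -/
theorem hasCechCoords_of_kummerSystem (M : ℕ) [NeZero M] {ℓ : ℕ} (hℓ : ℓ.Prime) (hℓM : ¬ ℓ ∣ M)
    (A : ValuationSubring Qb) (hA : A.LiesOverPrime ℓ)
    (E : IntermediateField ℚ Qb) [FiniteDimensional ℚ E] [Normal ℚ E]
    [IsDiscreteValuationRing (OE A E)]
    {n : ℤ} (hn : n ≠ 0) {m : ℕ} (hm : 0 < m)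
    [Finite ↥(Submodule.torsionBy ℤ (JZero M) n)]
    {f : ↥(Submodule.torsionBy ℤ (JZero M) n) → LE M E} (d : IsKummerSystem M n m E f)
    {z : Qb} (hz : IsPrimitiveRoot z M) (hzE : z ∈ E) (u₀ : LaurentSeries ℚ)
    (hu₀ : ∀ (E : IntermediateField ℚ Qb) [FiniteDimensional ℚ E]
      [IsDiscreteValuationRing (OE A E)], z ∈ E →
      letI := algebraOL (OE A E) E (LE M E)
      ∃ u : LE M E, (u : LaurentSeries E) = coeffEmb E u₀ ∧
        ModelInst.ChartModelC M (OE A E) E u ∧
        ∀ π : OE A E, Irreducible π → ChartFacts E π u u⁻¹) :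
    HasCechCoords ℓ (torsAct (Γ := Gal) (M := JZero M) n) := by
  letI := algebraOL (OE A E) E (LE M E)
  haveI := isScalarTower_OL (OE A E) E (LE M E)
  obtain ⟨u, hu, hCM, hCF'⟩ := hu₀ E hzE
  obtain ⟨π, hπ⟩ := IsDiscreteValuationRing.exists_irreducible (OE A E)
  have hCF : ChartFacts E π u u⁻¹ := hCF' π hπ
  have hCMm : ModelInst.ChartModel M (OE A E) E u := hCM
  obtain ⟨uO, huO, hpole⟩ := hCMm.model
  have hp0 : Prime (piOf (OE A E) ({u} : Set (LE M E)) π) := hCF.prime_zero
  haveI := hCF.finite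
  obtain ⟨F, hF⟩ := KummerG0.exists_normFamily A d
  -- the bridge data
  have hfrac : ∀ x : LE M E, (LE M E).val x ∈ GaussDVR.fracField (OE A E) E :=
    fun x => E2G1.mem_fracField_of_mem_LE M A E x.2
  have halgu : ∀ x : LE M E, IsAlgebraic (Algebra.adjoin (OE A E) ({u} : Set (LE M E))) x :=
    fun x => GaussOne.isAlgebraic_adjoin_of_finite (O := OE A E) (E := E) u x
  have hnrm : ∀ {g g' : LE M E}, (∃ (a : OE A E) (v : LE M E), IsUnit a ∧ KummerG0.GOne A v ∧
      g = algebraMap E (LE M E) (a : E) * v ^ m * g') →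
      Nrm π (algebraMap ↥(CechAdapter.C01 (O := OE A E) u) (LE M E))
        (gaussRing (K := LE M E) hp0)
        (fun Q : Pt (piOf (OE A E) ({u} : Set (LE M E)) π) => locRing (K := LE M E) Q)
        (fun Q : Pt (piOf (OE A E) ({u⁻¹} : Set (LE M E)) π) => locRing (K := LE M E) Q) m
        g g' := by
    rintro g g' ⟨a, v, ha, ⟨hv, hred⟩, e⟩
    exact KummerNrm.nrm_of_red_eq_one' (LE M E).val hfrac π hπ u uO huO hpole hp0 halgu u⁻¹
      (CechAdapter.C01 (O := OE A E) u) m ha hv hred e
  refine ChartMachineK.hasCechCoords_of_kummer M hℓ hℓM (torsAct (Γ := Gal) (M := JZero M) n)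
    (fun σ x y => Subtype.ext (smul_add σ (x : JZero M) (y : JZero M))) A hA E
    (fun σ hσ x => KummerG0.act_eq_of_mem_fixingSubgroup d hn σ hσ x)
    (KummerG0.G0 A d) (fun σ hσ x => KummerG0.sub_mem_G0 A d hσ x) hz hzE u₀ hu₀ u hu π hπ hp0 hm F
    ?_ ?_ (fun x P => hF.dvd_ord x P) ?_ ?_ (fun c => Quotient.out c)
    (fun c => QuotientAddGroup.out_eq' c) ?_ (fun x _ c h _ _ e => hF.inj x c h e)
  · -- hFu
    intro x
    obtain ⟨hg, hred⟩ := hF.unit x
    exact KummerBridge.isUnitIn_gaussRing_of_red_ne_zero (LE M E).val hfrac π hπ u uO huO hpole hp0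
      halgu hg hred
  · -- hF1
    intro x hx
    obtain ⟨hg, hred⟩ := hF.one x hx
    exact KummerBridge.exists_eq_one_add_of_red_eq_one (LE M E).val hfrac π hπ u uO huO hpole hp0
      halgu hg hred
  · -- hF_hom
    intro x hx y hy
    exact hnrm (hF.hom hm hx hy)
  · -- hF_eqv
    intro σ hσ x hx
    exact hnrm (hF.eqv hm hσ hx)
  · -- hF_peq
    intro σ hσ c
    exact hnrm (hF.peq hm hσ (Quotient.out c))

end Fermat.Agent.S19.Cech.ChartMachineKD
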