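import Mathlib
import Fermat.Agent.S19.Cech.ChartMachineKD
import Fermat.Agent.S54.Frobenius

/-!
# S19 (Program FG, Route C): the Čech statement

`cechStatement : Cech.Exit.CechStatement` : for `ℓ ∤ M` (and `3 < ℓ ∨ 2 ∣ M ∨ 3 ∣ M`) the Galois
module `J₀(M)[ℓ^k]` has Čech coordinates.  Assembly:

* `A` a valuation subring of `ℚ̄` over `ℓ` (`S54.Frobenius.exists_liesOverPrime`), `z` a primitive
  `M`-th root of unity, the chart family `u₀` (`ChartInst.exists_chart`);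
* the Kummer field `E₁` (`KummerDict.exists_kummerSystem`), and a finite normal `E ⊇ E₁(z)` with
  `O_E` a discrete valuation ring (`BaseInst.exists_field`);
* `ChartMachineKD.hasCechCoords_of_kummerSystem`.
-/

set_option autoImplicit false
set_option linter.style.haveILetI false
set_option synthInstance.maxHeartbeats 400000

noncomputable section

open Polynomial IntermediateField ModularCurve AlgebraicCurve

namespace Fermat.Agent.S19.Cech.CechFromKummer

open Fermat.Agent.S18.K1Defs Fermat.Agent.S37.Fn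
  Fermat.Agent.S19.HopfOrder Fermat.Agent.S19.Contract Fermat.Agent.S19.Cech.Exit
  Fermat.Agent.S19.Cech.KummerDict

local notation "Qb" => AlgebraicClosure ℚ

/-- **The Čech statement.** -/
theorem cechStatement : CechStatement := by
  intro M _ ℓ _ k hℓM hcase
  have hℓ : ℓ.Prime := Fact.out
  haveI : Finite ↥(Submodule.torsionBy ℤ (JZero M) ((ℓ : ℤ) ^ k)) :=
    Fermat.Agent.S19.TorsionFinite.finite_torsion_prime_pow M ℓ k
  obtain ⟨A, hA⟩ := Fermat.Agent.S54.Frobenius.exists_liesOverPrime hℓ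
  obtain ⟨z, hz⟩ := ModelInst.exists_primitiveRoot_Qb M
  obtain ⟨u₀, hu₀⟩ := Fermat.Agent.S19.Cech.ChartInst.exists_chart M hℓM hcase A hA hz
  have hm : 0 < ℓ ^ k := pow_pos hℓ.pos k
  have hmn : ((ℓ ^ k : ℕ) : ℤ) = (ℓ : ℤ) ^ k := Nat.cast_pow ℓ k
  obtain ⟨E₁, hE₁, hKS⟩ := exists_kummerSystem M hm hmn
  haveI := hE₁
  have hzint : IsIntegral ℚ z :=
    (hz.isIntegral (Nat.pos_of_ne_zero (NeZero.ne M))).tower_top
  haveI : FiniteDimensional ℚ (ℚ⟮z⟯ : IntermediateField ℚ Qb) :=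
    IntermediateField.adjoin.finiteDimensional hzint
  haveI : FiniteDimensional ℚ (E₁ ⊔ ℚ⟮z⟯ : IntermediateField ℚ Qb) :=
    IntermediateField.finiteDimensional_sup E₁ ℚ⟮z⟯
  obtain ⟨E, hE₀, hfd, hnorm, hdvr, -⟩ :=
    Fermat.Agent.S19.Cech.BaseInst.exists_field M ℓ k A hA (E₁ ⊔ ℚ⟮z⟯)
  haveI := hfd
  haveI := hnorm
  haveI := hdvr
  obtain ⟨f, d⟩ := hKS E (le_trans le_sup_left hE₀)
  have hzE : z ∈ E :=
    hE₀ ((le_sup_right : (ℚ⟮z⟯ : IntermediateField ℚ Qb) ≤ E₁ ⊔ ℚ⟮z⟯)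
      (IntermediateField.mem_adjoin_simple_self ℚ z))
  exact Fermat.Agent.S19.Cech.ChartMachineKD.hasCechCoords_of_kummerSystem M hℓ hℓM A hA E
    (pow_ne_zero k (Int.natCast_ne_zero.mpr hℓ.ne_zero)) hm d hz hzE u₀ hu₀

end Fermat.Agent.S19.Cech.CechFromKummer
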