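import Mathlib

/-!
# Algebraisation core (S19, Route C, brick ALG = §4 of `notes/helper35/S19_cech_route.md`)

Level-free (Mathlib only).  Three lemmas about a "two-chart" pair of `O`-submodules
`M0`, `M1` of an `O`-module `V` and an overlap `M01`:

* `exists_torsion_bound` : if `M01 ≤ M0 ⊔ M1 ⊔ span s` for a finite set `s` and `O` is noetherian,
  the `π`-power torsion of `M01 / (M0 + M1)` is killed by one power `π ^ e`;
* `exists_glue` : if `y0 ∈ M0`, `y1 ∈ M1` agree modulo `π ^ n • M01` with `n ≥ e`, they can be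
  corrected by elements of `π ^ (n - e) • M0`, `π ^ (n - e) • M1` to a common element;
* `exists_finset_le` : the finite set `s` for the two charts of a module over `O[u]`, `O[u⁻¹]`
  (the module version of `Lib/TwoChartVanish`).

and the Kummer module `kummerMod C f m = {y | y ^ m * f ∈ C}` of an integrally closed subalgebra.
-/

set_option autoImplicit false

namespace Fermat.Agent.S19.Cech.AlgCore

open Finset

section Torsion

variable {O V : Type*} [CommRing O] [AddCommGroup V] [Module O V]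

/-- **Bounded torsion** of `M01 / N` when `M01 ≤ N ⊔ span s`, `s` finite, `O` noetherian. -/
theorem exists_torsion_bound [IsNoetherianRing O] (π : O) (N M01 : Submodule O V)
    (s : Finset V) (hs : M01 ≤ N ⊔ Submodule.span O (s : Set V)) :
    ∃ e : ℕ, ∀ z ∈ M01, ∀ n : ℕ, π ^ n • z ∈ N → π ^ e • z ∈ N := by
  classical
  set P : Submodule O (V ⧸ N) := (Submodule.span O (s : Set V)).map N.mkQ with hP
  have hPfg : P.FG := (Submodule.fg_span s.finite_toSet).map _
  have hPn : IsNoetherian O P := isNoetherian_of_fg_of_noetherian P hPfg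
  let K : ℕ →o Submodule O P :=
    { toFun := fun n => LinearMap.ker (LinearMap.lsmul O P (π ^ n))
      monotone' := by
        intro a b hab x hx
        rw [LinearMap.mem_ker, LinearMap.lsmul_apply] at hx ⊢
        obtain ⟨k, rfl⟩ := Nat.exists_eq_add_of_le hab
        rw [pow_add, mul_comm, mul_smul, hx, smul_zero] }
  obtain ⟨e, he⟩ := (monotone_stabilizes_iff_noetherian (R := O) (M := P)).mpr hPn K
  refine ⟨e, fun z hz n hzn => ?_⟩
  have hzP : N.mkQ z ∈ P := by
    obtain ⟨a, ha, b, hb, rfl⟩ := Submodule.mem_sup.mp (hs hz)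
    have h0 : N.mkQ a = 0 := by
      rw [Submodule.mkQ_apply]; exact (Submodule.Quotient.mk_eq_zero N).mpr ha
    have : N.mkQ (a + b) = N.mkQ b := by
      rw [map_add, h0, zero_add]
    rw [this]
    exact Submodule.mem_map_of_mem hb
  have hmem : (⟨N.mkQ z, hzP⟩ : P) ∈ K n := by
    change (⟨N.mkQ z, hzP⟩ : P) ∈ LinearMap.ker (LinearMap.lsmul O P (π ^ n))
    rw [LinearMap.mem_ker, LinearMap.lsmul_apply]
    apply Subtype.ext
    change π ^ n • N.mkQ z = 0
    rw [← map_smul, Submodule.mkQ_apply]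
    exact (Submodule.Quotient.mk_eq_zero N).mpr hzn
  have hmem' : (⟨N.mkQ z, hzP⟩ : P) ∈ K e := by
    have h1 : K n ≤ K (max n e) := K.monotone (le_max_left _ _)
    have h2 : K e = K (max n e) := he _ (le_max_right _ _)
    rw [h2]; exact h1 hmem
  change (⟨N.mkQ z, hzP⟩ : P) ∈ LinearMap.ker (LinearMap.lsmul O P (π ^ e)) at hmem'
  rw [LinearMap.mem_ker, LinearMap.lsmul_apply] at hmem'
  have h3 : π ^ e • N.mkQ z = 0 := congrArg Subtype.val hmem'
  rw [← map_smul, Submodule.mkQ_apply] at h3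
  exact (Submodule.Quotient.mk_eq_zero N).mp h3

/-- **Gluing**: two sections agreeing modulo `π ^ n • M01` are corrected to a common one. -/
theorem exists_glue (π : O) (M0 M1 M01 : Submodule O V) (e : ℕ)
    (he : ∀ z ∈ M01, ∀ n : ℕ, π ^ n • z ∈ M0 ⊔ M1 → π ^ e • z ∈ M0 ⊔ M1)
    (n : ℕ) (hn : e ≤ n) (y0 y1 z : V) (hy0 : y0 ∈ M0) (hy1 : y1 ∈ M1) (hz : z ∈ M01)
    (h : y0 - y1 = π ^ n • z) :
    ∃ z0 ∈ M0, ∃ z1 ∈ M1, y0 - π ^ (n - e) • z0 = y1 + π ^ (n - e) • z1 := by
  have h1 : π ^ n • z ∈ M0 ⊔ M1 := by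
    rw [← h]
    exact Submodule.sub_mem _ (Submodule.mem_sup_left hy0) (Submodule.mem_sup_right hy1)
  obtain ⟨z0, hz0, z1, hz1, hsum⟩ := Submodule.mem_sup.mp (he z hz n h1)
  refine ⟨z0, hz0, z1, hz1, ?_⟩
  have h2 : π ^ n • z = π ^ (n - e) • z0 + π ^ (n - e) • z1 := by
    rw [← smul_add, hsum, smul_smul, ← pow_add, Nat.sub_add_cancel hn]
  rw [h2] at h
  rw [sub_eq_iff_eq_add] at h
  rw [h]; abel

/-- Both steps together: the common section `φ ∈ M0 ⊓ M1` with `φ ≡ y0` modulo
`π ^ (n - e) • M0`. -/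
theorem exists_common [IsNoetherianRing O] (π : O) (M0 M1 M01 : Submodule O V)
    (s : Finset V) (hs : M01 ≤ M0 ⊔ M1 ⊔ Submodule.span O (s : Set V)) :
    ∃ e : ℕ, ∀ n : ℕ, e ≤ n → ∀ y0 ∈ M0, ∀ y1 ∈ M1, ∀ z ∈ M01, y0 - y1 = π ^ n • z →
      ∃ φ ∈ M0 ⊓ M1, ∃ z0 ∈ M0, φ = y0 - π ^ (n - e) • z0 := by
  obtain ⟨e, he⟩ := exists_torsion_bound π (M0 ⊔ M1) M01 s hs
  refine ⟨e, fun n hn y0 hy0 y1 hy1 z hz h => ?_⟩
  obtain ⟨z0, hz0, z1, hz1, hφ⟩ := exists_glue π M0 M1 M01 e he n hn y0 y1 z hy0 hy1 hz h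
  refine ⟨y0 - π ^ (n - e) • z0, ⟨?_, ?_⟩, z0, hz0, rfl⟩
  · exact M0.sub_mem hy0 (M0.smul_mem _ hz0)
  · rw [hφ]
    exact M1.add_mem hy1 (M1.smul_mem _ hz1)

end Torsion

section TwoChart

variable {O L : Type*} [CommRing O] [Field L] [Algebra O L]

/-- **The finite set for two charts of a module** (module version of `Lib/TwoChartVanish`):
`b0` is stable under `u` and spanned over `O[u]` by the finite set `ω ⊆ b0`, `binf` is stable
under `u⁻¹`, and each `w ∈ ω` lands in `binf` after multiplication by a power of `u⁻¹`.  Then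
`b0[1/u] ≤ b0 ⊔ binf ⊔ span s` for a finite set `s`. -/
theorem exists_finset_le (u : L) (hu : u ≠ 0) (b0 binf : Submodule O L)
    (hu0 : ∀ y ∈ b0, u * y ∈ b0) (huinf : ∀ y ∈ binf, u⁻¹ * y ∈ binf)
    (ω : Finset L) (hωb : ∀ w ∈ ω, w ∈ b0)
    (hω : ∀ y ∈ b0, y ∈ Submodule.span O {z : L | ∃ a : ℕ, ∃ w ∈ ω, z = u ^ a * w})
    (hωinf : ∀ w ∈ ω, ∃ a : ℕ, u⁻¹ ^ a * w ∈ binf) :
    ∃ s : Finset L, ∀ y : L, (∃ m : ℕ, u ^ m * y ∈ b0) →
      y ∈ b0 ⊔ binf ⊔ Submodule.span O (s : Set L) := by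
  classical
  choose! a ha using hωinf
  set T : ℕ := ω.sup a with hT
  set s : Finset L := (ω ×ˢ Finset.range T).image (fun p : L × ℕ => u⁻¹ ^ p.2 * p.1) with hs
  have hpow0 : ∀ (k : ℕ) (y : L), y ∈ b0 → u ^ k * y ∈ b0 := by
    intro k
    induction k with
    | zero => intro y hy; simpa using hy
    | succ k ih =>
      intro y hy
      have : u ^ (k + 1) * y = u * (u ^ k * y) := by ring
      rw [this]
      exact hu0 _ (ih y hy)
  have hpowinf : ∀ (k : ℕ) (y : L), y ∈ binf → u⁻¹ ^ k * y ∈ binf := by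
    intro k
    induction k with
    | zero => intro y hy; simpa using hy
    | succ k ih =>
      intro y hy
      have : u⁻¹ ^ (k + 1) * y = u⁻¹ * (u⁻¹ ^ k * y) := by ring
      rw [this]
      exact huinf _ (ih y hy)
  refine ⟨s, ?_⟩
  rintro y ⟨m, hm⟩
  set Tgt : Submodule O L := b0 ⊔ binf ⊔ Submodule.span O (s : Set L) with hTgt
  have hy : y = LinearMap.mulLeft O (u⁻¹ ^ m) (u ^ m * y) := by
    rw [LinearMap.mulLeft_apply, ← mul_assoc, ← mul_pow, inv_mul_cancel₀ hu, one_pow, one_mul]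
  rw [hy]
  have hle : Submodule.span O {z : L | ∃ a : ℕ, ∃ w ∈ ω, z = u ^ a * w} ≤
      Tgt.comap (LinearMap.mulLeft O (u⁻¹ ^ m)) := by
    rw [Submodule.span_le]
    rintro z ⟨k, w, hw, rfl⟩
    rw [SetLike.mem_coe, Submodule.mem_comap, LinearMap.mulLeft_apply]
    rcases le_or_gt m k with hmk | hmk
    · -- `u ^ (k - m) * w ∈ b0`
      have e1 : u⁻¹ ^ m * (u ^ k * w) = u ^ (k - m) * w := by
        obtain ⟨d, rfl⟩ := Nat.exists_eq_add_of_le hmk
        rw [Nat.add_sub_cancel_left, pow_add, ← mul_assoc, ← mul_assoc, ← mul_pow,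
          inv_mul_cancel₀ hu, one_pow, one_mul]
      rw [e1]
      exact Submodule.mem_sup_left (Submodule.mem_sup_left (hpow0 _ _ (hωb w hw)))
    · -- `u⁻¹ ^ (m - k) * w`
      have e1 : u⁻¹ ^ m * (u ^ k * w) = u⁻¹ ^ (m - k) * w := by
        obtain ⟨d, rfl⟩ := Nat.exists_eq_add_of_le hmk.le
        rw [Nat.add_sub_cancel_left, pow_add, mul_comm (u⁻¹ ^ k) (u⁻¹ ^ d), mul_assoc,
          ← mul_assoc (u⁻¹ ^ k), ← mul_pow, inv_mul_cancel₀ hu, one_pow, one_mul]
      rw [e1]
      rcases le_or_gt (a w) (m - k) with h2 | h2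
      · have e2 : u⁻¹ ^ (m - k) * w = u⁻¹ ^ (m - k - a w) * (u⁻¹ ^ (a w) * w) := by
          rw [← mul_assoc, ← pow_add, Nat.sub_add_cancel h2]
        rw [e2]
        exact Submodule.mem_sup_left (Submodule.mem_sup_right (hpowinf _ _ (ha w hw)))
      · refine Submodule.mem_sup_right (Submodule.subset_span ?_)
        rw [hs, Finset.coe_image]
        refine ⟨(w, m - k), ?_, rfl⟩
        rw [Finset.mem_coe, Finset.mem_product, Finset.mem_range]
        exact ⟨hw, lt_of_lt_of_le h2 (Finset.le_sup (f := a) hw)⟩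
  exact hle (hω _ hm)

end TwoChart

section Kummer

variable {O L : Type*} [CommRing O] [Field L] [Algebra O L]

/-- The Kummer module `{y | y ^ m * f ∈ C}` of a root-closed subalgebra `C` of `L` (e.g. an
integral closure): the sections over the chart `C` of the line bundle `ℒ` with `ℒ^m ≅ 𝒪` via
`f`. -/
def kummerMod (C : Subalgebra O L) (hC : ∀ (y : L) (k : ℕ), 0 < k → y ^ k ∈ C → y ∈ C) (f : L)
    (m : ℕ) (hm : 0 < m) : Submodule O L where
  carrier := {y | y ^ m * f ∈ C}
  zero_mem' := by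
    show (0 : L) ^ m * f ∈ C
    rw [zero_pow hm.ne', zero_mul]
    exact C.zero_mem
  smul_mem' := by
    intro a y hy
    show (a • y) ^ m * f ∈ C
    rw [smul_pow, smul_mul_assoc]
    exact C.smul_mem hy _
  add_mem' := by
    intro y y' hy hy'
    show (y + y') ^ m * f ∈ C
    rw [add_pow, Finset.sum_mul]
    refine C.sum_mem fun i hi => ?_
    have hi' : i ≤ m := Nat.lt_succ_iff.mp (Finset.mem_range.mp hi)
    -- the term `t = y ^ i * y' ^ (m - i) * f` satisfies `t ^ m ∈ C`
    have ht : y ^ i * y' ^ (m - i) * f ∈ C := by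
      apply hC _ m hm
      have hpow : (y ^ i * y' ^ (m - i) * f) ^ m = (y ^ m * f) ^ i * (y' ^ m * f) ^ (m - i) := by
        have e : f ^ m = f ^ i * f ^ (m - i) := by
          rw [← pow_add, Nat.add_sub_cancel' hi']
        rw [mul_pow, mul_pow, mul_pow, mul_pow, e, ← pow_mul, ← pow_mul, ← pow_mul, ← pow_mul,
          mul_comm i m, mul_comm (m - i) m]
        ring
      rw [hpow]
      exact C.mul_mem (C.pow_mem hy i) (C.pow_mem hy' (m - i))
    have : y ^ i * y' ^ (m - i) * (m.choose i : L) * f =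
        (m.choose i : ℕ) • (y ^ i * y' ^ (m - i) * f) := by
      rw [nsmul_eq_mul]; ring
    rw [this]
    exact C.nsmul_mem ht _

theorem mem_kummerMod {C : Subalgebra O L} {hC : ∀ (y : L) (k : ℕ), 0 < k → y ^ k ∈ C → y ∈ C}
    {f : L} {m : ℕ} {hm : 0 < m} {y : L} : y ∈ kummerMod C hC f m hm ↔ y ^ m * f ∈ C := Iff.rfl

/-- The Kummer module is a `C`-module. -/
theorem mul_mem_kummerMod {C : Subalgebra O L}
    {hC : ∀ (y : L) (k : ℕ), 0 < k → y ^ k ∈ C → y ∈ C} {f : L}
    {m : ℕ} {hm : 0 < m} {c y : L} (hc : c ∈ C) (hy : y ∈ kummerMod C hC f m hm) :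
    c * y ∈ kummerMod C hC f m hm := by
  rw [mem_kummerMod] at hy ⊢
  rw [mul_pow, mul_assoc]
  exact C.mul_mem (C.pow_mem hc m) hy

/-- The overlap module `b[1/u] = {y | ∃ k, u ^ k * y ∈ b}` of a `u`-stable submodule. -/
def ovMod (u : L) (b : Submodule O L) (hb : ∀ y ∈ b, u * y ∈ b) : Submodule O L where
  carrier := {y | ∃ k : ℕ, u ^ k * y ∈ b}
  zero_mem' := ⟨0, by simp⟩
  smul_mem' := by
    rintro a y ⟨k, hk⟩
    refine ⟨k, ?_⟩
    show u ^ k * a • y ∈ b
    rw [mul_smul_comm]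
    exact b.smul_mem a hk
  add_mem' := by
    have hpow : ∀ (j : ℕ) (y : L), y ∈ b → u ^ j * y ∈ b := by
      intro j
      induction j with
      | zero => intro y hy; simpa using hy
      | succ j ih =>
        intro y hy
        have : u ^ (j + 1) * y = u * (u ^ j * y) := by ring
        rw [this]
        exact hb _ (ih y hy)
    rintro y y' ⟨k, hk⟩ ⟨k', hk'⟩
    refine ⟨k + k', ?_⟩
    have : u ^ (k + k') * (y + y') = u ^ k' * (u ^ k * y) + u ^ k * (u ^ k' * y') := by ring
    rw [this]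
    exact b.add_mem (hpow _ _ hk) (hpow _ _ hk')

theorem mem_ovMod {u : L} {b : Submodule O L} {hb : ∀ y ∈ b, u * y ∈ b} {y : L} :
    y ∈ ovMod u b hb ↔ ∃ k : ℕ, u ^ k * y ∈ b := Iff.rfl

end Kummer

section Finite

open Polynomial

variable {O L : Type*} [CommRing O] [Field L] [Algebra O L]

/-- **Finite generation over `O[u]`**: an `O`-submodule `b` of `L` which is a module over the
chart `C ∋ u` and satisfies `a * b ⊆ C` for some `a ≠ 0` is spanned over `O[u]` by a finite
subset, provided `C` is spanned over `O[u]` by a finite set and `O` is noetherian. -/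
theorem exists_finset_span_pow [IsNoetherianRing O] (u : L) (C : Subalgebra O L) (huC : u ∈ C)
    (hfg : ∃ s : Finset L, (↑s : Set L) ⊆ C ∧
      ∀ c ∈ C, ∃ p : L → O[X], c = ∑ g ∈ s, aeval u (p g) * g)
    (b : Submodule O L) (hstab : ∀ c ∈ C, ∀ y ∈ b, c * y ∈ b)
    (a : L) (ha : a ≠ 0) (hab : ∀ y ∈ b, a * y ∈ C) :
    ∃ ω : Finset L, (∀ w ∈ ω, w ∈ b) ∧
      ∀ y ∈ b, y ∈ Submodule.span O {z : L | ∃ k : ℕ, ∃ w ∈ ω, z = u ^ k * w} := by
  classical
  obtain ⟨s, hsC, hs⟩ := hfg
  set R : Subalgebra O L := Algebra.adjoin O ({u} : Set L) with hR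
  have hRC : R ≤ C := Algebra.adjoin_le (Set.singleton_subset_iff.mpr huC)
  have hRn : IsNoetherianRing R := by
    have h1 : R = (aeval u : O[X] →ₐ[O] L).range := Algebra.adjoin_singleton_eq_range_aeval O u
    rw [h1]
    infer_instance
  have hpoly : ∀ r : R, ∃ q : O[X], aeval u q = (r : L) := by
    intro r
    have hmem : (r : L) ∈ (aeval u : O[X] →ₐ[O] L).range := by
      rw [← Algebra.adjoin_singleton_eq_range_aeval]; exact r.2
    exact hmem
  have haeval : ∀ q : O[X], aeval u q ∈ R := by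
    intro q
    rw [hR, Algebra.adjoin_singleton_eq_range_aeval]
    exact ⟨q, rfl⟩
  -- `b` as an `R`-submodule of `L`
  let N' : Submodule R L :=
    { carrier := b
      zero_mem' := b.zero_mem
      add_mem' := fun hx hy => b.add_mem hx hy
      smul_mem' := by
        intro r y hy
        show (r : L) * y ∈ b
        exact hstab _ (hRC r.2) y hy }
  set M' : Submodule R L := Submodule.span R ((fun g => a⁻¹ * g) '' (s : Set L)) with hM'
  have hM'fg : M'.FG := Submodule.fg_span ((s.finite_toSet).image _)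
  have hle : N' ≤ M' := by
    intro y hy
    have hy' : y ∈ b := hy
    obtain ⟨p, hp⟩ := hs _ (hab y hy')
    have e : y = ∑ g ∈ s, (⟨aeval u (p g), haeval (p g)⟩ : R) • (a⁻¹ * g) := by
      have e1 : y = a⁻¹ * (a * y) := by
        rw [← mul_assoc, inv_mul_cancel₀ ha, one_mul]
      rw [e1, hp, Finset.mul_sum]
      refine Finset.sum_congr rfl fun g _ => ?_
      show a⁻¹ * (aeval u (p g) * g) = aeval u (p g) * (a⁻¹ * g)
      ring
    rw [e]
    refine Submodule.sum_mem _ fun g hg => Submodule.smul_mem _ _ (Submodule.subset_span ?_)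
    exact ⟨g, Finset.mem_coe.mpr hg, rfl⟩
  have hM'n : IsNoetherian R M' := isNoetherian_of_fg_of_noetherian M' hM'fg
  have hN'n : IsNoetherian R N' := isNoetherian_of_le hle
  have hN'fg : N'.FG := (Submodule.fg_top N').mp (IsNoetherian.noetherian ⊤)
  obtain ⟨ω, hω⟩ := hN'fg
  refine ⟨ω, ?_, ?_⟩
  · intro w hw
    have : w ∈ N' := hω ▸ Submodule.subset_span (Finset.mem_coe.mpr hw)
    exact this
  · intro y hy
    set Gs : Submodule O L := Submodule.span O {z : L | ∃ k : ℕ, ∃ w ∈ ω, z = u ^ k * w} with hGs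
    -- `Gs` is stable under multiplication by `u`, hence by `aeval u q`
    have hu1 : ∀ z ∈ Gs, u * z ∈ Gs := by
      intro z hz
      have hle2 : Gs ≤ Gs.comap (LinearMap.mulLeft O u) := by
        rw [hGs, Submodule.span_le]
        rintro z ⟨k, w, hw, rfl⟩
        rw [SetLike.mem_coe, Submodule.mem_comap, LinearMap.mulLeft_apply]
        refine Submodule.subset_span ⟨k + 1, w, hw, ?_⟩
        ring
      exact hle2 hz
    have hupow : ∀ (k : ℕ) (z : L), z ∈ Gs → u ^ k * z ∈ Gs := by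
      intro k
      induction k with
      | zero => intro z hz; simpa using hz
      | succ k ih =>
        intro z hz
        have : u ^ (k + 1) * z = u * (u ^ k * z) := by ring
        rw [this]
        exact hu1 _ (ih z hz)
    have hq : ∀ (q : O[X]) (z : L), z ∈ Gs → aeval u q * z ∈ Gs := by
      intro q z hz
      rw [aeval_eq_sum_range, Finset.sum_mul]
      refine Gs.sum_mem fun i _ => ?_
      rw [smul_mul_assoc]
      exact Gs.smul_mem _ (hupow i z hz)
    have hyN : y ∈ Submodule.span R (ω : Set L) := by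
      rw [hω]; exact hy
    refine Submodule.span_induction (p := fun z _ => z ∈ Gs) ?_ ?_ ?_ ?_ hyN
    · intro w hw
      refine Submodule.subset_span ⟨0, w, Finset.mem_coe.mp hw, by simp⟩
    · exact Gs.zero_mem
    · intro x y _ _ hx hy
      exact Gs.add_mem hx hy
    · intro r x _ hx
      obtain ⟨q, hq'⟩ := hpoly r
      show (r : L) * x ∈ Gs
      rw [← hq']
      exact hq q x hx

end Finite

end Fermat.Agent.S19.Cech.AlgCore
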