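import Mathlib
import Fermat.Agent.S19.Cech.AlgCore

/-!
# Algebraisation of one Kummer line bundle (S19, Route C, brick ALG)

Level-free (Mathlib only; the chart rings are abstract subalgebras with the hypotheses that
`S19/RRLite/ChartVanish` proves for the landed charts).

`C0 ∋ u`, `Cinf ∋ u⁻¹` root-closed `O`-subalgebras of the field `L` with `C0[1/u] = Cinf[u]`,
`C0` spanned over `O[u]` by a finite set, `O` noetherian, `π : O`, and `OO ⊇ C0` an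
`O`-subalgebra of `L` (the Gauss valuation ring) in which `C0` is `π`-saturated and `π` is not
a unit.

For a Kummer function `f ∈ OO` (`m > 0`) with bounded denominators, the Kummer modules
`b_? = {y | y ^ m * f ∈ C_?}` satisfy:

**`exists_kummer_section`** : there is `e` such that for every `n > e`, if `y0 ∈ b_0`,
`yinf ∈ b_∞` agree modulo `π ^ n • OO` and `y0 ≡ 1` modulo `π • OO`, then there is `h ≠ 0` with
`h ^ m * f ∈ C0 ∩ Cinf` (so `f` is an `m`-th power up to a constant: the class is trivial).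
-/

set_option autoImplicit false

namespace Fermat.Agent.S19.Cech.AlgChart

open Polynomial Fermat.Agent.S19.Cech.AlgCore

variable {O L : Type*} [CommRing O] [Field L] [Algebra O L]

/-- Iterated `π`-saturation. -/
theorem sat_pow (π : O) (C OO : Subalgebra O L)
    (hsat : ∀ x ∈ OO, π • x ∈ C → x ∈ C) :
    ∀ (k : ℕ) (x : L), x ∈ OO → π ^ k • x ∈ C → x ∈ C := by
  intro k
  induction k with
  | zero => intro x _ hx; simpa using hx
  | succ k ih =>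
    intro x hx h
    refine ih x hx (hsat _ (OO.smul_mem hx _) ?_)
    rw [smul_smul, ← pow_succ']
    exact h

/-- Multiplying a Kummer section by `v ^ k` (`v` in the target chart) moves it between charts. -/
theorem pow_mul_mem_kummer {C : Subalgebra O L} {v y f : L} {m k : ℕ} (hm : 0 < m) (hv : v ∈ C)
    (h : v ^ k * (y ^ m * f) ∈ C) : (v ^ k * y) ^ m * f ∈ C := by
  obtain ⟨d, rfl⟩ : ∃ d, m = d + 1 := ⟨m - 1, by omega⟩
  have e : (v ^ k * y) ^ (d + 1) * f = v ^ (k * d) * (v ^ k * (y ^ (d + 1) * f)) := by ring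
  rw [e]
  exact C.mul_mem (C.pow_mem hv _) h

/-- **Algebraisation.**  See the module docstring. -/
theorem exists_kummer_section [IsNoetherianRing O] (u : L) (hu : u ≠ 0)
    (C0 Cinf OO : Subalgebra O L) (hu0 : u ∈ C0) (huinf : u⁻¹ ∈ Cinf)
    (hroot0 : ∀ (y : L) (k : ℕ), 0 < k → y ^ k ∈ C0 → y ∈ C0)
    (hrootinf : ∀ (y : L) (k : ℕ), 0 < k → y ^ k ∈ Cinf → y ∈ Cinf)
    (hov : ∀ b ∈ C0, ∃ k : ℕ, u⁻¹ ^ k * b ∈ Cinf)
    (hov' : ∀ c ∈ Cinf, ∃ k : ℕ, u ^ k * c ∈ C0)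
    (hfg : ∃ s : Finset L, (↑s : Set L) ⊆ C0 ∧
      ∀ c ∈ C0, ∃ p : L → O[X], c = ∑ g ∈ s, aeval u (p g) * g)
    (π : O) (h0OO : C0 ≤ OO)
    (hsat : ∀ x ∈ OO, π • x ∈ C0 → x ∈ C0)
    (hπ : ∀ t ∈ OO, π • t ≠ 1)
    (f : L) (m : ℕ) (hm : 0 < m) (hf : f ∈ OO)
    (a : L) (ha : a ≠ 0) (hab : ∀ y : L, y ^ m * f ∈ C0 → a * y ∈ C0)
    (hbOO : ∀ y : L, y ^ m * f ∈ C0 → y ∈ OO) :
    ∃ e : ℕ, ∀ n : ℕ, e < n → ∀ y0 yinf : L, y0 ^ m * f ∈ C0 → yinf ^ m * f ∈ Cinf →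
      (∃ t ∈ OO, y0 - yinf = π ^ n • t) → (∃ t ∈ OO, y0 - 1 = π • t) →
      ∃ h : L, h ≠ 0 ∧ h ^ m * f ∈ C0 ∧ h ^ m * f ∈ Cinf := by
  classical
  set b0 : Submodule O L := kummerMod C0 hroot0 f m hm with hb0
  set binf : Submodule O L := kummerMod Cinf hrootinf f m hm with hbinf
  have hstab0 : ∀ y ∈ b0, u * y ∈ b0 := fun y hy => mul_mem_kummerMod hu0 hy
  have hstabinf : ∀ y ∈ binf, u⁻¹ * y ∈ binf := fun y hy => mul_mem_kummerMod huinf hy
  have hpow0 : ∀ (k : ℕ) (y : L), y ∈ b0 → u ^ k * y ∈ b0 := fun k y hy =>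
    mul_mem_kummerMod (C0.pow_mem hu0 k) hy
  obtain ⟨ω, hωb, hω⟩ := exists_finset_span_pow u C0 hu0 hfg b0
    (fun c hc y hy => mul_mem_kummerMod hc hy) a ha (fun y hy => hab y hy)
  have hωinf : ∀ w ∈ ω, ∃ k : ℕ, u⁻¹ ^ k * w ∈ binf := by
    intro w hw
    obtain ⟨k, hk⟩ := hov _ (mem_kummerMod.mp (hωb w hw))
    exact ⟨k, mem_kummerMod.mpr (pow_mul_mem_kummer hm huinf hk)⟩
  obtain ⟨s, hs⟩ := exists_finset_le u hu b0 binf hstab0 hstabinf ω hωb hω hωinf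
  set bC : Submodule O L := ovMod u b0 hstab0 with hbC
  have hsle : bC ≤ b0 ⊔ binf ⊔ Submodule.span O (s : Set L) := fun y hy => hs y hy
  obtain ⟨e, he⟩ := exists_common π b0 binf bC s hsle
  refine ⟨e, fun n hn y0 yinf hy0 hyinf hdiff hone => ?_⟩
  obtain ⟨t, ht, hdiff⟩ := hdiff
  obtain ⟨t1, ht1, hone⟩ := hone
  have hy0b : y0 ∈ b0 := mem_kummerMod.mpr hy0
  have hyinfb : yinf ∈ binf := mem_kummerMod.mpr hyinf
  -- `t ∈ bC`
  have htC : t ∈ bC := by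
    obtain ⟨k, hk⟩ := hov' _ hyinf
    have h1 : u ^ k * yinf ∈ b0 := mem_kummerMod.mpr (pow_mul_mem_kummer hm hu0 hk)
    have h2 : u ^ k * y0 ∈ b0 := hpow0 k y0 hy0b
    have h3 : π ^ n • (u ^ k * t) ∈ b0 := by
      have e3 : π ^ n • (u ^ k * t) = u ^ k * y0 - u ^ k * yinf := by
        rw [← mul_smul_comm, ← hdiff]; ring
      rw [e3]; exact b0.sub_mem h2 h1
    refine ⟨k, ?_⟩
    show (u ^ k * t) ^ m * f ∈ C0
    have h4 : π ^ (n * m) • ((u ^ k * t) ^ m * f) ∈ C0 := by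
      have e4 : π ^ (n * m) • ((u ^ k * t) ^ m * f) = (π ^ n • (u ^ k * t)) ^ m * f := by
        rw [_root_.smul_pow, smul_mul_assoc, ← pow_mul]
      rw [e4]; exact mem_kummerMod.mp h3
    refine sat_pow π C0 OO hsat (n * m) _ ?_ h4
    exact OO.mul_mem (OO.pow_mem (OO.mul_mem (OO.pow_mem (h0OO hu0) k) ht) m) hf
  obtain ⟨φ, hφmem, z0, hz0, hφ⟩ := he n hn.le y0 hy0b yinf hyinfb t htC hdiff
  refine ⟨φ, ?_, mem_kummerMod.mp hφmem.1, mem_kummerMod.mp hφmem.2⟩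
  intro h0
  have hz0OO : z0 ∈ OO := hbOO z0 (mem_kummerMod.mp hz0)
  have hy0eq : y0 = π ^ (n - e) • z0 := by
    rw [h0] at hφ
    exact sub_eq_zero.mp hφ.symm
  obtain ⟨d, hd⟩ : ∃ d, n - e = d + 1 := ⟨n - e - 1, by omega⟩
  refine hπ (π ^ d • z0 - t1) (OO.sub_mem (OO.smul_mem hz0OO _) ht1) ?_
  rw [smul_sub, smul_smul, ← pow_succ', ← hd, ← hy0eq, ← hone]
  ring

end Fermat.Agent.S19.Cech.AlgChart
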