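import Mathlib
import Fermat.Agent.S19.Cech.AlgChart

/-!
# Algebraisation on a chart with prime uniformiser (S19, Route C, brick ALG)

Level-free (Mathlib only).  `C` an `O`-subalgebra of the field `L`, `π : O`.

* `PiDvd π C x`   : `x ∈ π C`;
* `PiPrime π C`   : `π` is a prime element of `C` (in the subalgebra vocabulary);
* `gaussLoc π C`  : the localisation `C_(π)` as an `O`-subalgebra of `L` (the Gauss valuation
  ring of the chart), with `C ≤ C_(π)`, `π`-saturation of `C` in `C_(π)`, `π ∉ C_(π)ˣ`,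
  root-closedness, and `1 + π C_(π) ⊆ C_(π)ˣ`.

**`exists_kummer_section_one`** : `AlgChart.exists_kummer_section` for a Kummer function
`f ≡ 1` modulo `π 𝒪`, with the hypotheses on `f` discharged.

**`exists_kummer_section_gauss`** : the same with `𝒪 = gaussLoc π C0`.
-/

set_option autoImplicit false

namespace Fermat.Agent.S19.Cech.AlgGauss

open Polynomial Fermat.Agent.S19.Cech.AlgCore Fermat.Agent.S19.Cech.AlgChart

variable {O L : Type*} [CommRing O] [Field L] [Algebra O L]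

/-- `x ∈ π C`. -/
def PiDvd (π : O) (C : Subalgebra O L) (x : L) : Prop := ∃ c ∈ C, x = π • c

/-- `π` is a prime element of the subalgebra `C`. -/
def PiPrime (π : O) (C : Subalgebra O L) : Prop :=
  ¬ PiDvd π C 1 ∧ ∀ a ∈ C, ∀ b ∈ C, PiDvd π C (a * b) → PiDvd π C a ∨ PiDvd π C b

theorem piDvd_zero (π : O) (C : Subalgebra O L) : PiDvd π C 0 := ⟨0, C.zero_mem, by simp⟩

theorem PiDvd.add {π : O} {C : Subalgebra O L} {x y : L} (hx : PiDvd π C x) (hy : PiDvd π C y) :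
    PiDvd π C (x + y) := by
  obtain ⟨c, hc, rfl⟩ := hx
  obtain ⟨d, hd, rfl⟩ := hy
  exact ⟨c + d, C.add_mem hc hd, by rw [smul_add]⟩

theorem PiDvd.sub {π : O} {C : Subalgebra O L} {x y : L} (hx : PiDvd π C x) (hy : PiDvd π C y) :
    PiDvd π C (x - y) := by
  obtain ⟨c, hc, rfl⟩ := hx
  obtain ⟨d, hd, rfl⟩ := hy
  exact ⟨c - d, C.sub_mem hc hd, by rw [smul_sub]⟩

theorem piDvd_smul {π : O} {C : Subalgebra O L} {c : L} (hc : c ∈ C) : PiDvd π C (π • c) :=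
  ⟨c, hc, rfl⟩

/-- The localisation `C_(π)` of `C` at the prime element `π`, as a subalgebra of `L`. -/
def gaussLoc (π : O) (C : Subalgebra O L) (hp : PiPrime π C) : Subalgebra O L where
  carrier := {x | ∃ t ∈ C, ¬ PiDvd π C t ∧ t * x ∈ C}
  mul_mem' := by
    rintro x y ⟨t, ht, hnt, htx⟩ ⟨s, hs, hns, hsy⟩
    refine ⟨t * s, C.mul_mem ht hs, fun h => ?_, ?_⟩
    · rcases hp.2 t ht s hs h with h | h
      · exact hnt h
      · exact hns h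
    · have e : t * s * (x * y) = t * x * (s * y) := by ring
      rw [e]
      exact C.mul_mem htx hsy
  add_mem' := by
    rintro x y ⟨t, ht, hnt, htx⟩ ⟨s, hs, hns, hsy⟩
    refine ⟨t * s, C.mul_mem ht hs, fun h => ?_, ?_⟩
    · rcases hp.2 t ht s hs h with h | h
      · exact hnt h
      · exact hns h
    · have e : t * s * (x + y) = s * (t * x) + t * (s * y) := by ring
      rw [e]
      exact C.add_mem (C.mul_mem hs htx) (C.mul_mem ht hsy)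
  algebraMap_mem' := by
    intro r
    exact ⟨1, C.one_mem, hp.1, by rw [one_mul]; exact C.algebraMap_mem r⟩

theorem mem_gaussLoc {π : O} {C : Subalgebra O L} {hp : PiPrime π C} {x : L} :
    x ∈ gaussLoc π C hp ↔ ∃ t ∈ C, ¬ PiDvd π C t ∧ t * x ∈ C := Iff.rfl

theorem le_gaussLoc (π : O) (C : Subalgebra O L) (hp : PiPrime π C) : C ≤ gaussLoc π C hp :=
  fun x hx => ⟨1, C.one_mem, hp.1, by rw [one_mul]; exact hx⟩

/-- `π`-saturation of `C` in `C_(π)`. -/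
theorem gaussLoc_sat (π : O) (C : Subalgebra O L) (hp : PiPrime π C)
    (hπ0 : algebraMap O L π ≠ 0) :
    ∀ x ∈ gaussLoc π C hp, π • x ∈ C → x ∈ C := by
  rintro x ⟨t, ht, hnt, htx⟩ hπx
  have h1 : PiDvd π C (t * (π • x)) := ⟨t * x, htx, by rw [mul_smul_comm]⟩
  rcases hp.2 t ht _ hπx h1 with h | ⟨c, hc, h⟩
  · exact absurd h hnt
  · have : x = c := by
      rw [Algebra.smul_def, Algebra.smul_def] at h
      exact mul_left_cancel₀ hπ0 h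
    rw [this]
    exact hc

/-- `π` is not a unit of `C_(π)`. -/
theorem gaussLoc_not_unit (π : O) (C : Subalgebra O L) (hp : PiPrime π C) :
    ∀ t ∈ gaussLoc π C hp, π • t ≠ 1 := by
  rintro x ⟨t, ht, hnt, htx⟩ h
  apply hnt
  refine ⟨t * x, htx, ?_⟩
  rw [← mul_smul_comm, h, mul_one]

/-- `C_(π)` is root-closed when `C` is. -/
theorem gaussLoc_root (π : O) (C : Subalgebra O L) (hp : PiPrime π C)
    (hroot : ∀ (y : L) (k : ℕ), 0 < k → y ^ k ∈ C → y ∈ C) :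
    ∀ (y : L) (k : ℕ), 0 < k → y ^ k ∈ gaussLoc π C hp → y ∈ gaussLoc π C hp := by
  rintro y k hk ⟨t, ht, hnt, hty⟩
  refine ⟨t, ht, hnt, hroot _ k hk ?_⟩
  obtain ⟨d, rfl⟩ : ∃ d, k = d + 1 := ⟨k - 1, by omega⟩
  have e : (t * y) ^ (d + 1) = t ^ d * (t * y ^ (d + 1)) := by ring
  rw [e]
  exact C.mul_mem (C.pow_mem ht d) hty

/-- `1 + π C_(π)` consists of units of `C_(π)`. -/
theorem gaussLoc_inv_one_add (π : O) (C : Subalgebra O L) (hp : PiPrime π C) :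
    ∀ g ∈ gaussLoc π C hp, (1 + π • g)⁻¹ ∈ gaussLoc π C hp := by
  rintro g ⟨t, ht, hnt, htg⟩
  have hs : t * (1 + π • g) = t + π • (t * g) := by rw [mul_add, mul_one, mul_smul_comm]
  have hns : ¬ PiDvd π C (t + π • (t * g)) := by
    intro h
    apply hnt
    have := h.sub (piDvd_smul (π := π) htg)
    simpa using this
  have hs0 : t + π • (t * g) ≠ 0 := fun h0 => hns (h0 ▸ piDvd_zero π C)
  have h1 : (1 : L) + π • g ≠ 0 := by
    intro h0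
    rw [h0, mul_zero] at hs
    exact hs0 hs.symm
  refine ⟨t + π • (t * g), C.add_mem ht (C.smul_mem htg π), hns, ?_⟩
  rw [← hs, mul_assoc, mul_inv_cancel₀ h1, mul_one]
  exact ht

/-- **Algebraisation for a Kummer function `f ≡ 1` modulo `π 𝒪`.** -/
theorem exists_kummer_section_one [IsNoetherianRing O] (u : L) (hu : u ≠ 0)
    (C0 Cinf OO : Subalgebra O L) (hu0 : u ∈ C0) (huinf : u⁻¹ ∈ Cinf)
    (hroot0 : ∀ (y : L) (k : ℕ), 0 < k → y ^ k ∈ C0 → y ∈ C0)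
    (hrootinf : ∀ (y : L) (k : ℕ), 0 < k → y ^ k ∈ Cinf → y ∈ Cinf)
    (hov : ∀ b ∈ C0, ∃ k : ℕ, u⁻¹ ^ k * b ∈ Cinf)
    (hov' : ∀ c ∈ Cinf, ∃ k : ℕ, u ^ k * c ∈ C0)
    (hfg : ∃ s : Finset L, (↑s : Set L) ⊆ C0 ∧
      ∀ c ∈ C0, ∃ p : L → O[X], c = ∑ g ∈ s, aeval u (p g) * g)
    (π : O) (h0OO : C0 ≤ OO)
    (hsat : ∀ x ∈ OO, π • x ∈ C0 → x ∈ C0)
    (hπ : ∀ t ∈ OO, π • t ≠ 1)
    (hrootOO : ∀ (y : L) (k : ℕ), 0 < k → y ^ k ∈ OO → y ∈ OO)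
    (hloc : ∀ g ∈ OO, (1 + π • g)⁻¹ ∈ OO)
    (f : L) (m : ℕ) (hm : 0 < m) (hf1 : ∃ g ∈ OO, f = 1 + π • g)
    (hfrac : ∃ b ∈ C0, b ≠ 0 ∧ b * f ∈ C0) :
    ∃ e : ℕ, ∀ n : ℕ, e < n → ∀ y0 yinf : L, y0 ^ m * f ∈ C0 → yinf ^ m * f ∈ Cinf →
      (∃ t ∈ OO, y0 - yinf = π ^ n • t) → (∃ t ∈ OO, y0 - 1 = π • t) →
      ∃ h : L, h ≠ 0 ∧ h ^ m * f ∈ C0 ∧ h ^ m * f ∈ Cinf := by
  obtain ⟨g, hg, hfg1⟩ := hf1
  have hf0 : f ≠ 0 := by
    intro h0
    apply hπ (-g) (OO.neg_mem hg)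
    rw [smul_neg]
    rw [h0] at hfg1
    linear_combination hfg1
  have hfOO : f ∈ OO := by
    rw [hfg1]
    exact OO.add_mem OO.one_mem (OO.smul_mem hg π)
  have hfinv : f⁻¹ ∈ OO := by
    rw [hfg1]
    exact hloc g hg
  obtain ⟨b, hb, hb0, hbf⟩ := hfrac
  obtain ⟨d, rfl⟩ : ∃ d, m = d + 1 := ⟨m - 1, by omega⟩
  refine exists_kummer_section u hu C0 Cinf OO hu0 huinf hroot0 hrootinf hov hov' hfg π h0OO
    hsat hπ f (d + 1) hm hfOO (b * f) (mul_ne_zero hb0 hf0) ?_ ?_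
  · intro y hy
    refine hroot0 _ (d + 1) hm ?_
    have e : (b * f * y) ^ (d + 1) = b * (b * f) ^ d * (y ^ (d + 1) * f) := by ring
    rw [e]
    exact C0.mul_mem (C0.mul_mem hb (C0.pow_mem hbf d)) hy
  · intro y hy
    refine hrootOO y (d + 1) hm ?_
    have e : y ^ (d + 1) = y ^ (d + 1) * f * f⁻¹ := by
      rw [mul_assoc, mul_inv_cancel₀ hf0, mul_one]
    rw [e]
    exact OO.mul_mem (h0OO hy) hfinv

/-- **Algebraisation on a chart with prime uniformiser**, `𝒪 = C0_(π)`. -/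
theorem exists_kummer_section_gauss [IsNoetherianRing O] (u : L) (hu : u ≠ 0)
    (C0 Cinf : Subalgebra O L) (hu0 : u ∈ C0) (huinf : u⁻¹ ∈ Cinf)
    (hroot0 : ∀ (y : L) (k : ℕ), 0 < k → y ^ k ∈ C0 → y ∈ C0)
    (hrootinf : ∀ (y : L) (k : ℕ), 0 < k → y ^ k ∈ Cinf → y ∈ Cinf)
    (hov : ∀ b ∈ C0, ∃ k : ℕ, u⁻¹ ^ k * b ∈ Cinf)
    (hov' : ∀ c ∈ Cinf, ∃ k : ℕ, u ^ k * c ∈ C0)
    (hfg : ∃ s : Finset L, (↑s : Set L) ⊆ C0 ∧
      ∀ c ∈ C0, ∃ p : L → O[X], c = ∑ g ∈ s, aeval u (p g) * g)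
    (π : O) (hπ0 : algebraMap O L π ≠ 0) (hp : PiPrime π C0)
    (f : L) (m : ℕ) (hm : 0 < m) (hf1 : ∃ g ∈ gaussLoc π C0 hp, f = 1 + π • g)
    (hfrac : ∃ b ∈ C0, b ≠ 0 ∧ b * f ∈ C0) :
    ∃ e : ℕ, ∀ n : ℕ, e < n → ∀ y0 yinf : L, y0 ^ m * f ∈ C0 → yinf ^ m * f ∈ Cinf →
      (∃ t ∈ gaussLoc π C0 hp, y0 - yinf = π ^ n • t) →
      (∃ t ∈ gaussLoc π C0 hp, y0 - 1 = π • t) →
      ∃ h : L, h ≠ 0 ∧ h ^ m * f ∈ C0 ∧ h ^ m * f ∈ Cinf :=
  exists_kummer_section_one u hu C0 Cinf (gaussLoc π C0 hp) hu0 huinf hroot0 hrootinf hov hov'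
    hfg π (le_gaussLoc π C0 hp) (gaussLoc_sat π C0 hp hπ0) (gaussLoc_not_unit π C0 hp)
    (gaussLoc_root π C0 hp hroot0) (gaussLoc_inv_one_add π C0 hp) f m hm hf1 hfrac

end Fermat.Agent.S19.Cech.AlgGauss
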