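import Mathlib
import Fermat.Agent.Lib.GaussChartRoots
import Fermat.Agent.S19.Cech.AlgGauss

/-!
# Injectivity of the Kummer–Čech map: the cocycle form (S19, Route C, brick ALG)

Level-free (Mathlib + the `Lib/GaussChart`, `Lib/GaussChartRoots` vocabulary).  `C0 ∋ u`, `Cinf ∋ u⁻¹` the two chart rings
(as `O`-subalgebras of the function field `L`), `𝒪` the Gauss ring, `R0 i`, `R1 j` the local
rings at the closed points of the special fibres of the two charts.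

* `exists_kummer_glue` : local-global principle for the Kummer module
  `b = {y | y ^ m * f ∈ C}` modulo `π ^ N 𝒪` (conductor-ideal argument), from the covering
  hypothesis "every maximal ideal `Q ∋ π` of `C` has an `i` with `R i ⊆ C_Q`".
* **`exists_pow_mul_mem_of_roots`** : for `f ∈ 1 + π𝒪` there is `e` such that for `N > e`: if
  `ψ0`, `ψ1 ∈ 1 + π𝒪` are level-`N` `m`-th roots of `f` on the two charts whose quotient is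
  trivial, `ψ0 / ψ1 ∈ (1 + π C0)(1 + π Cinf)⁻¹(1 + π ^ N 𝒪)`, then `h ^ m * f ∈ C0 ∩ Cinf` for some
  `h ≠ 0` (so `f` is a constant times an `m`-th power: its Kummer class is trivial).
* `exists_pow_mul_mem_of_gaussChart` : the same with `GaussRing`/`GaussChart` hypotheses and the
  root conditions `IsRootRel 𝒪 π R m N (fun _ => 1) f ψ` of `Lib/GaussChartRoots`.
* **`exists_pow_mul_mem_of_isRootRel`** : the form consumed by the assembly: level-`N` roots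
  `ψ0`, `ψ1` on the two charts with `ψ0 = ψ1 * (1 + π ^ n * h)`, `e < n ≤ N`.
-/

set_option autoImplicit false

namespace Fermat.Agent.S19.Cech.AlgCocycle

open Polynomial Fermat.Agent.Lib.ChartRoots Fermat.Agent.S19.Cech.AlgCore
  Fermat.Agent.S19.Cech.AlgChart Fermat.Agent.S19.Cech.AlgGauss

variable {O L : Type*} [CommRing O] [Field L] [Algebra O L]

/-- **Local-global principle for the Kummer module.**  If `x ∈ 𝒪` is, at every index `i`,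
congruent modulo `π ^ N 𝒪` to a local section `y` (`y ^ m * f ∈ R i`), then it is congruent
modulo `π ^ N 𝒪` to a global section (`y ^ m * f ∈ C`). -/
theorem exists_kummer_glue (C : Subalgebra O L)
    (hroot : ∀ (y : L) (k : ℕ), 0 < k → y ^ k ∈ C → y ∈ C)
    (π : O) (𝒪 : Subring L) (hC𝒪 : ∀ x ∈ C, x ∈ 𝒪) {ι : Type*} (R : ι → Subring L)
    (hcov : ∀ Q : Ideal ↥C, Q.IsMaximal → algebraMap O ↥C π ∈ Q →
      ∃ i, ∀ z ∈ R i, ∃ s : ↥C, s ∉ Q ∧ (s : L) * z ∈ C)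
    (f : L) (m : ℕ) (hm : 0 < m) (N : ℕ) (x : L) (hx : x ∈ 𝒪)
    (hloc : ∀ i, ∃ y : L, y ^ m * f ∈ R i ∧ ∃ h ∈ 𝒪, x = y + algebraMap O L π ^ N * h) :
    ∃ y : L, y ^ m * f ∈ C ∧ ∃ h ∈ 𝒪, x = y + algebraMap O L π ^ N * h := by
  classical
  let I : Ideal ↥C :=
    { carrier := {s | ∃ y : L, y ^ m * f ∈ C ∧
        ∃ h ∈ 𝒪, (s : L) * x = y + algebraMap O L π ^ N * h}
      add_mem' := by
        rintro s s' ⟨y, hy, h, hh, e⟩ ⟨y', hy', h', hh', e'⟩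
        refine ⟨y + y', ?_, h + h', 𝒪.add_mem hh hh', ?_⟩
        · exact (kummerMod C hroot f m hm).add_mem (x := y) (y := y') hy hy'
        · rw [Subalgebra.coe_add, add_mul, e, e']; ring
      zero_mem' := ⟨0, by rw [zero_pow hm.ne', zero_mul]; exact C.zero_mem, 0, 𝒪.zero_mem,
        by simp⟩
      smul_mem' := by
        rintro c s ⟨y, hy, h, hh, e⟩
        refine ⟨(c : L) * y, ?_, (c : L) * h, 𝒪.mul_mem (hC𝒪 _ c.2) hh, ?_⟩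
        · exact mul_mem_kummerMod (hC := hroot) (hm := hm) c.2 hy
        · rw [smul_eq_mul, Subalgebra.coe_mul, mul_assoc, e]; ring }
  have hmemI : ∀ s : ↥C, s ∈ I ↔ ∃ y : L, y ^ m * f ∈ C ∧
      ∃ h ∈ 𝒪, (s : L) * x = y + algebraMap O L π ^ N * h := fun s => Iff.rfl
  have hπI : algebraMap O ↥C π ^ N ∈ I := by
    rw [hmemI]
    refine ⟨0, by rw [zero_pow hm.ne', zero_mul]; exact C.zero_mem, x, hx, ?_⟩
    rw [zero_add, Subalgebra.coe_pow, Subalgebra.coe_algebraMap]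
  have htop : I = ⊤ := by
    by_contra hne
    obtain ⟨Q, hQ, hIQ⟩ := Ideal.exists_le_maximal I hne
    have hπQ : algebraMap O ↥C π ∈ Q := hQ.isPrime.mem_of_pow_mem N (hIQ hπI)
    obtain ⟨i, hi⟩ := hcov Q hQ hπQ
    obtain ⟨y, hy, h, hh, e⟩ := hloc i
    obtain ⟨s, hsQ, hs⟩ := hi _ hy
    apply hsQ
    apply hIQ
    rw [hmemI]
    refine ⟨(s : L) * y, ?_, (s : L) * h, 𝒪.mul_mem (hC𝒪 _ s.2) hh, ?_⟩
    · have e1 : (s : L) ^ m = (s : L) ^ (m - 1) * s := by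
        rw [← pow_succ, Nat.sub_add_cancel hm]
      have e2 : ((s : L) * y) ^ m * f = (s : L) ^ (m - 1) * ((s : L) * (y ^ m * f)) := by
        rw [mul_pow, e1]; ring
      rw [e2]
      exact C.mul_mem (C.pow_mem s.2 _) hs
    · rw [e]; ring
  have h1 : (1 : ↥C) ∈ I := by rw [htop]; trivial
  rw [hmemI] at h1
  obtain ⟨y, hy, h, hh, e⟩ := h1
  refine ⟨y, hy, h, hh, ?_⟩
  rw [← e, Subalgebra.coe_one, one_mul]

/-- **Injectivity of the Kummer–Čech map, root form.**  See the module docstring. -/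
theorem exists_pow_mul_mem_of_roots [IsNoetherianRing O] (u : L) (hu : u ≠ 0)
    (C0 Cinf : Subalgebra O L) (hu0 : u ∈ C0) (huinf : u⁻¹ ∈ Cinf)
    (hroot0 : ∀ (y : L) (k : ℕ), 0 < k → y ^ k ∈ C0 → y ∈ C0)
    (hrootinf : ∀ (y : L) (k : ℕ), 0 < k → y ^ k ∈ Cinf → y ∈ Cinf)
    (hov : ∀ b ∈ C0, ∃ k : ℕ, u⁻¹ ^ k * b ∈ Cinf)
    (hov' : ∀ c ∈ Cinf, ∃ k : ℕ, u ^ k * c ∈ C0)
    (hfg : ∃ s : Finset L, (↑s : Set L) ⊆ C0 ∧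
      ∀ c ∈ C0, ∃ p : L → O[X], c = ∑ g ∈ s, aeval u (p g) * g)
    (π : O) (𝒪 : Subring L) (hG : GaussRing 𝒪 (algebraMap O L π))
    (hC0𝒪 : ∀ x ∈ C0, x ∈ 𝒪) (hCinf𝒪 : ∀ x ∈ Cinf, x ∈ 𝒪)
    (hsat : ∀ h ∈ 𝒪, algebraMap O L π * h ∈ C0 → h ∈ C0)
    {ι0 ι1 : Type*} (R0 : ι0 → Subring L) (R1 : ι1 → Subring L)
    (hle0 : ∀ i, ∀ x ∈ C0, x ∈ R0 i) (hle1 : ∀ j, ∀ x ∈ Cinf, x ∈ R1 j)
    (hcov0 : ∀ Q : Ideal ↥C0, Q.IsMaximal → algebraMap O ↥C0 π ∈ Q →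
      ∃ i, ∀ z ∈ R0 i, ∃ s : ↥C0, s ∉ Q ∧ (s : L) * z ∈ C0)
    (hcov1 : ∀ Q : Ideal ↥Cinf, Q.IsMaximal → algebraMap O ↥Cinf π ∈ Q →
      ∃ j, ∀ z ∈ R1 j, ∃ s : ↥Cinf, s ∉ Q ∧ (s : L) * z ∈ Cinf)
    (f : L) (m : ℕ) (hm : 0 < m) (hf1 : ∃ g ∈ 𝒪, f = 1 + algebraMap O L π * g)
    (hfrac : ∃ b ∈ C0, b ≠ 0 ∧ b * f ∈ C0) :
    ∃ e : ℕ, ∀ N : ℕ, e < N → ∀ ψ0 ψ1 : L,
      (∃ h ∈ 𝒪, ψ0 = 1 + algebraMap O L π * h) →
      (∀ i, ∃ h ∈ 𝒪, f * (ψ0⁻¹ * (1 + algebraMap O L π ^ N * h)) ^ m ∈ R0 i) →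
      (∃ h ∈ 𝒪, ψ1 = 1 + algebraMap O L π * h) →
      (∀ j, ∃ h ∈ 𝒪, f * (ψ1⁻¹ * (1 + algebraMap O L π ^ N * h)) ^ m ∈ R1 j) →
      (∃ c0 ∈ C0, ∃ c1 ∈ Cinf, ∃ h ∈ 𝒪,
        ψ0 / ψ1 * (1 + algebraMap O L π * c1) =
          (1 + algebraMap O L π * c0) * (1 + algebraMap O L π ^ N * h)) →
      ∃ h : L, h ≠ 0 ∧ h ^ m * f ∈ C0 ∧ h ^ m * f ∈ Cinf := by
  classical
  set p : L := algebraMap O L π with hp
  -- the `O`-subalgebra structure on `𝒪`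
  let OO : Subalgebra O L :=
    { 𝒪.toSubsemiring with algebraMap_mem' := fun r => hC0𝒪 _ (C0.algebraMap_mem r) }
  have hOO : ∀ x : L, x ∈ OO ↔ x ∈ 𝒪 := fun x => Iff.rfl
  have hsmul : ∀ (a : O) (t : L), a • t = algebraMap O L a * t := fun a t => Algebra.smul_def a t
  obtain ⟨e, he⟩ := exists_kummer_section_one u hu C0 Cinf OO hu0 huinf hroot0 hrootinf hov hov'
    hfg π (fun x hx => (hOO x).mpr (hC0𝒪 x hx))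
    (fun x hx hπx => hsat x ((hOO x).mp hx) (by rw [hp, ← hsmul]; exact hπx))
    (fun t ht h => by
      rw [hsmul] at h
      exact hG.inv_pi_notMem (by rw [← eq_inv_of_mul_eq_one_right h]; exact (hOO t).mp ht))
    (fun y k hk hy => by
      rw [hOO] at hy ⊢
      rcases hG.mem_or_inv_mem y with h | h
      · exact h
      · by_cases hy0 : y = 0
        · rw [hy0]; exact 𝒪.zero_mem
        · have e1 : y = y ^ k * y⁻¹ ^ (k - 1) := by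
            have e2 : y ^ k = y ^ (k - 1) * y := by rw [← pow_succ, Nat.sub_add_cancel hk]
            rw [e2, mul_assoc, mul_comm y, ← mul_assoc, ← mul_pow, mul_inv_cancel₀ hy0, one_pow,
              one_mul]
          rw [e1]
          exact 𝒪.mul_mem hy (𝒪.pow_mem h _))
    (fun g hg => by
      rw [hOO] at hg ⊢
      rw [hsmul]
      obtain ⟨h', hh', e1⟩ := hG.inv_one_add hg
      rw [e1]
      exact 𝒪.add_mem 𝒪.one_mem (𝒪.mul_mem hG.pi_mem hh'))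
    f m hm (by
      obtain ⟨g, hg, e1⟩ := hf1
      exact ⟨g, (hOO g).mpr hg, by rw [hsmul]; exact e1⟩) hfrac
  refine ⟨e, fun N hN ψ0 ψ1 hψ0 hr0 hψ1 hr1 htriv => ?_⟩
  obtain ⟨a0, ha0, hψ0⟩ := hψ0
  obtain ⟨a1, ha1, hψ1⟩ := hψ1
  obtain ⟨c0, hc0, c1, hc1, h, hh, htriv⟩ := htriv
  have hψ0ne : ψ0 ≠ 0 := by rw [hψ0]; exact hG.one_add_ne_zero ha0
  have hψ1ne : ψ1 ≠ 0 := by rw [hψ1]; exact hG.one_add_ne_zero ha1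
  obtain ⟨b0, hb0, hψ0inv⟩ := hG.inv_one_add ha0
  obtain ⟨b1, hb1, hψ1inv⟩ := hG.inv_one_add ha1
  rw [← hψ0] at hψ0inv
  rw [← hψ1] at hψ1inv
  have hp𝒪 : p ∈ 𝒪 := hG.pi_mem
  have hpC0 : p ∈ C0 := C0.algebraMap_mem π
  have hpCinf : p ∈ Cinf := Cinf.algebraMap_mem π
  have hc0𝒪 : c0 ∈ 𝒪 := hC0𝒪 c0 hc0
  have hc1𝒪 : c1 ∈ 𝒪 := hCinf𝒪 c1 hc1
  have hψ0inv𝒪 : ψ0⁻¹ ∈ 𝒪 := by
    rw [hψ0inv]; exact 𝒪.add_mem 𝒪.one_mem (𝒪.mul_mem hp𝒪 hb0)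
  have hψ1inv𝒪 : ψ1⁻¹ ∈ 𝒪 := by
    rw [hψ1inv]; exact 𝒪.add_mem 𝒪.one_mem (𝒪.mul_mem hp𝒪 hb1)
  set x0 : L := ψ0⁻¹ * (1 + p * c0) with hx0def
  set x1 : L := ψ1⁻¹ * (1 + p * c1) with hx1def
  have hx0 : x0 ∈ 𝒪 := 𝒪.mul_mem hψ0inv𝒪 (𝒪.add_mem 𝒪.one_mem (𝒪.mul_mem hp𝒪 hc0𝒪))
  have hx1 : x1 ∈ 𝒪 := 𝒪.mul_mem hψ1inv𝒪 (𝒪.add_mem 𝒪.one_mem (𝒪.mul_mem hp𝒪 hc1𝒪))
  have hx01 : x1 = x0 * (1 + p ^ N * h) := by
    have e1 : x1 = ψ0⁻¹ * (ψ0 / ψ1 * (1 + p * c1)) := by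
      rw [hx1def]; field_simp
    rw [e1, htriv, hx0def]; ring
  -- global sections
  obtain ⟨y0, hy0, k0, hk0, e0⟩ := exists_kummer_glue C0 hroot0 π 𝒪 hC0𝒪 R0 hcov0 f m hm N x0
    hx0 (fun i => by
      obtain ⟨hi, hhi, hri⟩ := hr0 i
      refine ⟨x0 * (1 + p ^ N * hi), ?_, -(x0 * hi), 𝒪.neg_mem (𝒪.mul_mem hx0 hhi), by ring⟩
      have e1 : (x0 * (1 + p ^ N * hi)) ^ m * f =
          f * (ψ0⁻¹ * (1 + p ^ N * hi)) ^ m * (1 + p * c0) ^ m := by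
        rw [hx0def]; simp only [mul_pow]; ring
      rw [e1]
      exact (R0 i).mul_mem hri ((R0 i).pow_mem
        (hle0 i _ (C0.add_mem C0.one_mem (C0.mul_mem hpC0 hc0))) m))
  obtain ⟨yinf, hyinf, k1, hk1, e1⟩ := exists_kummer_glue Cinf hrootinf π 𝒪 hCinf𝒪 R1 hcov1 f m
    hm N x1 hx1 (fun j => by
      obtain ⟨hj, hhj, hrj⟩ := hr1 j
      refine ⟨x1 * (1 + p ^ N * hj), ?_, -(x1 * hj), 𝒪.neg_mem (𝒪.mul_mem hx1 hhj), by ring⟩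
      have e1 : (x1 * (1 + p ^ N * hj)) ^ m * f =
          f * (ψ1⁻¹ * (1 + p ^ N * hj)) ^ m * (1 + p * c1) ^ m := by
        rw [hx1def]; simp only [mul_pow]; ring
      rw [e1]
      exact (R1 j).mul_mem hrj ((R1 j).pow_mem
        (hle1 j _ (Cinf.add_mem Cinf.one_mem (Cinf.mul_mem hpCinf hc1))) m))
  have hN1 : 1 ≤ N := by omega
  refine he N hN y0 yinf hy0 hyinf ⟨k1 - k0 - x0 * h, ?_, ?_⟩
    ⟨b0 + c0 + p * (b0 * c0) - p ^ (N - 1) * k0, ?_, ?_⟩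
  · exact (hOO _).mpr (𝒪.sub_mem (𝒪.sub_mem hk1 hk0) (𝒪.mul_mem hx0 hh))
  · rw [hsmul, map_pow, ← hp]
    have ey0 : y0 = x0 - p ^ N * k0 := by rw [e0]; ring
    have eyinf : yinf = x0 * (1 + p ^ N * h) - p ^ N * k1 := by rw [← hx01, e1]; ring
    rw [ey0, eyinf]; ring
  · exact (hOO _).mpr (𝒪.sub_mem (𝒪.add_mem (𝒪.add_mem hb0 hc0𝒪)
      (𝒪.mul_mem hp𝒪 (𝒪.mul_mem hb0 hc0𝒪))) (𝒪.mul_mem (𝒪.pow_mem hp𝒪 _) hk0))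
  · rw [hsmul, ← hp]
    have ey0 : y0 = x0 - p ^ N * k0 := by rw [e0]; ring
    have epow : p ^ N = p * p ^ (N - 1) := by rw [← pow_succ', Nat.sub_add_cancel hN1]
    rw [ey0, hx0def, hψ0inv, epow]; ring

/-- **Injectivity of the Kummer–Čech map**, in the vocabulary of `Lib/GaussChartRoots`. -/
theorem exists_pow_mul_mem_of_gaussChart [IsNoetherianRing O] (u : L) (hu : u ≠ 0)
    (C0 Cinf : Subalgebra O L) (hu0 : u ∈ C0) (huinf : u⁻¹ ∈ Cinf)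
    (hroot0 : ∀ (y : L) (k : ℕ), 0 < k → y ^ k ∈ C0 → y ∈ C0)
    (hrootinf : ∀ (y : L) (k : ℕ), 0 < k → y ^ k ∈ Cinf → y ∈ Cinf)
    (hov : ∀ b ∈ C0, ∃ k : ℕ, u⁻¹ ^ k * b ∈ Cinf)
    (hov' : ∀ c ∈ Cinf, ∃ k : ℕ, u ^ k * c ∈ C0)
    (hfg : ∃ s : Finset L, (↑s : Set L) ⊆ C0 ∧
      ∀ c ∈ C0, ∃ p : L → O[X], c = ∑ g ∈ s, aeval u (p g) * g)
    (π : O) (𝒪 : Subring L) (hG : GaussRing 𝒪 (algebraMap O L π))
    {ι0 ι1 : Type*} (R0 : ι0 → Subring L) (R1 : ι1 → Subring L)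
    (h0 : GaussChart 𝒪 (algebraMap O L π) C0.toSubring R0)
    (h1 : GaussChart 𝒪 (algebraMap O L π) Cinf.toSubring R1)
    (hcov0 : ∀ Q : Ideal ↥C0, Q.IsMaximal → algebraMap O ↥C0 π ∈ Q →
      ∃ i, ∀ z ∈ R0 i, ∃ s : ↥C0, s ∉ Q ∧ (s : L) * z ∈ C0)
    (hcov1 : ∀ Q : Ideal ↥Cinf, Q.IsMaximal → algebraMap O ↥Cinf π ∈ Q →
      ∃ j, ∀ z ∈ R1 j, ∃ s : ↥Cinf, s ∉ Q ∧ (s : L) * z ∈ Cinf)
    (f : L) (m : ℕ) (hm : 0 < m) (hf1 : ∃ g ∈ 𝒪, f = 1 + algebraMap O L π * g)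
    (hfrac : ∃ b ∈ C0, b ≠ 0 ∧ b * f ∈ C0) :
    ∃ e : ℕ, ∀ N : ℕ, e < N → ∀ ψ0 ψ1 : L,
      IsRootRel 𝒪 (algebraMap O L π) R0 m N (fun _ => 1) f ψ0 →
      IsRootRel 𝒪 (algebraMap O L π) R1 m N (fun _ => 1) f ψ1 →
      (∃ c0 ∈ C0, ∃ c1 ∈ Cinf, ∃ h ∈ 𝒪,
        ψ0 / ψ1 * (1 + algebraMap O L π * c1) =
          (1 + algebraMap O L π * c0) * (1 + algebraMap O L π ^ N * h)) →
      ∃ h : L, h ≠ 0 ∧ h ^ m * f ∈ C0 ∧ h ^ m * f ∈ Cinf := by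
  obtain ⟨e, he⟩ := exists_pow_mul_mem_of_roots u hu C0 Cinf hu0 huinf hroot0 hrootinf hov hov'
    hfg π 𝒪 hG (fun x hx => h0.chart_le hx) (fun x hx => h1.chart_le hx)
    (fun h hh hπh => h0.chart_inter h hh hπh) R0 R1 (fun i x hx => h0.le_loc i hx)
    (fun j x hx => h1.le_loc j hx) hcov0 hcov1 f m hm hf1 hfrac
  refine ⟨e, fun N hN ψ0 ψ1 hr0 hr1 htriv => ?_⟩
  refine he N hN ψ0 ψ1 hr0.1 (fun i => ?_) hr1.1 (fun j => ?_) htriv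
  · obtain ⟨h, hh, hu⟩ := hr0.2 i
    have := hu.mem
    exact ⟨h, hh, by simpa only [one_mul] using this⟩
  · obtain ⟨h, hh, hu⟩ := hr1.2 j
    have := hu.mem
    exact ⟨h, hh, by simpa only [one_mul] using this⟩

/-- **Injectivity of the Kummer–Čech map: the form consumed by the assembly.**  There is `e`
(depending on `f` only) such that for `e < n ≤ N`: if `ψ0`, `ψ1` are level-`N` roots of `f`
on the two charts which agree modulo `π ^ n 𝒪`, then `h ^ m * f ∈ C0 ∩ Cinf` for some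
`h ≠ 0`. -/
theorem exists_pow_mul_mem_of_isRootRel [IsNoetherianRing O] (u : L) (hu : u ≠ 0)
    (C0 Cinf : Subalgebra O L) (hu0 : u ∈ C0) (huinf : u⁻¹ ∈ Cinf)
    (hroot0 : ∀ (y : L) (k : ℕ), 0 < k → y ^ k ∈ C0 → y ∈ C0)
    (hrootinf : ∀ (y : L) (k : ℕ), 0 < k → y ^ k ∈ Cinf → y ∈ Cinf)
    (hov : ∀ b ∈ C0, ∃ k : ℕ, u⁻¹ ^ k * b ∈ Cinf)
    (hov' : ∀ c ∈ Cinf, ∃ k : ℕ, u ^ k * c ∈ C0)
    (hfg : ∃ s : Finset L, (↑s : Set L) ⊆ C0 ∧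
      ∀ c ∈ C0, ∃ p : L → O[X], c = ∑ g ∈ s, aeval u (p g) * g)
    (π : O) (𝒪 : Subring L) (hG : GaussRing 𝒪 (algebraMap O L π))
    (hC0𝒪 : ∀ x ∈ C0, x ∈ 𝒪) (hCinf𝒪 : ∀ x ∈ Cinf, x ∈ 𝒪)
    (hsat : ∀ h ∈ 𝒪, algebraMap O L π * h ∈ C0 → h ∈ C0)
    {ι0 ι1 : Type*} (R0 : ι0 → Subring L) (R1 : ι1 → Subring L)
    (hle0 : ∀ i, ∀ x ∈ C0, x ∈ R0 i) (hle1 : ∀ j, ∀ x ∈ Cinf, x ∈ R1 j)
    (hcov0 : ∀ Q : Ideal ↥C0, Q.IsMaximal → algebraMap O ↥C0 π ∈ Q →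
      ∃ i, ∀ z ∈ R0 i, ∃ s : ↥C0, s ∉ Q ∧ (s : L) * z ∈ C0)
    (hcov1 : ∀ Q : Ideal ↥Cinf, Q.IsMaximal → algebraMap O ↥Cinf π ∈ Q →
      ∃ j, ∀ z ∈ R1 j, ∃ s : ↥Cinf, s ∉ Q ∧ (s : L) * z ∈ Cinf)
    (f : L) (m : ℕ) (hm : 0 < m) (hf1 : ∃ g ∈ 𝒪, f = 1 + algebraMap O L π * g)
    (hfrac : ∃ b ∈ C0, b ≠ 0 ∧ b * f ∈ C0) :
    ∃ e : ℕ, ∀ n N : ℕ, e < n → n ≤ N → ∀ ψ0 ψ1 : L,
      IsRootRel 𝒪 (algebraMap O L π) R0 m N (fun _ => 1) f ψ0 →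
      IsRootRel 𝒪 (algebraMap O L π) R1 m N (fun _ => 1) f ψ1 →
      (∃ h ∈ 𝒪, ψ0 = ψ1 * (1 + algebraMap O L π ^ n * h)) →
      ∃ h : L, h ≠ 0 ∧ h ^ m * f ∈ C0 ∧ h ^ m * f ∈ Cinf := by
  obtain ⟨e, he⟩ := exists_pow_mul_mem_of_roots u hu C0 Cinf hu0 huinf hroot0 hrootinf hov hov'
    hfg π 𝒪 hG hC0𝒪 hCinf𝒪 hsat R0 R1 hle0 hle1 hcov0 hcov1 f m hm hf1 hfrac
  refine ⟨e, fun n N hn hnN ψ0 ψ1 hr0 hr1 htriv => ?_⟩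
  have epow : ∀ h : L, algebraMap O L π ^ n * (algebraMap O L π ^ (N - n) * h) =
      algebraMap O L π ^ N * h := by
    intro h
    rw [← mul_assoc, ← pow_add, Nat.add_sub_cancel' hnN]
  have hψ1ne : ψ1 ≠ 0 := by
    obtain ⟨a1, ha1, hψ1⟩ := hr1.1
    rw [hψ1]; exact hG.one_add_ne_zero ha1
  refine he n hn ψ0 ψ1 hr0.1 (fun i => ?_) hr1.1 (fun j => ?_) ?_
  · obtain ⟨h, hh, hu⟩ := hr0.2 i
    refine ⟨algebraMap O L π ^ (N - n) * h, 𝒪.mul_mem (𝒪.pow_mem hG.pi_mem _) hh, ?_⟩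
    rw [epow]
    have := hu.mem
    simpa only [one_mul] using this
  · obtain ⟨h, hh, hu⟩ := hr1.2 j
    refine ⟨algebraMap O L π ^ (N - n) * h, 𝒪.mul_mem (𝒪.pow_mem hG.pi_mem _) hh, ?_⟩
    rw [epow]
    have := hu.mem
    simpa only [one_mul] using this
  · obtain ⟨h, hh, e1⟩ := htriv
    refine ⟨0, C0.zero_mem, 0, Cinf.zero_mem, h, hh, ?_⟩
    rw [e1, mul_zero, add_zero, mul_one, one_mul, mul_div_assoc, mul_comm, div_mul_cancel₀ _ hψ1ne]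

end Fermat.Agent.S19.Cech.AlgCocycle
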