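import Mathlib
import Fermat.Agent.Lib.GaussChartCoc
import Fermat.Agent.S19.Cech.AlgCocycle

/-!
# Injectivity of the Kummer–Čech map on cocycle representatives (S19, Route C, brick ALG)

Level-free.  The seam between `ALG` (`S19/Cech/AlgCocycle`), the representatives of `PHI`
(`Lib/GaussChartCoc`: `TwoChartEmb`, `IsCocRep`) and the clause `(inj)` of the Čech machine
(`S19/Cech/Machine`).

Setting: `O` noetherian, `𝒞` an `O`-algebra (the overlap chart ring) with subalgebras `C0'`,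
`Cinf'` (the two charts), `j : 𝒞 →+* L` into the function field, compatible with the constants;
`C0`, `Cinf ⊆ L` the images of the two charts.

**`exists_eq_const_mul_pow_of_isCocRep`** : for `f ∈ 1 + π𝒪` there is `e` (depending on `f` only)
such that for `e < n ≤ N`: if `g` represents the level-`N` cocycle class of `f` and `g` is
`CocEq` to `1` at level `n` (literal body of `Machine.CocEq C0' Cinf' t n g 1`), then
`f = a * h ^ m` with `a : O` and `h ≠ 0`.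

**`exists_level_of_isCocRep`** : the same uniformly for a finite family `f : G → L` (the
normalised Kummer functions of the points of `G0`): ONE level `n0`, fixed before `N`.
-/

set_option autoImplicit false

namespace Fermat.Agent.S19.Cech.AlgEmb

open Polynomial Fermat.Agent.Lib.ChartRoots Fermat.Agent.S19.Cech.AlgCocycle

variable {O 𝒞 L : Type*} [CommRing O] [CommRing 𝒞] [Algebra O 𝒞] [Field L] [Algebra O L]

/-- **The clause `(inj)` for one Kummer function.**  See the module docstring. -/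
theorem exists_eq_const_mul_pow_of_isCocRep [IsNoetherianRing O]
    (j : 𝒞 →+* L) (hjO : ∀ r : O, j (algebraMap O 𝒞 r) = algebraMap O L r)
    (C0' Cinf' : Subalgebra O 𝒞) (C0 Cinf : Subalgebra O L)
    (hC0 : ∀ x : L, x ∈ C0 ↔ ∃ c ∈ C0', j c = x)
    (hCinf : ∀ x : L, x ∈ Cinf ↔ ∃ c ∈ Cinf', j c = x)
    (u : L) (hu : u ≠ 0) (hu0 : u ∈ C0) (huinf : u⁻¹ ∈ Cinf)
    (hroot0 : ∀ (y : L) (k : ℕ), 0 < k → y ^ k ∈ C0 → y ∈ C0)
    (hrootinf : ∀ (y : L) (k : ℕ), 0 < k → y ^ k ∈ Cinf → y ∈ Cinf)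
    (hov : ∀ b ∈ C0, ∃ k : ℕ, u⁻¹ ^ k * b ∈ Cinf)
    (hov' : ∀ c ∈ Cinf, ∃ k : ℕ, u ^ k * c ∈ C0)
    (hfg : ∃ s : Finset L, (↑s : Set L) ⊆ C0 ∧
      ∀ c ∈ C0, ∃ p : L → O[X], c = ∑ g ∈ s, aeval u (p g) * g)
    (hconst : ∀ x ∈ C0, x ∈ Cinf → ∃ a : O, algebraMap O L a = x)
    (t : O) (𝒪 : Subring L) {ι0 ι1 ιc : Type*} (R0 : ι0 → Subring L) (R1 : ι1 → Subring L)
    (Rc : ιc → Subring L) (H : TwoChartEmb C0' Cinf' t j 𝒪 R0 R1 Rc)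
    (hcov0 : ∀ Q : Ideal ↥C0, Q.IsMaximal → algebraMap O ↥C0 t ∈ Q →
      ∃ i, ∀ z ∈ R0 i, ∃ s : ↥C0, s ∉ Q ∧ (s : L) * z ∈ C0)
    (hcov1 : ∀ Q : Ideal ↥Cinf, Q.IsMaximal → algebraMap O ↥Cinf t ∈ Q →
      ∃ i, ∀ z ∈ R1 i, ∃ s : ↥Cinf, s ∉ Q ∧ (s : L) * z ∈ Cinf)
    (f : L) (m : ℕ) (hm : 0 < m) (hf1 : ∃ g ∈ 𝒪, f = 1 + algebraMap O L t * g)
    (hfrac : ∃ b ∈ C0, b ≠ 0 ∧ b * f ∈ C0) :
    ∃ e : ℕ, ∀ n N : ℕ, e < n → n ≤ N → ∀ g : 𝒞, IsCocRep t j 𝒪 R0 R1 m N f g →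
      (∃ w0 w1 : 𝒞, w0 - 1 ∈ Ideal.span {t} • Subalgebra.toSubmodule C0' ∧
        w1 - 1 ∈ Ideal.span {t} • Subalgebra.toSubmodule Cinf' ∧
        g - 1 * w0 * w1 ∈ Ideal.span {t} ^ n • (⊤ : Submodule O 𝒞)) →
      ∃ (a : O) (h : L), h ≠ 0 ∧ f = algebraMap O L a * h ^ m := by
  have hπ : j (algebraMap O 𝒞 t) = algebraMap O L t := hjO t
  have hG : GaussRing 𝒪 (algebraMap O L t) := hπ ▸ H.gauss
  have hmem0 : ∀ x ∈ C0, x ∈ C0'.toSubring.map j := by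
    intro x hx
    obtain ⟨c, hc, rfl⟩ := (hC0 x).mp hx
    exact ⟨c, hc, rfl⟩
  have hmem1 : ∀ x ∈ Cinf, x ∈ Cinf'.toSubring.map j := by
    intro x hx
    obtain ⟨c, hc, rfl⟩ := (hCinf x).mp hx
    exact ⟨c, hc, rfl⟩
  obtain ⟨e, he⟩ := exists_pow_mul_mem_of_isRootRel u hu C0 Cinf hu0 huinf hroot0 hrootinf hov
    hov' hfg t 𝒪 hG (fun x hx => H.chart0.chart_le (hmem0 x hx))
    (fun x hx => H.chart1.chart_le (hmem1 x hx))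
    (fun h hh hth => by
      have h1 : h ∈ C0'.toSubring.map j :=
        H.chart0.chart_inter h hh (by rw [hπ]; exact hmem0 _ hth)
      obtain ⟨c, hc, rfl⟩ := h1
      exact (hC0 _).mpr ⟨c, hc, rfl⟩)
    R0 R1 (fun i x hx => H.chart0.le_loc i (hmem0 x hx))
    (fun i x hx => H.chart1.le_loc i (hmem1 x hx)) hcov0 hcov1 f m hm hf1 hfrac
  refine ⟨e, fun n N hn hnN g hg h1 => ?_⟩
  obtain ⟨ψ0, ψ1, hr0, hr1, hag⟩ := hg.exists_roots H hnN h1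
  rw [hπ] at hr0 hr1 hag
  obtain ⟨h, hh0, hh1, hh2⟩ := he n N hn hnN ψ0 ψ1 hr0 hr1 hag
  obtain ⟨a, ha⟩ := hconst _ hh1 hh2
  refine ⟨a, h⁻¹, inv_ne_zero hh0, ?_⟩
  rw [ha, inv_pow, mul_comm (h ^ m) f, mul_assoc, mul_inv_cancel₀ (pow_ne_zero m hh0), mul_one]

/-- **The clause `(inj)` with a uniform level.**  `f : G → L` a family of functions indexed by a
finite type, `P` a predicate (membership in `G0`) such that `f x ∈ 1 + π𝒪` for `P x`.  There is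
`n0` such that for all `N ≥ n0` and all `x` with `P x`: a representative `g` of the level-`N`
class of `f x` which is `CocEq` to `1` at level `n0` forces `f x = a * h ^ m`. -/
theorem exists_level_of_isCocRep [IsNoetherianRing O]
    (j : 𝒞 →+* L) (hjO : ∀ r : O, j (algebraMap O 𝒞 r) = algebraMap O L r)
    (C0' Cinf' : Subalgebra O 𝒞) (C0 Cinf : Subalgebra O L)
    (hC0 : ∀ x : L, x ∈ C0 ↔ ∃ c ∈ C0', j c = x)
    (hCinf : ∀ x : L, x ∈ Cinf ↔ ∃ c ∈ Cinf', j c = x)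
    (u : L) (hu : u ≠ 0) (hu0 : u ∈ C0) (huinf : u⁻¹ ∈ Cinf)
    (hroot0 : ∀ (y : L) (k : ℕ), 0 < k → y ^ k ∈ C0 → y ∈ C0)
    (hrootinf : ∀ (y : L) (k : ℕ), 0 < k → y ^ k ∈ Cinf → y ∈ Cinf)
    (hov : ∀ b ∈ C0, ∃ k : ℕ, u⁻¹ ^ k * b ∈ Cinf)
    (hov' : ∀ c ∈ Cinf, ∃ k : ℕ, u ^ k * c ∈ C0)
    (hfg : ∃ s : Finset L, (↑s : Set L) ⊆ C0 ∧
      ∀ c ∈ C0, ∃ p : L → O[X], c = ∑ g ∈ s, aeval u (p g) * g)
    (hconst : ∀ x ∈ C0, x ∈ Cinf → ∃ a : O, algebraMap O L a = x)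
    (t : O) (𝒪 : Subring L) {ι0 ι1 ιc : Type*} (R0 : ι0 → Subring L) (R1 : ι1 → Subring L)
    (Rc : ιc → Subring L) (H : TwoChartEmb C0' Cinf' t j 𝒪 R0 R1 Rc)
    (hcov0 : ∀ Q : Ideal ↥C0, Q.IsMaximal → algebraMap O ↥C0 t ∈ Q →
      ∃ i, ∀ z ∈ R0 i, ∃ s : ↥C0, s ∉ Q ∧ (s : L) * z ∈ C0)
    (hcov1 : ∀ Q : Ideal ↥Cinf, Q.IsMaximal → algebraMap O ↥Cinf t ∈ Q →
      ∃ i, ∀ z ∈ R1 i, ∃ s : ↥Cinf, s ∉ Q ∧ (s : L) * z ∈ Cinf)
    {G : Type*} [Finite G] (P : G → Prop) (f : G → L) (m : ℕ) (hm : 0 < m)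
    (hf1 : ∀ x, P x → ∃ g ∈ 𝒪, f x = 1 + algebraMap O L t * g)
    (hfrac : ∀ x, P x → ∃ b ∈ C0, b ≠ 0 ∧ b * f x ∈ C0) :
    ∃ n0 : ℕ, ∀ N : ℕ, n0 ≤ N → ∀ x, P x → ∀ g : 𝒞, IsCocRep t j 𝒪 R0 R1 m N (f x) g →
      (∃ w0 w1 : 𝒞, w0 - 1 ∈ Ideal.span {t} • Subalgebra.toSubmodule C0' ∧
        w1 - 1 ∈ Ideal.span {t} • Subalgebra.toSubmodule Cinf' ∧
        g - 1 * w0 * w1 ∈ Ideal.span {t} ^ n0 • (⊤ : Submodule O 𝒞)) →
      ∃ (a : O) (h : L), h ≠ 0 ∧ f x = algebraMap O L a * h ^ m := by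
  classical
  cases nonempty_fintype G
  have key : ∀ x : G, ∃ e : ℕ, P x → ∀ n N : ℕ, e < n → n ≤ N → ∀ g : 𝒞,
      IsCocRep t j 𝒪 R0 R1 m N (f x) g →
      (∃ w0 w1 : 𝒞, w0 - 1 ∈ Ideal.span {t} • Subalgebra.toSubmodule C0' ∧
        w1 - 1 ∈ Ideal.span {t} • Subalgebra.toSubmodule Cinf' ∧
        g - 1 * w0 * w1 ∈ Ideal.span {t} ^ n • (⊤ : Submodule O 𝒞)) →
      ∃ (a : O) (h : L), h ≠ 0 ∧ f x = algebraMap O L a * h ^ m := by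
    intro x
    by_cases hx : P x
    · obtain ⟨e, he⟩ := exists_eq_const_mul_pow_of_isCocRep j hjO C0' Cinf' C0 Cinf hC0 hCinf u
        hu hu0 huinf hroot0 hrootinf hov hov' hfg hconst t 𝒪 R0 R1 Rc H hcov0 hcov1 (f x) m hm
        (hf1 x hx) (hfrac x hx)
      exact ⟨e, fun _ => he⟩
    · exact ⟨0, fun h => absurd h hx⟩
  choose e he using key
  refine ⟨Finset.univ.sup e + 1, fun N hN x hx g hg h1 => ?_⟩
  exact he x hx (Finset.univ.sup e + 1) N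
    (Nat.lt_succ_of_le (Finset.le_sup (f := e) (Finset.mem_univ x))) hN g hg h1

end Fermat.Agent.S19.Cech.AlgEmb
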