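import Mathlib
import Fermat.Agent.S19.RRLite.ChartVanish
import Fermat.Agent.S30.GaussOne
import Fermat.Agent.S19.Cech.Machine
import Fermat.Agent.S19.Cech.AlgEmb

/-!
# The clause `(inj)` of the Čech machine on the chart rings of a chart function
(S19, Route C, brick ALG, chart level)

`O` a discrete valuation ring with fraction field `E` (characteristic zero), `L / E` a field,
`u : L` transcendental over `E` with `L / E(u)` finite, `O` integrally closed in `L`.  Charts:
`C0 = CechP1.chart O {u}`, `C1 = CechP1.chart O {u⁻¹}`, overlap `C01 = CechP1.chart O {u, u⁻¹}`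
(the integral closures of `O[u]`, `O[u⁻¹]`, `O[u, u⁻¹]` in `L`; `= S44/D/CechAdapter.C0/C1/C01`,
`= S19/RRLite/ChartVanish.C0/Cinf`).  The Čech machine runs on `𝒞 = ↥C01` with the two charts
`C0.comap C01.val`, `C1.comap C01.val`.

**`inj_charts`** : for a finite family `f : G → L` with `f x ∈ 1 + π𝒪` on `P`, there is ONE
level `n0` such that for all `N ≥ n0`, `x` with `P x`: a representative `g` of the level-`N`
cocycle class of `f x` with `Machine.CocEq _ _ t n0 g 1` forces `f x = a * h ^ m`, `a : O`.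

All chart hypotheses of `AlgEmb.exists_level_of_isCocRep` are discharged here from the landed
chart lemmas; what remains are the Gauss-chart package `TwoChartEmb` (PHI / CH) and the two
covering hypotheses.
-/

set_option autoImplicit false

namespace Fermat.Agent.S19.Cech.AlgInst

open Polynomial Fermat.Agent.Lib.ChartRoots Fermat.Agent.S30 Fermat.Agent.S30.Model
  Fermat.Agent.S19.RRLite

variable {O E L : Type*} [CommRing O] [IsDomain O] [IsDiscreteValuationRing O]
  [Field E] [Algebra O E] [IsFractionRing O E]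
  [Field L] [Algebra E L] [Algebra O L] [IsScalarTower O E L]

omit [IsDomain O] [IsDiscreteValuationRing O] in
/-- Chart rings are root-closed. -/
theorem chart_root (t : Set L) (y : L) (k : ℕ) (hk : 0 < k) (h : y ^ k ∈ CechP1.chart O t) :
    y ∈ CechP1.chart O t :=
  IsIntegral.of_pow hk h

/-- Every element of `L` is a fraction with denominator in the chart ring. -/
theorem chart_frac (u : L) [FiniteDimensional (IntermediateField.adjoin E {u}) L] (x : L) :
    ∃ b ∈ CechP1.chart O ({u} : Set L), b ≠ 0 ∧ b * x ∈ CechP1.chart O ({u} : Set L) := by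
  obtain ⟨y, hy0, hyint⟩ :=
    (GaussOne.isAlgebraic_adjoin_of_finite (O := O) (E := E) u x).exists_integral_multiple
  refine ⟨(y : L), CechP1.isIntegral_adjoin_of_mem y.2, fun h => hy0 (Subtype.ext h), ?_⟩
  have e : (y : L) * x = y • x := rfl
  rw [e]
  exact hyint

/-- **The clause `(inj)` on the chart rings.**  See the module docstring. -/
theorem inj_charts [CharZero E] (u : L) (hu : Transcendental E u)
    [FiniteDimensional (IntermediateField.adjoin E {u}) L]
    (hOL : ∀ x : L, IsIntegral O x → ∃ a : O, algebraMap O L a = x)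
    (j : ↥(CechP1.chart O ({u, u⁻¹} : Set L)) →+* L)
    (hj : ∀ c : ↥(CechP1.chart O ({u, u⁻¹} : Set L)), j c = (c : L))
    (t : O) (𝒪 : Subring L) {ι0 ι1 ιc : Type*} (R0 : ι0 → Subring L) (R1 : ι1 → Subring L)
    (Rc : ιc → Subring L)
    (H : TwoChartEmb
      ((CechP1.chart O ({u} : Set L)).comap (CechP1.chart O ({u, u⁻¹} : Set L)).val)
      ((CechP1.chart O ({u⁻¹} : Set L)).comap (CechP1.chart O ({u, u⁻¹} : Set L)).val)
      t j 𝒪 R0 R1 Rc)
    (hcov0 : ∀ Q : Ideal ↥(CechP1.chart O ({u} : Set L)), Q.IsMaximal →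
      algebraMap O ↥(CechP1.chart O ({u} : Set L)) t ∈ Q →
      ∃ i, ∀ z ∈ R0 i, ∃ s : ↥(CechP1.chart O ({u} : Set L)), s ∉ Q ∧
        (s : L) * z ∈ CechP1.chart O ({u} : Set L))
    (hcov1 : ∀ Q : Ideal ↥(CechP1.chart O ({u⁻¹} : Set L)), Q.IsMaximal →
      algebraMap O ↥(CechP1.chart O ({u⁻¹} : Set L)) t ∈ Q →
      ∃ i, ∀ z ∈ R1 i, ∃ s : ↥(CechP1.chart O ({u⁻¹} : Set L)), s ∉ Q ∧
        (s : L) * z ∈ CechP1.chart O ({u⁻¹} : Set L))
    {G : Type*} [Finite G] (P : G → Prop) (f : G → L) (m : ℕ) (hm : 0 < m)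
    (hf1 : ∀ x, P x → ∃ g ∈ 𝒪, f x = 1 + algebraMap O L t * g) :
    ∃ n0 : ℕ, ∀ N : ℕ, n0 ≤ N → ∀ x, P x →
      ∀ g : ↥(CechP1.chart O ({u, u⁻¹} : Set L)), IsCocRep t j 𝒪 R0 R1 m N (f x) g →
      Machine.CocEq
        ((CechP1.chart O ({u} : Set L)).comap (CechP1.chart O ({u, u⁻¹} : Set L)).val)
        ((CechP1.chart O ({u⁻¹} : Set L)).comap (CechP1.chart O ({u, u⁻¹} : Set L)).val)
        t n0 g 1 →
      ∃ (a : O) (h : L), h ≠ 0 ∧ f x = algebraMap O L a * h ^ m := by
  have hu0 : u ≠ 0 := fun h => hu (h ▸ isAlgebraic_zero)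
  have := ChartProv.chart_finite (O := O) (E := E) u hu
  have h0le : CechP1.chart O ({u} : Set L) ≤ CechP1.chart O ({u, u⁻¹} : Set L) :=
    CechP1.chart_mono (by simp)
  have h1le : CechP1.chart O ({u⁻¹} : Set L) ≤ CechP1.chart O ({u, u⁻¹} : Set L) :=
    CechP1.chart_mono (by simp)
  have hjO : ∀ r : O, j (algebraMap O ↥(CechP1.chart O ({u, u⁻¹} : Set L)) r) =
      algebraMap O L r := fun r => by rw [hj]; rfl
  have hC0 : ∀ x : L, x ∈ CechP1.chart O ({u} : Set L) ↔
      ∃ c ∈ (CechP1.chart O ({u} : Set L)).comap (CechP1.chart O ({u, u⁻¹} : Set L)).val,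
        j c = x := by
    intro x
    constructor
    · intro hx
      exact ⟨⟨x, h0le hx⟩, hx, hj _⟩
    · rintro ⟨c, hc, rfl⟩
      rw [hj]
      exact hc
  have hCinf : ∀ x : L, x ∈ CechP1.chart O ({u⁻¹} : Set L) ↔
      ∃ c ∈ (CechP1.chart O ({u⁻¹} : Set L)).comap (CechP1.chart O ({u, u⁻¹} : Set L)).val,
        j c = x := by
    intro x
    constructor
    · intro hx
      exact ⟨⟨x, h1le hx⟩, hx, hj _⟩
    · rintro ⟨c, hc, rfl⟩
      rw [hj]
      exact hc
  exact AlgEmb.exists_level_of_isCocRep j hjO _ _ (CechP1.chart O ({u} : Set L))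
    (CechP1.chart O ({u⁻¹} : Set L)) hC0 hCinf u hu0 (ChartVanish.self_mem_C0 (O := O) u)
    (ChartVanish.inv_mem_Cinf (O := O) u) (chart_root _) (chart_root _)
    (ChartVanish.hov (O := O) u hu0) (ChartVanish.hov' (O := O) u hu0)
    (ChartVanish.hfg (O := O) u) (ChartVanish.hconst (O := O) u hu0 hOL) t 𝒪 R0 R1 Rc H hcov0
    hcov1 P f m hm hf1 (fun x _ => chart_frac (O := O) (E := E) u (f x))

end Fermat.Agent.S19.Cech.AlgInst
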