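import Mathlib
import Fermat.Agent.Lib.GaussChartOfPrime
import Fermat.Agent.S19.Cech.AlgInst

/-!
# The clause `(inj)` on the chart rings, with the local rings of `Lib/GaussChartOfPrime`
(S19, Route C, brick ALG, chart level)

* `cov_locRing` : the covering hypothesis of `AlgInst.inj_charts` for the family
  `fun Q : Pt p => locRing Q` of the localisations of a chart ring at its maximal ideals
  containing the uniformiser (`Lib/GaussChartOfPrime`).
* **`inj_charts_locRing`** : `AlgInst.inj_charts` with both covering hypotheses discharged.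
-/

set_option autoImplicit false

namespace Fermat.Agent.S19.Cech.AlgCov

open Polynomial Fermat.Agent.Lib.ChartRoots Fermat.Agent.Lib.GaussChartOfPrime
  Fermat.Agent.Lib.PrimeLocGlobal Fermat.Agent.S30 Fermat.Agent.S30.Model

variable {O L : Type*} [CommRing O] [Field L] [Algebra O L]

/-- **Covering**: every maximal ideal `Q ∋ π` of the chart ring is a point of
`Lib/GaussChartOfPrime`, and its local ring is the localisation at `Q`. -/
theorem cov_locRing (s : Set L) (t : O) (p : ↥(integralClosure (Algebra.adjoin O s) L))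
    (hp : (p : L) = algebraMap O L t) :
    ∀ Q : Ideal ↥(CechP1.chart O s), Q.IsMaximal → algebraMap O ↥(CechP1.chart O s) t ∈ Q →
      ∃ i : Pt p, ∀ z ∈ locRing (K := L) i, ∃ c : ↥(CechP1.chart O s), c ∉ Q ∧
        (c : L) * z ∈ CechP1.chart O s := by
  intro Q hQ hπQ
  have hpQ : p ∈ (show Ideal ↥(integralClosure (Algebra.adjoin O s) L) from Q) := by
    have e : p = algebraMap O ↥(CechP1.chart O s) t := Subtype.ext hp
    rw [e]
    exact hπQ
  refine ⟨⟨Q, hQ, hpQ⟩, fun z hz => ?_⟩
  obtain ⟨c, hc, d, hd⟩ := mem_locRing.mp hz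
  refine ⟨c, hc, ?_⟩
  have e : (c : L) * z = (d : L) := hd
  rw [e]
  exact d.2

variable {E : Type*} [IsDomain O] [IsDiscreteValuationRing O]
  [Field E] [Algebra O E] [IsFractionRing O E] [Algebra E L] [IsScalarTower O E L]

/-- **The clause `(inj)` on the chart rings**, for the local rings `locRing` of
`Lib/GaussChartOfPrime`. -/
theorem inj_charts_locRing [CharZero E] (u : L) (hu : Transcendental E u)
    [FiniteDimensional (IntermediateField.adjoin E {u}) L]
    (hOL : ∀ x : L, IsIntegral O x → ∃ a : O, algebraMap O L a = x)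
    (j : ↥(CechP1.chart O ({u, u⁻¹} : Set L)) →+* L)
    (hj : ∀ c : ↥(CechP1.chart O ({u, u⁻¹} : Set L)), j c = (c : L))
    (t : O) (p0 : ↥(integralClosure (Algebra.adjoin O ({u} : Set L)) L))
    (hp0 : (p0 : L) = algebraMap O L t)
    (p1 : ↥(integralClosure (Algebra.adjoin O ({u⁻¹} : Set L)) L))
    (hp1 : (p1 : L) = algebraMap O L t)
    (𝒪 : Subring L) {ιc : Type*} (Rc : ιc → Subring L)
    (H : TwoChartEmb
      ((CechP1.chart O ({u} : Set L)).comap (CechP1.chart O ({u, u⁻¹} : Set L)).val)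
      ((CechP1.chart O ({u⁻¹} : Set L)).comap (CechP1.chart O ({u, u⁻¹} : Set L)).val)
      t j 𝒪 (fun Q : Pt p0 => locRing (K := L) Q) (fun Q : Pt p1 => locRing (K := L) Q) Rc)
    {G : Type*} [Finite G] (P : G → Prop) (f : G → L) (m : ℕ) (hm : 0 < m)
    (hf1 : ∀ x, P x → ∃ g ∈ 𝒪, f x = 1 + algebraMap O L t * g) :
    ∃ n0 : ℕ, ∀ N : ℕ, n0 ≤ N → ∀ x, P x →
      ∀ g : ↥(CechP1.chart O ({u, u⁻¹} : Set L)),
        IsCocRep t j 𝒪 (fun Q : Pt p0 => locRing (K := L) Q)
          (fun Q : Pt p1 => locRing (K := L) Q) m N (f x) g →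
      Machine.CocEq
        ((CechP1.chart O ({u} : Set L)).comap (CechP1.chart O ({u, u⁻¹} : Set L)).val)
        ((CechP1.chart O ({u⁻¹} : Set L)).comap (CechP1.chart O ({u, u⁻¹} : Set L)).val)
        t n0 g 1 →
      ∃ (a : O) (h : L), h ≠ 0 ∧ f x = algebraMap O L a * h ^ m :=
  AlgInst.inj_charts (E := E) u hu hOL j hj t 𝒪 _ _ Rc H (cov_locRing {u} t p0 hp0)
    (cov_locRing {u⁻¹} t p1 hp1) P f m hm hf1

end Fermat.Agent.S19.Cech.AlgCov
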