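import Mathlib
import Fermat.Agent.S19.Cech.AlgCov

/-!
# The hypothesis `halg` of `CocRep.hcoc_of_twoChartEmb` (S19, Route C, brick ALG)

The root form of the injectivity clause, in the literal shape consumed by the assembly
(`S19/Cech/CocRep.hcoc_of_twoChartEmb`, binder `halg`).

* `exists_level_of_isRootRel` : level-free, on a two-chart embedding `TwoChartEmb`: ONE level
  `n0 > 0` for a finite family `F : G → L` with `F x ∈ 1 + π𝒪` on `P`: level-`N` roots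
  (`N ≥ n0`) of `F x` on the two charts agreeing modulo `π ^ n0` force `F x = a * h ^ m`.
* `halg_charts` : the same on the chart rings `CechP1.chart O {u}`, `{u⁻¹}`, `{u, u⁻¹}` with the
  local rings `locRing` of `Lib/GaussChartOfPrime`; all chart hypotheses discharged.
* **`halg_of_charts`** : the literal `halg` (conclusion `x = 0`) from the triviality criterion of
  the Kummer dictionary.
-/

set_option autoImplicit false

namespace Fermat.Agent.S19.Cech.AlgRoot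

open Polynomial Fermat.Agent.Lib.ChartRoots Fermat.Agent.Lib.GaussChartOfPrime
  Fermat.Agent.S30 Fermat.Agent.S30.Model Fermat.Agent.S19.RRLite
  Fermat.Agent.S19.Cech.AlgCocycle

section LevelFree

variable {O 𝒞 L : Type*} [CommRing O] [CommRing 𝒞] [Algebra O 𝒞] [Field L] [Algebra O L]

/-- **Uniform level, root form** (level-free). -/
theorem exists_level_of_isRootRel [IsNoetherianRing O]
    (j : 𝒞 →+* L) (hjO : ∀ r : O, j (algebraMap O 𝒞 r) = algebraMap O L r)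
    (C0' Cinf' : Subalgebra O 𝒞) (C0 Cinf : Subalgebra O L)
    (hC0 : ∀ x : L, x ∈ C0 ↔ ∃ c ∈ C0', j c = x)
    (hCinf : ∀ x : L, x ∈ Cinf ↔ ∃ c ∈ Cinf', j c = x)
    (u : L) (hu : u ≠ 0) (hu0 : u ∈ C0) (huinf : u⁻¹ ∈ Cinf)
    (hroot0 : ∀ (y : L) (k : ℕ), 0 < k → y ^ k ∈ C0 → y ∈ C0)
    (hrootinf : ∀ (y : L) (k : ℕ), 0 < k → y ^ k ∈ Cinf → y ∈ Cinf)
    (hov : ∀ b ∈ C0, ∃ k : ℕ, u⁻¹ ^ k * b ∈ Cinf)
    (hov' : ∀ c ∈ Cinf, ∃ k : ℕ, u ^ k * c ∈ C0)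
    (hfg : ∃ s : Finset L, (↑s : Set L) ⊆ C0 ∧
      ∀ c ∈ C0, ∃ p : L → O[X], c = ∑ g ∈ s, aeval u (p g) * g)
    (hconst : ∀ x ∈ C0, x ∈ Cinf → ∃ a : O, algebraMap O L a = x)
    (t : O) (𝒪 : Subring L) {ι0 ι1 ιc : Type*} (R0 : ι0 → Subring L) (R1 : ι1 → Subring L)
    (Rc : ιc → Subring L) (H : TwoChartEmb C0' Cinf' t j 𝒪 R0 R1 Rc)
    (hcov0 : ∀ Q : Ideal ↥C0, Q.IsMaximal → algebraMap O ↥C0 t ∈ Q →
      ∃ i, ∀ z ∈ R0 i, ∃ s : ↥C0, s ∉ Q ∧ (s : L) * z ∈ C0)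
    (hcov1 : ∀ Q : Ideal ↥Cinf, Q.IsMaximal → algebraMap O ↥Cinf t ∈ Q →
      ∃ i, ∀ z ∈ R1 i, ∃ s : ↥Cinf, s ∉ Q ∧ (s : L) * z ∈ Cinf)
    {G : Type*} [Finite G] (P : G → Prop) (F : G → L) (m : ℕ) (hm : 0 < m)
    (hF1 : ∀ x, P x → ∃ h ∈ 𝒪, F x = 1 + j (algebraMap O 𝒞 t) * h)
    (hfrac : ∀ x, P x → ∃ b ∈ C0, b ≠ 0 ∧ b * F x ∈ C0) :
    ∃ n0 : ℕ, 0 < n0 ∧ ∀ x, P x → ∀ N : ℕ, n0 ≤ N → ∀ ψ0 ψ1 : L,
      IsRootRel 𝒪 (j (algebraMap O 𝒞 t)) R0 m N (fun _ => 1) (F x) ψ0 →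
      IsRootRel 𝒪 (j (algebraMap O 𝒞 t)) R1 m N (fun _ => 1) (F x) ψ1 →
      (∃ h ∈ 𝒪, ψ0 = ψ1 * (1 + j (algebraMap O 𝒞 t) ^ n0 * h)) →
      ∃ (a : O) (h : L), h ≠ 0 ∧ F x = algebraMap O L a * h ^ m := by
  classical
  cases nonempty_fintype G
  have hπ : j (algebraMap O 𝒞 t) = algebraMap O L t := hjO t
  have hG : GaussRing 𝒪 (algebraMap O L t) := hπ ▸ H.gauss
  have hmem0 : ∀ x ∈ C0, x ∈ C0'.toSubring.map j := by
    intro x hx
    obtain ⟨c, hc, rfl⟩ := (hC0 x).mp hx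
    exact ⟨c, hc, rfl⟩
  have hmem1 : ∀ x ∈ Cinf, x ∈ Cinf'.toSubring.map j := by
    intro x hx
    obtain ⟨c, hc, rfl⟩ := (hCinf x).mp hx
    exact ⟨c, hc, rfl⟩
  have key : ∀ x : G, ∃ e : ℕ, P x → ∀ n N : ℕ, e < n → n ≤ N → ∀ ψ0 ψ1 : L,
      IsRootRel 𝒪 (algebraMap O L t) R0 m N (fun _ => 1) (F x) ψ0 →
      IsRootRel 𝒪 (algebraMap O L t) R1 m N (fun _ => 1) (F x) ψ1 →
      (∃ h ∈ 𝒪, ψ0 = ψ1 * (1 + algebraMap O L t ^ n * h)) →
      ∃ h : L, h ≠ 0 ∧ h ^ m * F x ∈ C0 ∧ h ^ m * F x ∈ Cinf := by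
    intro x
    by_cases hx : P x
    · have hF1' : ∃ g ∈ 𝒪, F x = 1 + algebraMap O L t * g := by
        obtain ⟨g, hg, e⟩ := hF1 x hx
        exact ⟨g, hg, by rw [← hπ]; exact e⟩
      obtain ⟨e, he⟩ := exists_pow_mul_mem_of_isRootRel u hu C0 Cinf hu0 huinf hroot0 hrootinf
        hov hov' hfg t 𝒪 hG (fun x hx => H.chart0.chart_le (hmem0 x hx))
        (fun x hx => H.chart1.chart_le (hmem1 x hx))
        (fun h hh hth => by
          have h1 : h ∈ C0'.toSubring.map j :=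
            H.chart0.chart_inter h hh (by rw [hπ]; exact hmem0 _ hth)
          obtain ⟨c, hc, rfl⟩ := h1
          exact (hC0 _).mpr ⟨c, hc, rfl⟩)
        R0 R1 (fun i x hx => H.chart0.le_loc i (hmem0 x hx))
        (fun i x hx => H.chart1.le_loc i (hmem1 x hx)) hcov0 hcov1 (F x) m hm hF1'
        (hfrac x hx)
      exact ⟨e, fun _ => he⟩
    · exact ⟨0, fun h => absurd h hx⟩
  choose e he using key
  refine ⟨Finset.univ.sup e + 1, Nat.succ_pos _, fun x hx N hN ψ0 ψ1 hr0 hr1 hag => ?_⟩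
  rw [hπ] at hr0 hr1 hag
  obtain ⟨h, hh0, hh1, hh2⟩ := he x hx (Finset.univ.sup e + 1) N
    (Nat.lt_succ_of_le (Finset.le_sup (f := e) (Finset.mem_univ x))) hN ψ0 ψ1 hr0 hr1 hag
  obtain ⟨a, ha⟩ := hconst _ hh1 hh2
  refine ⟨a, h⁻¹, inv_ne_zero hh0, ?_⟩
  rw [ha, inv_pow, mul_comm (h ^ m) (F x), mul_assoc, mul_inv_cancel₀ (pow_ne_zero m hh0),
    mul_one]

end LevelFree

section Charts

variable {O E L : Type*} [CommRing O] [IsDomain O] [IsDiscreteValuationRing O]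
  [Field E] [Algebra O E] [IsFractionRing O E]
  [Field L] [Algebra E L] [Algebra O L] [IsScalarTower O E L]

/-- **Uniform level, root form, on the chart rings** with the local rings of
`Lib/GaussChartOfPrime`. -/
theorem halg_charts [CharZero E] (u : L) (hu : Transcendental E u)
    [FiniteDimensional (IntermediateField.adjoin E {u}) L]
    (hOL : ∀ x : L, IsIntegral O x → ∃ a : O, algebraMap O L a = x)
    (j : ↥(CechP1.chart O ({u, u⁻¹} : Set L)) →+* L)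
    (hj : ∀ c : ↥(CechP1.chart O ({u, u⁻¹} : Set L)), j c = (c : L))
    (t : O) (p0 : ↥(integralClosure (Algebra.adjoin O ({u} : Set L)) L))
    (hp0 : (p0 : L) = algebraMap O L t)
    (p1 : ↥(integralClosure (Algebra.adjoin O ({u⁻¹} : Set L)) L))
    (hp1 : (p1 : L) = algebraMap O L t)
    (𝒪 : Subring L) {ιc : Type*} (Rc : ιc → Subring L)
    (H : TwoChartEmb
      ((CechP1.chart O ({u} : Set L)).comap (CechP1.chart O ({u, u⁻¹} : Set L)).val)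
      ((CechP1.chart O ({u⁻¹} : Set L)).comap (CechP1.chart O ({u, u⁻¹} : Set L)).val)
      t j 𝒪 (fun Q : Pt p0 => locRing (K := L) Q) (fun Q : Pt p1 => locRing (K := L) Q) Rc)
    {G : Type*} [Finite G] (P : G → Prop) (F : G → L) (m : ℕ) (hm : 0 < m)
    (hF1 : ∀ x, P x → ∃ h ∈ 𝒪,
      F x = 1 + j (algebraMap O ↥(CechP1.chart O ({u, u⁻¹} : Set L)) t) * h) :
    ∃ n0 : ℕ, 0 < n0 ∧ ∀ x, P x → ∀ N : ℕ, n0 ≤ N → ∀ ψ0 ψ1 : L,
      IsRootRel 𝒪 (j (algebraMap O ↥(CechP1.chart O ({u, u⁻¹} : Set L)) t))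
        (fun Q : Pt p0 => locRing (K := L) Q) m N (fun _ => 1) (F x) ψ0 →
      IsRootRel 𝒪 (j (algebraMap O ↥(CechP1.chart O ({u, u⁻¹} : Set L)) t))
        (fun Q : Pt p1 => locRing (K := L) Q) m N (fun _ => 1) (F x) ψ1 →
      (∃ h ∈ 𝒪, ψ0 = ψ1 *
        (1 + j (algebraMap O ↥(CechP1.chart O ({u, u⁻¹} : Set L)) t) ^ n0 * h)) →
      ∃ (a : O) (h : L), h ≠ 0 ∧ F x = algebraMap O L a * h ^ m := by
  have hu0 : u ≠ 0 := fun h => hu (h ▸ isAlgebraic_zero)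
  have := ChartProv.chart_finite (O := O) (E := E) u hu
  have h0le : CechP1.chart O ({u} : Set L) ≤ CechP1.chart O ({u, u⁻¹} : Set L) :=
    CechP1.chart_mono (by simp)
  have h1le : CechP1.chart O ({u⁻¹} : Set L) ≤ CechP1.chart O ({u, u⁻¹} : Set L) :=
    CechP1.chart_mono (by simp)
  have hjO : ∀ r : O, j (algebraMap O ↥(CechP1.chart O ({u, u⁻¹} : Set L)) r) =
      algebraMap O L r := fun r => by rw [hj]; rfl
  have hC0 : ∀ x : L, x ∈ CechP1.chart O ({u} : Set L) ↔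
      ∃ c ∈ (CechP1.chart O ({u} : Set L)).comap (CechP1.chart O ({u, u⁻¹} : Set L)).val,
        j c = x := by
    intro x
    constructor
    · intro hx
      exact ⟨⟨x, h0le hx⟩, hx, hj _⟩
    · rintro ⟨c, hc, rfl⟩
      rw [hj]
      exact hc
  have hCinf : ∀ x : L, x ∈ CechP1.chart O ({u⁻¹} : Set L) ↔
      ∃ c ∈ (CechP1.chart O ({u⁻¹} : Set L)).comap (CechP1.chart O ({u, u⁻¹} : Set L)).val,
        j c = x := by
    intro x
    constructor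
    · intro hx
      exact ⟨⟨x, h1le hx⟩, hx, hj _⟩
    · rintro ⟨c, hc, rfl⟩
      rw [hj]
      exact hc
  exact exists_level_of_isRootRel j hjO _ _ (CechP1.chart O ({u} : Set L))
    (CechP1.chart O ({u⁻¹} : Set L)) hC0 hCinf u hu0 (ChartVanish.self_mem_C0 (O := O) u)
    (ChartVanish.inv_mem_Cinf (O := O) u) (AlgInst.chart_root _) (AlgInst.chart_root _)
    (ChartVanish.hov (O := O) u hu0) (ChartVanish.hov' (O := O) u hu0)
    (ChartVanish.hfg (O := O) u) (ChartVanish.hconst (O := O) u hu0 hOL) t 𝒪 _ _ Rc H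
    (AlgCov.cov_locRing {u} t p0 hp0) (AlgCov.cov_locRing {u⁻¹} t p1 hp1) P F m hm hF1
    (fun x _ => AlgInst.chart_frac (O := O) (E := E) u (F x))

/-- **The hypothesis `halg` of `CocRep.hcoc_of_twoChartEmb`**, literally, from the triviality
criterion of the Kummer dictionary. -/
theorem halg_of_charts [CharZero E] (u : L) (hu : Transcendental E u)
    [FiniteDimensional (IntermediateField.adjoin E {u}) L]
    (hOL : ∀ x : L, IsIntegral O x → ∃ a : O, algebraMap O L a = x)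
    (j : ↥(CechP1.chart O ({u, u⁻¹} : Set L)) →+* L)
    (hj : ∀ c : ↥(CechP1.chart O ({u, u⁻¹} : Set L)), j c = (c : L))
    (t : O) (p0 : ↥(integralClosure (Algebra.adjoin O ({u} : Set L)) L))
    (hp0 : (p0 : L) = algebraMap O L t)
    (p1 : ↥(integralClosure (Algebra.adjoin O ({u⁻¹} : Set L)) L))
    (hp1 : (p1 : L) = algebraMap O L t)
    (𝒪 : Subring L) {ιc : Type*} (Rc : ιc → Subring L)
    (H : TwoChartEmb
      ((CechP1.chart O ({u} : Set L)).comap (CechP1.chart O ({u, u⁻¹} : Set L)).val)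
      ((CechP1.chart O ({u⁻¹} : Set L)).comap (CechP1.chart O ({u, u⁻¹} : Set L)).val)
      t j 𝒪 (fun Q : Pt p0 => locRing (K := L) Q) (fun Q : Pt p1 => locRing (K := L) Q) Rc)
    {G : Type*} [AddCommGroup G] [Finite G] (G0 : AddSubgroup G) (F : G → L) (m : ℕ)
    (hm : 0 < m)
    (hF1 : ∀ x ∈ G0, ∃ h ∈ 𝒪,
      F x = 1 + j (algebraMap O ↥(CechP1.chart O ({u, u⁻¹} : Set L)) t) * h)
    (htriv : ∀ x ∈ G0, ∀ (a : O) (h : L), h ≠ 0 → F x = algebraMap O L a * h ^ m → x = 0) :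
    ∃ n0 : ℕ, 0 < n0 ∧ ∀ x ∈ G0, ∀ N : ℕ, n0 ≤ N → ∀ ψ0 ψ1 : L,
      IsRootRel 𝒪 (j (algebraMap O ↥(CechP1.chart O ({u, u⁻¹} : Set L)) t))
        (fun Q : Pt p0 => locRing (K := L) Q) m N (fun _ => 1) (F x) ψ0 →
      IsRootRel 𝒪 (j (algebraMap O ↥(CechP1.chart O ({u, u⁻¹} : Set L)) t))
        (fun Q : Pt p1 => locRing (K := L) Q) m N (fun _ => 1) (F x) ψ1 →
      (∃ h ∈ 𝒪, ψ0 = ψ1 *
        (1 + j (algebraMap O ↥(CechP1.chart O ({u, u⁻¹} : Set L)) t) ^ n0 * h)) →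
      x = 0 := by
  obtain ⟨n0, hn0, h⟩ := halg_charts (E := E) u hu hOL j hj t p0 hp0 p1 hp1 𝒪 Rc H
    (fun x => x ∈ G0) F m hm hF1
  refine ⟨n0, hn0, fun x hx N hN ψ0 ψ1 hr0 hr1 hag => ?_⟩
  obtain ⟨a, k, hk, e⟩ := h x hx N hN ψ0 ψ1 hr0 hr1 hag
  exact htriv x hx a k hk e

end Charts

end Fermat.Agent.S19.Cech.AlgRoot
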