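import Mathlib
import Fermat.Agent.S19.Cech.ChartMachineEq
import Fermat.Agent.S19.Cech.AlgSeam

/-!
# S19 (Program FG, Route C): the chart machine at the chart instance, (Z*) + (ALG) in

`hasCechCoords_of_chartFacts` = `ChartMachineEq.hasCechCoords_of_chart` with

* `𝒪 = gaussRing hp0` (the Gauss ring of the `u`-chart), `R0`, `R1`, `Rc` the local rings
  `locRing Q` at the closed points of the special fibres of the three chart rings,
* the two-chart embedding `H` discharged by `ChartEmb.twoChartEmb` (from the chart facts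
  `LevelMAux.ChartFacts E π u u⁻¹` carried by `hu₀`),
* the level `n0` and the clause `halg` discharged by `AlgSeam.halg_of_twoChartEmb_field`
  (from `ChartModelC`, carried by `hu₀` as well).

What is left as hypotheses: (F4) on the function field, the Kummer family with its
normalisations and its triviality clause `F x = c * h ^ m → x = 0`, (STAR) and the invariant
references.
-/

set_option autoImplicit false
set_option linter.style.haveILetI false
set_option linter.unusedSectionVars false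
set_option synthInstance.maxHeartbeats 400000

noncomputable section

open Polynomial IntermediateField ModularCurve

namespace Fermat.Agent.S19.Cech.ChartMachineAlg

open Fermat.Agent.S18.K1Defs Fermat.Agent.S18.K1Main Fermat.Agent.S30 Fermat.Agent.S30.Model
  Fermat.Agent.S34.TrivModE Fermat.Agent.S44.D
  Fermat.Agent.S19.Cech.H1Basis Fermat.Agent.S19.Cech.EqAction
  Fermat.Agent.Lib.TwoChartNormalForm Fermat.Agent.Lib.ChartRoots Fermat.Agent.S37.Fn
  Fermat.Agent.S19.HopfOrder Fermat.Agent.S19.Contract Fermat.Agent.S19.Cech.Exit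
  Fermat.Agent.S19.Cech.Machine Fermat.Agent.S19.Cech.CocRep
  Fermat.Agent.Lib.GaussChartOfPrime

local notation "Qb" => AlgebraicClosure ℚ

/-- **The chart machine at the chart instance**, with (H1), (EQ), the base-ring clauses, the
two-chart embedding (Z*) and (ALG) discharged. -/
theorem hasCechCoords_of_chartFacts (M : ℕ) [NeZero M] {ℓ : ℕ} (hℓ : ℓ.Prime) (hℓM : ¬ ℓ ∣ M)
    {G : Type} [AddCommGroup G] [Finite G]
    (act : Gal → G → G) (hadd : ∀ σ x y, act σ (x + y) = act σ x + act σ y)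
    (A : ValuationSubring Qb) (hA : A.LiesOverPrime ℓ)
    (E : IntermediateField ℚ Qb) [FiniteDimensional ℚ E] [Normal ℚ E]
    [IsDiscreteValuationRing (OE A E)]
    (hlev : ∀ σ : Gal, σ ∈ E.fixingSubgroup → ∀ x, act σ x = x)
    (G0 : AddSubgroup G) (hG0 : ∀ σ ∈ A.inertiaSubgroupIn ℚ, ∀ x, act σ x - x ∈ G0)
    {z : Qb} (hz : IsPrimitiveRoot z M) (hzE : z ∈ E) (u₀ : LaurentSeries ℚ)
    (hu₀ : ∀ (E : IntermediateField ℚ Qb) [FiniteDimensional ℚ E]
      [IsDiscreteValuationRing (OE A E)], z ∈ E →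
      letI := algebraOL (OE A E) E (LE M E)
      ∃ u : LE M E, (u : LaurentSeries E) = coeffEmb E u₀ ∧
        ModelInst.ChartModelC M (OE A E) E u ∧
        ∀ π : OE A E, Irreducible π →
          Fermat.Agent.S34.HauptU.LevelMAux.ChartFacts E π u u⁻¹)
    (u : LE M E) (hu : (u : LaurentSeries E) = coeffEmb E u₀)
    (π : OE A E) (hπ : Irreducible π) :
    letI := algebraOL (OE A E) E (LE M E)
    ∀ (hp0 : Prime (GlueChart.piElt (Algebra.adjoin (OE A E) ({u} : Set (LE M E))) π))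
      {m : ℕ} (_hm : 0 < m)
      (_hs𝒪 : ∀ σ ∈ A.inertiaSubgroupIn ℚ, ∀ x ∈ gaussRing (K := LE M E) hp0,
        galE E M σ x ∈ gaussRing (K := LE M E) hp0)
      (_hsR0 : ∀ σ ∈ A.inertiaSubgroupIn ℚ,
        ∀ Q : Pt (GlueChart.piElt (Algebra.adjoin (OE A E) ({u} : Set (LE M E))) π),
        ∀ x ∈ locRing (K := LE M E) Q, galE E M σ x ∈ locRing (K := LE M E) Q)
      (_hsR1 : ∀ σ ∈ A.inertiaSubgroupIn ℚ,
        ∀ Q : Pt (GlueChart.piElt (Algebra.adjoin (OE A E) ({u⁻¹} : Set (LE M E))) π),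
        ∀ x ∈ locRing (K := LE M E) Q, galE E M σ x ∈ locRing (K := LE M E) Q)
      (_hsπ : ∀ σ ∈ A.inertiaSubgroupIn ℚ, ∃ w ∈ gaussRing (K := LE M E) hp0,
        galE E M σ (algebraMap (OE A E) (LE M E) π) = algebraMap (OE A E) (LE M E) π * w)
      (F : G → LE M E) (_hFu : ∀ x, IsUnitIn (gaussRing (K := LE M E) hp0) (F x))
      (_hF1 : ∀ x ∈ G0, ∃ h ∈ gaussRing (K := LE M E) hp0,
        F x = 1 + algebraMap (OE A E) (LE M E) π * h)
      (_hstar0 : ∀ x ∈ G0,
        ∀ Q : Pt (GlueChart.piElt (Algebra.adjoin (OE A E) ({u} : Set (LE M E))) π),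
        ∃ y : LE M E, IsUnitIn (locRing (K := LE M E) Q) (y ^ m * F x))
      (_hstar1 : ∀ x ∈ G0,
        ∀ Q : Pt (GlueChart.piElt (Algebra.adjoin (OE A E) ({u⁻¹} : Set (LE M E))) π),
        ∃ y : LE M E, IsUnitIn (locRing (K := LE M E) Q) (y ^ m * F x))
      (_hF_hom : ∀ x ∈ G0, ∀ y ∈ G0,
        Nrm π (algebraMap ↥(CechAdapter.C01 (O := OE A E) u) (LE M E))
          (gaussRing (K := LE M E) hp0)
          (fun Q : Pt (GlueChart.piElt (Algebra.adjoin (OE A E) ({u} : Set (LE M E))) π) =>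
            locRing (K := LE M E) Q)
          (fun Q : Pt (GlueChart.piElt (Algebra.adjoin (OE A E) ({u⁻¹} : Set (LE M E))) π) =>
            locRing (K := LE M E) Q) m
          (F (x + y)) (F x * F y))
      (_hF_eqv : ∀ σ ∈ A.inertiaSubgroupIn ℚ, ∀ x ∈ G0,
        Nrm π (algebraMap ↥(CechAdapter.C01 (O := OE A E) u) (LE M E))
          (gaussRing (K := LE M E) hp0)
          (fun Q : Pt (GlueChart.piElt (Algebra.adjoin (OE A E) ({u} : Set (LE M E))) π) =>
            locRing (K := LE M E) Q)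
          (fun Q : Pt (GlueChart.piElt (Algebra.adjoin (OE A E) ({u⁻¹} : Set (LE M E))) π) =>
            locRing (K := LE M E) Q) m
          (galE E M σ (F x)) (F (act σ x)))
      (rep : G ⧸ G0 → G) (_hrep : ∀ c, ((rep c : G) : G ⧸ G0) = c)
      (_hF_peq : ∀ σ ∈ A.inertiaSubgroupIn ℚ, ∀ c,
        Nrm π (algebraMap ↥(CechAdapter.C01 (O := OE A E) u) (LE M E))
          (gaussRing (K := LE M E) hp0)
          (fun Q : Pt (GlueChart.piElt (Algebra.adjoin (OE A E) ({u} : Set (LE M E))) π) =>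
            locRing (K := LE M E) Q)
          (fun Q : Pt (GlueChart.piElt (Algebra.adjoin (OE A E) ({u⁻¹} : Set (LE M E))) π) =>
            locRing (K := LE M E) Q) m
          (galE E M σ (F (rep c))) (F (rep c) * F (act σ (rep c) - rep c)))
      (_hcos0 : ∀ c,
        ∀ Q : Pt (GlueChart.piElt (Algebra.adjoin (OE A E) ({u} : Set (LE M E))) π),
        ∃ ρ : LE M E, (∀ σ ∈ A.inertiaSubgroupIn ℚ, galE E M σ ρ = ρ) ∧
        ∃ v, (∃ h ∈ gaussRing (K := LE M E) hp0,
            v = 1 + algebraMap (OE A E) (LE M E) π * h) ∧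
          IsUnitIn (locRing (K := LE M E) Q) (F (rep c) * ((ρ * v)⁻¹) ^ m))
      (_hcos1 : ∀ c,
        ∀ Q : Pt (GlueChart.piElt (Algebra.adjoin (OE A E) ({u⁻¹} : Set (LE M E))) π),
        ∃ ρ : LE M E, (∀ σ ∈ A.inertiaSubgroupIn ℚ, galE E M σ ρ = ρ) ∧
        ∃ v, (∃ h ∈ gaussRing (K := LE M E) hp0,
            v = 1 + algebraMap (OE A E) (LE M E) π * h) ∧
          IsUnitIn (locRing (K := LE M E) Q) (F (rep c) * ((ρ * v)⁻¹) ^ m))
      (_htriv : ∀ x ∈ G0, ∀ (c : E) (h : LE M E), c ≠ 0 → h ≠ 0 →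
        F x = algebraMap E (LE M E) c * h ^ m → x = 0),
      HasCechCoords ℓ act := by
  letI := algebraOL (OE A E) E (LE M E)
  haveI := isScalarTower_OL (OE A E) E (LE M E)
  intro hp0 m hm hs𝒪 hsR0 hsR1 hsπ F hFu hF1 hstar0 hstar1 hF_hom hF_eqv rep hrep
    hF_peq hcos0 hcos1 htriv
  obtain ⟨u', hu', hCMC, hCF⟩ := hu₀ E hzE
  have huu : u' = u := Subtype.ext (hu'.trans hu.symm)
  subst huu
  have hCM : ModelInst.ChartModel M (OE A E) E u' := hCMC
  have hCFπ := hCF π hπ
  haveI := hCM.fin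
  have hOL : ∀ x : LE M E, IsIntegral (OE A E) x → ∃ a : OE A E, algebraMap (OE A E) (LE M E) a = x :=
    Model.Assembly.exists_of_isIntegral_of_algClosedIn (algClosedIn_laurent (LE M E))
  have H := AlgSeam.twoChartEmb_sub (E := E) π hπ u' hCM.tr hp0 hCFπ.prime_inf
    hCFπ.dedekind_zero hCFπ.dedekind_inf
  obtain ⟨n0, hn0, halg⟩ := AlgSeam.halg_of_twoChartEmb_field (E := E) u' hCM.tr hOL π
    (gaussRing (K := LE M E) hp0) _ H G0 F hm hF1 htriv
  exact ChartMachineEq.hasCechCoords_of_chart M hℓ hℓM act hadd A hA E hlev G0 hG0 hz hzE u₀ hu₀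
    u' hu π hπ (gaussRing (K := LE M E) hp0) _ _ _ H hm hs𝒪 hsR0 hsR1 hsπ F hFu hF1 hstar0
    hstar1 hF_hom hF_eqv rep hrep hF_peq hcos0 hcos1 n0 hn0 halg

end Fermat.Agent.S19.Cech.ChartMachineAlg
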