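import Mathlib
import Fermat.Agent.S19.Cech.CechFromKummer

/-!
# S19 (Program FG, Route C): the Čech statement, under the name staged by the lander

`Fermat.Agent.S19.Cech.FinalK.cechStatement : Cech.Exit.CechStatement`
(`= CechFromKummer.cechStatement`).
-/

set_option autoImplicit false

namespace Fermat.Agent.S19.Cech.FinalK

/-- **The Čech statement**: for `ℓ ∤ M` (and `3 < ℓ ∨ 2 ∣ M ∨ 3 ∣ M`) the Galois module
`J₀(M)[ℓ^k]` has Čech coordinates. -/
theorem cechStatement : Fermat.Agent.S19.Cech.Exit.CechStatement :=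
  Fermat.Agent.S19.Cech.CechFromKummer.cechStatement

end Fermat.Agent.S19.Cech.FinalK
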