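import Mathlib
import Fermat.Agent.S19.Cech.BCThree
import Fermat.Agent.Lib.LocParamTransfer

/-!
# S19 (Program FG, Route C, bricks `EQ`/`COS`): local parameters coming from the smaller field

In the setting of `S19/Cech/BCChart` (`E' ≤ E`, `O' = OE A E'`, `O = OE A E`, `lvl M h` the
coefficientwise inclusion `LE M E' → LE M E`, residue degree one), assume the base change
statement (BC) for a chart over `O'` (every element of the chart over `O` is
`∑ j, b j * lvl (c j)` with `c j` in the chart over `O'`).  Then at every closed point `Q` of the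
special fibre of the chart over `O` there is a local parameter `τ` which is the image under
`lvl` of an element of the chart over `O'`:  `τ ∈ Q` and `Q · C_Q = (π, τ) · C_Q`.

For `E' = inertiaField A E` the element `τ = lvl t0` is fixed by the inertia group: this is the
inertia-fixed reference uniformiser of the coset step.

* `exists_fixed_param_of_inSpan` : the general statement for a pair of generator sets;
* `exists_fixed_param_charts` : the two charts `{u}`, `{u⁻¹}` of `u = lvl u'`, from the level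
  facts `ChartFacts E' π' u' u'⁻¹` over the smaller field and the basis data of `bc_three`;
* `exists_eq_of_locGenAt` : the explicit form `s * x = τ * y + p * d` of `LocGenAt`.
-/

set_option autoImplicit false
set_option linter.style.haveILetI false
set_option linter.unusedSectionVars false
set_option synthInstance.maxHeartbeats 400000

noncomputable section

open Polynomial IntermediateField ModularCurve

namespace Fermat.Agent.S19.Cech.FixPar

open Fermat.Agent.S18.K1Defs Fermat.Agent.S18.K1Main Fermat.Agent.S30 Fermat.Agent.S30.Model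
  Fermat.Agent.S36.CycloBase Fermat.Agent.Lib.ChartBaseChange Fermat.Agent.S19.Cech.BCChart
  Fermat.Agent.Lib.LocParamTransfer Fermat.Agent.S34.ModelNormal
  Fermat.Agent.S34.HauptU.LevelMAux

local notation "Qb" => AlgebraicClosure ℚ

/-- The explicit form of `LocGenAt`. -/
theorem exists_eq_of_locGenAt {C : Type*} [CommRing C] {p τ : C} {Q : Ideal C}
    (h : LocGenAt p τ Q) : ∀ x ∈ Q, ∃ s, s ∉ Q ∧ ∃ y d : C, s * x = τ * y + p * d := by
  intro x hx
  obtain ⟨s, hs, hsx⟩ := h x hx
  obtain ⟨d, y, hdy⟩ := Ideal.mem_span_pair.mp hsx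
  exact ⟨s, hs, y, d, by rw [← hdy]; ring⟩

variable (M : ℕ) [NeZero M] (A : ValuationSubring Qb) {E' E : IntermediateField ℚ Qb} (h : E' ≤ E)
  [IsDiscreteValuationRing (OE A E')] [IsDiscreteValuationRing (OE A E)]

/-- **A local parameter from the smaller field**, for a pair of generator sets `S'`, `S` with
`lvl (chart of S') ⊆ chart of S` and (BC). -/
theorem exists_fixed_param_of_inSpan {r : ℕ} (b : Fin r → OE A E)
    (hres : ∀ a : OE A E, ∃ a' : OE A E', ¬ IsUnit (a - inclOE A h a'))
    (π' : OE A E') (hπ' : ¬ IsUnit π') (π : OE A E) (hπ : Irreducible π) :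
    letI := algebraOL (OE A E') E' (LE M E')
    letI := algebraOL (OE A E) E (LE M E)
    letI := (inclOE A h).toAlgebra
    ∀ (S' : Set (LE M E')) (S : Set (LE M E)),
      (∀ c : LE M E', IsIntegral (Algebra.adjoin (OE A E') S') c →
        IsIntegral (Algebra.adjoin (OE A E) S) (lvl M h c)) →
      (∀ x : LE M E, IsIntegral (Algebra.adjoin (OE A E) S) x →
        InSpan (OE A E') (lvl M h) b S' x) →
      (∀ Q' : Ideal (integralClosure (Algebra.adjoin (OE A E') S') (LE M E')), Q'.IsMaximal →
        GlueChart.piElt (Algebra.adjoin (OE A E') S') π' ∈ Q' →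
        RegNB.RegAt (GlueChart.piElt (Algebra.adjoin (OE A E') S') π') Q') →
      ∀ Q : Ideal (integralClosure (Algebra.adjoin (OE A E) S) (LE M E)), Q.IsMaximal →
        GlueChart.piElt (Algebra.adjoin (OE A E) S) π ∈ Q →
        ∃ (t0 : LE M E') (τ : integralClosure (Algebra.adjoin (OE A E) S) (LE M E)),
          IsIntegral (Algebra.adjoin (OE A E') S') t0 ∧ (τ : LE M E) = lvl M h t0 ∧ τ ∈ Q ∧
          LocGenAt (GlueChart.piElt (Algebra.adjoin (OE A E) S) π) τ Q := by
  letI := algebraOL (OE A E') E' (LE M E')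
  letI := algebraOL (OE A E) E (LE M E)
  letI := (inclOE A h).toAlgebra
  intro S' S hmap hBC hreg Q hQ hπQ
  have hι : ∀ a : OE A E', lvl M h (algebraMap (OE A E') (LE M E') a)
      = algebraMap (OE A E) (LE M E) (inclOE A h a) :=
    fun a => lvl_algebraMap M h (a : E')
  -- residue degree one in the form `a = incl a' + π a''`
  have hres' : ∀ a : OE A E, ∃ a' : OE A E', ∃ a'' : OE A E, a = inclOE A h a' + π * a'' := by
    intro a
    obtain ⟨a', ha'⟩ := hres a
    have h1 : a - inclOE A h a' ∈ IsLocalRing.maximalIdeal (OE A E) :=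
      (IsLocalRing.mem_maximalIdeal _).mpr ha'
    rw [hπ.maximalIdeal_eq, Ideal.mem_span_singleton] at h1
    obtain ⟨a'', ha''⟩ := h1
    exact ⟨a', a'', by rw [← ha'']; ring⟩
  -- `incl π' ∈ (π)`
  obtain ⟨a0, ha0⟩ : ∃ a0 : OE A E, inclOE A h π' = π * a0 := by
    have h1 : inclOE A h π' ∈ IsLocalRing.maximalIdeal (OE A E) :=
      (IsLocalRing.mem_maximalIdeal _).mpr (fun hu => hπ' ((isUnit_inclOE_iff A h π').mp hu))
    rw [hπ.maximalIdeal_eq, Ideal.mem_span_singleton] at h1
    exact h1
  -- the ring homomorphism of the charts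
  let ιC : integralClosure (Algebra.adjoin (OE A E') S') (LE M E') →+*
      integralClosure (Algebra.adjoin (OE A E) S) (LE M E) :=
    ((lvl M h).comp
      (integralClosure (Algebra.adjoin (OE A E') S') (LE M E')).val.toRingHom).codRestrict
      (integralClosure (Algebra.adjoin (OE A E) S) (LE M E)) (fun x => hmap x x.2)
  have hιC : ∀ x, ((ιC x : integralClosure (Algebra.adjoin (OE A E) S) (LE M E)) : LE M E)
      = lvl M h (x : LE M E') := fun x => rfl
  have hconst : ∀ a : OE A E,
      IsIntegral (Algebra.adjoin (OE A E) S) (algebraMap (OE A E) (LE M E) a) :=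
    fun a => isIntegral_of_mem_adjoin (Subalgebra.algebraMap_mem _ a)
  have hπmap : ιC (GlueChart.piElt (Algebra.adjoin (OE A E') S') π')
      ∈ Ideal.span {GlueChart.piElt (Algebra.adjoin (OE A E) S) π} := by
    rw [Ideal.mem_span_singleton]
    refine ⟨⟨algebraMap (OE A E) (LE M E) a0, hconst a0⟩, Subtype.ext ?_⟩
    rw [hιC, GlueChart.coe_piElt, hι, ha0, map_mul]
    rfl
  have hS : ∀ x : integralClosure (Algebra.adjoin (OE A E) S) (LE M E),
      ∃ x' : integralClosure (Algebra.adjoin (OE A E') S') (LE M E'),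
        x - ιC x' ∈ Ideal.span {GlueChart.piElt (Algebra.adjoin (OE A E) S) π} := by
    intro x
    obtain ⟨c, hc, hx⟩ := hBC (x : LE M E) x.2
    choose a' a'' ha using fun j => hres' (b j)
    refine ⟨⟨∑ j, algebraMap (OE A E') (LE M E') (a' j) * c j,
      IsIntegral.sum _ fun j _ => (isIntegral_algebraMap_adjoin S' (a' j)).mul (hc j)⟩, ?_⟩
    rw [Ideal.mem_span_singleton]
    refine ⟨⟨∑ j, algebraMap (OE A E) (LE M E) (a'' j) * lvl M h (c j),
      IsIntegral.sum _ fun j _ => (hconst (a'' j)).mul (hmap (c j) (hc j))⟩, Subtype.ext ?_⟩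
    show (x : LE M E) - lvl M h (∑ j, algebraMap (OE A E') (LE M E') (a' j) * c j)
      = algebraMap (OE A E) (LE M E) π *
        ∑ j, algebraMap (OE A E) (LE M E) (a'' j) * lvl M h (c j)
    rw [hx, map_sum, Finset.mul_sum, ← Finset.sum_sub_distrib]
    refine Finset.sum_congr rfl fun j _ => ?_
    rw [map_mul, hι]
    conv_lhs => rw [ha j]
    rw [map_add, map_mul]
    ring
  obtain ⟨t0, ht0Q, hloc⟩ := exists_param_map ιC hπmap hS
    (fun Q' hQ' hp => hreg Q' hQ' hp) Q hQ hπQ
  exact ⟨(t0 : LE M E'), ιC t0, t0.2, rfl, ht0Q, hloc⟩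

/-- **Local parameters from the smaller field at every closed point of both charts** of
`u = lvl u'`. -/
theorem exists_fixed_param_charts {r : ℕ} (b : Fin r → OE A E)
    (hspanO : ∀ a : OE A E, ∃ a' : Fin r → OE A E', a = ∑ j, inclOE A h (a' j) * b j)
    (hres : ∀ a : OE A E, ∃ a' : OE A E', ¬ IsUnit (a - inclOE A h a'))
    (hindL : ∀ c : Fin r → LaurentSeries E',
      ∑ j, algebraMap E (LaurentSeries E) ((b j : OE A E) : E) *
        coeffMap (IntermediateField.inclusion h : E' →+* E) (c j) = 0 → ∀ j, c j = 0)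
    (hspanL : ∀ x : LaurentSeries E, x ∈ LE M E → ∃ c : Fin r → LaurentSeries E',
      (∀ j, c j ∈ LE M E') ∧ x = ∑ j, algebraMap E (LaurentSeries E) ((b j : OE A E) : E) *
        coeffMap (IntermediateField.inclusion h : E' →+* E) (c j))
    (π' : OE A E') (hπ' : Irreducible π') (π : OE A E) (hπ : Irreducible π) (u' : LE M E') :
    letI := algebraOL (OE A E') E' (LE M E')
    letI := algebraOL (OE A E) E (LE M E)
    letI := (inclOE A h).toAlgebra
    ChartFacts E' π' u' u'⁻¹ →
    (∀ Q : Ideal (integralClosure (Algebra.adjoin (OE A E) ({lvl M h u'} : Set (LE M E)))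
        (LE M E)), Q.IsMaximal → piC (lvl M h u') π ∈ Q →
      ∃ (t0 : LE M E') (τ : integralClosure (Algebra.adjoin (OE A E)
          ({lvl M h u'} : Set (LE M E))) (LE M E)),
        IsIntegral (Algebra.adjoin (OE A E') ({u'} : Set (LE M E'))) t0 ∧
        (τ : LE M E) = lvl M h t0 ∧ τ ∈ Q ∧ LocGenAt (piC (lvl M h u') π) τ Q) ∧
    (∀ Q : Ideal (integralClosure (Algebra.adjoin (OE A E) ({(lvl M h u')⁻¹} : Set (LE M E)))
        (LE M E)), Q.IsMaximal → piC (lvl M h u')⁻¹ π ∈ Q →
      ∃ (t0 : LE M E') (τ : integralClosure (Algebra.adjoin (OE A E)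
          ({(lvl M h u')⁻¹} : Set (LE M E))) (LE M E)),
        IsIntegral (Algebra.adjoin (OE A E') ({u'⁻¹} : Set (LE M E'))) t0 ∧
        (τ : LE M E) = lvl M h t0 ∧ τ ∈ Q ∧ LocGenAt (piC (lvl M h u')⁻¹ π) τ Q) := by
  letI := algebraOL (OE A E') E' (LE M E')
  letI := algebraOL (OE A E) E (LE M E)
  letI := (inclOE A h).toAlgebra
  intro hF
  have hι : ∀ a : OE A E', lvl M h (algebraMap (OE A E') (LE M E') a)
      = algebraMap (OE A E) (LE M E) (algebraMap (OE A E') (OE A E) a) :=
    fun a => lvl_algebraMap M h (a : E')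
  have hu'0 : u' ≠ 0 := by
    intro h0
    apply hF.transcendental
    rw [h0]
    exact isAlgebraic_zero
  obtain ⟨h0, h1, -⟩ := bc_three M A h b hspanO hres hindL hspanL π' hπ' u' hu'0
    hF.prime_zero hF.prime_inf
  have hmap0 : ∀ c : LE M E', IsIntegral (Algebra.adjoin (OE A E') ({u'} : Set (LE M E'))) c →
      IsIntegral (Algebra.adjoin (OE A E) ({lvl M h u'} : Set (LE M E))) (lvl M h c) := by
    intro c hc
    have h2 := isIntegral_map (ι := lvl M h) hι hc
    rwa [Set.image_singleton] at h2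
  have hmap1 : ∀ c : LE M E', IsIntegral (Algebra.adjoin (OE A E') ({u'⁻¹} : Set (LE M E'))) c →
      IsIntegral (Algebra.adjoin (OE A E) ({(lvl M h u')⁻¹} : Set (LE M E))) (lvl M h c) := by
    intro c hc
    have h2 := isIntegral_map (ι := lvl M h) hι hc
    rwa [Set.image_singleton, map_inv₀] at h2
  refine ⟨fun Q hQ hπQ => ?_, fun Q hQ hπQ => ?_⟩
  · exact exists_fixed_param_of_inSpan M A h b hres π' hπ'.not_isUnit π hπ {u'} {lvl M h u'}
      hmap0 (fun x hx => (h0 x).mp hx) hF.regAt_zero Q hQ hπQ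
  · exact exists_fixed_param_of_inSpan M A h b hres π' hπ'.not_isUnit π hπ {u'⁻¹}
      {(lvl M h u')⁻¹} hmap1 (fun x hx => (h1 x).mp hx) hF.regAt_inf Q hQ hπQ

end Fermat.Agent.S19.Cech.FixPar
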