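import Mathlib
import Fermat.Agent.S19.Cech.H1Basis
import Fermat.Agent.S44.D.CechAdapter

/-!
# (DEC) and (UNIQ) on the three concrete charts of a chart function

Program FG (S19), Route C, brick `H1`, chart level.  `O` a discrete valuation ring with fraction
field `E`, `L / E` a field with a `q`-expansion `emb : L →ₐ[E] E((q))`, `u : L` with integral
expansion having a pole modulo the maximal ideal, `π` prime in the integral closure of `O[u]`
(the Model theorem), `L / E(u)` finite, `O` integrally closed in `L`.  Charts: the integral
closures `C0`, `C1`, `C01` of `O[u]`, `O[u⁻¹]`, `O[u, u⁻¹]` in `L` (`S44/D/CechAdapter`,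
`S30/Model/CechP1.chart`).

`exists_dec_uniq_charts` : there are `d` and `e : Fin d → ↥C01` with `Dec` and `Uniq` of
`Lib/TwoChartNormalForm` for the two charts inside the overlap ring `↥C01`.
-/

set_option autoImplicit false
set_option linter.unusedSectionVars false

open Polynomial ModularCurve

noncomputable section

namespace Fermat.Agent.S19.Cech.H1Charts

open Fermat.Agent.S30 Fermat.Agent.S30.Model Fermat.Agent.S44.D
open Fermat.Agent.Lib.TwoChartNormalForm Fermat.Agent.S19.Cech.H1Basis

variable {O E : Type*} [CommRing O] [IsDomain O] [IsDiscreteValuationRing O] [Field E]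
  [Algebra O E] [IsFractionRing O E]
variable {L : Type*} [Field L] [Algebra E L] [Algebra O L] [IsScalarTower O E L]

/-- `C0 ∩ C1 = O` when `O` is integrally closed in `L`. -/
theorem hconst0 (u : L) (hu0 : u ≠ 0)
    (hOL : ∀ x : L, IsIntegral O x → ∃ a : O, algebraMap O L a = x) :
    ∀ x ∈ CechAdapter.C0 (O := O) u, x ∈ CechAdapter.C1 (O := O) u →
      ∃ r : O, algebraMap O L r = x :=
  fun x h0 h1 => hOL x (CechP1.isIntegral_of_two_charts u hu0 x h0 h1)

/-- **(DEC) + (UNIQ) on the three concrete charts.**

WARNING for the consumers: the family `e` is obtained by choice at the level `(O, E, L)` where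
this theorem is CALLED.  If the `e i` have to be invariant under a group acting on a larger level
(the inertia group, Route C §6), call it at the small (invariant) level and transport `Dec` /
`Uniq` to the large one by base change (`Lib/TwoChartBaseChange`: `Dec.baseChange`, `Uniq.baseChange`); never call it again
at the large level. -/
theorem exists_dec_uniq_charts [CharZero E] (emb : L →ₐ[E] LaurentSeries E)
    (hfrac : ∀ x : L, emb x ∈ GaussDVR.fracField O E) (π : O) (hπ : Irreducible π) (u : L)
    (uO : LaurentSeries O) (hu : emb u = GaussDVR.iota O E uO)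
    (hpole : (GaussDVR.rho O uO).order < 0)
    (hprime : Prime (algebraMap (Algebra.adjoin O {u})
      (integralClosure (Algebra.adjoin O {u}) L) (algebraMap O (Algebra.adjoin O {u}) π)))
    [FiniteDimensional (IntermediateField.adjoin E {u}) L]
    (hOL : ∀ x : L, IsIntegral O x → ∃ a : O, algebraMap O L a = x) :
    ∃ (d : ℕ) (e : Fin d → ↥(CechAdapter.C01 (O := O) u)),
      Dec (sub (CechAdapter.C0 (O := O) u) (CechAdapter.C01 u))
        (sub (CechAdapter.C1 (O := O) u) (CechAdapter.C01 u)) e ∧
      Uniq (sub (CechAdapter.C0 (O := O) u) (CechAdapter.C01 u))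
        (sub (CechAdapter.C1 (O := O) u) (CechAdapter.C01 u)) e ∧
      d = Module.finrank O (CechFree.CechH (CechAdapter.C0 (O := O) u) (CechAdapter.C1 u)
        (CechAdapter.C01 u)) := by
  have htr : Transcendental E u := CechAdapter.transcendental_of_pole emb u uO hu hpole
  have hu0 : u ≠ 0 := CechAdapter.ne_zero_of_transcendental u htr
  obtain ⟨hfin, hfree⟩ := CechAdapter.cechH_free_charts emb hfrac π hπ u uO hu hpole hprime htr
  exact exists_dec_uniq (CechAdapter.C0 u) (CechAdapter.C1 u) (CechAdapter.C01 u)
    (CechAdapter.C0_le_C01 u) (CechAdapter.C1_le_C01 u) hfin hfree (hconst0 u hu0 hOL)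

end Fermat.Agent.S19.Cech.H1Charts
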